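import Mathlib
import Fermat.Prelude.Def_AlgebraicCurve_DivisorClassGroup
import Fermat.Prelude.Def_AlgebraicCurve_Repartitions

/-!
# S24: function-field basics in the language of the frozen `Place` API

* dictionary lemmas for `Place.ord`;
* (FF1) the fundamental identity `∑_{v, ord_v x > 0} ord_v x = [F : K(x)]`;
* (FF2) approximation by elements integral over `K[x]`.
-/

set_option autoImplicit false

namespace Fermat.Agent.S24

open AlgebraicCurve WithZero IsDedekindDomain

variable {K F : Type*} [Field K] [Field F] [Algebra K F]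

/-! ### basic dictionary for the frozen `Place.ord` (no hypotheses on `K`) -/

theorem Place.ord_nonneg_iff_mem (v : Place K F) {f : F} (hf : f ≠ 0) :
    0 ≤ v.ord f ↔ f ∈ v.toValuationSubring := by
  constructor
  · intro h
    obtain ⟨π, hπ⟩ := IsDiscreteValuationRing.exists_irreducible v.toValuationSubring
    obtain ⟨u, hu⟩ := v.exists_unit_mul_zpow hf hπ
    rw [hu, show v.ord f = (((v.ord f).toNat : ℕ) : ℤ) from (Int.toNat_of_nonneg h).symm,
      zpow_natCast]
    exact mul_mem (u : v.toValuationSubring).2 (pow_mem (π : v.toValuationSubring).2 _)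
  · intro h
    have h1 := v.adicValuation_le_one_of_mem h
    rw [v.adicValuation_le_one_iff] at h1
    exact h1.resolve_left hf

theorem Place.ord_algebraMap (v : Place K F) (c : K) : v.ord (algebraMap K F c) = 0 := by
  rcases eq_or_ne c 0 with rfl | hc
  · simp
  have hc' : algebraMap K F c ≠ 0 := by simpa using hc
  have h1 : 0 ≤ v.ord (algebraMap K F c) :=
    (Place.ord_nonneg_iff_mem v hc').mpr (v.algebraMap_mem' c)
  have h2 : 0 ≤ v.ord (algebraMap K F c⁻¹) :=
    (Place.ord_nonneg_iff_mem v (by simpa using hc)).mpr (v.algebraMap_mem' c⁻¹)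
  rw [map_inv₀, v.ord_inv] at h2
  omega

theorem Place.min_le_ord_add (v : Place K F) {f g : F} (hf : f ≠ 0) (hg : g ≠ 0)
    (hfg : f + g ≠ 0) : min (v.ord f) (v.ord g) ≤ v.ord (f + g) := by
  have key : ∀ {a b : F}, a ≠ 0 → b ≠ 0 → a + b ≠ 0 → v.ord a ≤ v.ord b →
      v.ord a ≤ v.ord (a + b) := by
    intro a b ha hb hab hle
    have h1 : v.adicValuation (a + b) ≤ max (v.adicValuation a) (v.adicValuation b) :=
      Valuation.map_add _ _ _
    have h2 : v.adicValuation b ≤ v.adicValuation a := by
      rw [v.adicValuation_eq_exp_neg_ord ha, v.adicValuation_eq_exp_neg_ord hb, exp_le_exp]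
      omega
    rw [max_eq_left h2, v.adicValuation_eq_exp_neg_ord ha, v.adicValuation_le_exp_iff] at h1
    have := h1.resolve_left hab
    omega
  rcases le_total (v.ord f) (v.ord g) with h | h
  · rw [min_eq_left h]
    exact key hf hg hfg h
  · rw [min_eq_right h, add_comm]
    exact key hg hf (by rwa [add_comm]) h


namespace FFBasic

/-- A place is determined by its valuation ring being contained in another one
(discrete valuation rings are maximal subrings). -/
theorem place_eq_of_le {v w : Place K F}
    (h : v.toValuationSubring ≤ w.toValuationSubring) : v = w := by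
  apply Place.ext
  refine le_antisymm h ?_
  intro x hx
  by_contra hxv
  have hx0 : x ≠ 0 := fun h0 => hxv (h0 ▸ zero_mem _)
  -- `x ∉ O_v`, so `ord_v x < 0`
  have hneg : v.ord x < 0 := by
    by_contra hnn
    exact hxv ((Place.ord_nonneg_iff_mem v hx0).mp (not_lt.mp hnn))
  -- then every element of `F` lies in `O_w`
  apply w.ne_top'
  refine SetLike.ext fun y => ⟨fun _ => ValuationSubring.mem_top y, fun _ => ?_⟩
  rcases eq_or_ne y 0 with rfl | hy0
  · exact zero_mem _
  -- `y = (y * x^(-n)) * x^n` with `n` large and `y * x ^ (-n) ∈ O_v`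
  obtain ⟨n, hn⟩ : ∃ n : ℕ, 0 ≤ v.ord y + (n : ℤ) * (-(v.ord x)) := by
    refine ⟨(-(v.ord y)).toNat, ?_⟩
    have h1 : (1 : ℤ) ≤ -(v.ord x) := by omega
    have h2 : (0 : ℤ) ≤ ((-(v.ord y)).toNat : ℤ) := Int.natCast_nonneg _
    have h3 : -(v.ord y) ≤ ((-(v.ord y)).toNat : ℤ) := Int.self_le_toNat _
    nlinarith
  have hxn : x ^ n ≠ 0 := pow_ne_zero _ hx0
  have hmem : y * (x ^ n)⁻¹ ∈ v.toValuationSubring := by
    rw [← Place.ord_nonneg_iff_mem v (mul_ne_zero hy0 (inv_ne_zero hxn)),
      v.ord_mul hy0 (inv_ne_zero hxn), v.ord_inv, ← zpow_natCast, v.ord_zpow]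
    linarith
  have : y = y * (x ^ n)⁻¹ * x ^ n := by field_simp
  rw [this]
  exact mul_mem (h hmem) (pow_mem hx _)

/-- A place is determined by the sign of its `ord`. -/
theorem place_eq_of_forall_ord_nonneg {v w : Place K F}
    (h : ∀ f : F, f ≠ 0 → 0 ≤ v.ord f → 0 ≤ w.ord f) : v = w := by
  apply place_eq_of_le
  intro x hx
  rcases eq_or_ne x 0 with rfl | hx0
  · exact zero_mem _
  exact (Place.ord_nonneg_iff_mem w hx0).mp
    (h x hx0 ((Place.ord_nonneg_iff_mem v hx0).mpr hx))


section Dedekind

variable {R : Type*} [CommRing R] [IsDedekindDomain R] [Algebra R F] [IsFractionRing R F]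
  [Algebra K R] [IsScalarTower K R F]

/-- In `ℤᵐ⁰`, `a < 1` implies `a ≤ exp (-1)`. -/
theorem le_exp_neg_one_of_lt_one {a : ℤᵐ⁰} (h : a < 1) : a ≤ exp (-1 : ℤ) := by
  rcases eq_or_ne a 0 with rfl | ha
  · exact zero_le
  · rw [← exp_log ha] at h ⊢
    rw [← exp_zero, exp_lt_exp] at h
    rw [exp_le_exp]
    omega

theorem ord_ofHeightOneSpectrum (w : HeightOneSpectrum R) (f : F) :
    (Place.ofHeightOneSpectrum (K := K) (F := F) w).ord f = -WithZero.log (w.valuation F f) := by
  rcases eq_or_ne f 0 with rfl | hf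
  · simp
  set v := Place.ofHeightOneSpectrum (K := K) (F := F) w with hv
  obtain ⟨π, hπ⟩ := w.valuation_exists_uniformizer F
  have hmem : ∀ g : F, g ∈ v.toValuationSubring ↔ w.valuation F g ≤ 1 := fun g =>
    Valuation.mem_valuationSubring_iff _ _
  have hπmem : π ∈ v.toValuationSubring := by
    rw [hmem, hπ, ← exp_zero, exp_le_exp]; omega
  have hπ0 : π ≠ 0 := by
    rintro rfl
    rw [map_zero] at hπ
    exact exp_ne_zero hπ.symm
  -- units of `O_v` have valuation one
  have hunit : ∀ a : v.toValuationSubring, IsUnit a → w.valuation F (a : F) = 1 := by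
    intro a ha
    obtain ⟨u, rfl⟩ := ha
    have h1 := (hmem _).mp (u : v.toValuationSubring).2
    have h2 := (hmem _).mp ((u⁻¹ : (v.toValuationSubring)ˣ) : v.toValuationSubring).2
    have h3 : ((u : v.toValuationSubring) : F) * (((u⁻¹ : (v.toValuationSubring)ˣ) :
        v.toValuationSubring) : F) = 1 := by
      rw [← MulMemClass.coe_mul, Units.mul_inv]; rfl
    have h4 := congrArg (w.valuation F) h3
    rw [map_mul, map_one] at h4
    refine le_antisymm h1 ?_
    calc (1 : ℤᵐ⁰) = _ := h4.symm
      _ ≤ w.valuation F ((u : v.toValuationSubring) : F) * 1 := by gcongr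
      _ = _ := mul_one _
  have hnonunit : ∀ a : v.toValuationSubring, ¬ IsUnit a → w.valuation F (a : F) < 1 := by
    intro a ha
    by_contra hlt
    have h1 : w.valuation F (a : F) = 1 := le_antisymm ((hmem _).mp a.2) (not_lt.mp hlt)
    have ha0 : (a : F) ≠ 0 := by
      intro h0
      rw [h0, map_zero] at h1
      exact zero_ne_one h1
    have h2 : (a : F)⁻¹ ∈ v.toValuationSubring := by
      rw [hmem, map_inv₀, h1, inv_one]
    apply ha
    refine IsUnit.of_mul_eq_one ⟨(a : F)⁻¹, h2⟩ ?_
    ext
    simp [ha0]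
  have hirr : Irreducible (⟨π, hπmem⟩ : v.toValuationSubring) := by
    refine ⟨?_, ?_⟩
    · intro hu
      have := hunit _ hu
      simp only at this
      rw [hπ, ← exp_zero] at this
      have := exp_injective this
      omega
    · intro a b hab
      by_contra hcon
      rw [not_or] at hcon
      have ha := le_exp_neg_one_of_lt_one (hnonunit a hcon.1)
      have hb := le_exp_neg_one_of_lt_one (hnonunit b hcon.2)
      have h1 : π = (a : F) * (b : F) := by
        have := congrArg (Subtype.val) hab
        simpa using this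
      have h2 : w.valuation F π ≤ exp (-1 : ℤ) * exp (-1 : ℤ) := by
        rw [h1, map_mul]
        exact mul_le_mul' ha hb
      rw [hπ, ← exp_add, exp_le_exp] at h2
      omega
  obtain ⟨u, hu⟩ := v.exists_unit_mul_zpow hf hirr
  have h5 : w.valuation F f = exp (-(v.ord f)) := by
    conv_lhs => rw [hu]
    rw [map_mul, hunit _ u.isUnit, one_mul, map_zpow₀]
    simp only
    rw [hπ, ← exp_zsmul]
    simp
  rw [h5, log_exp, neg_neg]

theorem ord_algebraMap_eq (w : HeightOneSpectrum R) (b : R) :
    (Place.ofHeightOneSpectrum (K := K) (F := F) w).ord (algebraMap R F b)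
      = -WithZero.log (w.intValuation b) := by
  rw [ord_ofHeightOneSpectrum, HeightOneSpectrum.valuation_of_algebraMap]

theorem ord_algebraMap_nonneg (w : HeightOneSpectrum R) (b : R) :
    0 ≤ (Place.ofHeightOneSpectrum (K := K) (F := F) w).ord (algebraMap R F b) := by
  rcases eq_or_ne b 0 with rfl | hb
  · simp
  rw [ord_algebraMap_eq]
  have h0 : w.intValuation b ≠ 0 := w.intValuation_ne_zero b hb
  have h1 := w.intValuation_le_one b
  rw [← exp_log h0, ← exp_zero, exp_le_exp] at h1
  omega

theorem ord_algebraMap_pos_iff (w : HeightOneSpectrum R) {b : R} (hb : b ≠ 0) :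
    0 < (Place.ofHeightOneSpectrum (K := K) (F := F) w).ord (algebraMap R F b)
      ↔ b ∈ w.asIdeal := by
  rw [ord_algebraMap_eq, ← HeightOneSpectrum.intValuation_lt_one_iff_mem]
  have h0 : w.intValuation b ≠ 0 := w.intValuation_ne_zero b hb
  conv_rhs => rw [← exp_log h0, ← exp_zero, exp_lt_exp]
  omega

theorem ord_algebraMap_eq_zero_iff (w : HeightOneSpectrum R) {b : R} (hb : b ≠ 0) :
    (Place.ofHeightOneSpectrum (K := K) (F := F) w).ord (algebraMap R F b) = 0
      ↔ b ∉ w.asIdeal := by
  rw [← ord_algebraMap_pos_iff (K := K) (F := F) w hb]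
  have := ord_algebraMap_nonneg (K := K) (F := F) w b
  omega

theorem ofHeightOneSpectrum_injective :
    Function.Injective (Place.ofHeightOneSpectrum (K := K) (F := F) (R := R)) := by
  intro w₁ w₂ h
  ext b
  rcases eq_or_ne b 0 with rfl | hb
  · simp
  rw [← ord_algebraMap_pos_iff (K := K) (F := F) w₁ hb,
    ← ord_algebraMap_pos_iff (K := K) (F := F) w₂ hb, h]

/-- A place whose valuation ring contains the Dedekind domain `R` comes from a prime of `R`. -/
theorem exists_heightOneSpectrum_eq (v : Place K F)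
    (h : ∀ b : R, algebraMap R F b ∈ v.toValuationSubring) :
    ∃ w : HeightOneSpectrum R, Place.ofHeightOneSpectrum (K := K) (F := F) w = v := by
  classical
  -- the prime `P = {b | b = 0 ∨ 0 < ord_v b}`
  let φ : R →+* v.toValuationSubring := (algebraMap R F).codRestrict v.toValuationSubring.toSubring h
  let P : Ideal R := (IsLocalRing.maximalIdeal v.toValuationSubring).comap φ
  have hPprime : P.IsPrime := Ideal.comap_isPrime φ _
  have hunit : ∀ b : R, b ∉ P → (algebraMap R F b)⁻¹ ∈ v.toValuationSubring := by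
    intro b hb
    have h1 : IsUnit (φ b) := by
      by_contra hnu
      exact hb ((IsLocalRing.mem_maximalIdeal _).mpr hnu)
    obtain ⟨u, hu⟩ := h1
    have h2 : (((u⁻¹ : (v.toValuationSubring)ˣ) : v.toValuationSubring) : F)
        = (algebraMap R F b)⁻¹ := by
      have h3 : ((u : v.toValuationSubring) : F) = algebraMap R F b := by rw [hu]; rfl
      have h4 : ((u : v.toValuationSubring) : F) * (((u⁻¹ : (v.toValuationSubring)ˣ) :
          v.toValuationSubring) : F) = 1 := by
        rw [← MulMemClass.coe_mul, Units.mul_inv]; rfl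
      rw [h3] at h4
      exact eq_inv_of_mul_eq_one_right h4
    rw [← h2]
    exact SetLike.coe_mem _
  have hPbot : P ≠ ⊥ := by
    intro hbot
    apply v.ne_top'
    refine SetLike.ext fun y => ⟨fun _ => ValuationSubring.mem_top y, fun _ => ?_⟩
    obtain ⟨a, s, hs, rfl⟩ := IsFractionRing.div_surjective (A := R) y
    have hs0 : s ≠ 0 := nonZeroDivisors.ne_zero hs
    have hsP : s ∉ P := by
      rw [hbot]
      simpa using hs0
    rw [div_eq_mul_inv]
    exact mul_mem (h a) (hunit s hsP)
  refine ⟨⟨P, hPprime, hPbot⟩, ?_⟩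
  apply place_eq_of_le
  intro g hg
  rw [Place.ofHeightOneSpectrum_toValuationSubring, Valuation.mem_valuationSubring_iff] at hg
  obtain ⟨n, d, hnd⟩ :=
    HeightOneSpectrum.exists_primeCompl_mul_eq_of_integer (K := F) ⟨P, hPprime, hPbot⟩ g hg
  have hd : (d : R) ∉ P := d.2
  have hd0 : algebraMap R F (d : R) ≠ 0 := by
    intro h0
    apply hd
    have : (d : R) = 0 := (IsFractionRing.injective R F) (by rw [h0, map_zero])
    rw [this]
    exact zero_mem _
  have : g = algebraMap R F n * (algebraMap R F (d : R))⁻¹ := by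
    rw [← hnd]; field_simp
  rw [this]
  exact mul_mem (h n) (hunit _ hd)

end Dedekind

section Core

variable {A B L : Type*} [CommRing A] [IsDedekindDomain A] [Algebra K A]
  [CommRing B] [IsDedekindDomain B] [Algebra A B] [Algebra K B] [IsScalarTower K A B]
  [Field L] [Algebra A L] [IsFractionRing A L]
  [Algebra B F] [IsFractionRing B F] [Algebra L F] [Algebra A F] [IsScalarTower A B F]
  [IsScalarTower A L F] [IsScalarTower K B F] [Module.Finite A B]

/-- prime avoidance in a Dedekind domain, in the form needed for (FF2). -/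
theorem exists_mem_notMem (w₀ : HeightOneSpectrum B) (T : Finset (HeightOneSpectrum B))
    (hT : w₀ ∉ T) : ∃ b : B, b ≠ 0 ∧ b ∈ w₀.asIdeal ∧ ∀ w ∈ T, b ∉ w.asIdeal := by
  classical
  by_cases hTe : T = ∅
  · subst hTe
    obtain ⟨b, hb, hb0⟩ := Submodule.exists_mem_ne_zero_of_ne_bot w₀.ne_bot
    exact ⟨b, hb0, hb, by simp⟩
  obtain ⟨w₁, hw₁⟩ := Finset.nonempty_iff_ne_empty.mpr hTe
  have key : ¬ ((w₀.asIdeal : Set B) ⊆ ⋃ w ∈ (T : Set (HeightOneSpectrum B)), (w.asIdeal : Set B)) := by
    rw [Ideal.subset_union_prime (R := B) (s := T) (f := fun w => w.asIdeal) w₁ w₁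
      (fun w _ _ _ => w.isPrime)]
    rintro ⟨w, hwT, hle⟩
    have : w₀ = w := by
      ext1
      exact (w₀.isMaximal.eq_of_le w.isPrime.ne_top hle)
    exact hT (this ▸ hwT)
  rw [Set.not_subset] at key
  obtain ⟨b, hb, hbn⟩ := key
  simp only [Set.mem_iUnion, not_exists] at hbn
  refine ⟨b, ?_, hb, fun w hw hbw => hbn w hw hbw⟩
  rintro rfl
  exact hbn w₁ hw₁ (zero_mem _)

omit [IsDedekindDomain A] [IsDedekindDomain B] in
/-- residue degree one over an algebraically closed constant field. -/
theorem finrank_quotient_eq_one [IsAlgClosed K] (p : Ideal A) [p.IsMaximal] (P : Ideal B)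
    [P.IsPrime] [P.LiesOver p] (hK : Function.Surjective (algebraMap K (A ⧸ p))) :
    Module.finrank (A ⧸ p) (B ⧸ P) = 1 := by
  have htower : IsScalarTower K (A ⧸ p) (B ⧸ P) := by
    refine IsScalarTower.of_algebraMap_eq fun k => ?_
    have h1 : algebraMap K (A ⧸ p) k = Ideal.Quotient.mk p (algebraMap K A k) := rfl
    have h2 : algebraMap K (B ⧸ P) k = Ideal.Quotient.mk P (algebraMap K B k) := rfl
    rw [h1, h2, Ideal.Quotient.algebraMap_mk_of_liesOver, ← IsScalarTower.algebraMap_apply K A B]
  have hfin1 : Module.Finite K (A ⧸ p) :=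
    Module.Finite.of_surjective (Algebra.linearMap K (A ⧸ p)) hK
  have hfin2 : Module.Finite K (B ⧸ P) := Module.Finite.trans (A ⧸ p) (B ⧸ P)
  have hint : Algebra.IsIntegral K (B ⧸ P) := inferInstance
  have hbij : Function.Bijective (algebraMap K (B ⧸ P)) :=
    IsAlgClosed.algebraMap_bijective_of_isIntegral
  let _ : Field (A ⧸ p) := Ideal.Quotient.field p
  refine (finrank_eq_one_iff_of_nonzero' (1 : B ⧸ P) one_ne_zero).mpr fun y => ?_
  obtain ⟨k, rfl⟩ := hbij.2 y
  refine ⟨algebraMap K (A ⧸ p) k, ?_⟩
  rw [Algebra.smul_def, mul_one, ← IsScalarTower.algebraMap_apply]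

/-- the fundamental identity `∑ e = n` over the primes containing `x`, when `(x)` is a maximal
ideal with residue field `K` algebraically closed. -/
theorem exists_finset_sum_ord [IsAlgClosed K] (x : A) (hx0 : x ≠ 0)
    (hmax : (Ideal.span {x} : Ideal A).IsMaximal)
    (hK : Function.Surjective (algebraMap K (A ⧸ (Ideal.span {x} : Ideal A)))) :
    ∃ S : Finset (HeightOneSpectrum B), (∀ w, w ∈ S ↔ algebraMap A B x ∈ w.asIdeal) ∧
      ∑ w ∈ S, (Place.ofHeightOneSpectrum (K := K) (F := F) w).ord
          (algebraMap B F (algebraMap A B x)) = (Module.finrank L F : ℤ) := by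
  classical
  set p : Ideal A := Ideal.span {x} with hp
  have hp0 : p ≠ ⊥ := by
    rw [hp, Ne, Ideal.span_singleton_eq_bot]; exact hx0
  have hinjAF : Function.Injective (algebraMap A F) := by
    rw [IsScalarTower.algebraMap_eq A L F]
    exact (algebraMap L F).injective.comp (IsFractionRing.injective A L)
  have hinj : Function.Injective (algebraMap A B) := by
    intro a b hab
    apply hinjAF
    rw [IsScalarTower.algebraMap_apply A B F, hab, ← IsScalarTower.algebraMap_apply A B F]
  have hxB : algebraMap A B x ≠ 0 := by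
    intro h0
    exact hx0 (hinj (by rw [h0, map_zero]))
  have htf : Module.IsTorsionFree A B := by
    have : FaithfulSMul A B := (faithfulSMul_iff_algebraMap_injective A B).mpr hinj
    infer_instance
  have hmap : p.map (algebraMap A B) = Ideal.span {algebraMap A B x} := by
    rw [hp, Ideal.map_span, Set.image_singleton]
  have hsum := Ideal.sum_ramification_inertia B L F hp0
  have hmem : ∀ P : Ideal B, P ∈ IsDedekindDomain.primesOverFinset p B ↔
      P.IsPrime ∧ algebraMap A B x ∈ P := by
    intro P
    rw [IsDedekindDomain.mem_primesOverFinset_iff hp0]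
    constructor
    · rintro ⟨h1, h2⟩
      refine ⟨h1, ?_⟩
      have : x ∈ Ideal.under A P := by
        rw [← h2.over]; exact Ideal.mem_span_singleton_self x
      exact this
    · rintro ⟨h1, h2⟩
      refine ⟨h1, ⟨?_⟩⟩
      have hle : p ≤ P.comap (algebraMap A B) := by
        rw [hp, Ideal.span_singleton_le_iff_mem]; exact h2
      exact hmax.eq_of_le (Ideal.comap_ne_top _ h1.ne_top) hle
  have hne : ∀ P : Ideal B, algebraMap A B x ∈ P → P ≠ ⊥ := by
    rintro P hP rfl
    exact hxB (by simpa using hP)
  -- the finset of height one primes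
  let T := IsDedekindDomain.primesOverFinset p B
  let g : {P // P ∈ T} → HeightOneSpectrum B := fun P =>
    ⟨P.1, ((hmem P.1).mp P.2).1, hne P.1 ((hmem P.1).mp P.2).2⟩
  have hg : Function.Injective g := by
    intro P Q hPQ
    exact Subtype.ext (congrArg HeightOneSpectrum.asIdeal hPQ)
  refine ⟨T.attach.image g, ?_, ?_⟩
  · intro w
    simp only [Finset.mem_image, Finset.mem_attach, true_and]
    constructor
    · rintro ⟨P, rfl⟩
      exact ((hmem P.1).mp P.2).2
    · intro hw
      exact ⟨⟨w.asIdeal, (hmem _).mpr ⟨w.isPrime, hw⟩⟩, rfl⟩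
  · rw [Finset.sum_image (fun P _ Q _ h => hg h)]
    have hterm : ∀ P : {P // P ∈ T},
        (Place.ofHeightOneSpectrum (K := K) (F := F) (g P)).ord
          (algebraMap B F (algebraMap A B x))
        = ((Ideal.ramificationIdx' p P.1 * Ideal.inertiaDeg' p P.1 : ℕ) : ℤ) := by
      intro P
      have hPprime : P.1.IsPrime := ((hmem P.1).mp P.2).1
      have hPx : algebraMap A B x ∈ P.1 := ((hmem P.1).mp P.2).2
      have hPlies : P.1.LiesOver p := ((IsDedekindDomain.mem_primesOverFinset_iff hp0 B).mp P.2).2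
      have hf : Ideal.inertiaDeg' p P.1 = 1 := by
        rw [Ideal.inertiaDeg'_algebraMap]
        exact finrank_quotient_eq_one p P.1 hK
      rw [hf, mul_one]
      set n := (Place.ofHeightOneSpectrum (K := K) (F := F) (g P)).ord
          (algebraMap B F (algebraMap A B x)) with hn
      have hn0 : 0 ≤ n := ord_algebraMap_nonneg _ _
      have hval : (g P).intValuation (algebraMap A B x) = exp (-n) := by
        rw [hn, ord_algebraMap_eq, neg_neg, exp_log]
        exact (g P).intValuation_ne_zero _ hxB
      have he : Ideal.ramificationIdx' p P.1 = n.toNat := by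
        apply Ideal.ramificationIdx'_spec
        · rw [hmap, Ideal.span_singleton_le_iff_mem]
          have := (HeightOneSpectrum.intValuation_le_pow_iff_mem (g P) (algebraMap A B x) n.toNat).mp
            (by rw [hval, exp_le_exp]; omega)
          exact this
        · rw [hmap, Ideal.span_singleton_le_iff_mem]
          intro hcon
          have := (HeightOneSpectrum.intValuation_le_pow_iff_mem (g P) (algebraMap A B x)
            (n.toNat + 1)).mpr hcon
          rw [hval, exp_le_exp] at this
          push_cast at this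
          omega
      rw [he]
      omega
    rw [Finset.sum_congr rfl (fun P _ => hterm P), ← hsum, ← Finset.sum_attach T]
    push_cast
    rfl

end Core

/-- valuation rings are integrally closed: elements integral over a subring of `O_v` lie
in `O_v`. -/
theorem mem_of_isIntegral (v : Place K F) {R : Type*} [CommRing R] [Algebra R F]
    (hR : ∀ r : R, algebraMap R F r ∈ v.toValuationSubring) {b : F} (hb : IsIntegral R b) :
    b ∈ v.toValuationSubring := by
  let φ : R →+* v.toValuationSubring :=
    (algebraMap R F).codRestrict v.toValuationSubring.toSubring hR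
  obtain ⟨p, hp, hpb⟩ := hb
  have hint : IsIntegral v.toValuationSubring b := by
    refine ⟨p.map φ, hp.map φ, ?_⟩
    rw [Polynomial.eval₂_map]
    exact hpb
  obtain ⟨y, rfl⟩ := (IsIntegrallyClosed.isIntegral_iff (R := v.toValuationSubring)).mp hint
  exact y.2

/-- `K[x] ⊆ O_v` as soon as `x ∈ O_v`. -/
theorem adjoin_le_of_ord_nonneg (v : Place K F) {x : F} (hx : 0 ≤ v.ord x)
    (a : Algebra.adjoin K {x}) : (a : F) ∈ v.toValuationSubring := by
  let Ov : Subalgebra K F :=
    { v.toValuationSubring.toSubring with algebraMap_mem' := v.algebraMap_mem' }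
  have hxmem : x ∈ v.toValuationSubring := by
    rcases eq_or_ne x 0 with rfl | hx0
    · exact zero_mem _
    · exact (Place.ord_nonneg_iff_mem v hx0).mp hx
  have hle : Algebra.adjoin K {x} ≤ Ov := Algebra.adjoin_le (by
    intro y hy
    rw [Set.mem_singleton_iff] at hy
    subst hy
    exact hxmem)
  exact hle a.2

section Concrete

open scoped IntermediateField.algebraAdjoinAdjoin
open IntermediateField

/-- every element of `K[x]` is congruent to a constant modulo `x`, and `x` is not a unit. -/
theorem adjoin_singleton_quotient (x : F) (hx : Transcendental K x) :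
    (Ideal.span {(⟨x, Algebra.self_mem_adjoin_singleton K x⟩ : Algebra.adjoin K {x})}).IsMaximal ∧
    Function.Surjective (algebraMap K (Algebra.adjoin K {x} ⧸
      Ideal.span {(⟨x, Algebra.self_mem_adjoin_singleton K x⟩ : Algebra.adjoin K {x})})) := by
  have hrep : ∀ a : Algebra.adjoin K {x}, ∃ q : Polynomial K,
      (a : F) = Polynomial.aeval x q := by
    rintro ⟨a, ha⟩
    rw [Algebra.adjoin_singleton_eq_range_aeval] at ha
    obtain ⟨q, hq⟩ := ha
    exact ⟨q, hq.symm⟩
  have hmemA : ∀ q : Polynomial K, Polynomial.aeval x q ∈ Algebra.adjoin K {x} := by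
    intro q
    rw [Algebra.adjoin_singleton_eq_range_aeval]
    exact ⟨q, rfl⟩
  set xA : Algebra.adjoin K {x} := ⟨x, Algebra.self_mem_adjoin_singleton K x⟩ with hxA
  set p : Ideal (Algebra.adjoin K {x}) := Ideal.span {xA} with hp
  have hsurj : Function.Surjective (algebraMap K (Algebra.adjoin K {x} ⧸ p)) := by
    intro y
    obtain ⟨a, rfl⟩ := Ideal.Quotient.mk_surjective y
    obtain ⟨q, hq⟩ := hrep a
    refine ⟨q.coeff 0, ?_⟩
    have h1 : algebraMap K (Algebra.adjoin K {x} ⧸ p) (q.coeff 0)
        = Ideal.Quotient.mk p (algebraMap K (Algebra.adjoin K {x}) (q.coeff 0)) := rfl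
    rw [h1, Ideal.Quotient.eq, hp, Ideal.mem_span_singleton']
    refine ⟨-⟨Polynomial.aeval x q.divX, hmemA _⟩, ?_⟩
    apply Subtype.ext
    have h2 : q = q.divX * Polynomial.X + Polynomial.C (q.coeff 0) :=
      (Polynomial.divX_mul_X_add q).symm
    have h3 : Polynomial.aeval x q = Polynomial.aeval x q.divX * x
        + algebraMap K F (q.coeff 0) := by
      conv_lhs => rw [h2]
      simp
    simp only [hxA, MulMemClass.coe_mul, NegMemClass.coe_neg, AddSubgroupClass.coe_sub]
    rw [hq, h3]
    simp
  have hne : p ≠ ⊤ := by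
    rw [Ne, Ideal.eq_top_iff_one, hp, Ideal.mem_span_singleton']
    rintro ⟨a, ha⟩
    obtain ⟨q, hq⟩ := hrep a
    have h1 : (a : F) * x = 1 := by
      have := congrArg (Subtype.val) ha
      simpa using this
    rw [hq] at h1
    have h2 : Polynomial.aeval x (q * Polynomial.X - 1) = 0 := by
      simp [h1]
    have h3 := (transcendental_iff.mp hx) _ h2
    have h4 := congrArg (Polynomial.eval 0) h3
    simp at h4
  refine ⟨?_, hsurj⟩
  have hnt : Nontrivial (Algebra.adjoin K {x} ⧸ p) := Ideal.Quotient.nontrivial_iff.mpr hne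
  apply Ideal.Quotient.maximal_of_isField
  exact MulEquiv.isField (Field.toIsField K)
    (RingEquiv.ofBijective (algebraMap K (Algebra.adjoin K {x} ⧸ p))
      ⟨(algebraMap K (Algebra.adjoin K {x} ⧸ p)).injective, hsurj⟩).symm.toMulEquiv

variable [IsAlgClosed K] [CharZero K]

/-- (FF1) and (FF2) together, for `L = K(x)`. -/
theorem master (x : F) (hx : Transcendental K x) [FiniteDimensional K⟮x⟯ F] :
    (∃ 𝒱 : Finset (Place K F), (∀ v : Place K F, v ∈ 𝒱 ↔ 0 < v.ord x) ∧
      ∑ v ∈ 𝒱, v.ord x = (Module.finrank K⟮x⟯ F : ℤ)) ∧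
    (∀ v : Place K F, 0 < v.ord x → ∀ T : Finset (Place K F), v ∉ T →
      (∀ u ∈ T, 0 < u.ord x) →
      ∃ b : F, IsIntegral (Algebra.adjoin K {x}) b ∧ 0 < v.ord b ∧ ∀ u ∈ T, u.ord b = 0) := by
  classical
  have hPID : IsPrincipalIdealRing (Algebra.adjoin K {x}) :=
    IsPrincipalIdealRing.of_surjective (Polynomial.algEquivOfTranscendental K x hx)
      (AlgEquiv.surjective _)
  have hchar : CharZero K⟮x⟯ := charZero_of_injective_algebraMap (algebraMap K K⟮x⟯).injective
  have hsep : Algebra.IsSeparable K⟮x⟯ F := inferInstance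
  have hDed : IsDedekindDomain (integralClosure (Algebra.adjoin K {x}) F) :=
    integralClosure.isDedekindDomain (Algebra.adjoin K {x}) K⟮x⟯ F
  have hfrac : IsFractionRing (integralClosure (Algebra.adjoin K {x}) F) F :=
    integralClosure.isFractionRing_of_finite_extension K⟮x⟯ F
  have hfin : Module.Finite (Algebra.adjoin K {x}) (integralClosure (Algebra.adjoin K {x}) F) :=
    IsIntegralClosure.finite (Algebra.adjoin K {x}) K⟮x⟯ F _
  obtain ⟨hmax, hK⟩ := adjoin_singleton_quotient x hx
  have hx0 : x ≠ 0 := by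
    rintro rfl
    exact hx (isAlgebraic_zero)
  have hxA0 : (⟨x, Algebra.self_mem_adjoin_singleton K x⟩ : Algebra.adjoin K {x}) ≠ 0 := by
    intro h
    exact hx0 (congrArg Subtype.val h)
  obtain ⟨S, hS, hsum⟩ := exists_finset_sum_ord (K := K) (F := F) (A := Algebra.adjoin K {x})
    (B := integralClosure (Algebra.adjoin K {x}) F) (L := K⟮x⟯)
    ⟨x, Algebra.self_mem_adjoin_singleton K x⟩ hxA0 hmax hK
  set xB : integralClosure (Algebra.adjoin K {x}) F :=
    algebraMap (Algebra.adjoin K {x}) (integralClosure (Algebra.adjoin K {x}) F)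
      ⟨x, Algebra.self_mem_adjoin_singleton K x⟩ with hxBdef
  have hxB : algebraMap (integralClosure (Algebra.adjoin K {x}) F) F xB = x := rfl
  have hxB0 : xB ≠ 0 := by
    intro h
    apply hx0
    rw [← hxB, h, map_zero]
  rw [hxB] at hsum
  have hB : ∀ v : Place K F, 0 < v.ord x → ∀ b : integralClosure (Algebra.adjoin K {x}) F,
      algebraMap (integralClosure (Algebra.adjoin K {x}) F) F b ∈ v.toValuationSubring := by
    intro v hv b
    exact mem_of_isIntegral v (R := Algebra.adjoin K {x}) (adjoin_le_of_ord_nonneg v hv.le) b.2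
  have hw : ∀ v : Place K F, 0 < v.ord x →
      ∃ w : HeightOneSpectrum (integralClosure (Algebra.adjoin K {x}) F),
        Place.ofHeightOneSpectrum (K := K) (F := F) w = v ∧ w ∈ S := by
    intro v hv
    obtain ⟨w, rfl⟩ := exists_heightOneSpectrum_eq v (hB v hv)
    refine ⟨w, rfl, (hS w).mpr ?_⟩
    exact (ord_algebraMap_pos_iff (K := K) (F := F) w hxB0).mp hv
  constructor
  · refine ⟨S.image (Place.ofHeightOneSpectrum (K := K) (F := F)), ?_, ?_⟩
    · intro v
      rw [Finset.mem_image]
      constructor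
      · rintro ⟨w, hwS, rfl⟩
        exact (ord_algebraMap_pos_iff (K := K) (F := F) w hxB0).mpr ((hS w).mp hwS)
      · intro hv
        obtain ⟨w, rfl, hwS⟩ := hw v hv
        exact ⟨w, hwS, rfl⟩
    · rw [Finset.sum_image (fun a _ b _ h => ofHeightOneSpectrum_injective h)]
      exact hsum
  · intro v hv T hvT hT
    obtain ⟨w₀, rfl, hw₀S⟩ := hw v hv
    have hne : Nonempty (HeightOneSpectrum (integralClosure (Algebra.adjoin K {x}) F)) := ⟨w₀⟩
    choose! g hg using (fun u (hu : u ∈ T) => hw u (hT u hu))
    have hw₀ : w₀ ∉ T.image g := by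
      rw [Finset.mem_image]
      rintro ⟨u, hu, hgu⟩
      apply hvT
      rw [← hgu, (hg u hu).1]
      exact hu
    obtain ⟨b, hb0, hbw₀, hbT⟩ := exists_mem_notMem w₀ (T.image g) hw₀
    refine ⟨algebraMap (integralClosure (Algebra.adjoin K {x}) F) F b, b.2,
      (ord_algebraMap_pos_iff w₀ hb0).mpr hbw₀, fun u hu => ?_⟩
    rw [← (hg u hu).1]
    exact (ord_algebraMap_eq_zero_iff (g u) hb0).mpr
      (hbT (g u) (Finset.mem_image_of_mem g hu))

end Concrete

end FFBasic

/-! ### function fields: `K` algebraically closed of characteristic zero, `F` finite over `K(x)` -/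

variable [IsAlgClosed K] [CharZero K]

/-- (FF1) the fundamental identity in the language of places. -/
theorem exists_finset_places_ord_pos (L : IntermediateField K F) [FiniteDimensional L F]
    (x : F) (hxL : IntermediateField.adjoin K {x} = L) (hx : Transcendental K x) :
    ∃ 𝒱 : Finset (Place K F), (∀ v : Place K F, v ∈ 𝒱 ↔ 0 < v.ord x) ∧
      ∑ v ∈ 𝒱, v.ord x = (Module.finrank L F : ℤ) := by
  subst hxL
  exact (FFBasic.master x hx).1

/-- (FF2) approximation by integral elements: an element integral over `K[x]`, vanishing at the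
place `v` over `x` and a unit at finitely many other places over `x`. -/
theorem exists_isIntegral_ord (L : IntermediateField K F) [FiniteDimensional L F]
    (x : F) (hxL : IntermediateField.adjoin K {x} = L) (hx : Transcendental K x)
    (v : Place K F) (hv : 0 < v.ord x) (T : Finset (Place K F)) (hT : v ∉ T)
    (hTx : ∀ u ∈ T, 0 < u.ord x) :
    ∃ b : F, IsIntegral (Algebra.adjoin K {x}) b ∧ 0 < v.ord b ∧ ∀ u ∈ T, u.ord b = 0 := by
  subst hxL
  exact (FFBasic.master x hx).2 v hv T hT hTx

end Fermat.Agent.S24
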