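import Fermat.Agent.S20.LevelOneDefs

/-!
# S24: the analytic `j`-function

`jFun z = E₄(z)³ / Δ(z)`, as a plain function on the upper half plane (shared definition for all
S24 modules).
-/

open UpperHalfPlane

namespace Fermat.Agent.S24

open Fermat.Agent.S20 in
/-- the modular invariant `j = E₄³ / Δ` as a function on `ℍ`. -/
noncomputable def jFun : ℍ → ℂ := fun z => E4 z ^ 3 / Dl z

open Fermat.Agent.S20 in
theorem jFun_apply (z : ℍ) : jFun z = E4 z ^ 3 / Dl z := rfl

end Fermat.Agent.S24
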