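import Fermat.Agent.S20.LevelOneAPI
import Fermat.Agent.S20.Division
import Fermat.Agent.S24.JDef

/-!
# S24 library: the modular `j`-function (level-one analytic facts)

`jFun = E₄³ / Δ` on the upper half plane: holomorphic, `SL(2,ℤ)`-invariant, simple pole at `i∞`,
surjective onto `ℂ`; holomorphic invariant functions with a pole of order `≤ n` at `i∞` are
polynomials of degree `≤ n` in `jFun`; the order of `jFun - jFun z₀` at `z₀` is `3`, `2` or `1`
according to `E₄ z₀ = 0`, `E₆ z₀ = 0`, or neither.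
-/

open UpperHalfPlane ModularForm Filter
open scoped MatrixGroups ModularForm Manifold Topology Real

namespace Fermat.Agent.S24

open Fermat.Agent.S20

local notation "𝕢" => Function.Periodic.qParam

theorem jFun_mul_Dl (z : ℍ) : jFun z * Dl z = E4 z ^ 3 := by
  rw [jFun_apply, div_mul_cancel₀ _ (Dl_ne_zero z)]

namespace JFun

theorem isMF_E4_cube : IsMF ⊤ 12 (E4 ^ 3) := (isMF_E4.npow 3).congr_weight (by norm_num)

theorem isMF_Dl : IsMF ⊤ 12 Dl := isCF_Dl.isMF

end JFun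

open JFun

theorem mdiff_jFun : MDiff jFun :=
  isMF_E4_cube.holo.div isCF_Dl.holo Dl_ne_zero

theorem jFun_slash (γ : SL(2, ℤ)) : jFun ∣[(0 : ℤ)] γ = jFun := by
  have h : (E4 ^ 3 / Dl) ∣[(12 : ℤ) - 12] γ = E4 ^ 3 / Dl := by
    rw [div_slash_SL2, isMF_E4_cube.slash_eq_of_top γ, isMF_Dl.slash_eq_of_top γ]
  rw [sub_self] at h
  exact h

theorem jFun_smul (γ : SL(2, ℤ)) (z : ℍ) : jFun (γ • z) = jFun z := by
  have h := congrFun (jFun_slash γ) z
  rw [SL_slash_apply] at h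
  simpa using h

namespace JFun

theorem tendsto_Dl : Tendsto Dl atImInfty (𝓝 0) := tendsto_discriminant

end JFun

open JFun

/-- `jFun` has a simple pole at `i∞` with residue `1` in `q` -/
theorem tendsto_jFun_mul_q : Tendsto (fun z : ℍ => jFun z * 𝕢 1 z) atImInfty (𝓝 1) := by
  have h1 : Tendsto (fun z : ℍ => E4 z ^ 3) atImInfty (𝓝 1) := by
    have := S20.tendsto_E4.pow 3
    rwa [one_pow] at this
  have h2 : Tendsto (fun z : ℍ => Dl z / 𝕢 1 z) atImInfty (𝓝 1) := tendsto_discriminant_div_q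
  have h3 := h1.div h2 one_ne_zero
  rw [div_one] at h3
  refine h3.congr fun z => ?_
  rw [jFun_apply]
  have hq : 𝕢 1 z ≠ 0 := qParam_one_ne_zero z
  have hD := Dl_ne_zero z
  simp only [Pi.div_apply]
  field_simp

theorem jFun_eq_zero_iff (z : ℍ) : jFun z = 0 ↔ E4 z = 0 := by
  rw [jFun_apply, div_eq_zero_iff]
  constructor
  · rintro (h | h)
    · exact pow_eq_zero_iff (by norm_num) |>.mp h
    · exact absurd h (Dl_ne_zero z)
  · intro h
    left
    rw [h]
    norm_num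

theorem jFun_sub_mul_Dl (z : ℍ) : (jFun z - 1728) * Dl z = E6 z ^ 2 := by
  rw [sub_mul, jFun_mul_Dl, Dl_eq]
  ring

theorem jFun_eq_iff (z : ℍ) : jFun z = 1728 ↔ E6 z = 0 := by
  constructor
  · intro h
    have := jFun_sub_mul_Dl z
    rw [h, sub_self, zero_mul] at this
    exact pow_eq_zero_iff (by norm_num) |>.mp this.symm
  · intro h
    have := jFun_sub_mul_Dl z
    rw [h] at this
    have h2 : (jFun z - 1728) * Dl z = 0 := by rw [this]; norm_num
    rcases mul_eq_zero.mp h2 with h3 | h3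
    · exact sub_eq_zero.mp h3
    · exact absurd h3 (Dl_ne_zero z)

/-- **`j` is surjective.** -/
theorem jFun_surjective : Function.Surjective jFun := by
  intro j0
  by_contra hne
  push Not at hne
  have hf : IsMF ⊤ 12 (E4 ^ 3 - j0 • Dl) := isMF_E4_cube.sub (isMF_Dl.smul j0)
  have hnz : ∀ z, (E4 ^ 3 - j0 • Dl) z ≠ 0 := by
    intro z h
    apply hne z
    simp only [Pi.sub_apply, Pi.pow_apply, Pi.smul_apply, smul_eq_mul] at h
    rw [jFun_apply, div_eq_iff (Dl_ne_zero z)]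
    exact sub_eq_zero.mp h
  have hlim : Tendsto (E4 ^ 3 - j0 • Dl) atImInfty (𝓝 1) := by
    have h1 : Tendsto (E4 ^ 3) atImInfty (𝓝 1) := by
      have := S20.tendsto_E4.pow 3
      rwa [one_pow] at this
    have h2 := h1.sub (tendsto_Dl.const_smul j0)
    rwa [smul_zero, sub_zero] at h2
  have := LevelOne.weight_eq_zero_of_ne_zero hf hnz one_ne_zero hlim
  norm_num at this

namespace JFun

/-- level-one forms of weight `12 n` are `p(j) Δⁿ` with `deg p ≤ n` -/
theorem exists_poly_of_isMF (n : ℕ) : ∀ f : ℍ → ℂ, IsMF ⊤ (12 * n) f →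
    ∃ p : Polynomial ℂ, p.natDegree ≤ n ∧ ∀ z, f z = p.eval (jFun z) * Dl z ^ n := by
  induction n with
  | zero =>
    intro f hf
    obtain ⟨c, rfl⟩ := (hf.congr_weight (by simp)).eq_const_of_weight_zero
    exact ⟨Polynomial.C c, by simp, fun z => by simp⟩
  | succ n ih =>
    intro f hf
    have hG : IsMF ⊤ (12 * ((n + 1 : ℕ) : ℤ)) (E4 ^ (3 * (n + 1))) :=
      (isMF_E4.npow (3 * (n + 1))).congr_weight (by push_cast; ring)
    have hG1 : Tendsto (E4 ^ (3 * (n + 1))) atImInfty (𝓝 1) := by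
      have := S20.tendsto_E4.pow (3 * (n + 1))
      rwa [one_pow] at this
    obtain ⟨g, hg, hfg⟩ := hf.exists_eq_smul_add_discriminant_mul hG hG1
    generalize valueAtInfty f = c at hfg
    obtain ⟨p, hp, hpg⟩ := ih g (hg.congr_weight (by push_cast; ring))
    refine ⟨Polynomial.C c * Polynomial.X ^ (n + 1) + p, ?_, fun z => ?_⟩
    · refine (Polynomial.natDegree_add_le _ _).trans (max_le ?_ (hp.trans (Nat.le_succ n)))
      exact (Polynomial.natDegree_C_mul_le _ _).trans (Polynomial.natDegree_X_pow_le _)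
    · have h1 := congrFun hfg z
      simp only [Pi.add_apply, Pi.smul_apply, Pi.mul_apply, Pi.pow_apply, smul_eq_mul] at h1
      rw [h1, hpg z]
      simp only [Polynomial.eval_add, Polynomial.eval_mul, Polynomial.eval_C, Polynomial.eval_pow,
        Polynomial.eval_X]
      have h2 : E4 z ^ (3 * (n + 1)) = (jFun z * Dl z) ^ (n + 1) := by
        rw [jFun_mul_Dl, ← pow_mul]
      rw [h2]
      change c * (jFun z * Dl z) ^ (n + 1) + Dl z * (Polynomial.eval (jFun z) p * Dl z ^ n) = _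
      ring

end JFun

open JFun

/-- **(B1)** a holomorphic `SL(2,ℤ)`-invariant function with a pole of order `≤ n` at `i∞` is a
polynomial of degree `≤ n` in `j`. -/
theorem exists_poly_j {h : ℍ → ℂ} (hh : MDiff h) (hinv : ∀ γ : SL(2, ℤ), h ∣[(0 : ℤ)] γ = h)
    (n : ℕ) (hb : IsBoundedAtImInfty (h * Dl ^ n)) :
    ∃ p : Polynomial ℂ, p.natDegree ≤ n ∧ ∀ z, h z = p.eval (jFun z) := by
  have hDn : IsMF ⊤ (12 * n) (Dl ^ n) := (isMF_Dl.npow n).congr_weight (by ring)
  have hsl : ∀ γ : SL(2, ℤ), (h * Dl ^ n) ∣[(12 : ℤ) * n] γ = h * Dl ^ n := by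
    intro γ
    have : (h * Dl ^ n) ∣[(0 : ℤ) + 12 * n] γ = h * Dl ^ n := by
      rw [mul_slash_SL2, hinv γ, hDn.slash_eq_of_top γ]
    simpa using this
  have hf : IsMF ⊤ (12 * n) (h * Dl ^ n) :=
    ⟨hh.mul hDn.holo, fun γ _ => hsl γ, fun γ => by rw [hsl γ]; exact hb⟩
  obtain ⟨p, hp, hpf⟩ := exists_poly_of_isMF n _ hf
  refine ⟨p, hp, fun z => ?_⟩
  have := hpf z
  simp only [Pi.mul_apply, Pi.pow_apply] at this
  exact mul_right_cancel₀ (pow_ne_zero n (Dl_ne_zero z)) this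

/-! ### Orders of vanishing of `j - j(z₀)` -/

namespace JFun

/-- a good divisor has a simple zero at its point, in terms of `analyticOrderAt` -/
theorem order_eq_one_of_goodDivisor {P : ℍ → ℂ} {w : ℤ} {z₀ : ℍ} (hP : GoodDivisor P w z₀) :
    analyticOrderAt (P ∘ ofComplex) (z₀ : ℂ) = 1 :=
  (Division.analyticAt_comp_ofComplex hP.isMF.holo z₀).analyticOrderAt_eq_one_of_zero_deriv_ne_zero
    (by simpa using hP.zero) hP.deriv_ne

theorem order_Dl (z₀ : ℍ) : analyticOrderAt (Dl ∘ ofComplex) (z₀ : ℂ) = 0 :=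
  (Division.analyticAt_comp_ofComplex isMF_Dl.holo z₀).analyticOrderAt_eq_zero.mpr
    (by simpa using Dl_ne_zero z₀)

end JFun

open JFun

/-- **(B3)** the order of `j - j(z₀)` at `z₀` is `3` at the zeros of `E₄`, `2` at the zeros of
`E₆`, and `1` elsewhere. -/
theorem order_jFun_sub (z₀ : ℍ) :
    analyticOrderAt ((fun z => jFun z - jFun z₀) ∘ ofComplex) (z₀ : ℂ) =
      if E4 z₀ = 0 then 3 else if E6 z₀ = 0 then 2 else 1 := by
  set F : ℍ → ℂ := fun z => jFun z - jFun z₀ with hF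
  have hFan : AnalyticAt ℂ (F ∘ ofComplex) (z₀ : ℂ) :=
    Division.analyticAt_comp_ofComplex (mdiff_jFun.sub mdifferentiable_const) z₀
  have hDan := Division.analyticAt_comp_ofComplex isMF_Dl.holo z₀
  have hFD : analyticOrderAt ((F * Dl) ∘ ofComplex) (z₀ : ℂ) =
      analyticOrderAt (F ∘ ofComplex) (z₀ : ℂ) := by
    have h1 : (F * Dl) ∘ ofComplex = (F ∘ ofComplex) * (Dl ∘ ofComplex) := rfl
    rw [h1, analyticOrderAt_mul hFan hDan, order_Dl, add_zero]
  rw [← hFD]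
  split_ifs with h4 h6
  · have hj0 : jFun z₀ = 0 := (jFun_eq_zero_iff z₀).mpr h4
    have h1 : F * Dl = E4 ^ 3 := by
      funext z
      simp only [hF, Pi.mul_apply, Pi.pow_apply, hj0, sub_zero]
      exact jFun_mul_Dl z
    have h2 : (E4 ^ 3) ∘ ofComplex = (E4 ∘ ofComplex) ^ 3 := rfl
    rw [h1, h2, analyticOrderAt_pow (Division.analyticAt_comp_ofComplex isMF_E4.holo z₀),
      order_eq_one_of_goodDivisor (goodDivisor_E4 h4)]
    rfl
  · have hj0 : jFun z₀ = 1728 := (jFun_eq_iff z₀).mpr h6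
    have h1 : F * Dl = E6 ^ 2 := by
      funext z
      simp only [hF, Pi.mul_apply, Pi.pow_apply, hj0]
      exact jFun_sub_mul_Dl z
    have h2 : (E6 ^ 2) ∘ ofComplex = (E6 ∘ ofComplex) ^ 2 := rfl
    rw [h1, h2, analyticOrderAt_pow (Division.analyticAt_comp_ofComplex isMF_E6.holo z₀),
      order_eq_one_of_goodDivisor (goodDivisor_E6 h6)]
    rfl
  · have hP := goodDivisor_Pgen h4 h6
    have hc : (1728 : ℂ) * Dl z₀ ≠ 0 := mul_ne_zero (by norm_num) (Dl_ne_zero z₀)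
    have key : (fun _ : ℍ => (1728 : ℂ) * Dl z₀) * (F * Dl) = Pgen z₀ := by
      funext z
      simp only [hF, Pi.mul_apply, Pgen, jFun_apply]
      have hz := Dl_ne_zero z
      have hz0 := Dl_ne_zero z₀
      have e1 : (1728 : ℂ) * Dl z = E4 z ^ 3 - E6 z ^ 2 := by rw [Dl_eq]; ring
      have e2 : (1728 : ℂ) * Dl z₀ = E4 z₀ ^ 3 - E6 z₀ ^ 2 := by rw [Dl_eq]; ring
      have e3 : 1728 * Dl z₀ * ((E4 z ^ 3 / Dl z - E4 z₀ ^ 3 / Dl z₀) * Dl z)
          = 1728 * Dl z₀ * E4 z ^ 3 - E4 z₀ ^ 3 * (1728 * Dl z) := by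
        field_simp
      rw [e3]
      linear_combination (E4 z ^ 3) * e2 - (E4 z₀ ^ 3) * e1
    have h1 := order_eq_one_of_goodDivisor hP
    rw [← key] at h1
    have h2 : ((fun _ : ℍ => (1728 : ℂ) * Dl z₀) * (F * Dl)) ∘ ofComplex
        = (fun _ : ℂ => (1728 : ℂ) * Dl z₀) * ((F * Dl) ∘ ofComplex) := rfl
    have hFDan : AnalyticAt ℂ ((F * Dl) ∘ ofComplex) (z₀ : ℂ) :=
      Division.analyticAt_comp_ofComplex ((mdiff_jFun.sub mdifferentiable_const).mul isMF_Dl.holo) z₀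
    have h3 : analyticOrderAt (fun _ : ℂ => (1728 : ℂ) * Dl z₀) (z₀ : ℂ) = 0 :=
      (analyticAt_const).analyticOrderAt_eq_zero.mpr hc
    rw [h2, analyticOrderAt_mul analyticAt_const hFDan, h3, zero_add] at h1
    exact h1

/-- **(B3)**, pointwise form -/
theorem order_jFun_sub' (z₀ : ℍ) :
    analyticOrderAt (fun w : ℂ => jFun (ofComplex w) - jFun z₀) (z₀ : ℂ) =
      if E4 z₀ = 0 then 3 else if E6 z₀ = 0 then 2 else 1 :=
  order_jFun_sub z₀

/-- the difference `j z - j z₀` in terms of the generic good divisor `Pgen z₀` -/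
theorem jFun_sub (z₀ z : ℍ) : jFun z - jFun z₀ = Pgen z₀ z / (1728 * Dl z₀ * Dl z) := by
  have hz := Dl_ne_zero z
  have hz0 := Dl_ne_zero z₀
  have e1 : (1728 : ℂ) * Dl z = E4 z ^ 3 - E6 z ^ 2 := by rw [Dl_eq]; ring
  have e2 : (1728 : ℂ) * Dl z₀ = E4 z₀ ^ 3 - E6 z₀ ^ 2 := by rw [Dl_eq]; ring
  rw [eq_div_iff (mul_ne_zero (mul_ne_zero (by norm_num) hz0) hz)]
  simp only [Pgen, jFun_apply]
  have e3 : (E4 z ^ 3 / Dl z - E4 z₀ ^ 3 / Dl z₀) * (1728 * Dl z₀ * Dl z)
      = 1728 * Dl z₀ * E4 z ^ 3 - E4 z₀ ^ 3 * (1728 * Dl z) := by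
    field_simp
  rw [e3]
  linear_combination (E4 z ^ 3) * e2 - (E4 z₀ ^ 3) * e1

/-- **(B1)**, pointwise-invariance form -/
theorem exists_poly_j' {h : ℍ → ℂ} (hh : MDiff h) (hinv : ∀ (γ : SL(2, ℤ)) (z : ℍ), h (γ • z) = h z)
    (n : ℕ) (hb : IsBoundedAtImInfty (fun z => h z * Dl z ^ n)) :
    ∃ p : Polynomial ℂ, p.natDegree ≤ n ∧ ∀ z, h z = p.eval (jFun z) := by
  refine exists_poly_j hh (fun γ => ?_) n hb
  funext z
  rw [SL_slash_apply]
  have h1 := hinv γ z
  simpa using h1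

/-- `j` is bounded at `i∞` after multiplication by `Δ` (pole of order `≤ 1`) -/
theorem isBoundedAtImInfty_jFun_mul_Dl : IsBoundedAtImInfty (fun z => jFun z * Dl z) := by
  have h : (fun z => jFun z * Dl z) = E4 ^ 3 := funext fun z => jFun_mul_Dl z
  rw [h]
  have := isMF_E4_cube.bdd 1
  simpa using this

end Fermat.Agent.S24
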