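import Fermat.Agent.S20.LevelOne
import Fermat.Agent.S20.Division
import Fermat.Agent.S24.JDef

/-!
# S24 library: the analytic `j`-invariant (level-one facts)

`jFun z = E₄(z)³ / Δ(z)` (defined in `JDef`) is holomorphic and `SL(2,ℤ)`-invariant on the upper half plane, surjective
onto `ℂ`, has a simple pole with residue `1` at the cusp, and `jFun - jFun z₀` vanishes at `z₀` to
order `1`, `2` or `3` according as `z₀` is generic, a zero of `E₆` or a zero of `E₄`.
Every holomorphic `SL(2,ℤ)`-invariant function with a pole of order `≤ n` at the cusp is a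
polynomial of degree `≤ n` in `jFun`.
-/

open UpperHalfPlane ModularForm EisensteinSeries Filter
open scoped MatrixGroups ModularForm Manifold Topology Real

namespace Fermat.Agent.S24.LevelOneJ

open Fermat.Agent.S20

/-- transformation law of level-one forms, pointwise -/
theorem smul_apply_top {k : ℤ} {f : ℍ → ℂ} (h : IsMF ⊤ k f) (g : SL(2, ℤ)) (z : ℍ) :
    f (g • z) = denom g z ^ k * f z := by
  have h1 := congrFun (h.slash_eq_of_top g) z
  rw [SL_slash_apply] at h1
  rw [← h1, mul_comm, mul_assoc, ← zpow_add₀ (denom_ne_zero g z)]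
  simp

theorem mdiff_E4 : MDiff E4 := isMF_E4.holo
theorem mdiff_E6 : MDiff E6 := isMF_E6.holo
theorem mdiff_Dl : MDiff Dl := isCF_Dl.holo

theorem jFun_mdiff : MDiff jFun :=
  (mdiff_E4.pow 3).div mdiff_Dl Dl_ne_zero

theorem jFun_smul (g : SL(2, ℤ)) (z : ℍ) : jFun (g • z) = jFun z := by
  have hd := denom_ne_zero g z
  simp only [jFun]
  rw [smul_apply_top isMF_E4 g z, smul_apply_top isCF_Dl.isMF g z, mul_pow, ← zpow_natCast,
    ← zpow_mul]
  norm_num
  rw [mul_div_mul_left _ _ (pow_ne_zero 12 hd)]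

theorem jFun_sub (z₀ z : ℍ) : jFun z - jFun z₀ = Pgen z₀ z / (1728 * Dl z₀ * Dl z) := by
  have h1 := Dl_ne_zero z
  have h2 := Dl_ne_zero z₀
  have e1 : E6 z ^ 2 = E4 z ^ 3 - 1728 * Dl z := by rw [Dl_eq]; ring
  have e2 : E6 z₀ ^ 2 = E4 z₀ ^ 3 - 1728 * Dl z₀ := by rw [Dl_eq]; ring
  simp only [jFun, Pgen]
  rw [e1, e2]
  field_simp
  ring

/-- (B2) the `j`-invariant is surjective -/
theorem jFun_surjective : Function.Surjective jFun := by
  intro c
  have hf : IsMF ⊤ 12 (E4 ^ 3 - c • Dl) :=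
    ((LevelOne.isMF_pow isMF_E4 3).congr_weight (by norm_num)).sub (isCF_Dl.isMF.smul c)
  have hlim : Tendsto (E4 ^ 3 - c • Dl) atImInfty (𝓝 1) := by
    have hD : Tendsto Dl atImInfty (𝓝 0) := by
      have := isCF_Dl.zero 1
      rwa [SlashAction.slash_one] at this
    have h1 : Tendsto (E4 ^ 3 - c • Dl) atImInfty (𝓝 ((1 : ℂ) ^ 3 - c • (0 : ℂ))) :=
      (tendsto_E4.pow 3).sub (hD.const_smul c)
    have h0 : (1 : ℂ) ^ 3 - c • (0 : ℂ) = 1 := by simp
    rw [h0] at h1
    exact h1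
  by_contra hc
  have hne : ∀ z, (E4 ^ 3 - c • Dl) z ≠ 0 := by
    intro z hz
    apply hc
    refine ⟨z, ?_⟩
    have : E4 z ^ 3 = c * Dl z := by
      simpa [sub_eq_zero] using hz
    rw [jFun, this, mul_div_cancel_right₀ _ (Dl_ne_zero z)]
  have := LevelOne.weight_eq_zero_of_ne_zero hf hne one_ne_zero hlim
  norm_num at this

theorem jFun_eq_zero_iff (z : ℍ) : jFun z = 0 ↔ E4 z = 0 := by
  simp [jFun, Dl_ne_zero z]

theorem jFun_eq_1728_iff (z : ℍ) : jFun z = 1728 ↔ E6 z = 0 := by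
  have hD := Dl_ne_zero z
  have e : E4 z ^ 3 = 1728 * Dl z + E6 z ^ 2 := by rw [Dl_eq]; ring
  rw [jFun, div_eq_iff hD, e]
  constructor
  · intro h
    have h2 : E6 z ^ 2 = 0 := by linear_combination h
    exact pow_eq_zero_iff (two_ne_zero) |>.mp h2
  · intro h
    rw [h]
    ring

/-- simple pole with residue `1` at the cusp -/
theorem tendsto_jFun_mul_q :
    Tendsto (fun z : ℍ => jFun z * Complex.exp (2 * π * Complex.I * z)) atImInfty (𝓝 1) := by
  have h := (tendsto_E4.pow 3).div tendsto_Dl_mul_exp one_ne_zero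
  rw [one_pow, div_one] at h
  refine h.congr fun z => ?_
  simp only [Pi.div_apply, jFun]
  rw [Complex.exp_neg]
  have h1 := Dl_ne_zero z
  have h2 : Complex.exp (2 * π * Complex.I * z) ≠ 0 := Complex.exp_ne_zero _
  field_simp

/-- (B3) order of vanishing of `jFun - jFun z₀` at `z₀` -/
theorem analyticOrderAt_jFun_sub (z₀ : ℍ) :
    analyticOrderAt (fun w : ℂ => jFun (ofComplex w) - jFun z₀) (z₀ : ℂ) =
      if E4 z₀ = 0 then 3 else if E6 z₀ = 0 then 2 else 1 := by
  have hPan := Division.analyticAt_comp_ofComplex (LevelOne.isMF_Pgen z₀).holo z₀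
  have hDan := Division.analyticAt_comp_ofComplex mdiff_Dl z₀
  have hE4an := Division.analyticAt_comp_ofComplex mdiff_E4 z₀
  have hE6an := Division.analyticAt_comp_ofComplex mdiff_E6 z₀
  have hD0 := Dl_ne_zero z₀
  set u : ℂ → ℂ := fun w => (1728 * Dl z₀ * (Dl ∘ ofComplex) w)⁻¹ with hu
  have hden : (1728 * Dl z₀ * (Dl ∘ ofComplex) (z₀ : ℂ)) ≠ 0 := by
    simp [hD0]
  have huan : AnalyticAt ℂ u z₀ := (analyticAt_const.mul hDan).inv hden
  have hu0 : u z₀ ≠ 0 := inv_ne_zero hden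
  have heq : (fun w : ℂ => jFun (ofComplex w) - jFun z₀) = (Pgen z₀ ∘ ofComplex) * u := by
    funext w
    simp only [jFun_sub, hu, div_eq_mul_inv, Pi.mul_apply, Function.comp_apply]
  rw [heq, analyticOrderAt_mul hPan huan, huan.analyticOrderAt_eq_zero.mpr hu0, add_zero]
  by_cases h4 : E4 z₀ = 0
  · rw [if_pos h4]
    have h6 := LevelOne.E6_ne_zero_of_E4_eq_zero h4
    have he : Pgen z₀ ∘ ofComplex = (fun _ => -(E6 z₀ ^ 2)) * (E4 ∘ ofComplex) ^ 3 := by
      funext w
      simp [Pgen, h4]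
    have hc : AnalyticAt ℂ (fun _ : ℂ => -(E6 z₀ ^ 2)) (z₀ : ℂ) := analyticAt_const
    have h1 : analyticOrderAt (E4 ∘ ofComplex) (z₀ : ℂ) = 1 :=
      hE4an.analyticOrderAt_eq_one_of_zero_deriv_ne_zero (by simpa using h4)
        (goodDivisor_E4 h4).deriv_ne
    rw [he, analyticOrderAt_mul hc (hE4an.pow 3), analyticOrderAt_pow hE4an,
      hc.analyticOrderAt_eq_zero.mpr (by simpa using h6), zero_add, h1]
    rfl
  · rw [if_neg h4]
    by_cases h6 : E6 z₀ = 0
    · rw [if_pos h6]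
      have he : Pgen z₀ ∘ ofComplex = (fun _ => E4 z₀ ^ 3) * (E6 ∘ ofComplex) ^ 2 := by
        funext w
        simp [Pgen, h6]
      have hc : AnalyticAt ℂ (fun _ : ℂ => E4 z₀ ^ 3) (z₀ : ℂ) := analyticAt_const
      have h1 : analyticOrderAt (E6 ∘ ofComplex) (z₀ : ℂ) = 1 :=
        hE6an.analyticOrderAt_eq_one_of_zero_deriv_ne_zero (by simpa using h6)
          (goodDivisor_E6 h6).deriv_ne
      rw [he, analyticOrderAt_mul hc (hE6an.pow 2), analyticOrderAt_pow hE6an,
        hc.analyticOrderAt_eq_zero.mpr (by simpa using h4), zero_add, h1]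
      rfl
    · rw [if_neg h6]
      exact hPan.analyticOrderAt_eq_one_of_zero_deriv_ne_zero
        (by simpa using LevelOne.Pgen_self z₀) (goodDivisor_Pgen h4 h6).deriv_ne

theorem slash_zero_of_invariant {h : ℍ → ℂ}
    (hinv : ∀ (g : SL(2, ℤ)) (z : ℍ), h (g • z) = h z) (g : SL(2, ℤ)) : h ∣[(0 : ℤ)] g = h := by
  funext z
  rw [SL_slash_apply, neg_zero, zpow_zero, mul_one]
  exact hinv g z

/-- an invariant holomorphic function times a level-one form is a level-one form, if bounded -/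
theorem isMF_mul_of_invariant {h f : ℍ → ℂ} {k : ℤ} (hh : MDiff h)
    (hinv : ∀ (g : SL(2, ℤ)) (z : ℍ), h (g • z) = h z) (hf : IsMF ⊤ k f)
    (hbd : IsBoundedAtImInfty (h * f)) : IsMF ⊤ k (h * f) := by
  have hsl : ∀ g : SL(2, ℤ), (h * f) ∣[k] g = h * f := by
    intro g
    have := mul_slash_SL2 0 k g h f
    rw [zero_add] at this
    rw [this, slash_zero_of_invariant hinv g, hf.slash_eq_of_top g]
  exact ⟨hh.mul hf.holo, fun g _ => hsl g, fun g => by rw [hsl g]; exact hbd⟩

/-- (B1) a holomorphic `SL(2,ℤ)`-invariant function with a pole of order `≤ n` at the cusp is a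
polynomial of degree `≤ n` in `jFun` -/
theorem exists_poly_jFun {h : ℍ → ℂ} (hh : MDiff h)
    (hinv : ∀ (g : SL(2, ℤ)) (z : ℍ), h (g • z) = h z) (n : ℕ)
    (hbd : IsBoundedAtImInfty (fun z => h z * Dl z ^ n)) :
    ∃ p : Polynomial ℂ, p.natDegree ≤ n ∧ ∀ z, h z = p.eval (jFun z) := by
  induction n generalizing h with
  | zero =>
    have hMF : IsMF ⊤ 0 h :=
      ⟨hh, fun g _ => slash_zero_of_invariant hinv g, fun g => by
        rw [slash_zero_of_invariant hinv g]
        simpa using hbd⟩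
    obtain ⟨c, hc⟩ := hMF.eq_const_of_weight_zero
    exact ⟨Polynomial.C c, by simp, fun z => by simp [hc]⟩
  | succ n ih =>
    have hDpow : IsMF ⊤ (((n + 1 : ℕ) : ℤ) * 12) (Dl ^ (n + 1)) :=
      LevelOne.isMF_pow isCF_Dl.isMF (n + 1)
    have hf : IsMF ⊤ (((n + 1 : ℕ) : ℤ) * 12) (h * Dl ^ (n + 1)) :=
      isMF_mul_of_invariant hh hinv hDpow hbd
    obtain ⟨c, hc⟩ := hf.exists_tendsto_top
    have hm : IsMF ⊤ (((n + 1 : ℕ) : ℤ) * 12) (E4 ^ (3 * (n + 1))) :=
      (LevelOne.isMF_pow isMF_E4 (3 * (n + 1))).congr_weight (by push_cast; ring)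
    have hmlim : Tendsto (E4 ^ (3 * (n + 1))) atImInfty (𝓝 1) := by
      have := tendsto_E4.pow (3 * (n + 1))
      rw [one_pow] at this
      exact this
    have hsub : IsMF ⊤ (((n + 1 : ℕ) : ℤ) * 12) (h * Dl ^ (n + 1) - c • E4 ^ (3 * (n + 1))) :=
      hf.sub (hm.smul c)
    have hlim : Tendsto (h * Dl ^ (n + 1) - c • E4 ^ (3 * (n + 1))) atImInfty (𝓝 0) := by
      have := hc.sub (hmlim.const_smul c)
      have h0 : c - c • (1 : ℂ) = 0 := by simp
      rw [h0] at this
      exact this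
    obtain ⟨f', hf', hff'⟩ := dvd_Dl_top hsub hlim
    -- the new invariant function
    set h' : ℍ → ℂ := fun z => f' z / Dl z ^ n with hh'
    have hD : ∀ z, Dl z ^ n ≠ 0 := fun z => pow_ne_zero n (Dl_ne_zero z)
    have hh'mdiff : MDiff h' := hf'.holo.div (mdiff_Dl.pow n) hD
    have hh'inv : ∀ (g : SL(2, ℤ)) (z : ℍ), h' (g • z) = h' z := by
      intro g z
      have hd := denom_ne_zero g z
      simp only [hh']
      rw [smul_apply_top hf' g z, smul_apply_top isCF_Dl.isMF g z, mul_pow, ← zpow_natCast,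
        ← zpow_mul]
      have he : ((n + 1 : ℕ) : ℤ) * 12 - 12 = 12 * (n : ℤ) := by push_cast; ring
      rw [he, mul_div_mul_left _ _ (zpow_ne_zero _ hd)]
    have hh'bd : IsBoundedAtImInfty (fun z => h' z * Dl z ^ n) := by
      have h1 := hf'.bdd 1
      rw [SlashAction.slash_one] at h1
      have he : (fun z => h' z * Dl z ^ n) = f' := by
        funext z
        simp only [hh']
        rw [div_mul_cancel₀ _ (hD z)]
      rw [he]
      exact h1
    obtain ⟨p', hp', hp'eq⟩ := ih hh'mdiff hh'inv hh'bd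
    refine ⟨Polynomial.C c * Polynomial.X ^ (n + 1) + p', ?_, fun z => ?_⟩
    · refine (Polynomial.natDegree_add_le _ _).trans (max_le ?_ (hp'.trans (Nat.le_succ n)))
      exact Polynomial.natDegree_C_mul_X_pow_le c (n + 1)
    · have hz := congrFun hff' z
      simp only [Pi.sub_apply, Pi.mul_apply, Pi.pow_apply, Pi.smul_apply, smul_eq_mul] at hz
      have hDz := Dl_ne_zero z
      have hpz := hp'eq z
      simp only [Polynomial.eval_add, Polynomial.eval_mul, Polynomial.eval_C, Polynomial.eval_pow,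
        Polynomial.eval_X]
      rw [← hpz]
      have h1 : h z * Dl z ^ (n + 1) = c * E4 z ^ (3 * (n + 1)) + Dl z * f' z := by
        linear_combination hz
      have h2 : Dl z ^ (n + 1) ≠ 0 := pow_ne_zero _ hDz
      rw [eq_div_of_mul_eq h2 h1]
      simp only [hh', jFun]
      rw [div_pow, ← pow_mul, pow_succ (Dl z) n]
      field_simp

end Fermat.Agent.S24.LevelOneJ
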