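import Fermat.Agent.S24.Defs
import Fermat.Agent.S24.LevelOneJ
import Fermat.Agent.S22.ConjDef

/-!
# S24: analytic inputs for the degree / norm computation

Facts about `jFun = E₄³/Δ` and its translates `z ↦ jFun ((a z + b) / d)`:
growth at `i∞`, invariance, distinctness of the translates of `z ↦ jFun (N z)` under
`Γ₀(N) \ SL(2,ℤ)`, and symmetric functions of finite `SL(2,ℤ)`-stable families being polynomials
in `jFun`.  First at the level of functions `ℍ → ℂ`, then for the algebra `Hol` of `S24.Defs`.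
-/

open UpperHalfPlane ModularForm Filter Matrix CongruenceSubgroup
open scoped MatrixGroups ModularForm Manifold Topology Real

namespace Fermat.Agent.S24

open Fermat.Agent.S20

namespace NormAn

/-! ### Growth at `i∞` -/

theorem norm_exp_two_pi_I_mul (w : ℂ) :
    ‖Complex.exp (2 * π * Complex.I * w)‖ = Real.exp (-(2 * π * w.im)) := by
  rw [Complex.norm_exp]
  congr 1
  simp [Complex.mul_re, Complex.mul_im]

/-- two-sided bound for `jFun` near `i∞` -/
theorem exists_jFun_bounds : ∃ A : ℝ, 0 < A ∧ ∀ z : ℍ, A ≤ z.im →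
    Real.exp (2 * π * z.im) / 2 ≤ ‖jFun z‖ ∧ ‖jFun z‖ ≤ 2 * Real.exp (2 * π * z.im) := by
  have h := LevelOneJ.tendsto_jFun_mul_q
  have h1 : ∀ᶠ z : ℍ in atImInfty,
      ‖jFun z * Complex.exp (2 * π * Complex.I * z) - 1‖ < 1 / 2 := by
    have := (Metric.tendsto_nhds.mp h) (1 / 2) (by norm_num)
    simpa [dist_eq_norm] using this
  obtain ⟨A, hA⟩ := (atImInfty_mem _).mp h1
  refine ⟨max A 1, by positivity, fun z hz => ?_⟩
  have hz' : ‖jFun z * Complex.exp (2 * π * Complex.I * z) - 1‖ < 1 / 2 :=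
    hA z ((le_max_left _ _).trans hz)
  have hn : ‖jFun z * Complex.exp (2 * π * Complex.I * z)‖ =
      ‖jFun z‖ * Real.exp (-(2 * π * z.im)) := by
    rw [norm_mul, norm_exp_two_pi_I_mul]
    rfl
  have hlow : 1 / 2 ≤ ‖jFun z * Complex.exp (2 * π * Complex.I * z)‖ := by
    have := norm_sub_norm_le (1 : ℂ) (1 - jFun z * Complex.exp (2 * π * Complex.I * z))
    rw [norm_one, sub_sub_cancel, norm_sub_rev] at this
    linarith
  have hup : ‖jFun z * Complex.exp (2 * π * Complex.I * z)‖ ≤ 2 := by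
    have := norm_le_norm_add_norm_sub' (jFun z * Complex.exp (2 * π * Complex.I * z)) 1
    rw [norm_one] at this
    linarith
  rw [hn] at hlow hup
  have hpos : 0 < Real.exp (2 * π * z.im) := Real.exp_pos _
  have hmul : Real.exp (-(2 * π * z.im)) * Real.exp (2 * π * z.im) = 1 := by
    rw [← Real.exp_add]; simp
  constructor
  · calc Real.exp (2 * π * z.im) / 2 = 1 / 2 * Real.exp (2 * π * z.im) := by ring
      _ ≤ ‖jFun z‖ * Real.exp (-(2 * π * z.im)) * Real.exp (2 * π * z.im) :=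
          mul_le_mul_of_nonneg_right hlow hpos.le
      _ = ‖jFun z‖ := by rw [mul_assoc, hmul, mul_one]
  · calc ‖jFun z‖ = ‖jFun z‖ * Real.exp (-(2 * π * z.im)) * Real.exp (2 * π * z.im) := by
          rw [mul_assoc, hmul, mul_one]
      _ ≤ 2 * Real.exp (2 * π * z.im) := mul_le_mul_of_nonneg_right hup hpos.le

/-! ### The affine translates `z ↦ jFun ((a z + b)/d)` -/

theorem aff_im_pos {a d : ℕ} (ha : 0 < a) (hd : 0 < d) (b : ℤ) {w : ℂ} (hw : 0 < w.im) :
    0 < ((a * w + b) / d : ℂ).im := by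
  have e : ((a * w + b) / d : ℂ).im = a * w.im / d := by
    simp [Complex.div_natCast_im, Complex.add_im, Complex.mul_im]
  rw [e]
  positivity

/-- the point `(a z + b)/d` of the upper half plane -/
noncomputable def affPt (a d : ℕ) (b : ℤ) (z : ℍ) : ℍ := ofComplex ((a * (z : ℂ) + b) / d)

theorem affPt_coe {a d : ℕ} (ha : 0 < a) (hd : 0 < d) (b : ℤ) (z : ℍ) :
    (affPt a d b z : ℂ) = (a * (z : ℂ) + b) / d := by
  rw [affPt, ofComplex_apply_of_im_pos (aff_im_pos ha hd b z.im_pos)]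

theorem affPt_im {a d : ℕ} (ha : 0 < a) (hd : 0 < d) (b : ℤ) (z : ℍ) :
    (affPt a d b z).im = a * z.im / d := by
  have h := congrArg Complex.im (affPt_coe ha hd b z)
  rw [show ((affPt a d b z : ℂ)).im = (affPt a d b z).im from rfl] at h
  rw [h]
  simp [Complex.div_natCast_im, Complex.add_im, Complex.mul_im]

/-- `z ↦ jFun ((a z + b)/d)` -/
noncomputable def affJ (a d : ℕ) (b : ℤ) (z : ℍ) : ℂ := jFun (affPt a d b z)

theorem mdiff_affJ {a d : ℕ} (ha : 0 < a) (hd : 0 < d) (b : ℤ) : MDiff (affJ a d b) := by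
  rw [UpperHalfPlane.mdifferentiable_iff]
  have hj := UpperHalfPlane.mdifferentiable_iff.mp mdiff_jFun
  have hmap : Set.MapsTo (fun w : ℂ => (a * w + b) / d) {z | 0 < z.im} {z | 0 < z.im} :=
    fun w hw => aff_im_pos ha hd b hw
  have hcomp : DifferentiableOn ℂ ((jFun ∘ ofComplex) ∘ fun w : ℂ => (a * w + b) / d)
      {z | 0 < z.im} := hj.comp (by fun_prop) hmap
  refine hcomp.congr fun w hw => ?_
  have hw' : 0 < w.im := hw
  simp only [Function.comp_apply, affJ, affPt]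
  rw [ofComplex_apply_of_im_pos hw']

/-- `N · (γ z) = γ' ((a z + b)/d)`: the translates of `z ↦ jFun (N z)` are the `affJ a d b`. -/
theorem exists_affJ_eq (N : ℕ) [NeZero N] (γ : SL(2, ℤ)) :
    ∃ (a d : ℕ) (b : ℤ), a * d = N ∧ 0 < a ∧ 0 < d ∧ (γ ∉ Gamma0 N → 1 < d) ∧
      ∀ z : ℍ, jFun (ofComplex (N * ((γ • z : ℍ) : ℂ))) = affJ a d b z := by
  obtain ⟨a, d, b, γ', had, ha, hd, hγ, h00, h01, h10, h11⟩ := S22.ConjDef.exists_decomp N γ
  refine ⟨a, d, b, had, ha, hd, hγ, fun z => ?_⟩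
  have key : (N : ℂ) * ((γ • z : ℍ) : ℂ) = ((γ' • affPt a d b z : ℍ) : ℂ) := by
    rw [coe_specialLinearGroup_apply, coe_specialLinearGroup_apply, affPt_coe ha hd]
    have e00 := congrArg (Int.cast : ℤ → ℂ) h00
    have e01 := congrArg (Int.cast : ℤ → ℂ) h01
    have e10 := congrArg (Int.cast : ℤ → ℂ) h10
    have e11 := congrArg (Int.cast : ℤ → ℂ) h11
    push_cast at e00 e01 e10 e11
    have hdC : (d : ℂ) ≠ 0 := by exact_mod_cast hd.ne'
    have hden : ((γ 1 0 : ℤ) : ℂ) * z + ((γ 1 1 : ℤ) : ℂ) ≠ 0 := by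
      have := denom_ne_zero γ z
      simpa [denom] using this
    have hden' : ((γ' 1 0 : ℤ) : ℂ) * ((a * (z : ℂ) + b) / d) + ((γ' 1 1 : ℤ) : ℂ) ≠ 0 := by
      have : ((γ' 1 0 : ℤ) : ℂ) * ((a * (z : ℂ) + b) / d) + ((γ' 1 1 : ℤ) : ℂ) =
          (((γ 1 0 : ℤ) : ℂ) * z + ((γ 1 1 : ℤ) : ℂ)) / d := by
        rw [e10, e11]
        field_simp
        ring
      rw [this]
      exact div_ne_zero hden hdC
    simp only [eq_intCast, Complex.ofReal_intCast]
    rw [mul_div_assoc', div_eq_div_iff hden hden']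
    field_simp
    linear_combination (((γ 1 0 : ℤ) : ℂ) * z + ((γ 1 1 : ℤ) : ℂ)) * (z * e00 + e01)
      - (N : ℂ) * (((γ 0 0 : ℤ) : ℂ) * z + ((γ 0 1 : ℤ) : ℂ)) * (z * e10 + e11)
  rw [key, ofComplex_apply, LevelOneJ.jFun_smul]
  rfl

theorem affJ_bounds {a d : ℕ} (ha : 0 < a) (hd : 0 < d) (b : ℤ) :
    ∃ A : ℝ, 0 < A ∧ ∀ z : ℍ, A ≤ z.im →
      Real.exp (2 * π * (a * z.im / d)) / 2 ≤ ‖affJ a d b z‖ ∧
        ‖affJ a d b z‖ ≤ 2 * Real.exp (2 * π * (a * z.im / d)) := by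
  obtain ⟨A, hA, h⟩ := exists_jFun_bounds
  refine ⟨A * d, by positivity, fun z hz => ?_⟩
  have h1 : A ≤ (affPt a d b z).im := by
    rw [affPt_im ha hd, le_div_iff₀ (by positivity)]
    have h1a : (1 : ℝ) ≤ a := by exact_mod_cast ha
    nlinarith [z.im_pos]
  have := h _ h1
  rwa [affPt_im ha hd] at this

/-- **Distinctness** of the translates of `z ↦ jFun (N z)`. -/
theorem affJ_ne {N a d : ℕ} (had : a * d = N) (ha : 0 < a) (hd : 1 < d) (b : ℤ) :
    affJ a d b ≠ affJ N 1 0 := by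
  intro heq
  have hd0 : 0 < d := by omega
  have hN : 0 < N := by rw [← had]; positivity
  obtain ⟨A1, hA1, h1⟩ := affJ_bounds ha hd0 b
  obtain ⟨A2, hA2, h2⟩ := affJ_bounds hN one_pos 0
  set y : ℝ := A1 + A2 + 1 with hy
  have hy0 : 0 < y := by positivity
  let z : ℍ := ⟨Complex.I * y, by simpa using hy0⟩
  have hz : z.im = y := by
    show (Complex.I * (y : ℂ)).im = y
    simp
  have b1 := (h1 z (by rw [hz]; linarith)).2
  have b2 := (h2 z (by rw [hz]; linarith)).1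
  rw [heq, hz] at b1
  rw [hz] at b2
  have hd2 : (2 : ℝ) ≤ d := by exact_mod_cast hd
  have ha1 : (1 : ℝ) ≤ a := by exact_mod_cast ha
  have hNa : (N : ℝ) = a * d := by rw [← had]; push_cast; ring
  have h3 : (a : ℝ) * y / d ≤ a * y / 2 := by
    apply div_le_div_of_nonneg_left (by positivity) (by norm_num) hd2
  have hpi : (3 : ℝ) < π := Real.pi_gt_three
  have hdiff : 9 ≤ 2 * π * (N * y / (1 : ℕ)) - 2 * π * (a * y / d) := by
    have h4 : (N : ℝ) * y / (1 : ℕ) = a * d * y := by rw [hNa]; simp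
    rw [h4]
    have h5 : (a : ℝ) * d * y - a * y / d ≥ 3 / 2 := by
      have hay : 0 < (a : ℝ) * y := by positivity
      have h6 : (a : ℝ) * d * y ≥ 2 * (a * y) := by
        nlinarith [mul_le_mul_of_nonneg_left hd2 hay.le]
      have h7 : (a : ℝ) * y ≥ 1 := by nlinarith
      linarith
    have : 2 * π * (a * d * y) - 2 * π * (a * y / d) = 2 * π * (a * d * y - a * y / d) := by ring
    rw [this]
    nlinarith
  have hexp : Real.exp (2 * π * (N * y / (1 : ℕ))) =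
      Real.exp (2 * π * (a * y / d)) *
        Real.exp (2 * π * (N * y / (1 : ℕ)) - 2 * π * (a * y / d)) := by
    rw [← Real.exp_add]
    congr 1
    ring
  have hge : (10 : ℝ) ≤ Real.exp (2 * π * (N * y / (1 : ℕ)) - 2 * π * (a * y / d)) := by
    have := Real.add_one_le_exp (2 * π * (N * y / (1 : ℕ)) - 2 * π * (a * y / d))
    linarith
  have hpos : 0 < Real.exp (2 * π * (a * y / d)) := Real.exp_pos _
  nlinarith

/-- `z ↦ jFun (m z)` is invariant under `Γ₀(N)` when `m ∣ N`. -/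
theorem affJ_smul_of_mem {m N : ℕ} (hm : m ∣ N) (hm0 : 0 < m) {g : SL(2, ℤ)}
    (hg : g ∈ Gamma0 N) (z : ℍ) : affJ m 1 0 (g • z) = affJ m 1 0 z := by
  have hdvd : (m : ℤ) ∣ g 1 0 := by
    have h1 : ((g 1 0 : ℤ) : ZMod N) = 0 := Gamma0_mem.mp hg
    have h2 : (N : ℤ) ∣ g 1 0 := (ZMod.intCast_zmod_eq_zero_iff_dvd _ _).mp h1
    exact (Int.natCast_dvd_natCast.mpr hm).trans h2
  obtain ⟨c', hc'⟩ := hdvd
  have hdet : g 0 0 * g 1 1 - g 0 1 * g 1 0 = 1 := by
    have := g.det_coe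
    rwa [Matrix.det_fin_two] at this
  let g' : SL(2, ℤ) := ⟨!![g 0 0, m * g 0 1; c', g 1 1], by
    rw [Matrix.det_fin_two_of]
    rw [hc'] at hdet
    linear_combination hdet⟩
  have key : ((affPt m 1 0 (g • z) : ℍ) : ℂ) = ((g' • affPt m 1 0 z : ℍ) : ℂ) := by
    rw [affPt_coe hm0 one_pos, coe_specialLinearGroup_apply, coe_specialLinearGroup_apply,
      affPt_coe hm0 one_pos]
    have e10 := congrArg (Int.cast : ℤ → ℂ) hc'
    push_cast at e10
    have hden : ((g 1 0 : ℤ) : ℂ) * z + ((g 1 1 : ℤ) : ℂ) ≠ 0 := by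
      have := denom_ne_zero g z
      simpa [denom] using this
    have hg'00 : g' 0 0 = g 0 0 := rfl
    have hg'01 : g' 0 1 = m * g 0 1 := rfl
    have hg'10 : g' 1 0 = c' := rfl
    have hg'11 : g' 1 1 = g 1 1 := rfl
    simp only [eq_intCast, Complex.ofReal_intCast, hg'00, hg'01, hg'10, hg'11]
    have hden' : ((c' : ℤ) : ℂ) * ((m * (z : ℂ) + ((0 : ℤ) : ℂ)) / ((1 : ℕ) : ℂ)) +
        ((g 1 1 : ℤ) : ℂ) = ((g 1 0 : ℤ) : ℂ) * z + ((g 1 1 : ℤ) : ℂ) := by
      rw [e10]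
      push_cast
      ring
    rw [hden']
    push_cast
    field_simp
    ring
  have key' : affPt m 1 0 (g • z) = g' • affPt m 1 0 z := UpperHalfPlane.ext key
  rw [affJ, affJ, key', LevelOneJ.jFun_smul]

/-! ### `Hol`-level statements (on `S24.Defs`) -/

theorem coe_jAff (a d : ℕ) (ha : 0 < a) (hd : 0 < d) (b : ℤ) :
    ((jAff a d ha hd b : Hol) : ℍ → ℂ) = affJ a d b := rfl

theorem coe_jScaled (d : ℕ) (hd : 0 < d) : ((jScaled d hd : Hol) : ℍ → ℂ) = affJ d 1 0 := rfl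

/-- the translates of `z ↦ j (N z)` are of the form `z ↦ j ((a z + b) / d)` with `a d = N`,
and `1 < d` unless the translating matrix is in `Γ₀(N)`. -/
theorem exists_transl_jScaled (N : ℕ) (hN : 0 < N) (g : SL(2, ℤ)) :
    ∃ (a d : ℕ) (ha : 0 < a) (hd : 0 < d) (b : ℤ), a * d = N ∧ (g ∉ Gamma0 N → 1 < d) ∧
      transl g (jScaled N hN) = jAff a d ha hd b := by
  have : NeZero N := ⟨hN.ne'⟩
  obtain ⟨a, d, b, had, ha, hd, hg, h⟩ := exists_affJ_eq N g
  refine ⟨a, d, ha, hd, b, had, hg, Hol.ext fun z => ?_⟩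
  rw [transl_apply, jScaled_apply]
  exact h z

/-- `z ↦ j (m z)` is `Γ₀(N)`-invariant for `m ∣ N`. -/
theorem transl_jScaled_of_mem {m N : ℕ} (hm : m ∣ N) (hm0 : 0 < m) {g : SL(2, ℤ)}
    (hg : g ∈ Gamma0 N) : transl g (jScaled m hm0) = jScaled m hm0 :=
  Hol.ext fun z => affJ_smul_of_mem hm hm0 hg z

theorem jAff_ne_jScaled {N a d : ℕ} (had : a * d = N) (ha : 0 < a) (hd : 1 < d) (hd0 : 0 < d)
    (hN : 0 < N) (b : ℤ) : jAff a d ha hd0 b ≠ jScaled N hN :=
  fun h => affJ_ne had ha hd b (congrArg Subtype.val h)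

/-- `z ↦ j (N z)` is fixed by `g` exactly when `g ∈ Γ₀(N)`. -/
theorem transl_jScaled_eq_iff (N : ℕ) (hN : 0 < N) (g : SL(2, ℤ)) :
    transl g (jScaled N hN) = jScaled N hN ↔ g ∈ Gamma0 N := by
  constructor
  · intro h
    by_contra hg
    obtain ⟨a, d, ha, hd, b, had, hgd, e⟩ := exists_transl_jScaled N hN g
    rw [e] at h
    exact jAff_ne_jScaled had ha (hgd hg) hd hN b h
  · exact fun hg => transl_jScaled_of_mem dvd_rfl hN hg

/-- **Distinctness** of the translates of `z ↦ j (N z)`. -/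
theorem transl_jScaled_eq_transl_iff (N : ℕ) (hN : 0 < N) (g g' : SL(2, ℤ)) :
    transl g (jScaled N hN) = transl g' (jScaled N hN) ↔ g * g'⁻¹ ∈ Gamma0 N := by
  rw [← transl_jScaled_eq_iff N hN (g * g'⁻¹)]
  constructor
  · intro h
    apply transl_injective g'
    rw [← transl_mul, inv_mul_cancel_right, h]
  · intro h
    have := congrArg (transl g') h
    rwa [← transl_mul, inv_mul_cancel_right] at this

/-- the `ℂ`-subalgebra of `Hol` generated by the functions `z ↦ j (d z)`, `d ∣ N`. -/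
def jAlg (N : ℕ) : Subalgebra ℂ Hol :=
  Algebra.adjoin ℂ {h | ∃ (d : ℕ) (hd : 0 < d), d ∣ N ∧ h = jScaled d hd}

theorem jScaled_mem_jAlg {N d : ℕ} (hd : d ∣ N) (hd0 : 0 < d) : jScaled d hd0 ∈ jAlg N :=
  Algebra.subset_adjoin ⟨d, hd0, hd, rfl⟩

theorem jH_eq_jScaled : jH = jScaled 1 one_pos := Hol.ext fun z => by
  rw [jScaled_apply, jH_apply]
  simp

theorem jH_mem_jAlg (N : ℕ) : jH ∈ jAlg N := by
  rw [jH_eq_jScaled]
  exact jScaled_mem_jAlg (one_dvd N) one_pos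

/-- elements of `jAlg N` are `Γ₀(N)`-invariant. -/
theorem transl_of_mem_jAlg {N : ℕ} {θ : Hol} (hθ : θ ∈ jAlg N) {g : SL(2, ℤ)}
    (hg : g ∈ Gamma0 N) : transl g θ = θ := by
  have hle : jAlg N ≤ AlgHom.equalizer (transl g) (AlgHom.id ℂ Hol) := by
    refine Algebra.adjoin_le ?_
    rintro _ ⟨d, hd0, hd, rfl⟩
    exact transl_jScaled_of_mem hd hd0 hg
  exact hle hθ

theorem transl_jH (g : SL(2, ℤ)) : transl g jH = jH :=
  Hol.ext fun z => LevelOneJ.jFun_smul g z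

/-! ### Moderate growth at `i∞` -/

/-- moderate growth at `i∞`: `h · Δⁿ` is bounded at `i∞` for some `n`. -/
def IsModerate (h : ℍ → ℂ) : Prop := ∃ n : ℕ, IsBoundedAtImInfty (fun z => h z * Dl z ^ n)

theorem isBoundedAtImInfty_Dl : IsBoundedAtImInfty Dl := by
  have h := isCF_Dl.zero 1
  rw [SlashAction.slash_one] at h
  exact h.boundedAtFilter

theorem isBoundedAtImInfty_Dl_pow (k : ℕ) : IsBoundedAtImInfty (fun z => Dl z ^ k) := by
  induction k with
  | zero =>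
    simp only [pow_zero]
    exact Filter.const_boundedAtFilter atImInfty (1 : ℂ)
  | succ k ih =>
    have := ih.mul isBoundedAtImInfty_Dl
    refine this.congr' (Eventually.of_forall fun z => ?_) (EventuallyEq.refl _ _)
    simp [pow_succ]

theorem IsModerate.of_le {h : ℍ → ℂ} {n m : ℕ} (hnm : n ≤ m)
    (hb : IsBoundedAtImInfty (fun z => h z * Dl z ^ n)) :
    IsBoundedAtImInfty (fun z => h z * Dl z ^ m) := by
  have := hb.mul (isBoundedAtImInfty_Dl_pow (m - n))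
  refine this.congr' (Eventually.of_forall fun z => ?_) (EventuallyEq.refl _ _)
  simp only [Pi.mul_apply]
  rw [mul_assoc, ← pow_add, Nat.add_sub_cancel' hnm]

theorem IsModerate.mul {h₁ h₂ : ℍ → ℂ} (H₁ : IsModerate h₁) (H₂ : IsModerate h₂) :
    IsModerate (h₁ * h₂) := by
  obtain ⟨n₁, b₁⟩ := H₁
  obtain ⟨n₂, b₂⟩ := H₂
  refine ⟨n₁ + n₂, ?_⟩
  refine (b₁.mul b₂).congr' (Eventually.of_forall fun z => ?_) (EventuallyEq.refl _ _)
  simp only [Pi.mul_apply]
  ring

theorem IsModerate.add {h₁ h₂ : ℍ → ℂ} (H₁ : IsModerate h₁) (H₂ : IsModerate h₂) :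
    IsModerate (h₁ + h₂) := by
  obtain ⟨n₁, b₁⟩ := H₁
  obtain ⟨n₂, b₂⟩ := H₂
  refine ⟨max n₁ n₂, ?_⟩
  have c₁ := IsModerate.of_le (le_max_left n₁ n₂) b₁
  have c₂ := IsModerate.of_le (le_max_right n₁ n₂) b₂
  refine (c₁.add c₂).congr' (Eventually.of_forall fun z => ?_) (EventuallyEq.refl _ _)
  simp only [Pi.add_apply]
  ring

theorem isModerate_const (c : ℂ) : IsModerate (fun _ => c) :=
  ⟨0, by
    simp only [pow_zero, mul_one]
    exact Filter.const_boundedAtFilter atImInfty c⟩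

/-- the subalgebra of holomorphic functions with moderate growth at `i∞`. -/
def modSub : Subalgebra ℂ Hol where
  carrier := {h | IsModerate (h : ℍ → ℂ)}
  mul_mem' := fun ha hb => IsModerate.mul ha hb
  add_mem' := fun ha hb => IsModerate.add ha hb
  algebraMap_mem' := fun c => isModerate_const c

theorem mem_modSub {h : Hol} : h ∈ modSub ↔ IsModerate (h : ℍ → ℂ) := Iff.rfl

theorem exists_Dl_bound : ∃ A : ℝ, 0 < A ∧ ∀ z : ℍ, A ≤ z.im →
    ‖Dl z‖ ≤ 2 * Real.exp (-(2 * π * z.im)) := by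
  have h := tendsto_Dl_mul_exp
  have h1 : ∀ᶠ z : ℍ in atImInfty,
      ‖Dl z * Complex.exp (-(2 * π * Complex.I * z)) - 1‖ < 1 := by
    have := (Metric.tendsto_nhds.mp h) 1 (by norm_num)
    simpa [dist_eq_norm] using this
  obtain ⟨A, hA⟩ := (atImInfty_mem _).mp h1
  refine ⟨max A 1, by positivity, fun z hz => ?_⟩
  have hz' : ‖Dl z * Complex.exp (-(2 * π * Complex.I * z)) - 1‖ < 1 :=
    hA z ((le_max_left _ _).trans hz)
  have hn : ‖Dl z * Complex.exp (-(2 * π * Complex.I * z))‖ =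
      ‖Dl z‖ * Real.exp (2 * π * z.im) := by
    rw [norm_mul, Complex.norm_exp]
    congr 2
    simp [Complex.mul_re, Complex.mul_im]
  have hup : ‖Dl z * Complex.exp (-(2 * π * Complex.I * z))‖ ≤ 2 := by
    have := norm_le_norm_add_norm_sub' (Dl z * Complex.exp (-(2 * π * Complex.I * z))) 1
    rw [norm_one] at this
    linarith
  rw [hn] at hup
  have hpos : 0 < Real.exp (-(2 * π * z.im)) := Real.exp_pos _
  have hmul : Real.exp (2 * π * z.im) * Real.exp (-(2 * π * z.im)) = 1 := by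
    rw [← Real.exp_add]; simp
  calc ‖Dl z‖ = ‖Dl z‖ * Real.exp (2 * π * z.im) * Real.exp (-(2 * π * z.im)) := by
        rw [mul_assoc, hmul, mul_one]
    _ ≤ 2 * Real.exp (-(2 * π * z.im)) := mul_le_mul_of_nonneg_right hup hpos.le

theorem isModerate_affJ {a d : ℕ} (ha : 0 < a) (hd : 0 < d) (b : ℤ) : IsModerate (affJ a d b) := by
  obtain ⟨A₁, hA₁, h₁⟩ := affJ_bounds ha hd b
  obtain ⟨A₂, hA₂, h₂⟩ := exists_Dl_bound
  refine ⟨a, isBoundedAtImInfty_iff.mpr ⟨2 * 2 ^ a, max A₁ A₂, fun z hz => ?_⟩⟩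
  have b₁ := (h₁ z ((le_max_left _ _).trans hz)).2
  have b₂ := h₂ z ((le_max_right _ _).trans hz)
  rw [norm_mul, norm_pow]
  have hy := z.im_pos
  have hd1 : (1 : ℝ) ≤ d := by exact_mod_cast hd
  have hle : (a : ℝ) * z.im / d ≤ a * z.im := div_le_self (by positivity) hd1
  have e1 : ‖Dl z‖ ^ a ≤ 2 ^ a * Real.exp (-(2 * π * (a * z.im))) := by
    calc ‖Dl z‖ ^ a ≤ (2 * Real.exp (-(2 * π * z.im))) ^ a :=
          pow_le_pow_left₀ (norm_nonneg _) b₂ a
      _ = 2 ^ a * Real.exp (-(2 * π * (a * z.im))) := by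
          rw [mul_pow, ← Real.exp_nat_mul]
          congr 2
          ring
  have e2 : Real.exp (2 * π * (a * z.im / d)) ≤ Real.exp (2 * π * (a * z.im)) :=
    Real.exp_le_exp.mpr (by have := Real.pi_pos; nlinarith)
  have e3 : Real.exp (2 * π * (a * z.im)) * Real.exp (-(2 * π * (a * z.im))) = 1 := by
    rw [← Real.exp_add]; simp
  have hp : (0 : ℝ) < Real.exp (-(2 * π * (a * z.im))) := Real.exp_pos _
  calc ‖affJ a d b z‖ * ‖Dl z‖ ^ a
      ≤ (2 * Real.exp (2 * π * (a * z.im))) * (2 ^ a * Real.exp (-(2 * π * (a * z.im)))) :=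
        mul_le_mul (b₁.trans (by linarith)) e1 (by positivity) (by positivity)
    _ = 2 * 2 ^ a * (Real.exp (2 * π * (a * z.im)) * Real.exp (-(2 * π * (a * z.im)))) := by ring
    _ = 2 * 2 ^ a := by rw [e3, mul_one]

theorem jAff_mem_modSub (a d : ℕ) (ha : 0 < a) (hd : 0 < d) (b : ℤ) :
    jAff a d ha hd b ∈ modSub := isModerate_affJ ha hd b

/-- every translate of an element of `jAlg N` has moderate growth at `i∞`. -/
theorem transl_mem_modSub {N : ℕ} {θ : Hol} (hθ : θ ∈ jAlg N) (g : SL(2, ℤ)) :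
    transl g θ ∈ modSub := by
  have hle : jAlg N ≤ modSub.comap (transl g) := by
    refine Algebra.adjoin_le ?_
    rintro _ ⟨d, hd0, hd, rfl⟩
    obtain ⟨a, d', ha, hd', b, -, -, e⟩ := exists_transl_jScaled d hd0 g
    show transl g (jScaled d hd0) ∈ modSub
    rw [e]
    exact jAff_mem_modSub a d' ha hd' b
  exact hle hθ

/-! ### Symmetric functions of `SL(2,ℤ)`-stable families -/

/-- evaluation at a point, as an algebra homomorphism -/
def evalAt (z : ℍ) : Hol →ₐ[ℂ] ℂ := (Pi.evalAlgHom ℂ (fun _ : ℍ => ℂ) z).comp Hol.val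

@[simp] theorem evalAt_apply (z : ℍ) (h : Hol) : evalAt z h = (h : ℍ → ℂ) z := rfl

theorem aeval_jH_apply (p : Polynomial ℂ) (z : ℍ) :
    ((Polynomial.aeval jH p : Hol) : ℍ → ℂ) z = p.eval (jFun z) := by
  rw [← evalAt_apply, ← Polynomial.aeval_algHom_apply, evalAt_apply, jH_apply,
    Polynomial.coe_aeval_eq_eval]

/-- an `SL(2,ℤ)`-invariant holomorphic function of moderate growth is a polynomial in `j`. -/
theorem exists_aeval_jH_eq {h : Hol} (hmod : h ∈ modSub) (hinv : ∀ g : SL(2, ℤ), transl g h = h) :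
    ∃ p : Polynomial ℂ, Polynomial.aeval jH p = h := by
  obtain ⟨n, hn⟩ := hmod
  obtain ⟨p, -, hp⟩ := LevelOneJ.exists_poly_jFun h.2
    (fun g z => by
      have := congrArg (fun f : Hol => (f : ℍ → ℂ) z) (hinv g)
      simpa using this) n hn
  exact ⟨p, Hol.ext fun z => by rw [aeval_jH_apply, hp z]⟩

open Polynomial in
/-- **Symmetric functions.** If a finite family of holomorphic functions of moderate growth is
permuted by every translation, then `∏ (Y - f i)` has coefficients in `ℂ[j]`. -/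
theorem exists_prod_X_sub_C_eq_map {ι : Type*} [Fintype ι] (f : ι → Hol)
    (hmod : ∀ i, f i ∈ modSub)
    (hperm : ∀ g : SL(2, ℤ), ∃ σ : Equiv.Perm ι, ∀ i, transl g (f i) = f (σ i)) :
    ∃ P : (ℂ[X])[X], P.Monic ∧ P.natDegree = Fintype.card ι ∧
      P.map (aeval jH).toRingHom = ∏ i, (X - C (f i)) := by
  classical
  set Q : Hol[X] := ∏ i, (X - C (f i)) with hQ
  have hmonic : Q.Monic := monic_prod_X_sub_C f Finset.univ
  have hdeg : Q.natDegree = Fintype.card ι := by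
    rw [hQ, natDegree_finsetProd_X_sub_C_eq_card]
    rfl
  have hinv : ∀ g : SL(2, ℤ), Q.map (transl g).toRingHom = Q := by
    intro g
    obtain ⟨σ, hσ⟩ := hperm g
    rw [hQ, Polynomial.map_prod]
    have : ∀ i, ((X - C (f i) : Hol[X])).map (transl g).toRingHom = X - C (f (σ i)) := by
      intro i
      rw [Polynomial.map_sub, map_X, map_C]
      congr 2
      exact hσ i
    simp only [this]
    exact Equiv.prod_comp σ (fun i => (X - C (f i) : Hol[X]))
  have hcoeff_inv : ∀ (n : ℕ) (g : SL(2, ℤ)), transl g (Q.coeff n) = Q.coeff n := by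
    intro n g
    have := congrArg (fun p : Hol[X] => p.coeff n) (hinv g)
    simpa [coeff_map] using this
  have hcoeff_mod : ∀ n : ℕ, Q.coeff n ∈ modSub := by
    have hQl : Q ∈ lifts modSub.val.toRingHom := by
      rw [hQ]
      refine Subsemiring.prod_mem _ fun i _ => ?_
      have e : (X - C (f i) : Hol[X]) = X + C (-(f i)) :=
        (sub_eq_add_neg _ _).trans (congrArg (fun t => X + t) C_neg.symm)
      rw [e]
      refine Subsemiring.add_mem _ (X_mem_lifts _) ?_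
      exact C_mem_lifts modSub.val.toRingHom ⟨-(f i), neg_mem (hmod i)⟩
    intro n
    obtain ⟨r, hr⟩ := (lifts_iff_coeff_lifts Q).mp hQl n
    rw [← hr]
    exact r.2
  have hl : Q ∈ lifts (aeval jH : ℂ[X] →ₐ[ℂ] Hol).toRingHom := by
    rw [lifts_iff_coeff_lifts]
    intro n
    obtain ⟨p, hp⟩ := exists_aeval_jH_eq (hcoeff_mod n) (hcoeff_inv n)
    exact ⟨p, hp⟩
  obtain ⟨P, hP, hPdeg, hPm⟩ := lifts_and_degree_eq_and_monic hl hmonic
  exact ⟨P, hPm, by rw [← hdeg]; exact natDegree_eq_natDegree hPdeg, hP⟩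

/-! ### The conjugates of an element of `jAlg N` -/

/-- the conjugate `θ ↦ θ ∘ g⁻¹` of `jAlg N`, indexed by the coset `g Γ₀(N)`. -/
noncomputable def conjHom (N : ℕ) (q : SL(2, ℤ) ⧸ Gamma0 N) : jAlg N →ₐ[ℂ] Hol :=
  Quotient.liftOn' q (fun g => (transl g⁻¹).comp (jAlg N).val) (by
    intro g g' h
    rw [QuotientGroup.leftRel_apply] at h
    refine AlgHom.ext fun θ => ?_
    show transl g⁻¹ (θ : Hol) = transl g'⁻¹ (θ : Hol)
    have e : g'⁻¹ = (g⁻¹ * g')⁻¹ * g⁻¹ := by group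
    rw [e, transl_mul, transl_of_mem_jAlg θ.2 (inv_mem h)])

theorem conjHom_mk (N : ℕ) (g : SL(2, ℤ)) (θ : jAlg N) :
    conjHom N (g : SL(2, ℤ) ⧸ Gamma0 N) θ = transl g⁻¹ (θ : Hol) := rfl

theorem conjHom_one (N : ℕ) (θ : jAlg N) :
    conjHom N ((1 : SL(2, ℤ)) : SL(2, ℤ) ⧸ Gamma0 N) θ = θ := by
  rw [conjHom_mk, inv_one, transl_one]

theorem transl_conjHom (N : ℕ) (h : SL(2, ℤ)) (q : SL(2, ℤ) ⧸ Gamma0 N) (θ : jAlg N) :
    transl h (conjHom N q θ) = conjHom N (h⁻¹ • q) θ := by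
  induction q using QuotientGroup.induction_on with
  | _ g =>
    rw [MulAction.Quotient.smul_mk, conjHom_mk, conjHom_mk, ← transl_mul, smul_eq_mul,
      _root_.mul_inv_rev, inv_inv]

theorem conjHom_mem_modSub (N : ℕ) (q : SL(2, ℤ) ⧸ Gamma0 N) (θ : jAlg N) :
    conjHom N q θ ∈ modSub := by
  induction q using QuotientGroup.induction_on with
  | _ g => exact transl_mem_modSub θ.2 g⁻¹

/-- the conjugates of `z ↦ j (N z)` are pairwise distinct. -/
theorem conjHom_jScaled_injective (N : ℕ) (hN : 0 < N) :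
    Function.Injective fun q : SL(2, ℤ) ⧸ Gamma0 N =>
      conjHom N q ⟨jScaled N hN, jScaled_mem_jAlg dvd_rfl hN⟩ := by
  intro q q' h
  induction q using QuotientGroup.induction_on with
  | _ g =>
    induction q' using QuotientGroup.induction_on with
    | _ g' =>
      simp only [conjHom_mk] at h
      rw [transl_jScaled_eq_transl_iff, inv_inv] at h
      exact QuotientGroup.eq.mpr h

open Polynomial in
/-- **The characteristic polynomial** of `θ ∈ jAlg N` over `ℂ[j]`: the product of `Y - θ'` over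
the conjugates `θ'` of `θ` has coefficients in `ℂ[j]`. -/
theorem exists_conj_poly (N : ℕ) [Fintype (SL(2, ℤ) ⧸ Gamma0 N)] (θ : jAlg N) :
    ∃ P : (ℂ[X])[X], P.Monic ∧ P.natDegree = Fintype.card (SL(2, ℤ) ⧸ Gamma0 N) ∧
      P.map (aeval jH).toRingHom = ∏ q : SL(2, ℤ) ⧸ Gamma0 N, (X - C (conjHom N q θ)) :=
  exists_prod_X_sub_C_eq_map (fun q => conjHom N q θ) (fun q => conjHom_mem_modSub N q θ)
    (fun h => ⟨MulAction.toPerm h⁻¹, fun q => transl_conjHom N h q θ⟩)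

open Polynomial in
/-- every `θ ∈ jAlg N` is a root of a monic polynomial of degree `[SL(2,ℤ) : Γ₀(N)]` over
`ℂ[j]`. -/
theorem exists_monic_root (N : ℕ) [NeZero N] {θ : Hol} (hθ : θ ∈ jAlg N) :
    ∃ P : (ℂ[X])[X], P.Monic ∧ P.natDegree = Nat.card (SL(2, ℤ) ⧸ Gamma0 N) ∧
      (P.map (aeval jH).toRingHom).eval θ = 0 := by
  classical
  let _ : Fintype (SL(2, ℤ) ⧸ Gamma0 N) := Subgroup.fintypeQuotientOfFiniteIndex
  obtain ⟨P, hP, hdeg, hmap⟩ := exists_conj_poly N ⟨θ, hθ⟩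
  refine ⟨P, hP, by rw [hdeg, Nat.card_eq_fintype_card], ?_⟩
  rw [hmap, eval_prod]
  refine Finset.prod_eq_zero (Finset.mem_univ ((1 : SL(2, ℤ)) : SL(2, ℤ) ⧸ Gamma0 N)) ?_
  rw [conjHom_one]
  rw [eval_sub, eval_X, eval_C, sub_self]

/-! ### Function-level interface for `Norm.lean` -/

theorem affJ_one_zero (m : ℕ) (z : ℍ) : affJ m 1 0 z = jFun (ofComplex (m * (z : ℂ))) := by
  simp [affJ, affPt]

/-- moderate growth at `i∞` (same as `IsModerate`). -/
def Moderate (h : ℍ → ℂ) : Prop := ∃ n : ℕ, IsBoundedAtImInfty (fun z => h z * Dl z ^ n)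

theorem Moderate.add {h₁ h₂ : ℍ → ℂ} (H₁ : Moderate h₁) (H₂ : Moderate h₂) :
    Moderate (h₁ + h₂) := IsModerate.add H₁ H₂

theorem Moderate.mul {h₁ h₂ : ℍ → ℂ} (H₁ : Moderate h₁) (H₂ : Moderate h₂) :
    Moderate (h₁ * h₂) := IsModerate.mul H₁ H₂

theorem moderate_const (c : ℂ) : Moderate (fun _ => c) := isModerate_const c

/-- (R1) `z ↦ j (m z)` is `Γ₀(m)`-invariant. -/
theorem jFun_scale_smul_of_mem (m : ℕ) (hm : 0 < m) (g : SL(2, ℤ)) (hg : g ∈ Gamma0 m) (z : ℍ) :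
    jFun (ofComplex (m * ((g • z : ℍ) : ℂ))) = jFun (ofComplex (m * (z : ℂ))) := by
  rw [← affJ_one_zero, ← affJ_one_zero]
  exact affJ_smul_of_mem dvd_rfl hm hg z

/-- (R1') `z ↦ j (m z)` is `Γ₀(N)`-invariant for `m ∣ N`. -/
theorem jFun_scale_smul_of_mem' {m N : ℕ} (hmN : m ∣ N) (hm : 0 < m) (g : SL(2, ℤ))
    (hg : g ∈ Gamma0 N) (z : ℍ) :
    jFun (ofComplex (m * ((g • z : ℍ) : ℂ))) = jFun (ofComplex (m * (z : ℂ))) := by
  rw [← affJ_one_zero, ← affJ_one_zero]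
  exact affJ_smul_of_mem hmN hm hg z

/-- (R2) `z ↦ j (N z)` is not invariant under any `g ∉ Γ₀(N)`. -/
theorem exists_jFun_scale_smul_ne (N : ℕ) [NeZero N] (g : SL(2, ℤ)) (hg : g ∉ Gamma0 N) :
    ∃ z : ℍ, jFun (ofComplex (N * ((g • z : ℍ) : ℂ))) ≠ jFun (ofComplex (N * (z : ℂ))) := by
  by_contra hcon
  push Not at hcon
  obtain ⟨a, d, b, had, ha, -, hd, h⟩ := exists_affJ_eq N g
  refine affJ_ne had ha (hd hg) b (funext fun z => ?_)
  rw [← h z, hcon z, affJ_one_zero]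

/-- (R3) the translates of `z ↦ j (m z)` have moderate growth at `i∞`. -/
theorem moderate_jFun_scale_smul (m : ℕ) (hm : 0 < m) (g : SL(2, ℤ)) :
    Moderate (fun z : ℍ => jFun (ofComplex (m * ((g • z : ℍ) : ℂ)))) := by
  have : NeZero m := ⟨hm.ne'⟩
  obtain ⟨a, d, b, -, ha, hd, -, h⟩ := exists_affJ_eq m g
  have e : (fun z : ℍ => jFun (ofComplex (m * ((g • z : ℍ) : ℂ)))) = affJ a d b := funext h
  rw [e]
  exact isModerate_affJ ha hd b

open Polynomial in
theorem evalAt_comp_aeval_jH (z : ℍ) :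
    (evalAt z).toRingHom.comp (aeval jH : ℂ[X] →ₐ[ℂ] Hol).toRingHom = evalRingHom (jFun z) := by
  refine Polynomial.ringHom_ext (fun c => ?_) ?_
  · simp [evalAt]
  · simp [evalAt]

open Polynomial in
/-- (R4, factorised form) symmetric functions of an `SL(2,ℤ)`-stable finite family of
holomorphic functions of moderate growth are polynomials in `j`. -/
theorem exists_monic_prod_eq {ι : Type*} [Fintype ι] (f : ι → ℍ → ℂ) (hf : ∀ i, MDiff (f i))
    (hmod : ∀ i, Moderate (f i))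
    (hperm : ∀ g : SL(2, ℤ), ∃ σ : Equiv.Perm ι, ∀ i z, f i (g • z) = f (σ i) z) :
    ∃ P : (ℂ[X])[X], P.Monic ∧ P.natDegree = Fintype.card ι ∧
      ∀ z, P.map (evalRingHom (jFun z)) = ∏ i, (X - C (f i z)) := by
  obtain ⟨P, hP, hdeg, hmap⟩ := exists_prod_X_sub_C_eq_map (fun i => (⟨f i, hf i⟩ : Hol))
    (fun i => hmod i)
    (fun g => by
      obtain ⟨σ, hσ⟩ := hperm g
      exact ⟨σ, fun i => Hol.ext fun z => hσ i z⟩)
  refine ⟨P, hP, hdeg, fun z => ?_⟩
  have h := congrArg (Polynomial.map (evalAt z).toRingHom) hmap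
  rw [Polynomial.map_map, evalAt_comp_aeval_jH, Polynomial.map_prod] at h
  rw [h]
  refine Finset.prod_congr rfl fun i _ => ?_
  rw [Polynomial.map_sub, map_X, map_C]
  rfl

open Polynomial in
/-- (R4) every member of an `SL(2,ℤ)`-stable finite family of holomorphic functions of moderate
growth is a root of a monic polynomial over `ℂ[j]` of degree the size of the family. -/
theorem exists_monic_annihilator {ι : Type*} [Fintype ι] (f : ι → ℍ → ℂ) (hf : ∀ i, MDiff (f i))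
    (hmod : ∀ i, Moderate (f i))
    (hperm : ∀ g : SL(2, ℤ), ∃ σ : Equiv.Perm ι, ∀ i z, f i (g • z) = f (σ i) z) :
    ∃ P : Polynomial (Polynomial ℂ), P.Monic ∧ P.natDegree = Fintype.card ι ∧
      ∀ i z, (P.map (Polynomial.evalRingHom (jFun z))).eval (f i z) = 0 := by
  obtain ⟨P, hP, hdeg, h⟩ := exists_monic_prod_eq f hf hmod hperm
  refine ⟨P, hP, hdeg, fun i z => ?_⟩
  rw [h z, eval_prod]
  refine Finset.prod_eq_zero (Finset.mem_univ i) ?_
  rw [eval_sub, eval_X, eval_C, sub_self]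

end NormAn

end Fermat.Agent.S24
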