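import Fermat.Agent.S24.CuspExp

/-!
# S24: orders at the cusp of `Δ` and `j` in `q_h`

* `order_DlSeries` : the `q_h`-expansion of `Δ` has order `h`.
* `isMeroInf_jFun`, `order_laurent_jFun` : `j` is meromorphic at `i∞` and its `q_N`-expansion has
  order `-N`.
-/

open UpperHalfPlane ModularForm Filter Function
open scoped MatrixGroups ModularForm Manifold Topology Real

open HahnSeries WithZero

namespace Fermat.Agent.S24.CuspOrd

open Fermat.Agent.S20 Fermat.Agent.S24.Bridge Fermat.Agent.S24.CuspExp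

/-- the order of a Laurent series from its first nonzero coefficient. -/
theorem order_eq_of_coeff {k : Type*} [Field k] {x : LaurentSeries k} {n : ℤ}
    (hn : x.coeff n ≠ 0) (hlt : ∀ m < n, x.coeff m = 0) : x.order = n := by
  have hx : x ≠ 0 := fun h0 => hn (by rw [h0]; rfl)
  refine le_antisymm (order_le_of_coeff_ne_zero hn) ?_
  by_contra hcon
  rw [not_le] at hcon
  exact (coeff_order_eq_zero.not.mpr hx) (hlt _ hcon)

theorem coeff_eq_zero_of_lt_order {k : Type*} [Field k] {x : LaurentSeries k} {m : ℤ}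
    (hm : m < x.order) : x.coeff m = 0 := by
  by_contra h
  exact absurd (order_le_of_coeff_ne_zero h) (not_le.mpr hm)

theorem order_ofPowerSeries_eq {P : PowerSeries ℂ} (n : ℕ) (hn : PowerSeries.coeff n P ≠ 0)
    (hlt : ∀ j < n, PowerSeries.coeff j P = 0) : (ofPowerSeries ℤ ℂ P).order = n := by
  apply order_eq_of_coeff
  · rw [show (ofPowerSeries ℤ ℂ P) = (P : LaurentSeries ℂ) from rfl, PowerSeries.coeff_coe,
      if_neg (by omega)]
    simpa using hn
  · intro m hm
    rw [show (ofPowerSeries ℤ ℂ P) = (P : LaurentSeries ℂ) from rfl, PowerSeries.coeff_coe]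
    split_ifs with h0
    · rfl
    · have h1 : m.natAbs < n := by omega
      exact hlt _ h1

/-- the order of `qExpand N x`. -/
theorem order_qExpand {k : Type*} [Field k] (N : ℕ) [NeZero N] {x : LaurentSeries k}
    (hx : x ≠ 0) : (ModularCurve.qExpand k N x).order = (N : ℤ) * x.order := by
  have hN : (0 : ℤ) < (N : ℤ) := by exact_mod_cast Nat.pos_of_ne_zero (NeZero.ne N)
  apply order_eq_of_coeff
  · rw [ModularCurve.qExpand_coeff_mul]
    exact coeff_order_eq_zero.not.mpr hx
  · intro m hm
    by_cases hdvd : (N : ℤ) ∣ m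
    · obtain ⟨c, rfl⟩ := hdvd
      rw [ModularCurve.qExpand_coeff_mul]
      exact coeff_eq_zero_of_lt_order (lt_of_mul_lt_mul_left hm hN.le)
    · exact ModularCurve.qExpand_coeff_of_not_dvd N x hdvd

/-- the constant `q`-coefficient of a bounded function with a limit at `i∞`. -/
theorem qExpansion_coeff_zero_of_tendsto {h : ℕ} [NeZero h] {f : ℍ → ℂ} (hf : IsHolBdd h f)
    {c : ℂ} (hc : Tendsto f atImInfty (𝓝 c)) : (qExpansion h f).coeff 0 = c := by
  rw [qExpansion_coeff_zero (pos_cast h) hf.analytic (Bridge.periodic_comp_ofComplex hf.per)]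
  exact hc.limUnder_eq

theorem order_ofPowerSeries_of_tendsto {h : ℕ} [NeZero h] {f : ℍ → ℂ} (hf : IsHolBdd h f)
    {c : ℂ} (hc0 : c ≠ 0) (hc : Tendsto f atImInfty (𝓝 c)) :
    (ofPowerSeries ℤ ℂ (qExpansion h f)).order = 0 := by
  have := order_ofPowerSeries_eq (P := qExpansion h f) 0
    (by rw [qExpansion_coeff_zero_of_tendsto hf hc]; exact hc0) (fun j hj => absurd hj (by omega))
  simpa using this

/-- the first two `q`-coefficients of `Δ`. -/
theorem qExpansion_Dl_coeff_zero : (qExpansion 1 Dl).coeff 0 = 0 := by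
  have h := qExpansion_coeff_zero_of_tendsto (h := 1) (isHolBdd_Dl 1) (c := 0)
    (by
      have := ModularForm.discriminant_isZeroAtImInfty
      exact this)
  exact_mod_cast h

theorem qExpansion_Dl_coeff_one : (qExpansion 1 Dl).coeff 1 = 1 := by
  have hF : AnalyticAt ℂ (cuspFunction 1 Dl) 0 := by
    have := (isHolBdd_Dl 1).analytic
    exact_mod_cast this
  have hper : Periodic (Dl ∘ ofComplex) (1 : ℝ) := by
    have := Bridge.periodic_comp_ofComplex (isHolBdd_Dl 1).per
    exact_mod_cast this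
  have h0 : cuspFunction 1 Dl 0 = 0 := by
    have h1 := qExpansion_Dl_coeff_zero
    rw [qExpansion_coeff] at h1
    simpa using h1
  rw [qExpansion_coeff]
  simp only [Nat.factorial_one, Nat.cast_one, inv_one, one_mul, iteratedDeriv_one]
  have hd : HasDerivAt (cuspFunction 1 Dl) (deriv (cuspFunction 1 Dl) 0) 0 :=
    hF.differentiableAt.hasDerivAt
  have hslope := hasDerivAt_iff_tendsto_slope.mp hd
  have hq : Tendsto (fun z : ℍ => Periodic.qParam 1 (z : ℂ)) atImInfty (𝓝[≠] 0) :=
    (Periodic.qParam_tendsto (h := 1) one_pos).comp tendsto_coe_atImInfty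
  have h2 := hslope.comp hq
  have h3 : (slope (cuspFunction 1 Dl) 0 ∘ fun z : ℍ => Periodic.qParam 1 (z : ℂ)) =
      fun z : ℍ => Dl z / Periodic.qParam 1 (z : ℂ) := by
    funext z
    simp only [comp_apply, slope, sub_zero, vsub_eq_sub, h0, smul_eq_mul]
    rw [eq_cuspFunction z one_ne_zero hper, div_eq_inv_mul]
  rw [h3] at h2
  exact tendsto_nhds_unique h2 tendsto_Dl_div_q

theorem order_DlSeries_one : (DlSeries 1).order = 1 := by
  have := order_ofPowerSeries_eq (P := qExpansion 1 Dl) 1
    (by rw [qExpansion_Dl_coeff_one]; exact one_ne_zero)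
    (fun j hj => by
      have : j = 0 := by omega
      subst this
      exact qExpansion_Dl_coeff_zero)
  simpa [DlSeries] using this

/-- the `q_h`-expansion of `Δ` has order `h`. -/
theorem order_DlSeries (h : ℕ) [NeZero h] : (DlSeries h).order = h := by
  have h1 := DlSeries_width 1 h
  rw [one_mul] at h1
  rw [h1, order_qExpand h (DlSeries_ne_zero 1), order_DlSeries_one, mul_one]

theorem jFun_vadd (h : ℕ) (z : ℍ) : jFun ((h : ℝ) +ᵥ z) = jFun z := by
  have := jFun_smul (ModularGroup.T ^ (h : ℤ)) z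
  rwa [UpperHalfPlane.modular_T_zpow_smul, Int.cast_natCast] at this

/-- `j` is meromorphic at `i∞` (for every width). -/
theorem isMeroInf_jFun (h : ℕ) : IsMeroInf h jFun :=
  ⟨mdiff_jFun, jFun_vadd h, 1, by simpa using isBoundedAtImInfty_jFun_mul_Dl⟩

/-- the `q_N`-expansion of `j` has order `-N`. -/
theorem order_laurent_jFun (N : ℕ) [NeZero N] : (laurent N jFun).order = -(N : ℤ) := by
  have hb : IsBoundedAtImInfty (fun z => jFun z * Dl z ^ 1) := by
    simpa using isBoundedAtImInfty_jFun_mul_Dl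
  have e1 := laurent_mul_pow (isMeroInf_jFun N) 1 hb
  have hE : IsHolBdd N (fun z => jFun z * Dl z ^ 1) := (isMeroInf_jFun N).isHolBdd hb
  have hlim : Tendsto (fun z => jFun z * Dl z ^ 1) atImInfty (𝓝 1) := by
    have h1 : (fun z => jFun z * Dl z ^ 1) = fun z => E4 z ^ 3 := by
      funext z
      rw [pow_one, jFun_mul_Dl]
    rw [h1]
    simpa using tendsto_E4.pow 3
  have e2 := order_ofPowerSeries_of_tendsto hE one_ne_zero hlim
  rw [← e1, pow_one] at e2
  have hL : laurent N jFun ≠ 0 := by
    rw [Ne, laurent_eq_zero_iff (isMeroInf_jFun N)]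
    intro h0
    obtain ⟨z, hz⟩ := jFun_surjective 1
    rw [h0] at hz
    exact zero_ne_one hz
  rw [order_mul hL (DlSeries_ne_zero N), order_DlSeries] at e2
  omega

end Fermat.Agent.S24.CuspOrd
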