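import Fermat.Agent.S24.Defs
import Fermat.Agent.S24.Bridge.Laurent

/-!
# S24: expansions at the cusps (width `h`), shift by `T`, and the cusp valuations

* `twist ζ` : the ring automorphism `X ↦ ζ X` of `LaurentSeries k`; `ordVal` : the valuation
  `exp (- order)` on Laurent series.
* `IsMeroInf.shift`, `laurent_shift` : the Laurent expansion in `q_h` of `z ↦ f (z + 1)` is the
  twist by `exp (2 π i / h)` of the expansion of `f`.
* `merInf h` : the subfield of `Mer` of fractions of `h`-periodic holomorphic functions that are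
  meromorphic at `i∞`; `laurentM h : merInf h →+* LaurentSeries ℂ`.
-/

open UpperHalfPlane ModularForm Filter Function
open scoped MatrixGroups ModularForm Manifold Topology Real

open HahnSeries WithZero

namespace Fermat.Agent.S24.CuspExp

variable {k : Type*} [Field k]

/-- `twist ζ` multiplies the coefficient of `X ^ n` by `ζ ^ n` (substitution `X ↦ ζ X`). -/
noncomputable def twist (ζ : kˣ) : LaurentSeries k →+* LaurentSeries k where
  toFun x := ⟨fun n => ((ζ ^ n : kˣ) : k) * x.coeff n, x.isPWO_support.mono (fun n hn => by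
    simp only [Function.mem_support, ne_eq, mul_eq_zero, Units.ne_zero, false_or] at hn
    exact hn)⟩
  map_zero' := by ext n; simp
  map_one' := by
    ext n
    simp only [coeff_one]
    split_ifs with h
    · subst h; simp
    · simp
  map_add' x y := by ext n; simp [mul_add]
  map_mul' x y := by
    ext a
    simp only [coeff_mul]
    rw [Finset.mul_sum]
    have hζ : ∀ n : ℤ, (ζ : k) ^ n ≠ 0 := fun n => zpow_ne_zero n ζ.ne_zero
    refine Finset.sum_congr ?_ ?_
    · ext ij
      simp only [Finset.mem_antidiagonal, HahnSeries.mem_support]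
      simp [hζ]
    · intro ij hij
      have hsum : ij.1 + ij.2 = a := (Finset.mem_antidiagonal.mp hij).2.2
      rw [← hsum, zpow_add, Units.val_mul]
      ring

@[simp] theorem twist_coeff (ζ : kˣ) (x : LaurentSeries k) (n : ℤ) :
    (twist ζ x).coeff n = ((ζ ^ n : kˣ) : k) * x.coeff n := rfl

theorem twist_support (ζ : kˣ) (x : LaurentSeries k) : (twist ζ x).support = x.support := by
  have hζ : ∀ n : ℤ, (ζ : k) ^ n ≠ 0 := fun n => zpow_ne_zero n ζ.ne_zero
  ext n
  simp [hζ]

theorem twist_eq_zero_iff (ζ : kˣ) (x : LaurentSeries k) : twist ζ x = 0 ↔ x = 0 := by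
  constructor
  · intro h
    ext n
    have hζ : ∀ n : ℤ, (ζ : k) ^ n ≠ 0 := fun n => zpow_ne_zero n ζ.ne_zero
    have := congrArg (fun y : LaurentSeries k => y.coeff n) h
    simpa [hζ] using this
  · rintro rfl
    exact map_zero _

theorem twist_order (ζ : kˣ) (x : LaurentSeries k) : (twist ζ x).order = x.order := by
  by_cases hx : x = 0
  · subst hx; simp
  · have hx' : twist ζ x ≠ 0 := fun h => hx ((twist_eq_zero_iff ζ x).mp h)
    rw [order_of_ne hx', order_of_ne hx]
    congr 1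
    exact twist_support ζ x

theorem twist_mul_apply (ζ ξ : kˣ) (x : LaurentSeries k) : twist (ζ * ξ) x = twist ζ (twist ξ x) := by
  ext n
  simp only [twist_coeff, mul_zpow, Units.val_mul]
  ring

theorem twist_one_apply (x : LaurentSeries k) : twist (1 : kˣ) x = x := by
  ext n
  simp

theorem twist_pow_apply (ζ : kˣ) (m : ℕ) (x : LaurentSeries k) :
    twist (ζ ^ m) x = (twist ζ)^[m] x := by
  induction m with
  | zero => simp [twist_one_apply]
  | succ m ih =>
    rw [pow_succ', twist_mul_apply, ih, Function.iterate_succ_apply']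

theorem twist_C (ζ : kˣ) (c : k) : twist ζ (C c : LaurentSeries k) = C c := by
  ext n
  simp only [twist_coeff, C_apply, coeff_single]
  split_ifs with h
  · subst h; simp
  · simp

/-- if `twist ζ x = x` then the support of `x` consists of exponents `n` with `ζ ^ n = 1`. -/
theorem zpow_eq_one_of_twist_eq {ζ : kˣ} {x : LaurentSeries k} (h : twist ζ x = x) {n : ℤ}
    (hn : x.coeff n ≠ 0) : ζ ^ n = 1 := by
  have := congrArg (fun y : LaurentSeries k => y.coeff n) h
  simp only [twist_coeff] at this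
  have h2 : ((ζ ^ n : kˣ) : k) = 1 := by
    have h3 : (((ζ ^ n : kˣ) : k) - 1) * x.coeff n = 0 := by rw [sub_mul, this, one_mul, sub_self]
    rcases mul_eq_zero.mp h3 with h4 | h4
    · exact sub_eq_zero.mp h4
    · exact absurd h4 hn
  exact Units.ext h2

theorem zpow_order_eq_one_of_twist_eq {ζ : kˣ} {x : LaurentSeries k} (h : twist ζ x = x)
    (hx : x ≠ 0) : ζ ^ x.order = 1 :=
  zpow_eq_one_of_twist_eq h (fun h0 => hx (coeff_order_eq_zero.mp h0))

open Classical in
/-- the valuation `exp (- order)` on Laurent series. -/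
noncomputable def ordVal : Valuation (LaurentSeries k) ℤᵐ⁰ where
  toFun x := if x = 0 then 0 else exp (-x.order)
  map_zero' := by simp
  map_one' := by simp
  map_mul' x y := by
    by_cases hx : x = 0
    · simp [hx]
    by_cases hy : y = 0
    · simp [hy]
    simp only [hx, hy, mul_ne_zero hx hy, if_false, order_mul hx hy, ← exp_add]
    congr 1
    ring
  map_add_le_max' x y := by
    by_cases hx : x = 0
    · simp [hx]
    by_cases hy : y = 0
    · simp [hy]
    by_cases hxy : x + y = 0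
    · simp [hxy]
    simp only [hx, hy, hxy, if_false, le_max_iff, exp_le_exp, neg_le_neg_iff]
    have := min_order_le_order_add hxy
    rcases min_le_iff.mp this with h | h
    · exact Or.inl h
    · exact Or.inr h

open Classical in
theorem ordVal_apply {x : LaurentSeries k} (hx : x ≠ 0) : ordVal x = exp (-x.order) := by
  show (if x = 0 then 0 else exp (-x.order)) = _
  rw [if_neg hx]

theorem ordVal_twist (ζ : kˣ) (x : LaurentSeries k) : ordVal (twist ζ x) = ordVal x := by
  by_cases hx : x = 0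
  · subst hx; simp
  · have hx' : twist ζ x ≠ 0 := fun h => hx ((twist_eq_zero_iff ζ x).mp h)
    rw [ordVal_apply hx, ordVal_apply hx', twist_order]

theorem ordVal_C {c : k} (hc : c ≠ 0) : ordVal (C c : LaurentSeries k) = 1 := by
  have h : (C c : LaurentSeries k) ≠ 0 := by
    intro h0
    have := congrArg (fun y : LaurentSeries k => y.coeff 0) h0
    simp at this
    exact hc this
  rw [ordVal_apply h]
  have : (C c : LaurentSeries k).order = 0 := order_C
  rw [this]
  simp


/-! ### the shift `z ↦ z + 1` at function level -/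

open Fermat.Agent.S20 Fermat.Agent.S24.Bridge

/-- `exp (2 π i / h)` as a unit of `ℂ`. -/
noncomputable def rootUnit (h : ℕ) : ℂˣ :=
  Units.mk0 (Complex.exp (2 * π * Complex.I / h)) (Complex.exp_ne_zero _)

@[simp] theorem rootUnit_val (h : ℕ) :
    ((rootUnit h : ℂˣ) : ℂ) = Complex.exp (2 * π * Complex.I / h) := rfl

theorem rootUnit_pow_self (h : ℕ) [NeZero h] : rootUnit h ^ h = 1 := by
  apply Units.ext
  rw [Units.val_pow_eq_pow_val, rootUnit_val, ← Complex.exp_nat_mul, Units.val_one]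
  have hh : (h : ℂ) ≠ 0 := Nat.cast_ne_zero.mpr (NeZero.ne h)
  rw [mul_div_cancel₀ _ hh]
  exact Complex.exp_two_pi_mul_I

theorem rootUnit_zpow_eq_one_iff (h : ℕ) [NeZero h] (n : ℤ) :
    rootUnit h ^ n = 1 ↔ (h : ℤ) ∣ n := by
  have hh : (h : ℂ) ≠ 0 := Nat.cast_ne_zero.mpr (NeZero.ne h)
  constructor
  · intro hn
    have h1 : ((rootUnit h ^ n : ℂˣ) : ℂ) = 1 := by rw [hn]; rfl
    rw [Units.val_zpow_eq_zpow_val, rootUnit_val, ← Complex.exp_int_mul,
      Complex.exp_eq_one_iff] at h1
    obtain ⟨m, hm⟩ := h1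
    refine ⟨m, ?_⟩
    have h2 : (n : ℂ) = (h : ℂ) * m := by
      have h3 : (2 * π * Complex.I : ℂ) ≠ 0 := Complex.two_pi_I_ne_zero
      field_simp at hm
      linear_combination hm
    exact_mod_cast h2
  · rintro ⟨m, rfl⟩
    rw [zpow_mul, zpow_natCast, rootUnit_pow_self, one_zpow]

/-- `h`-periodicity on `ℍ` gives periodicity of `F ∘ ofComplex`. -/
theorem periodic_comp_ofComplex {h : ℝ} {F : ℍ → ℂ} (hper : ∀ z : ℍ, F (h +ᵥ z) = F z) :
    Periodic (F ∘ ofComplex) h := by
  intro w
  by_cases hw : 0 < w.im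
  · have hw' : 0 < (w + (h : ℂ)).im := by simpa using hw
    simp only [comp_apply, ofComplex_apply_of_im_pos hw', ofComplex_apply_of_im_pos hw]
    rw [← hper ⟨w, hw⟩]
    congr 1
    ext
    simp [add_comm]
  · have hw0 : w.im ≤ 0 := not_lt.mp hw
    have hw' : (w + (h : ℂ)).im ≤ 0 := by simpa using hw0
    simp only [comp_apply]
    rw [ofComplex_apply_of_im_nonpos hw', ofComplex_apply_of_im_nonpos hw0]

theorem mdiff_comp_vadd {F : ℍ → ℂ} (hF : MDiff F) (t : ℝ) : MDiff (fun z : ℍ => F (t +ᵥ z)) := by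
  intro z
  rw [UpperHalfPlane.mdifferentiableAt_iff]
  have h1 : DifferentiableAt ℂ (F ∘ ofComplex) ((z : ℂ) + t) := by
    have := UpperHalfPlane.mdifferentiableAt_iff.mp (hF (t +ᵥ z))
    rwa [UpperHalfPlane.coe_vadd, add_comm] at this
  have h2 : DifferentiableAt ℂ (fun w : ℂ => w + (t : ℂ)) (z : ℂ) :=
    differentiableAt_id.add_const _
  have h3 : DifferentiableAt ℂ ((F ∘ ofComplex) ∘ fun w : ℂ => w + (t : ℂ)) (z : ℂ) :=
    DifferentiableAt.comp (z : ℂ) h1 h2
  refine h3.congr_of_eventuallyEq ?_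
  have hopen : IsOpen {w : ℂ | 0 < w.im} := isOpen_lt continuous_const Complex.continuous_im
  filter_upwards [hopen.mem_nhds z.im_pos] with w hw
  simp only [comp_apply]
  rw [ofComplex_apply_of_im_pos hw]
  congr 1
  apply UpperHalfPlane.ext
  have hw' : 0 < (w + (t : ℂ)).im := by simpa using hw
  rw [ofComplex_apply_of_im_pos hw', UpperHalfPlane.coe_vadd]
  simp [add_comm]

theorem tendsto_vadd_atImInfty (t : ℝ) : Tendsto (fun z : ℍ => t +ᵥ z) atImInfty atImInfty := by
  rw [atImInfty, tendsto_comap_iff]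
  have : (UpperHalfPlane.im ∘ fun z : ℍ => t +ᵥ z) = UpperHalfPlane.im :=
    funext fun z => UpperHalfPlane.vadd_im t z
  rw [this]
  exact tendsto_comap

theorem isBoundedAtImInfty_comp_vadd {F : ℍ → ℂ} (hbd : IsBoundedAtImInfty F) (t : ℝ) :
    IsBoundedAtImInfty (fun z : ℍ => F (t +ᵥ z)) :=
  hbd.comp_tendsto (tendsto_vadd_atImInfty t)

theorem vadd_vadd_comm (s t : ℝ) (z : ℍ) : s +ᵥ (t +ᵥ z) = t +ᵥ (s +ᵥ z) := by
  ext
  simp only [UpperHalfPlane.coe_vadd]
  ring

theorem qParam_vadd (h : ℕ) (z : ℍ) :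
    Periodic.qParam h (((1 : ℝ) +ᵥ z : ℍ) : ℂ) = (rootUnit h : ℂ) * Periodic.qParam h z := by
  simp only [Periodic.qParam, rootUnit_val, UpperHalfPlane.coe_vadd, ← Complex.exp_add]
  congr 1
  push_cast
  ring

/-- the `q_h`-expansion of `z ↦ F (z + 1)` for bounded `F`. -/
theorem qExpansion_shift_coeff {h : ℕ} [NeZero h] {F : ℍ → ℂ} (hF : MDiff F)
    (hper : ∀ z : ℍ, F ((h : ℝ) +ᵥ z) = F z) (hbd : IsBoundedAtImInfty F) (n : ℕ) :
    (qExpansion h (fun z : ℍ => F ((1 : ℝ) +ᵥ z))).coeff n =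
      (rootUnit h : ℂ) ^ n * (qExpansion h F).coeff n := by
  have hh : (0 : ℝ) < (h : ℝ) := by exact_mod_cast Nat.pos_of_ne_zero (NeZero.ne h)
  have hG : MDiff (fun z : ℍ => F ((1 : ℝ) +ᵥ z)) := mdiff_comp_vadd hF 1
  have hGper : Periodic ((fun z : ℍ => F ((1 : ℝ) +ᵥ z)) ∘ ofComplex) (h : ℝ) :=
    periodic_comp_ofComplex (fun z => by
      show F ((1 : ℝ) +ᵥ ((h : ℝ) +ᵥ z)) = F ((1 : ℝ) +ᵥ z)
      rw [vadd_vadd_comm, hper])
  have hGbd := isBoundedAtImInfty_comp_vadd hbd 1
  have hGan : AnalyticAt ℂ (cuspFunction h (fun z : ℍ => F ((1 : ℝ) +ᵥ z))) 0 :=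
    analyticAt_cuspFunction_zero hh hGper hG hGbd
  have hsum : ∀ τ : ℍ, HasSum (fun m : ℕ =>
      ((rootUnit h : ℂ) ^ m * (qExpansion h F).coeff m) • Periodic.qParam h τ ^ m)
      ((fun z : ℍ => F ((1 : ℝ) +ᵥ z)) τ) := by
    intro τ
    have h1 := hasSum_qExpansion hh (periodic_comp_ofComplex hper) hF hbd ((1 : ℝ) +ᵥ τ)
    rw [qParam_vadd h τ] at h1
    convert h1 using 2 with m
    simp only [smul_eq_mul, mul_pow]
    ring
  have key := qExpansion_coeff_unique
    (c := fun m : ℕ => (rootUnit h : ℂ) ^ m * (qExpansion h F).coeff m)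
    (ContinuousMap.mk (fun z : ℍ => F ((1 : ℝ) +ᵥ z)) hG.continuous) (h := h) hh hGan hsum n
  exact key.symm

theorem ofPowerSeries_qExpansion_shift {h : ℕ} [NeZero h] {F : ℍ → ℂ} (hF : MDiff F)
    (hper : ∀ z : ℍ, F ((h : ℝ) +ᵥ z) = F z) (hbd : IsBoundedAtImInfty F) :
    ofPowerSeries ℤ ℂ (qExpansion h (fun z : ℍ => F ((1 : ℝ) +ᵥ z))) =
      twist (rootUnit h) (ofPowerSeries ℤ ℂ (qExpansion h F)) := by
  ext n
  rw [twist_coeff]
  rcases lt_or_ge n 0 with hn | hn
  · have e1 : ∀ p : PowerSeries ℂ, (ofPowerSeries ℤ ℂ p).coeff n = 0 := by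
      intro p
      rw [show (ofPowerSeries ℤ ℂ p) = (p : LaurentSeries ℂ) from rfl, PowerSeries.coeff_coe,
        if_pos hn]
    rw [e1, e1, mul_zero]
  · obtain ⟨m, rfl⟩ := Int.eq_ofNat_of_zero_le hn
    have e1 : ∀ p : PowerSeries ℂ, (ofPowerSeries ℤ ℂ p).coeff (m : ℤ) = PowerSeries.coeff m p := by
      intro p
      rw [show (ofPowerSeries ℤ ℂ p) = (p : LaurentSeries ℂ) from rfl, PowerSeries.coeff_coe,
        if_neg (by omega)]
      simp
    rw [e1, e1, qExpansion_shift_coeff hF hper hbd, zpow_natCast, Units.val_pow_eq_pow_val]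

theorem IsMeroInf.shift {h : ℕ} {f : ℍ → ℂ} (hf : IsMeroInf h f) :
    IsMeroInf h (fun z : ℍ => f ((1 : ℝ) +ᵥ z)) := by
  obtain ⟨hmd, hper, n, hb⟩ := hf
  refine ⟨mdiff_comp_vadd hmd 1, fun z => ?_, n, ?_⟩
  · show f ((1 : ℝ) +ᵥ ((h : ℝ) +ᵥ z)) = f ((1 : ℝ) +ᵥ z)
    rw [vadd_vadd_comm, hper]
  · have := isBoundedAtImInfty_comp_vadd hb 1
    have e : (fun z : ℍ => f ((1 : ℝ) +ᵥ z) * Dl z ^ n) =
        fun z : ℍ => (fun w : ℍ => f w * Dl w ^ n) ((1 : ℝ) +ᵥ z) :=
      funext fun z => by simp only [Dl_vadd_one]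
    rw [e]
    exact this

/-- the Laurent expansion in `q_h` of `z ↦ f (z + 1)` is the twist of that of `f`. -/
theorem laurent_shift {h : ℕ} [NeZero h] {f : ℍ → ℂ} (hf : IsMeroInf h f) :
    laurent h (fun z : ℍ => f ((1 : ℝ) +ᵥ z)) = twist (rootUnit h) (laurent h f) := by
  have hf1 := IsMeroInf.shift hf
  obtain ⟨n, hb⟩ := hf.2.2
  have hh : (0 : ℝ) < (h : ℝ) := by exact_mod_cast Nat.pos_of_ne_zero (NeZero.ne h)
  have hb1 : IsBoundedAtImInfty (fun z : ℍ => f ((1 : ℝ) +ᵥ z) * Dl z ^ n) := by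
    have := isBoundedAtImInfty_comp_vadd hb 1
    have e : (fun z : ℍ => f ((1 : ℝ) +ᵥ z) * Dl z ^ n) =
        fun z : ℍ => (fun w : ℍ => f w * Dl w ^ n) ((1 : ℝ) +ᵥ z) :=
      funext fun z => by simp only [Dl_vadd_one]
    rw [e]
    exact this
  have hDl := isMeroInf_Dl h
  have hDlbd : IsBoundedAtImInfty Dl := isBounded_Dl
  -- the expansion of `Dl` is fixed by the twist and nonzero
  have hD : twist (rootUnit h) (DlSeries h) = DlSeries h := by
    have e := ofPowerSeries_qExpansion_shift hDl.1 hDl.2.1 hDlbd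
    have e' : (fun z : ℍ => Dl ((1 : ℝ) +ᵥ z)) = Dl := funext Dl_vadd_one
    rw [e'] at e
    exact e.symm
  have hD0 : DlSeries h ≠ 0 := DlSeries_ne_zero h
  have e1 := laurent_mul_pow hf1 n hb1
  have e2 := laurent_mul_pow hf n hb
  have hFmd : MDiff (fun z : ℍ => f z * Dl z ^ n) := hf.1.mul (hDl.1.pow n)
  have hFper : ∀ z : ℍ, (fun z : ℍ => f z * Dl z ^ n) ((h : ℝ) +ᵥ z) =
      (fun z : ℍ => f z * Dl z ^ n) z := fun z => by
    show f ((h : ℝ) +ᵥ z) * Dl ((h : ℝ) +ᵥ z) ^ n = f z * Dl z ^ n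
    rw [hf.2.1, hDl.2.1]
  have e3 := ofPowerSeries_qExpansion_shift hFmd hFper hb
  have e4 : (fun z : ℍ => (fun z : ℍ => f z * Dl z ^ n) ((1 : ℝ) +ᵥ z)) =
      fun z : ℍ => f ((1 : ℝ) +ᵥ z) * Dl z ^ n := funext fun z => by simp only [Dl_vadd_one]
  rw [e4] at e3
  have e5 : laurent h (fun z : ℍ => f ((1 : ℝ) +ᵥ z)) * DlSeries h ^ n =
      twist (rootUnit h) (laurent h f) * DlSeries h ^ n := by
    rw [e1, e3, ← e2, map_mul, map_pow, hD]
  exact mul_right_cancel₀ (pow_ne_zero n hD0) e5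

/-! ### the subfield `merInf h` of `Mer` and its Laurent expansion map -/

/-- the inclusion of `meroInf h` into `Hol`. -/
noncomputable def inclHol (h : ℕ) [NeZero h] : meroInf h →ₐ[ℂ] Hol where
  toFun f := ⟨f.1, f.2.1⟩
  map_one' := rfl
  map_mul' _ _ := rfl
  map_zero' := rfl
  map_add' _ _ := rfl
  commutes' _ := rfl

@[simp] theorem inclHol_coe (h : ℕ) [NeZero h] (f : meroInf h) :
    ((inclHol h f : Hol) : ℍ → ℂ) = (f : ℍ → ℂ) := rfl

theorem inclHol_injective (h : ℕ) [NeZero h] : Function.Injective (inclHol h) := by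
  intro a b hab
  apply Subtype.ext
  exact congrArg (fun x : Hol => (x : ℍ → ℂ)) hab

instance instIsDomainMeroInf (h : ℕ) [NeZero h] : IsDomain (meroInf h) :=
  (inclHol_injective h).isDomain (inclHol h).toRingHom

/-- fractions of elements of `meroInf h`. -/
abbrev MF (h : ℕ) [NeZero h] : Type := FractionRing (meroInf h)

/-- the map from fractions of `meroInf h` into `Mer`. -/
noncomputable def toMer (h : ℕ) [NeZero h] : MF h →+* Mer :=
  IsFractionRing.lift (g := (algebraMap Hol Mer).comp (inclHol h).toRingHom)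
    ((IsFractionRing.injective Hol Mer).comp (inclHol_injective h))

@[simp] theorem toMer_algebraMap (h : ℕ) [NeZero h] (f : meroInf h) :
    toMer h (algebraMap (meroInf h) (MF h) f) = algebraMap Hol Mer (inclHol h f) := by
  simp [toMer]

/-- the Laurent expansion of a fraction of elements of `meroInf h`. -/
noncomputable def laurentF (h : ℕ) [NeZero h] : MF h →+* LaurentSeries ℂ :=
  IsFractionRing.lift (g := (laurentHom h).toRingHom) (laurentHom_injective h)

@[simp] theorem laurentF_algebraMap (h : ℕ) [NeZero h] (f : meroInf h) :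
    laurentF h (algebraMap (meroInf h) (MF h) f) = laurent h f.1 := by
  simp [laurentF, laurentHom_apply]

/-- the subfield of `Mer` of fractions of `h`-periodic holomorphic functions, meromorphic at
`i∞`. -/
noncomputable def merInf (h : ℕ) [NeZero h] : Subfield Mer := (toMer h).fieldRange

/-- `merInf h` is a copy of the fraction field of `meroInf h`. -/
noncomputable def merEquiv (h : ℕ) [NeZero h] : MF h ≃+* merInf h :=
  RingEquiv.ofBijective (toMer h).rangeRestrictField (toMer h).rangeRestrictField_bijective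

theorem merEquiv_apply_coe (h : ℕ) [NeZero h] (x : MF h) :
    ((merEquiv h x : merInf h) : Mer) = toMer h x := rfl

/-- the Laurent expansion at `i∞` in `q_h` on `merInf h`. -/
noncomputable def laurentM (h : ℕ) [NeZero h] : merInf h →+* LaurentSeries ℂ :=
  (laurentF h).comp (merEquiv h).symm.toRingHom

theorem laurentM_toMer (h : ℕ) [NeZero h] (x : MF h) (hx : toMer h x ∈ merInf h) :
    laurentM h ⟨toMer h x, hx⟩ = laurentF h x := by
  show laurentF h ((merEquiv h).symm ⟨toMer h x, hx⟩) = laurentF h x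
  congr 1
  rw [RingEquiv.symm_apply_eq]
  exact Subtype.ext rfl

theorem algebraMap_mem_merInf {h : ℕ} [NeZero h] {a : Hol} (ha : IsMeroInf h (a : ℍ → ℂ)) :
    algebraMap Hol Mer a ∈ merInf h :=
  ⟨algebraMap (meroInf h) (MF h) ⟨a.1, ha⟩, by rw [toMer_algebraMap]; rfl⟩

theorem laurentM_algebraMap {h : ℕ} [NeZero h] {a : Hol} (ha : IsMeroInf h (a : ℍ → ℂ)) :
    laurentM h ⟨algebraMap Hol Mer a, algebraMap_mem_merInf ha⟩ = laurent h (a : ℍ → ℂ) := by
  have e : algebraMap Hol Mer a = toMer h (algebraMap (meroInf h) (MF h) ⟨a.1, ha⟩) := by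
    rw [toMer_algebraMap]; rfl
  have := laurentM_toMer h (algebraMap (meroInf h) (MF h) ⟨a.1, ha⟩) (e ▸ algebraMap_mem_merInf ha)
  rw [laurentF_algebraMap] at this
  rw [← this]
  congr 1
  exact Subtype.ext e

theorem laurentM_injective (h : ℕ) [NeZero h] : Function.Injective (laurentM h) :=
  (laurentM h).injective

/-- membership in `merInf h` in terms of numerator and denominator. -/
theorem mem_merInf_of_eq {h : ℕ} [NeZero h] {m : Mer} {a b : Hol}
    (ha : IsMeroInf h (a : ℍ → ℂ)) (hb : IsMeroInf h (b : ℍ → ℂ)) (hb0 : b ≠ 0)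
    (hm : m * algebraMap Hol Mer b = algebraMap Hol Mer a) : m ∈ merInf h := by
  have hb' : algebraMap Hol Mer b ≠ 0 := by
    intro h0
    exact hb0 ((IsFractionRing.injective Hol Mer) (h0.trans (map_zero _).symm))
  have : m = algebraMap Hol Mer a / algebraMap Hol Mer b := by
    rw [eq_div_iff hb', hm]
  rw [this]
  exact (merInf h).div_mem (algebraMap_mem_merInf ha) (algebraMap_mem_merInf hb)

theorem exists_of_mem_merInf {h : ℕ} [NeZero h] {m : Mer} (hm : m ∈ merInf h) :
    ∃ a b : Hol, IsMeroInf h (a : ℍ → ℂ) ∧ IsMeroInf h (b : ℍ → ℂ) ∧ b ≠ 0 ∧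
      m * algebraMap Hol Mer b = algebraMap Hol Mer a := by
  obtain ⟨x, rfl⟩ := hm
  obtain ⟨a, b, hb, rfl⟩ := IsFractionRing.div_surjective (A := meroInf h) x
  have hb0 : b ≠ 0 := nonZeroDivisors.ne_zero hb
  refine ⟨inclHol h a, inclHol h b, a.2, b.2, ?_, ?_⟩
  · intro h0
    exact hb0 (inclHol_injective h (h0.trans (map_zero _).symm))
  · rw [map_div₀, toMer_algebraMap, toMer_algebraMap]
    have hb' : algebraMap Hol Mer (inclHol h b) ≠ 0 := by
      intro h0
      have := (IsFractionRing.injective Hol Mer) (h0.trans (map_zero _).symm)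
      exact hb0 (inclHol_injective h (this.trans (map_zero _).symm))
    rw [div_mul_cancel₀ _ hb']

/-- the defining property of `laurentM`. -/
theorem laurentM_spec {h : ℕ} [NeZero h] (m : merInf h) {a b : Hol}
    (ha : IsMeroInf h (a : ℍ → ℂ)) (hb : IsMeroInf h (b : ℍ → ℂ))
    (hm : (m : Mer) * algebraMap Hol Mer b = algebraMap Hol Mer a) :
    laurentM h m * laurent h (b : ℍ → ℂ) = laurent h (a : ℍ → ℂ) := by
  have e : m * ⟨algebraMap Hol Mer b, algebraMap_mem_merInf hb⟩ =
      ⟨algebraMap Hol Mer a, algebraMap_mem_merInf ha⟩ := Subtype.ext hm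
  have := congrArg (laurentM h) e
  rwa [map_mul, laurentM_algebraMap hb, laurentM_algebraMap ha] at this

/-! ### the action of `T` on `merInf h` -/

theorem laurent_ne_zero {h : ℕ} [NeZero h] {b : Hol} (hb : IsMeroInf h (b : ℍ → ℂ))
    (hb0 : b ≠ 0) : laurent h (b : ℍ → ℂ) ≠ 0 := by
  intro h0
  apply hb0
  have h1 : laurentHom h ⟨b.1, hb⟩ = laurentHom h 0 := by
    rw [map_zero, laurentHom_apply]
    exact h0
  have h2 := laurentHom_injective h h1
  apply Subtype.ext
  exact congrArg (fun x : meroInf h => (x : ℍ → ℂ)) h2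

theorem transl_T_coe (a : Hol) :
    ((transl ModularGroup.T a : Hol) : ℍ → ℂ) = fun z : ℍ => (a : ℍ → ℂ) ((1 : ℝ) +ᵥ z) := by
  funext z
  rw [transl_apply, UpperHalfPlane.modular_T_smul]

theorem translM_T_mem {h : ℕ} [NeZero h] {m : Mer} (hm : m ∈ merInf h) :
    translM ModularGroup.T m ∈ merInf h := by
  obtain ⟨a, b, ha, hb, hb0, hmab⟩ := exists_of_mem_merInf hm
  have key := congrArg (translM ModularGroup.T) hmab
  rw [map_mul, translM_algebraMap, translM_algebraMap] at key
  refine mem_merInf_of_eq (a := transl ModularGroup.T a) (b := transl ModularGroup.T b) ?_ ?_ ?_ key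
  · rw [transl_T_coe]; exact IsMeroInf.shift ha
  · rw [transl_T_coe]; exact IsMeroInf.shift hb
  · intro h0
    exact hb0 (transl_injective ModularGroup.T (h0.trans (map_zero _).symm))

theorem laurentM_translM_T {h : ℕ} [NeZero h] (m : merInf h) :
    laurentM h ⟨translM ModularGroup.T m, translM_T_mem m.2⟩ =
      twist (rootUnit h) (laurentM h m) := by
  obtain ⟨a, b, ha, hb, hb0, hmab⟩ := exists_of_mem_merInf m.2
  have key := congrArg (translM ModularGroup.T) hmab
  rw [map_mul, translM_algebraMap, translM_algebraMap] at key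
  have ha' : IsMeroInf h ((transl ModularGroup.T a : Hol) : ℍ → ℂ) := by
    rw [transl_T_coe]; exact IsMeroInf.shift ha
  have hb' : IsMeroInf h ((transl ModularGroup.T b : Hol) : ℍ → ℂ) := by
    rw [transl_T_coe]; exact IsMeroInf.shift hb
  have hb0' : transl ModularGroup.T b ≠ 0 := fun h0 =>
    hb0 (transl_injective ModularGroup.T (h0.trans (map_zero _).symm))
  have e1 := laurentM_spec (⟨translM ModularGroup.T m, translM_T_mem m.2⟩ : merInf h) ha' hb' key
  have e2 := congrArg (twist (rootUnit h)) (laurentM_spec m ha hb hmab)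
  rw [map_mul, ← laurent_shift hb, ← laurent_shift ha] at e2
  rw [transl_T_coe, transl_T_coe] at e1
  have hne : laurent h (fun z : ℍ => (b : ℍ → ℂ) ((1 : ℝ) +ᵥ z)) ≠ 0 := by
    have := laurent_ne_zero hb' hb0'
    rwa [transl_T_coe] at this
  exact mul_right_cancel₀ hne (e1.trans e2.symm)

theorem translM_T_pow (k : ℕ) (m : Mer) :
    translM (ModularGroup.T ^ k) m = (translM ModularGroup.T)^[k] m := by
  induction k with
  | zero => simp [translM_one]
  | succ k ih => rw [pow_succ, translM_mul, ih, Function.iterate_succ_apply']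

theorem translM_T_pow_mem {h : ℕ} [NeZero h] (k : ℕ) {m : Mer} (hm : m ∈ merInf h) :
    translM (ModularGroup.T ^ k) m ∈ merInf h := by
  induction k with
  | zero => simpa [translM_one] using hm
  | succ k ih =>
    rw [pow_succ, translM_mul]
    exact translM_T_mem ih

theorem laurentM_translM_T_pow {h : ℕ} [NeZero h] (k : ℕ) (m : merInf h) :
    laurentM h ⟨translM (ModularGroup.T ^ k) m, translM_T_pow_mem k m.2⟩ =
      twist (rootUnit h ^ k) (laurentM h m) := by
  induction k with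
  | zero =>
    have : (⟨translM (ModularGroup.T ^ 0) m, translM_T_pow_mem 0 m.2⟩ : merInf h) = m :=
      Subtype.ext (by simp [translM_one])
    rw [this, pow_zero, twist_one_apply]
  | succ k ih =>
    have e : (⟨translM (ModularGroup.T ^ (k + 1)) m, translM_T_pow_mem (k + 1) m.2⟩ : merInf h) =
        ⟨translM ModularGroup.T
          ((⟨translM (ModularGroup.T ^ k) m, translM_T_pow_mem k m.2⟩ : merInf h) : Mer),
          translM_T_mem (translM_T_pow_mem k m.2)⟩ :=
      Subtype.ext (by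
        show translM (ModularGroup.T ^ (k + 1)) (m : Mer) =
          translM ModularGroup.T (translM (ModularGroup.T ^ k) (m : Mer))
        rw [pow_succ, translM_mul])
    rw [e, laurentM_translM_T, ih, pow_succ', twist_mul_apply]

/-- `h'`-periodicity (`translM (T ^ k) m = m`) forces the order in `q_h` to be divisible. -/
theorem dvd_mul_order_of_translM_T_pow_eq {h : ℕ} [NeZero h] (k : ℕ) (m : merInf h)
    (hm0 : m ≠ 0) (hk : translM (ModularGroup.T ^ k) (m : Mer) = m) :
    (h : ℤ) ∣ k * (laurentM h m).order := by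
  have e : (⟨translM (ModularGroup.T ^ k) m, translM_T_pow_mem k m.2⟩ : merInf h) = m :=
    Subtype.ext hk
  have h1 := laurentM_translM_T_pow k m
  rw [e] at h1
  have hL : laurentM h m ≠ 0 := fun h0 =>
    hm0 (laurentM_injective h (h0.trans (map_zero _).symm))
  have h2 := zpow_order_eq_one_of_twist_eq h1.symm hL
  rw [← zpow_natCast, ← zpow_mul] at h2
  exact (rootUnit_zpow_eq_one_iff h _).mp h2

theorem dvd_order_of_translM_T_pow_eq {h : ℕ} [NeZero h] (k : ℕ) (hkh : k ∣ h) (m : merInf h)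
    (hm0 : m ≠ 0) (hk : translM (ModularGroup.T ^ k) (m : Mer) = m) :
    ((h / k : ℕ) : ℤ) ∣ (laurentM h m).order := by
  have h1 := dvd_mul_order_of_translM_T_pow_eq k m hm0 hk
  have hk0 : k ≠ 0 := fun h0 => NeZero.ne h (by rw [h0] at hkh; exact Nat.eq_zero_of_zero_dvd hkh)
  obtain ⟨c, hc⟩ := hkh
  have hc' : h / k = c := by rw [hc, Nat.mul_div_cancel_left _ (Nat.pos_of_ne_zero hk0)]
  rw [hc']
  obtain ⟨d, hd⟩ := h1
  have hcz : (h : ℤ) = (k : ℤ) * (c : ℤ) := by exact_mod_cast hc
  have hk0' : (k : ℤ) ≠ 0 := by exact_mod_cast hk0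
  refine ⟨d, ?_⟩
  have h3 : (k : ℤ) * (laurentM h m).order = (k : ℤ) * ((c : ℤ) * d) := by
    rw [hd, hcz]; ring
  exact mul_left_cancel₀ hk0' h3

/-- the valuation "order at `i∞` in `q_h`" on `merInf h`. -/
noncomputable def ordInf (h : ℕ) [NeZero h] : Valuation (merInf h) ℤᵐ⁰ :=
  ordVal.comap (laurentM h)

theorem ordInf_apply {h : ℕ} [NeZero h] {m : merInf h} (hm : m ≠ 0) :
    ordInf h m = exp (-(laurentM h m).order) := by
  have hL : laurentM h m ≠ 0 := fun h0 =>
    hm (laurentM_injective h (h0.trans (map_zero _).symm))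
  show ordVal (laurentM h m) = _
  rw [ordVal_apply hL]

theorem ordInf_translM_T {h : ℕ} [NeZero h] (m : merInf h) :
    ordInf h ⟨translM ModularGroup.T m, translM_T_mem m.2⟩ = ordInf h m := by
  show ordVal (laurentM h _) = ordVal (laurentM h m)
  rw [laurentM_translM_T, ordVal_twist]

end Fermat.Agent.S24.CuspExp
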