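import Fermat.Agent.S24.Iota
import Fermat.Agent.S24.Bridge.JScaled
import Fermat.Agent.S24.CuspExp

/-!
# S24: existence of the analytic realisation `ι : F →ₐ[ℚ̄] Mer`

`exists_iota N` : there is a `ℚ̄`-algebra homomorphism `ι` from the frozen function field
`FF N` to the field `Mer` of meromorphic functions on the upper half plane with
`ι (j(q^d)) = (z ↦ j (d z))` for `d ∣ N`; it maps `ℚ̄`-linearly independent families to
`ℂ`-linearly independent families, and the Laurent expansion at `i∞` of `ι f` is the image of the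
formal Laurent series `f` under `phi : ℚ̄ → ℂ`.
-/

set_option autoImplicit false

open UpperHalfPlane ModularCurve
open scoped MatrixGroups ModularForm Manifold Topology

namespace Fermat.Agent.S24

local notation "Qbar" => AlgebraicClosure ℚ

/-- **Existence of `ι`**, with linear disjointness and compatibility with Laurent expansions at
`i∞`. -/
theorem exists_iota (N : ℕ) [NeZero N] :
    ∃ ι : FF N →ₐ[Qbar] Mer, IsIota N ι ∧
      (∀ (J : Type) (f : J → FF N), LinearIndependent Qbar f →
        LinearIndependent ℂ (fun j => ι (f j))) ∧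
      (∀ f : FF N, ∃ hm : ι f ∈ CuspExp.merInf 1,
        CuspExp.laurentM 1 ⟨ι f, hm⟩ = coeffMap phi (f : LaurentSeries Qbar)) := by
  have hA : Bridge.meroInf 1 ≤ Hol := fun f hf => hf.1
  obtain ⟨ι, hι, hLD, -, hrep⟩ := Iota.exists_iota_of_laurent (N := N) (Bridge.meroInf 1) hA
    (Bridge.laurentHom 1) (Bridge.laurentHom_injective 1) (by
      intro d hd hd0
      have : NeZero d := ⟨hd0.ne'⟩
      exact ⟨⟨_, Bridge.jScaled_mem_meroInf d hd0⟩, rfl, Bridge.laurent_jScaled d hd0⟩)
  refine ⟨ι, hι, hLD, fun f => ?_⟩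
  obtain ⟨a, b, hb, hab, hL⟩ := hrep f
  have ha' : Bridge.IsMeroInf 1 ((Subalgebra.inclusion hA a : Hol) : ℍ → ℂ) := a.2
  have hb' : Bridge.IsMeroInf 1 ((Subalgebra.inclusion hA b : Hol) : ℍ → ℂ) := b.2
  have hb0 : (Subalgebra.inclusion hA b : Hol) ≠ 0 := fun h =>
    hb (Subalgebra.inclusion_injective hA (h.trans (map_zero _).symm))
  have hm : ι f ∈ CuspExp.merInf 1 := CuspExp.mem_merInf_of_eq ha' hb' hb0 hab
  refine ⟨hm, ?_⟩
  have h1 := CuspExp.laurentM_spec ⟨ι f, hm⟩ ha' hb' hab
  have hbL : Bridge.laurentHom 1 b ≠ 0 := fun h =>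
    hb (Bridge.laurentHom_injective 1 (h.trans (map_zero _).symm))
  refine mul_right_cancel₀ hbL ?_
  rw [← hL]
  exact h1

/-- **Linear disjointness** for the analytic realisation: `ℚ̄`-linearly independent elements of
the frozen function field are `ℂ`-linearly independent as meromorphic functions. -/
theorem IsIota.linearIndependent {N : ℕ} [NeZero N] {ι : FF N →ₐ[Qbar] Mer} (hι : IsIota N ι)
    (J : Type) (f : J → FF N) (hf : LinearIndependent Qbar f) :
    LinearIndependent ℂ (fun j => ι (f j)) := by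
  obtain ⟨ι', hι', hLD, -⟩ := exists_iota N
  rw [hι.unique hι']
  exact hLD J f hf

/-- **Laurent compatibility** at `i∞` for the analytic realisation. -/
theorem IsIota.laurentM_eq {N : ℕ} [NeZero N] {ι : FF N →ₐ[Qbar] Mer} (hι : IsIota N ι)
    (f : FF N) : ∃ hm : ι f ∈ CuspExp.merInf 1,
      CuspExp.laurentM 1 ⟨ι f, hm⟩ = coeffMap phi (f : LaurentSeries Qbar) := by
  obtain ⟨ι', hι', -, hL⟩ := exists_iota N
  rw [hι.unique hι']
  exact hL f

/-- `ι` is injective (a homomorphism of fields). -/
theorem IsIota.injective {N : ℕ} {ι : FF N →ₐ[Qbar] Mer} (_ : IsIota N ι) :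
    Function.Injective ι := ι.toRingHom.injective

end Fermat.Agent.S24
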