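import Mathlib

/-!
# S24 (N): abstract field theory behind the norm argument   (OWNER: helper8)

Pure algebra (Mathlib only), consumed by `Fermat.Agent.S24.Norm`:

* `finrank_le_of_forall_natDegree_le` : in characteristic zero, if all elements of `F` have degree
  at most `n` over `L` then `[F : L] ≤ n`.
* `natDegree_minpoly_le_of_dependent`, `not_linearIndependent_of_relation`,
  `exists_aeval_mul_mem`, `finrank_le_of_relations` : the degree bound `[F : K(x)] ≤ ψ` from
  polynomial relations over a bigger constant field `C` plus linear disjointness.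
* `card_le_finrank` : distinct embeddings which agree on `L` are at most `[F : L]` many.
* `prod_eq_norm` : the norm formula for a full set of embeddings into any field.
* `eq_on_adjoin_simple`, `finrank_eq_card` : the packaged degree formula `[F : K(x)] = #Om`.
-/

set_option autoImplicit false

open IntermediateField Polynomial

namespace Fermat.Agent.S24.NormAlg

/-- In characteristic zero, if every element of `F` is integral over `L` of degree at most `n`,
then `F / L` is finite of degree at most `n`. -/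
theorem finrank_le_of_forall_natDegree_le {L F : Type*} [Field L] [Field F] [Algebra L F]
    [CharZero L] (n : ℕ)
    (h : ∀ θ : F, IsIntegral L θ ∧ (minpoly L θ).natDegree ≤ n) :
    FiniteDimensional L F ∧ Module.finrank L F ≤ n := by
  haveI : Algebra.IsAlgebraic L F := ⟨fun θ => (h θ).1.isAlgebraic⟩
  haveI : Algebra.IsSeparable L F := inferInstance
  -- choose an element of maximal degree
  obtain ⟨θ, hθ⟩ : ∃ θ : F, ∀ β : F, (minpoly L β).natDegree ≤ (minpoly L θ).natDegree := by
    by_contra hcon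
    push Not at hcon
    have key : ∀ m : ℕ, ∃ β : F, m ≤ (minpoly L β).natDegree := by
      intro m
      induction m with
      | zero => exact ⟨0, Nat.zero_le _⟩
      | succ m ih =>
        obtain ⟨β, hβ⟩ := ih
        obtain ⟨β', hβ'⟩ := hcon β
        exact ⟨β', by omega⟩
    obtain ⟨β, hβ⟩ := key (n + 1)
    have := (h β).2
    omega
  have htop : L⟮θ⟯ = ⊤ := by
    rw [eq_top_iff]
    intro β _
    obtain ⟨γ, hγ⟩ := Field.primitive_element_inf_aux L θ β
    have hθγ : L⟮θ⟯ ≤ L⟮γ⟯ := by
      rw [← hγ]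
      apply IntermediateField.adjoin.mono
      intro y hy
      rw [Set.mem_singleton_iff] at hy
      subst hy
      exact Set.mem_insert _ _
    have hfin : FiniteDimensional L L⟮γ⟯ := IntermediateField.adjoin.finiteDimensional (h γ).1
    have hdeg : Module.finrank L L⟮γ⟯ ≤ Module.finrank L L⟮θ⟯ := by
      rw [IntermediateField.adjoin.finrank (h γ).1, IntermediateField.adjoin.finrank (h θ).1]
      exact hθ γ
    have heq : L⟮θ⟯ = L⟮γ⟯ := IntermediateField.eq_of_le_of_finrank_le hθγ hdeg
    rw [heq, ← hγ]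
    apply IntermediateField.subset_adjoin
    exact Set.mem_insert_of_mem _ rfl
  have hfinθ : FiniteDimensional L L⟮θ⟯ := IntermediateField.adjoin.finiteDimensional (h θ).1
  have e : (L⟮θ⟯ : Type _) ≃ₐ[L] F := by
    rw [htop]
    exact IntermediateField.topEquiv
  refine ⟨?_, ?_⟩
  · exact Module.Finite.equiv e.toLinearEquiv
  · rw [← e.toLinearEquiv.finrank_eq, IntermediateField.adjoin.finrank (h θ).1]
    exact (h θ).2

variable {K F : Type*} [Field K] [Field F] [Algebra K F]

/-- A `K`-linear dependence among the monomials `x ^ i * b ^ k` (`k ≤ ψ`), with `x` transcendental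
over `K`, bounds the degree of `b` over `K(x)` by `ψ`. -/
theorem natDegree_minpoly_le_of_dependent (x b : F) (hx : Transcendental K x) (ψ D : ℕ)
    (hdep : ¬ LinearIndependent K
      (fun p : Fin (D + 1) × Fin (ψ + 1) => x ^ (p.1 : ℕ) * b ^ (p.2 : ℕ))) :
    IsIntegral K⟮x⟯ b ∧ (minpoly K⟮x⟯ b).natDegree ≤ ψ := by
  rw [Fintype.not_linearIndependent_iff] at hdep
  obtain ⟨g, hg, p0, hp0⟩ := hdep
  -- the coefficient polynomials in `x`
  set Q : Fin (ψ + 1) → K[X] := fun k => ∑ i : Fin (D + 1), C (g (i, k)) * X ^ (i : ℕ) with hQ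
  have hQcoeff : ∀ k (i : Fin (D + 1)), (Q k).coeff (i : ℕ) = g (i, k) := by
    intro k i
    simp only [hQ, finsetSum_coeff, coeff_C_mul, coeff_X_pow]
    rw [Finset.sum_eq_single i]
    · simp
    · intro j _ hji
      have : (i : ℕ) ≠ (j : ℕ) := fun h => hji (Fin.ext h.symm)
      simp [this]
    · simp
  have hQne : Q p0.2 ≠ 0 := by
    intro h0
    apply hp0
    have := hQcoeff p0.2 p0.1
    rw [h0, coeff_zero] at this
    exact this.symm
  let xL : K⟮x⟯ := ⟨x, IntermediateField.mem_adjoin_simple_self K x⟩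
  set P : (K⟮x⟯)[X] := ∑ k : Fin (ψ + 1), C (aeval xL (Q k)) * X ^ (k : ℕ) with hP
  have hPcoeff : ∀ k : Fin (ψ + 1), P.coeff (k : ℕ) = aeval xL (Q k) := by
    intro k
    simp only [hP, finsetSum_coeff, coeff_C_mul, coeff_X_pow]
    rw [Finset.sum_eq_single k]
    · simp
    · intro j _ hjk
      have : (k : ℕ) ≠ (j : ℕ) := fun h => hjk (Fin.ext h.symm)
      simp [this]
    · simp
  have hxL : Transcendental K xL := by
    intro halg
    apply hx
    have := halg.algebraMap (A := F)
    simpa [xL] using this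
  have hPne : P ≠ 0 := by
    intro h0
    have h1 := hPcoeff p0.2
    rw [h0, coeff_zero] at h1
    exact hQne ((transcendental_iff.mp hxL) _ h1.symm)
  have hPdeg : P.natDegree ≤ ψ := by
    rw [hP]
    apply natDegree_sum_le_of_forall_le
    intro k _
    refine (natDegree_C_mul_X_pow_le _ _).trans ?_
    have := k.2
    omega
  have hPeval : aeval b P = 0 := by
    rw [hP, map_sum]
    have h1 : ∀ k : Fin (ψ + 1), aeval b (C (aeval xL (Q k)) * X ^ (k : ℕ) : (K⟮x⟯)[X])
        = ∑ i : Fin (D + 1), g (i, k) • (x ^ (i : ℕ) * b ^ (k : ℕ)) := by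
      intro k
      rw [map_mul, aeval_C, map_pow, aeval_X]
      have h2 : algebraMap K⟮x⟯ F (aeval xL (Q k)) = aeval x (Q k) := by
        rw [← aeval_algebraMap_apply]
        rfl
      rw [h2, hQ, map_sum, Finset.sum_mul]
      refine Finset.sum_congr rfl fun i _ => ?_
      rw [map_mul, aeval_C, map_pow, aeval_X, Algebra.smul_def, mul_assoc]
    rw [Finset.sum_congr rfl fun k _ => h1 k, Finset.sum_comm, ← Finset.sum_product',
      Finset.univ_product_univ]
    exact hg
  have hint : IsIntegral K⟮x⟯ b := (isAlgebraic_iff_isIntegral).mp ⟨P, hPne, hPeval⟩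
  refine ⟨hint, ?_⟩
  exact (natDegree_le_of_degree_le ((minpoly.degree_le_of_ne_zero _ _ hPne hPeval).trans
    (degree_le_natDegree))).trans hPdeg |>.trans le_rfl

/-- A polynomial relation `∑ k ≤ ψ, c_k(X) B ^ k = 0` with coefficients `c_k ∈ C[X]`, not all zero,
is a `C`-linear dependence among the monomials `X ^ i * B ^ k`. -/
theorem not_linearIndependent_of_relation {C M : Type*} [Field C] [CommRing M] [Algebra C M]
    (X₀ B : M) (ψ : ℕ) (c : Fin (ψ + 1) → C[X]) (hc : ∃ k, c k ≠ 0)
    (hrel : ∑ k, aeval X₀ (c k) * B ^ (k : ℕ) = 0) :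
    ∃ D : ℕ, ¬ LinearIndependent C
      (fun p : Fin (D + 1) × Fin (ψ + 1) => X₀ ^ (p.1 : ℕ) * B ^ (p.2 : ℕ)) := by
  refine ⟨Finset.univ.sup fun k => (c k).natDegree, ?_⟩
  set D := Finset.univ.sup fun k => (c k).natDegree with hD
  have hdeg : ∀ k, (c k).natDegree < D + 1 := fun k =>
    Nat.lt_succ_of_le (Finset.le_sup (f := fun k => (c k).natDegree) (Finset.mem_univ k))
  rw [Fintype.not_linearIndependent_iff]
  refine ⟨fun p => (c p.2).coeff (p.1 : ℕ), ?_, ?_⟩
  · rw [← Finset.univ_product_univ, Finset.sum_product_right]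
    rw [← hrel]
    refine Finset.sum_congr rfl fun k _ => ?_
    rw [aeval_eq_sum_range' (hdeg k), Finset.sum_mul, ← Fin.sum_univ_eq_sum_range
      (fun i => (c k).coeff i • X₀ ^ i * B ^ (k : ℕ)) (D + 1)]
    refine Finset.sum_congr rfl fun i _ => ?_
    rw [smul_mul_assoc]
  · obtain ⟨k, hk⟩ := hc
    obtain ⟨i, hi⟩ : ∃ i, (c k).coeff i ≠ 0 := by
      by_contra hcon
      push Not at hcon
      exact hk (Polynomial.ext fun i => by simpa using hcon i)
    have hiD : i < D + 1 := by
      by_contra hcon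
      exact hi (coeff_eq_zero_of_natDegree_lt (lt_of_lt_of_le (hdeg k) (not_lt.mp hcon)))
    exact ⟨(⟨i, hiD⟩, k), hi⟩

/-- If the field `F` is generated over `K` by a `K`-subalgebra `R₀ ∋ x` all of whose elements are
algebraic over `K(x)`, then every element of `F` has a denominator in `K[x]`. -/
theorem exists_aeval_mul_mem (x : F) (R₀ : Subalgebra K F) (hxR : x ∈ R₀)
    (halg : ∀ b ∈ R₀, IsIntegral K⟮x⟯ b)
    (hgen : IntermediateField.adjoin K (R₀ : Set F) = ⊤) (θ : F) :
    ∃ c : K[X], aeval x c ≠ 0 ∧ aeval x c * θ ∈ R₀ := by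
  have htop : IntermediateField.adjoin K⟮x⟯ (R₀ : Set F) = ⊤ := by
    rw [eq_top_iff]
    intro y _
    have hle : IntermediateField.adjoin K (R₀ : Set F)
        ≤ (IntermediateField.adjoin K⟮x⟯ (R₀ : Set F)).restrictScalars K := by
      rw [IntermediateField.adjoin_le_iff]
      intro z hz
      exact IntermediateField.subset_adjoin K⟮x⟯ (R₀ : Set F) hz
    have hy : y ∈ IntermediateField.adjoin K (R₀ : Set F) := by rw [hgen]; trivial
    exact hle hy
  have hsub : (IntermediateField.adjoin K⟮x⟯ (R₀ : Set F)).toSubalgebra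
      = Algebra.adjoin K⟮x⟯ (R₀ : Set F) :=
    IntermediateField.adjoin_toSubalgebra_of_isAlgebraic fun b hb => (halg b hb).isAlgebraic
  have hθ : θ ∈ Algebra.adjoin K⟮x⟯ (R₀ : Set F) := by
    rw [← hsub, htop]
    trivial
  have hspan : θ ∈ Submodule.span K⟮x⟯ (R₀ : Set F) := by
    have h1 := Algebra.adjoin_eq_span (R := K⟮x⟯) (s := (R₀ : Set F))
    have h2 : (Submonoid.closure (R₀ : Set F) : Set F) = (R₀ : Set F) := by
      have : (R₀ : Set F) = ((R₀.toSubmonoid : Submonoid F) : Set F) := rfl
      rw [this, Submonoid.closure_eq]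
    rw [h2] at h1
    rw [← h1]
    exact hθ
  clear hθ
  induction hspan using Submodule.span_induction with
  | mem y hy => exact ⟨1, by simp, by simpa using hy⟩
  | zero => exact ⟨1, by simp, by simp⟩
  | add y z _ _ hy hz =>
    obtain ⟨c₁, hc₁, hy'⟩ := hy
    obtain ⟨c₂, hc₂, hz'⟩ := hz
    refine ⟨c₁ * c₂, by rw [map_mul]; exact mul_ne_zero hc₁ hc₂, ?_⟩
    have hc₁R : aeval x c₁ ∈ R₀ := by
      exact Algebra.adjoin_le (Set.singleton_subset_iff.mpr hxR)
        ((Algebra.adjoin_singleton_eq_range_aeval K x).symm ▸ ⟨c₁, rfl⟩)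
    have hc₂R : aeval x c₂ ∈ R₀ := by
      exact Algebra.adjoin_le (Set.singleton_subset_iff.mpr hxR)
        ((Algebra.adjoin_singleton_eq_range_aeval K x).symm ▸ ⟨c₂, rfl⟩)
    have : aeval x (c₁ * c₂) * (y + z)
        = aeval x c₂ * (aeval x c₁ * y) + aeval x c₁ * (aeval x c₂ * z) := by
      rw [map_mul]; ring
    rw [this]
    exact R₀.add_mem (R₀.mul_mem hc₂R hy') (R₀.mul_mem hc₁R hz')
  | smul l y _ hy =>
    obtain ⟨c, hc, hy'⟩ := hy
    obtain ⟨r, s, hrs⟩ := (IntermediateField.mem_adjoin_simple_iff K (l : F)).mp l.2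
    by_cases hs : aeval x s = 0
    · refine ⟨1, by simp, ?_⟩
      have hl : (l : F) = 0 := by rw [hrs, hs, div_zero]
      have : l • y = 0 := by
        rw [IntermediateField.smul_def, smul_eq_mul, hl, zero_mul]
      rw [this, mul_zero]
      exact R₀.zero_mem
    · refine ⟨c * s, by rw [map_mul]; exact mul_ne_zero hc hs, ?_⟩
      have hrR : aeval x r ∈ R₀ := by
        exact Algebra.adjoin_le (Set.singleton_subset_iff.mpr hxR)
          ((Algebra.adjoin_singleton_eq_range_aeval K x).symm ▸ ⟨r, rfl⟩)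
      have : aeval x (c * s) * (l • y) = aeval x r * (aeval x c * y) := by
        rw [IntermediateField.smul_def, smul_eq_mul, hrs, map_mul]
        field_simp
      rw [this]
      exact R₀.mul_mem hrR hy'

/-- **Degree bound.**  `F` is generated over `K` by a subalgebra `R₀ ∋ x`; `ι : F → M` is a ring
map into a `C`-algebra which is linearly disjoint from `C` over `K`; every `b ∈ R₀` satisfies,
after applying `ι`, a polynomial relation of degree `≤ ψ` with coefficients in `C[ι x]`.
Then `[F : K(x)] ≤ ψ`. -/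
theorem finrank_le_of_relations [CharZero K] {C M : Type*} [Field C] [CommRing M] [Algebra C M]
    (ι : F →+* M)
    (hLD : ∀ (J : Type) (f : J → F), LinearIndependent K f →
      LinearIndependent C (fun j => ι (f j)))
    (x : F) (hx : Transcendental K x)
    (R₀ : Subalgebra K F) (hxR : x ∈ R₀) (hgen : IntermediateField.adjoin K (R₀ : Set F) = ⊤)
    (ψ : ℕ)
    (hrel : ∀ b ∈ R₀, ∃ c : Fin (ψ + 1) → C[X], (∃ k, c k ≠ 0) ∧
        ∑ k, aeval (ι x) (c k) * ι b ^ (k : ℕ) = 0) :
    FiniteDimensional K⟮x⟯ F ∧ Module.finrank K⟮x⟯ F ≤ ψ := by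
  have hR : ∀ b ∈ R₀, IsIntegral K⟮x⟯ b ∧ (minpoly K⟮x⟯ b).natDegree ≤ ψ := by
    intro b hb
    obtain ⟨c, hc, hrel'⟩ := hrel b hb
    obtain ⟨D, hD⟩ := not_linearIndependent_of_relation (ι x) (ι b) ψ c hc hrel'
    refine natDegree_minpoly_le_of_dependent x b hx ψ D fun hind => hD ?_
    have := hLD _ _ hind
    simpa only [map_mul, map_pow] using this
  haveI : CharZero K⟮x⟯ := charZero_of_injective_algebraMap (algebraMap K K⟮x⟯).injective
  apply finrank_le_of_forall_natDegree_le
  intro θ
  obtain ⟨c, hc, hcθ⟩ := exists_aeval_mul_mem x R₀ hxR (fun b hb => (hR b hb).1) hgen θ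
  obtain ⟨hint, hdeg⟩ := hR _ hcθ
  let u : K⟮x⟯ := ⟨aeval x c, by
    have : aeval x c ∈ Algebra.adjoin K {x} :=
      (Algebra.adjoin_singleton_eq_range_aeval K x).symm ▸ ⟨c, rfl⟩
    exact IntermediateField.algebra_adjoin_le_adjoin K _ this⟩
  have hu : u ≠ 0 := fun h => hc (congrArg Subtype.val h)
  set b := aeval x c * θ with hb
  have hub : b = u • θ := rfl
  have hθb : θ = u⁻¹ • b := by rw [hub, smul_smul, inv_mul_cancel₀ hu, one_smul]
  have hintθ : IsIntegral K⟮x⟯ θ := by
    rw [hθb]; exact hint.smul _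
  refine ⟨hintθ, ?_⟩
  have hadj : K⟮x⟯⟮θ⟯ = K⟮x⟯⟮b⟯ := by
    apply le_antisymm
    · rw [IntermediateField.adjoin_simple_le_iff, hθb]
      exact (K⟮x⟯⟮b⟯).smul_mem (IntermediateField.mem_adjoin_simple_self _ b)
    · rw [IntermediateField.adjoin_simple_le_iff, hub]
      exact (K⟮x⟯⟮θ⟯).smul_mem (IntermediateField.mem_adjoin_simple_self _ θ)
  rw [← IntermediateField.adjoin.finrank hintθ, hadj, IntermediateField.adjoin.finrank hint]
  exact hdeg

section Embeddings

variable {L F E Om : Type*} [Field L] [Field F] [Algebra L F] [Field E] [Fintype Om]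

/-- Distinct embeddings of `F` agreeing on `L`, viewed as `L`-algebra maps into an algebraic
closure of the target. -/
theorem exists_algHom_family [Nonempty Om]
    (σ : Om → F →+* E) (hσ : Function.Injective σ)
    (hL : ∀ (q q' : Om) (l : L), σ q (algebraMap L F l) = σ q' (algebraMap L F l)) :
    ∃ (_ : Algebra L (AlgebraicClosure E)) (Φ : Om → F →ₐ[L] AlgebraicClosure E),
      Function.Injective Φ ∧ (∀ q b, Φ q b = algebraMap E (AlgebraicClosure E) (σ q b)) ∧
      ∀ (q : Om) (l : L), algebraMap L (AlgebraicClosure E) l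
        = algebraMap E (AlgebraicClosure E) (σ q (algebraMap L F l)) := by
  classical
  obtain ⟨q0⟩ := ‹Nonempty Om›
  letI alg : Algebra L (AlgebraicClosure E) :=
    ((algebraMap E (AlgebraicClosure E)).comp ((σ q0).comp (algebraMap L F))).toAlgebra
  refine ⟨alg, fun q =>
    { toRingHom := (algebraMap E (AlgebraicClosure E)).comp (σ q)
      commutes' := fun l => ?_ }, ?_, ?_, ?_⟩
  · show algebraMap E (AlgebraicClosure E) (σ q (algebraMap L F l))
      = algebraMap E (AlgebraicClosure E) (σ q0 (algebraMap L F l))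
    rw [hL q q0 l]
  · intro q q' h
    apply hσ
    ext b
    have := DFunLike.congr_fun h b
    exact (algebraMap E (AlgebraicClosure E)).injective this
  · intro q b
    rfl
  · intro q l
    show algebraMap E (AlgebraicClosure E) (σ q0 (algebraMap L F l)) = _
    rw [hL q0 q l]

/-- Distinct embeddings agreeing on `L` are at most `[F : L]` many. -/
theorem card_le_finrank [FiniteDimensional L F]
    (σ : Om → F →+* E) (hσ : Function.Injective σ)
    (hL : ∀ (q q' : Om) (l : L), σ q (algebraMap L F l) = σ q' (algebraMap L F l)) :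
    Fintype.card Om ≤ Module.finrank L F := by
  classical
  rcases isEmpty_or_nonempty Om with hOm | hOm
  · rw [Fintype.card_eq_zero]; exact Nat.zero_le _
  obtain ⟨alg, Φ, hΦ, -, -⟩ := exists_algHom_family σ hσ hL
  letI := alg
  have h1 : Fintype.card Om ≤ Fintype.card (F →ₐ[L] AlgebraicClosure E) :=
    Fintype.card_le_of_injective Φ hΦ
  have h2 : Fintype.card (F →ₐ[L] AlgebraicClosure E)
      ≤ Module.finrank (AlgebraicClosure E) (F →ₗ[L] AlgebraicClosure E) :=
    (linearIndependent_toLinearMap L F (AlgebraicClosure E)).fintype_card_le_finrank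
  rw [Module.finrank_linearMap_self] at h2
  exact h1.trans h2

/-- **Norm formula**: if `Om` indexes `[F : L]` distinct embeddings of `F` agreeing on `L`, then
the product of the conjugates of `b` is the image of its norm. -/
theorem prod_eq_norm [FiniteDimensional L F] [Algebra.IsSeparable L F]
    (σ : Om → F →+* E) (hσ : Function.Injective σ)
    (hL : ∀ (q q' : Om) (l : L), σ q (algebraMap L F l) = σ q' (algebraMap L F l))
    (hcard : Fintype.card Om = Module.finrank L F) (b : F) (q0 : Om) :
    ∏ q, σ q b = σ q0 (algebraMap L F (Algebra.norm L b)) := by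
  classical
  haveI : Nonempty Om := ⟨q0⟩
  obtain ⟨alg, Φ, hΦ, hΦ', halg⟩ := exists_algHom_family σ hσ hL
  letI := alg
  have hbij : Function.Bijective Φ := by
    rw [Fintype.bijective_iff_injective_and_card]
    refine ⟨hΦ, ?_⟩
    rw [hcard, AlgHom.card]
  have h1 := Algebra.norm_eq_prod_embeddings L (AlgebraicClosure E) b
  rw [halg q0] at h1
  apply (algebraMap E (AlgebraicClosure E)).injective
  rw [h1, map_prod]
  rw [← Fintype.prod_bijective Φ hbij (fun q => algebraMap E (AlgebraicClosure E) (σ q b))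
    (fun τ => τ b) (fun q => (hΦ' q b).symm)]

end Embeddings

section Package

variable {K F : Type*} [Field K] [Field F] [Algebra K F]

/-- Two ring homomorphisms which agree on `K` and at `x` agree on `K(x)`. -/
theorem eq_on_adjoin_simple {E : Type*} [Field E] (f g : F →+* E) (x : F)
    (hK : ∀ c : K, f (algebraMap K F c) = g (algebraMap K F c)) (hx : f x = g x) (l : K⟮x⟯) :
    f (algebraMap K⟮x⟯ F l) = g (algebraMap K⟮x⟯ F l) := by
  obtain ⟨r, s, hrs⟩ := (IntermediateField.mem_adjoin_simple_iff K (l : F)).mp l.2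
  have hcomp : f.comp (algebraMap K F) = g.comp (algebraMap K F) := RingHom.ext hK
  have key : ∀ p : K[X], f (aeval x p) = g (aeval x p) := by
    intro p
    rw [aeval_def, hom_eval₂, hom_eval₂, hcomp, hx]
  show f (l : F) = g (l : F)
  rw [hrs, map_div₀, map_div₀, key, key]

/-- **Degree formula.**  In the situation of `finrank_le_of_relations`, if moreover `Om` indexes
distinct embeddings `σ q : F → M` which agree with `ι` on `K` and at `x`, and the relations have
degree `≤ #Om`, then `[F : K(x)] = #Om`. -/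
theorem finrank_eq_card [CharZero K] {C M : Type*} [Field C] [Field M] [Algebra C M]
    (ι : F →+* M)
    (hLD : ∀ (J : Type) (f : J → F), LinearIndependent K f →
      LinearIndependent C (fun j => ι (f j)))
    (x : F) (hx : Transcendental K x)
    (R₀ : Subalgebra K F) (hxR : x ∈ R₀) (hgen : IntermediateField.adjoin K (R₀ : Set F) = ⊤)
    {Om : Type*} [Fintype Om] (σ : Om → F →+* M) (hσ : Function.Injective σ)
    (hσK : ∀ (q : Om) (c : K), σ q (algebraMap K F c) = ι (algebraMap K F c))
    (hσx : ∀ q : Om, σ q x = ι x)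
    (hrel : ∀ b ∈ R₀, ∃ c : Fin (Fintype.card Om + 1) → C[X], (∃ k, c k ≠ 0) ∧
        ∑ k, aeval (ι x) (c k) * ι b ^ (k : ℕ) = 0) :
    FiniteDimensional K⟮x⟯ F ∧ Module.finrank K⟮x⟯ F = Fintype.card Om := by
  obtain ⟨hfin, hle⟩ := finrank_le_of_relations ι hLD x hx R₀ hxR hgen (Fintype.card Om) hrel
  refine ⟨hfin, le_antisymm hle ?_⟩
  refine card_le_finrank (L := K⟮x⟯) σ hσ fun q q' l => ?_
  rw [eq_on_adjoin_simple (σ q) ι x (hσK q) (hσx q) l,
    eq_on_adjoin_simple (σ q') ι x (hσK q') (hσx q') l]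

end Package

end Fermat.Agent.S24.NormAlg
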