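import Fermat.Agent.S24.Defs
import Fermat.Agent.S24.NormAlg
import Fermat.Agent.S24.NormAn
import Fermat.Agent.S20.Cosets

/-!
# S24 (N): the conjugate embeddings, the degree `[F : ℚ̄(j)] = ψ(N)` and the norm formula
(OWNER: helper8)

For any analytic realisation `ι : FF N →ₐ[ℚ̄] Mer` of the frozen function field (`IsIota N ι`):

* `emb N ι q` (`q : SL(2,ℤ) ⧸ Γ₀(N)`) : the conjugate embedding `f ↦ (ι f) ∘ g⁻¹` for `q = g Γ₀(N)`
  (`emb_mk`, `translM_emb`, `emb_algebraMap_Lj`, `emb_jBar_one`);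
* `emb_injective` : the `ψ(N)` conjugate embeddings are pairwise distinct;
* `finiteDimensional_Lj`, `finrank_Lj` : `F / ℚ̄(j)` is finite of degree `ψ(N)`
  (needs linear disjointness `hLD` of `ι` from `ℂ` over `ℚ̄`);
* `prod_emb`, `prod_comap_emb` : the norm formula `∏ q, emb q b = emb q₀ (N_{F/ℚ̄(j)} b)`.

Helpers (namespace `Fermat.Agent.S24.Norm`): the frozen field is generated by the `jBar N d`
(`adjoin_gens`), `transcendental_jBar`, `translM_iota` (`ι F` is fixed by `Γ₀(N)`),
`exists_relation`.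
-/

set_option autoImplicit false

open UpperHalfPlane ModularForm CongruenceSubgroup
open scoped MatrixGroups ModularForm Manifold Topology

namespace Fermat.Agent.S24

namespace Norm

local notation "Qb" => AlgebraicClosure ℚ

/-- the generators `j(q^d)`, `d ∣ N`, of the frozen function field -/
def gens (N : ℕ) : Set (FF N) := {f | ∃ (d : ℕ) (hd : d ∣ N) (hd0 : 0 < d), f = jBar N d hd hd0}

/-- the `ℚ̄`-algebra generated by the `j(q^d)`, `d ∣ N` -/
noncomputable def R0 (N : ℕ) : Subalgebra Qb (FF N) := Algebra.adjoin Qb (gens N)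

theorem jBar_mem_R0 (N d : ℕ) (hd : d ∣ N) (hd0 : 0 < d) : jBar N d hd hd0 ∈ R0 N :=
  Algebra.subset_adjoin ⟨d, hd, hd0, rfl⟩

theorem coeffEmb_algebraMap (c : ℚ) :
    ModularCurve.coeffEmb Qb (algebraMap ℚ (LaurentSeries ℚ) c)
      = algebraMap Qb (LaurentSeries Qb) (algebraMap ℚ Qb c) := by
  rw [ModularCurve.algebraMap_laurentSeries_eq_single, ModularCurve.algebraMap_laurentSeries_eq_single,
    ModularCurve.coeffEmb, ModularCurve.coeffMap_single]

/-- the frozen field is generated over `ℚ̄` by the coefficient extensions of the `j(q^d)`. -/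
theorem adjoin_image_divisorExpansions (N : ℕ) :
    IntermediateField.adjoin Qb
      (⇑(ModularCurve.coeffEmb Qb) '' ModularCurve.divisorExpansions N) = FF N := by
  apply le_antisymm
  · rw [IntermediateField.adjoin_le_iff]
    rintro _ ⟨y, hy, rfl⟩
    exact ModularCurve.coeffEmb_mem_laurentBaseChange Qb
      (IntermediateField.subset_adjoin ℚ _ hy)
  · show IntermediateField.adjoin Qb _ ≤ _
    rw [IntermediateField.adjoin_le_iff]
    rintro _ ⟨y, hy, rfl⟩
    have hy' : y ∈ IntermediateField.adjoin ℚ (ModularCurve.divisorExpansions N) := hy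
    clear hy
    induction hy' using IntermediateField.adjoin_induction with
    | mem y hy => exact IntermediateField.subset_adjoin Qb _ ⟨y, hy, rfl⟩
    | algebraMap c =>
      rw [coeffEmb_algebraMap]
      exact IntermediateField.algebraMap_mem _ _
    | add a b _ _ ha hb =>
      rw [map_add]
      exact add_mem ha hb
    | inv a _ ha =>
      rw [map_inv₀]
      exact inv_mem ha
    | mul a b _ _ ha hb =>
      rw [map_mul]
      exact mul_mem ha hb

/-- the frozen field is generated, as a field over `ℚ̄`, by the `jBar N d`. -/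
theorem adjoin_gens (N : ℕ) : IntermediateField.adjoin Qb (gens N) = ⊤ := by
  apply IntermediateField.lift_injective
  rw [IntermediateField.lift_adjoin, IntermediateField.lift_top]
  have himg : (Subtype.val '' gens N : Set (LaurentSeries Qb))
      = ⇑(ModularCurve.coeffEmb Qb) '' ModularCurve.divisorExpansions N := by
    ext x
    constructor
    · rintro ⟨f, ⟨d, hd, hd0, rfl⟩, rfl⟩
      exact ⟨_, ⟨d, ⟨hd0.ne'⟩, hd, rfl⟩, rfl⟩
    · rintro ⟨y, ⟨d, hne, hd, rfl⟩, rfl⟩
      exact ⟨jBar N d hd (Nat.pos_of_ne_zero hne.ne), ⟨d, hd, _, rfl⟩, rfl⟩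
  rw [himg]
  exact adjoin_image_divisorExpansions N

theorem adjoin_R0 (N : ℕ) : IntermediateField.adjoin Qb (R0 N : Set (FF N)) = ⊤ := by
  rw [eq_top_iff, ← adjoin_gens N]
  exact IntermediateField.adjoin.mono _ _ _ Algebra.subset_adjoin

/-! ### basic facts on `ι` -/

section Iota

variable {N : ℕ} {ι : FF N →ₐ[Qb] Mer}

theorem algHom_map_add (φ : FF N →ₐ[Qb] Mer) (x y : FF N) : φ (x + y) = φ x + φ y :=
  φ.toRingHom.map_add x y

theorem iota_algebraMap (c : Qb) : ι (algebraMap Qb (FF N) c) = algebraMap ℂ Mer (phi c) := by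
  rw [ι.commutes, algebraMap_Qbar_Mer]

theorem iota_jBar_one (hι : IsIota N ι) :
    ι (jBar N 1 (one_dvd N) one_pos) = algebraMap Hol Mer jH := by
  rw [hι 1 (one_dvd N) one_pos, ← NormAn.jH_eq_jScaled]

/-- `j` is transcendental over `ℂ` in `Mer`. -/
theorem transcendental_jH : Transcendental ℂ (algebraMap Hol Mer jH) := by
  rw [transcendental_iff]
  intro p hp
  rw [Polynomial.aeval_algebraMap_apply] at hp
  have hp' : Polynomial.aeval jH p = 0 :=
    (IsFractionRing.injective Hol Mer) (by rw [hp, map_zero])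
  -- `p` vanishes on all of `ℂ`
  apply Polynomial.funext
  intro w
  obtain ⟨z, rfl⟩ := jFun_surjective w
  rw [← NormAn.aeval_jH_apply, hp']
  simp

/-- `j = jBar N 1` is transcendental over `ℚ̄`. -/
theorem transcendental_jBar (hι : IsIota N ι) :
    Transcendental Qb (jBar N 1 (one_dvd N) one_pos) := by
  rw [transcendental_iff]
  intro p hp
  have h1 : Polynomial.aeval (algebraMap Hol Mer jH) (p.map phi) = 0 := by
    have h2 := congrArg ι hp
    rw [map_zero, ← Polynomial.aeval_algHom_apply, iota_jBar_one hι] at h2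
    rw [← h2, Polynomial.aeval_def, Polynomial.eval₂_map]
    rfl
  have h3 := (transcendental_iff.mp transcendental_jH) _ h1
  exact (Polynomial.map_eq_zero_iff phi_injective).mp h3

/-! ### holomorphic representatives of the elements of `R0 N` -/

/-- the image under `ι` of an element of `R0 N` is (the class of) an element of `jAlg N`. -/
theorem exists_hol (hι : IsIota N ι) :
    ∀ b ∈ R0 N, ∃ θ : Hol, θ ∈ NormAn.jAlg N ∧ ι b = algebraMap Hol Mer θ := by
  intro b hb
  induction hb using Algebra.adjoin_induction with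
  | mem x hx =>
    obtain ⟨d, hd, hd0, rfl⟩ := hx
    exact ⟨jScaled d hd0, NormAn.jScaled_mem_jAlg hd hd0, hι d hd hd0⟩
  | algebraMap c =>
    refine ⟨algebraMap ℂ Hol (phi c), Subalgebra.algebraMap_mem _ _, ?_⟩
    rw [iota_algebraMap, IsScalarTower.algebraMap_apply ℂ Hol Mer]
  | add x y _ _ hx hy =>
    obtain ⟨h₁, H₁, e₁⟩ := hx
    obtain ⟨h₂, H₂, e₂⟩ := hy
    exact ⟨h₁ + h₂, Subalgebra.add_mem _ H₁ H₂, by rw [algHom_map_add, map_add, e₁, e₂]⟩
  | mul x y _ _ hx hy =>
    obtain ⟨h₁, H₁, e₁⟩ := hx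
    obtain ⟨h₂, H₂, e₂⟩ := hy
    exact ⟨h₁ * h₂, Subalgebra.mul_mem _ H₁ H₂, by rw [map_mul, map_mul, e₁, e₂]⟩

/-- **(N0)** the image of `ι` is fixed by `Γ₀(N)`. -/
theorem translM_iota (hι : IsIota N ι) {g : SL(2, ℤ)} (hg : g ∈ Gamma0 N) (f : FF N) :
    translM g (ι f) = ι f := by
  have hf : f ∈ IntermediateField.adjoin Qb (gens N) := by
    rw [adjoin_gens]; trivial
  induction hf using IntermediateField.adjoin_induction with
  | mem x hx =>
    obtain ⟨d, hd, hd0, rfl⟩ := hx
    rw [hι d hd hd0, translM_algebraMap, NormAn.transl_jScaled_of_mem hd hd0 hg]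
  | algebraMap c => rw [iota_algebraMap, AlgHom.commutes]
  | add x y _ _ hx hy => rw [algHom_map_add, map_add, hx, hy]
  | inv x _ hx => rw [map_inv₀, map_inv₀, hx]
  | mul x y _ _ hx hy => rw [map_mul, map_mul, hx, hy]

/-- `translM g` as a `ℚ̄`-algebra map. -/
noncomputable def translK (g : SL(2, ℤ)) : Mer →ₐ[Qb] Mer :=
  { (translM g).toRingHom with
    commutes' := fun c => by
      show translM g (algebraMap Qb Mer c) = algebraMap Qb Mer c
      rw [algebraMap_Qbar_Mer, AlgHom.commutes] }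

theorem translK_apply (g : SL(2, ℤ)) (m : Mer) : translK g m = translM g m := rfl

end Iota

end Norm

/-! ### the conjugate embeddings -/

section Emb

local notation "Qb" => AlgebraicClosure ℚ

/-- the base field `ℚ̄(j)` of the frozen function field. -/
noncomputable abbrev Lj (N : ℕ) : IntermediateField Qb (FF N) :=
  IntermediateField.adjoin Qb {jBar N 1 (one_dvd N) one_pos}

/-- the conjugate embeddings `f ↦ (ι f) ∘ g⁻¹` of the function field, indexed by the cosets
`g Γ₀(N)`. -/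
noncomputable def emb (N : ℕ) (ι : FF N →ₐ[Qb] Mer) (q : SL(2, ℤ) ⧸ Gamma0 N) :
    FF N →ₐ[Qb] Mer :=
  (Norm.translK (Quotient.out q)⁻¹).comp ι

variable {N : ℕ} {ι : FF N →ₐ[Qb] Mer}

theorem emb_mk (hι : IsIota N ι) (g : SL(2, ℤ)) (f : FF N) :
    emb N ι (g : SL(2, ℤ) ⧸ Gamma0 N) f = translM g⁻¹ (ι f) := by
  obtain ⟨γ, hγ⟩ := QuotientGroup.mk_out_eq_mul (Gamma0 N) g
  show translM (Quotient.out (g : SL(2, ℤ) ⧸ Gamma0 N))⁻¹ (ι f) = _
  rw [hγ, mul_inv_rev, translM_mul, Norm.translM_iota hι (inv_mem γ.2)]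

/-- the embedding attached to the trivial coset is `ι` itself. -/
theorem emb_one (hι : IsIota N ι) (f : FF N) :
    emb N ι ((1 : SL(2, ℤ)) : SL(2, ℤ) ⧸ Gamma0 N) f = ι f := by
  rw [emb_mk hι, inv_one, translM_one]

theorem translM_emb (hι : IsIota N ι) (g : SL(2, ℤ)) (q : SL(2, ℤ) ⧸ Gamma0 N) (f : FF N) :
    translM g (emb N ι q f) = emb N ι (g⁻¹ • q) f := by
  induction q using QuotientGroup.induction_on with
  | H a =>
    have e : g⁻¹ • (a : SL(2, ℤ) ⧸ Gamma0 N) = ((g⁻¹ * a : SL(2, ℤ)) : SL(2, ℤ) ⧸ Gamma0 N) :=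
      rfl
    rw [e, emb_mk hι, emb_mk hι, ← translM_mul, mul_inv_rev, inv_inv]

theorem emb_algebraMap (q : SL(2, ℤ) ⧸ Gamma0 N) (c : Qb) :
    emb N ι q (algebraMap Qb (FF N) c) = ι (algebraMap Qb (FF N) c) := by
  rw [AlgHom.commutes, AlgHom.commutes]

theorem emb_jBar_one (hι : IsIota N ι) (q : SL(2, ℤ) ⧸ Gamma0 N) :
    emb N ι q (jBar N 1 (one_dvd N) one_pos) = ι (jBar N 1 (one_dvd N) one_pos) := by
  show translM (Quotient.out q)⁻¹ (ι (jBar N 1 (one_dvd N) one_pos)) = _
  rw [Norm.iota_jBar_one hι, translM_algebraMap, NormAn.transl_jH]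

/-- every conjugate embedding restricts to `ι` on `ℚ̄(j)`. -/
theorem emb_algebraMap_Lj (hι : IsIota N ι) (q : SL(2, ℤ) ⧸ Gamma0 N) (l : Lj N) :
    emb N ι q (algebraMap (Lj N) (FF N) l) = ι (algebraMap (Lj N) (FF N) l) :=
  NormAlg.eq_on_adjoin_simple (emb N ι q : FF N →+* Mer) (ι : FF N →+* Mer) _
    (fun c => emb_algebraMap q c) (emb_jBar_one hι q) l

end Emb

/-! ### the degree and the norm formula -/

section Main

local notation "Qb" => AlgebraicClosure ℚ

variable {N : ℕ} [NeZero N] {ι : FF N →ₐ[Qb] Mer}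

/-- **(N1)** the conjugate embeddings are pairwise distinct. -/
theorem emb_injective (hι : IsIota N ι) : Function.Injective (emb N ι) := by
  intro q₁ q₂ h
  induction q₁ using QuotientGroup.induction_on with
  | H g₁ =>
  induction q₂ using QuotientGroup.induction_on with
  | H g₂ =>
  have hN : 0 < N := Nat.pos_of_ne_zero (NeZero.ne N)
  have h1 := DFunLike.congr_fun h (jBar N N dvd_rfl hN)
  rw [emb_mk hι, emb_mk hι, hι N dvd_rfl hN, translM_algebraMap, translM_algebraMap] at h1
  have h2 : transl g₁⁻¹ (jScaled N hN) = transl g₂⁻¹ (jScaled N hN) :=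
    IsFractionRing.injective Hol Mer h1
  rw [NormAn.transl_jScaled_eq_transl_iff, inv_inv] at h2
  exact QuotientGroup.eq.mpr h2

namespace Norm

/-- the relation of degree `ψ(N)` over `ℂ[j]` satisfied by (the image of) an element of `R0 N`. -/
theorem exists_relation [Fintype (SL(2, ℤ) ⧸ Gamma0 N)] (hι : IsIota N ι) (b : FF N)
    (hb : b ∈ R0 N) :
    ∃ c : Fin (Fintype.card (SL(2, ℤ) ⧸ Gamma0 N) + 1) → Polynomial ℂ, (∃ k, c k ≠ 0) ∧
      ∑ k, Polynomial.aeval (ι (jBar N 1 (one_dvd N) one_pos)) (c k) * ι b ^ (k : ℕ) = 0 := by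
  obtain ⟨θ, hθ, hb'⟩ := exists_hol hι b hb
  obtain ⟨P, hPm, hPd, hP⟩ := NormAn.exists_monic_root N hθ
  rw [Nat.card_eq_fintype_card] at hPd
  refine ⟨fun k => P.coeff k, ⟨Fin.last _, ?_⟩, ?_⟩
  · show P.coeff (Fintype.card (SL(2, ℤ) ⧸ Gamma0 N)) ≠ 0
    rw [← hPd, hPm.coeff_natDegree]
    exact one_ne_zero
  · rw [Polynomial.eval_map, Polynomial.eval₂_eq_sum_range, hPd,
      ← Fin.sum_univ_eq_sum_range
        (fun i => (Polynomial.aeval jH).toRingHom (P.coeff i) * θ ^ i)
        (Fintype.card (SL(2, ℤ) ⧸ Gamma0 N) + 1)] at hP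
    have h2 := congrArg (algebraMap Hol Mer) hP
    rw [map_sum, map_zero] at h2
    rw [iota_jBar_one hι, hb', ← h2]
    refine Finset.sum_congr rfl fun k _ => ?_
    rw [map_mul, map_pow, Polynomial.aeval_algebraMap_apply]
    rfl

end Norm

variable [Fintype (SL(2, ℤ) ⧸ Gamma0 N)]

/-- **(N2)** `F / ℚ̄(j)` is finite of degree `#(SL(2,ℤ) ⧸ Γ₀(N))`. -/
theorem finiteDimensional_Lj_and_finrank (hι : IsIota N ι)
    (hLD : ∀ (J : Type) (f : J → FF N), LinearIndependent Qb f →
      LinearIndependent ℂ (fun j => ι (f j))) :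
    FiniteDimensional (Lj N) (FF N) ∧
      Module.finrank (Lj N) (FF N) = Fintype.card (SL(2, ℤ) ⧸ Gamma0 N) :=
  NormAlg.finrank_eq_card (ι : FF N →+* Mer) hLD (jBar N 1 (one_dvd N) one_pos)
    (Norm.transcendental_jBar hι) (Norm.R0 N) (Norm.jBar_mem_R0 N 1 (one_dvd N) one_pos)
    (Norm.adjoin_R0 N) (fun q => (emb N ι q : FF N →+* Mer))
    (fun _ _ h => emb_injective hι (AlgHom.coe_ringHom_injective h))
    (fun q c => emb_algebraMap q c) (fun q => emb_jBar_one hι q)
    (fun b hb => Norm.exists_relation hι b hb)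

omit [Fintype (SL(2, ℤ) ⧸ Gamma0 N)] in
/-- **(N2)** `F / ℚ̄(j)` is finite. -/
theorem finiteDimensional_Lj (hι : IsIota N ι)
    (hLD : ∀ (J : Type) (f : J → FF N), LinearIndependent Qb f →
      LinearIndependent ℂ (fun j => ι (f j))) :
    FiniteDimensional (Lj N) (FF N) := by
  classical
  letI : Fintype (SL(2, ℤ) ⧸ Gamma0 N) := Subgroup.fintypeQuotientOfFiniteIndex
  exact (finiteDimensional_Lj_and_finrank hι hLD).1

omit [Fintype (SL(2, ℤ) ⧸ Gamma0 N)] in
/-- **(N2)** `[F : ℚ̄(j)] = ψ(N)`. -/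
theorem finrank_Lj (hι : IsIota N ι)
    (hLD : ∀ (J : Type) (f : J → FF N), LinearIndependent Qb f →
      LinearIndependent ℂ (fun j => ι (f j))) :
    Module.finrank (Lj N) (FF N) = ModularCurve.dedekindPsi N := by
  classical
  letI : Fintype (SL(2, ℤ) ⧸ Gamma0 N) := Subgroup.fintypeQuotientOfFiniteIndex
  rw [(finiteDimensional_Lj_and_finrank hι hLD).2, ← Nat.card_eq_fintype_card,
    Fermat.Agent.S20.Cosets.card_quotient_eq]

/-- **(N3)** the norm formula: the product of the conjugates of `b` is (the image of) its norm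
down to `ℚ̄(j)`. -/
theorem prod_emb (hι : IsIota N ι)
    (hLD : ∀ (J : Type) (f : J → FF N), LinearIndependent Qb f →
      LinearIndependent ℂ (fun j => ι (f j)))
    (b : FF N) (q0 : SL(2, ℤ) ⧸ Gamma0 N) :
    ∏ q, emb N ι q b = emb N ι q0 ((Algebra.norm (Lj N) b : Lj N) : FF N) := by
  obtain ⟨hfin, hcard⟩ := finiteDimensional_Lj_and_finrank hι hLD
  haveI : CharZero (Lj N) := charZero_of_injective_algebraMap (algebraMap Qb (Lj N)).injective
  haveI : Algebra.IsAlgebraic (Lj N) (FF N) := Algebra.IsAlgebraic.of_finite _ _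
  haveI : PerfectField (Lj N) := PerfectField.ofCharZero
  haveI : Algebra.IsSeparable (Lj N) (FF N) := Algebra.IsAlgebraic.isSeparable_of_perfectField
  exact NormAlg.prod_eq_norm (L := Lj N) (fun q => (emb N ι q : FF N →+* Mer))
    (fun _ _ h => emb_injective hι (AlgHom.coe_ringHom_injective h))
    (fun q q' l => by
      show emb N ι q (algebraMap (Lj N) (FF N) l) = emb N ι q' (algebraMap (Lj N) (FF N) l)
      rw [emb_algebraMap_Lj hι, emb_algebraMap_Lj hι])
    hcard.symm b q0

/-- **(N3)**, valuation form (the hypothesis `hnorm` of `exists_places`). -/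
theorem prod_comap_emb (hι : IsIota N ι)
    (hLD : ∀ (J : Type) (f : J → FF N), LinearIndependent Qb f →
      LinearIndependent ℂ (fun j => ι (f j)))
    (w : Valuation Mer (WithZero (Multiplicative ℤ))) (b : FF N) (q0 : SL(2, ℤ) ⧸ Gamma0 N) :
    ∏ q, w.comap (emb N ι q : FF N →+* Mer) b
      = w.comap (emb N ι q0 : FF N →+* Mer) ((Algebra.norm (Lj N) b : Lj N) : FF N) := by
  simp only [Valuation.comap_apply]
  have := congrArg w (prod_emb hι hLD b q0)
  rw [map_prod] at this
  exact this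

end Main

end Fermat.Agent.S24
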