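import Fermat.Agent.S20.Cosets

/-!
# S24 library: orbit combinatorics on `SL(2,ℤ) ⧸ Γ₀(N)`   (OWNER: helper16)

General facts on orbits of a cyclic group `⟨g⟩` acting on a finite set (orbit sizes = minimal
periods, class equation, `p · #orbits = |X| + (p-1) · #Fix` when `g ^ p` acts trivially), in the
`Equiv.Perm` / `SameCycle` / `Function.minimalPeriod` shape consumed by `exists_places`, and their
specialisations to `g = S, S * T, T` acting on the cosets of `Γ₀(N)`:

* `2 · #(S-orbits) = ψ(N) + ν₂(N)`, `3 · #(ST-orbits) = ψ(N) + 2 ν₃(N)`, `#(T-orbits) = c(N)`;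
* orbit sizes divide `2`, `3`, `N`;
* the ramification sums `2 ∑ (e_v - 1) = ψ - ν₂`, `3 ∑ (e_v - 1) = 2 (ψ - ν₃)`,
  `∑ (e_v + 1) = ψ + c` for any `P` whose fibres are the cycles and `e (P i)` = cycle length.
-/

open MulAction

namespace Fermat.Agent.S24.Orbits

section General

variable {G X : Type*} [Group G] [MulAction G X]

/-- size of an orbit of a cyclic group = minimal period -/
theorem card_orbit_zpowers (g : G) (x : X) :
    Nat.card (orbit (Subgroup.zpowers g) x) = Function.minimalPeriod (g • ·) x := by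
  rw [Nat.card_congr (orbitZPowersEquiv g x), Nat.card_zmod]

theorem card_orbit_zpowers_dvd (g : G) (x : X) {n : ℕ} (h : g ^ n • x = x) :
    Nat.card (orbit (Subgroup.zpowers g) x) ∣ n := by
  rw [card_orbit_zpowers]
  apply Function.IsPeriodicPt.minimalPeriod_dvd
  show (g • ·)^[n] x = x
  rw [smul_iterate]
  exact h

theorem card_orbit_zpowers_eq_one_iff (g : G) (x : X) :
    Nat.card (orbit (Subgroup.zpowers g) x) = 1 ↔ g • x = x := by
  rw [card_orbit_zpowers, Function.minimalPeriod_eq_one_iff_isFixedPt]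
  rfl

theorem card_orbit_zpowers_prime (g : G) (x : X) {p : ℕ} (hp : p.Prime) (h : g ^ p • x = x)
    [Decidable (g • x = x)] :
    Nat.card (orbit (Subgroup.zpowers g) x) = if g • x = x then 1 else p := by
  split_ifs with hx
  · exact (card_orbit_zpowers_eq_one_iff g x).mpr hx
  · rcases (Nat.dvd_prime hp).mp (card_orbit_zpowers_dvd g x h) with h1 | h1
    · exact absurd ((card_orbit_zpowers_eq_one_iff g x).mp h1) hx
    · exact h1

/-- the class equation: `|X| = ∑ over orbits of the orbit size` -/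
theorem card_eq_sum_card_orbit (H : Subgroup G) [Fintype X] [Fintype (orbitRel.Quotient H X)] :
    Fintype.card X = ∑ q : orbitRel.Quotient H X, Nat.card (orbit H (Quotient.out q)) := by
  classical
  have e := selfEquivSigmaOrbits H X
  rw [← Nat.card_eq_fintype_card, Nat.card_congr e, Nat.card_sigma]

/-- a point fixed by `g` is alone in its `⟨g⟩`-orbit -/
theorem eq_of_orbitRel_of_fixed (g : G) {x y : X} (hx : g • x = x)
    (h : orbitRel (Subgroup.zpowers g) X y x) : y = x := by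
  rw [orbitRel_apply] at h
  obtain ⟨⟨s, hs⟩, rfl⟩ := h
  have h1 : Subgroup.zpowers g ≤ stabilizer G x :=
    (Subgroup.zpowers_le).mpr (mem_stabilizer_iff.mpr hx)
  exact mem_stabilizer_iff.mp (h1 hs)

theorem out_mk_of_fixed (g : G) {x : X} (hx : g • x = x) :
    Quotient.out (Quotient.mk (orbitRel (Subgroup.zpowers g) X) x) = x :=
  eq_of_orbitRel_of_fixed g hx (Quotient.exact (Quotient.out_eq _))

/-- **Orbit count for an element acting with prime order**:
`p · #orbits = |X| + (p - 1) · #Fix`. -/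
theorem prime_mul_card_orbits [Finite X] (g : G) {p : ℕ} (hp : p.Prime)
    (hg : ∀ x : X, g ^ p • x = x) :
    p * Nat.card (orbitRel.Quotient (Subgroup.zpowers g) X)
      = Nat.card X + (p - 1) * Nat.card {x : X // g • x = x} := by
  classical
  have : Fintype X := Fintype.ofFinite X
  have : Fintype (orbitRel.Quotient (Subgroup.zpowers g) X) := Fintype.ofFinite _
  set Q := orbitRel.Quotient (Subgroup.zpowers g) X with hQ
  have h1 : Fintype.card X = ∑ q : Q, (if g • Quotient.out q = Quotient.out q then 1 else p) := by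
    rw [card_eq_sum_card_orbit (Subgroup.zpowers g)]
    exact Finset.sum_congr rfl fun q _ => card_orbit_zpowers_prime g _ hp (hg _)
  rw [Finset.sum_ite, Finset.sum_const, Finset.sum_const, smul_eq_mul, smul_eq_mul, mul_one] at h1
  have h2 := Finset.card_filter_add_card_filter_not (s := (Finset.univ : Finset Q))
    (fun q : Q => g • Quotient.out q = Quotient.out q)
  rw [Finset.card_univ] at h2
  have hA : Nat.card {x : X // g • x = x}
      = (Finset.univ.filter (fun q : Q => g • Quotient.out q = Quotient.out q)).card := by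
    rw [← Fintype.card_subtype, ← Nat.card_eq_fintype_card]
    refine Nat.card_congr (Equiv.ofBijective
      (fun x : {x : X // g • x = x} =>
        (⟨Quotient.mk _ x.1, ?_⟩ : {q : Q // g • Quotient.out q = Quotient.out q})) ⟨?_, ?_⟩)
    · rw [out_mk_of_fixed g x.2]
      exact x.2
    · intro x y h
      have h3 := Quotient.exact (Subtype.ext_iff.mp h)
      exact Subtype.ext (eq_of_orbitRel_of_fixed g y.2 h3)
    · rintro ⟨q, hq⟩
      exact ⟨⟨Quotient.out q, hq⟩, Subtype.ext (Quotient.out_eq q)⟩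
  rw [Nat.card_eq_fintype_card, Nat.card_eq_fintype_card (α := X), hA, h1, ← h2]
  have hp1 : 1 ≤ p := hp.one_lt.le
  obtain ⟨k, rfl⟩ : ∃ k, p = k + 1 := ⟨p - 1, by omega⟩
  simp only [Nat.add_sub_cancel]
  ring

/-! ### The shape consumed by `exists_places` (`s : Equiv.Perm I`, `Function.minimalPeriod s i`,
`s.SameCycle`) for `s = MulAction.toPerm g` -/

theorem toPerm_zpow_apply (g : G) (k : ℤ) (x : X) :
    ((MulAction.toPerm g : Equiv.Perm X) ^ k) x = g ^ k • x := by
  have h1 : (MulAction.toPerm g : Equiv.Perm X) ^ k = MulAction.toPerm (g ^ k) :=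
    (map_zpow (MulAction.toPermHom G X) g k).symm
  rw [h1, MulAction.toPerm_apply]

theorem minimalPeriod_toPerm (g : G) (x : X) :
    Function.minimalPeriod (MulAction.toPerm g : Equiv.Perm X) x
      = Function.minimalPeriod (g • ·) x := rfl

theorem sameCycle_toPerm_iff (g : G) (x y : X) :
    (MulAction.toPerm g : Equiv.Perm X).SameCycle x y ↔ orbitRel (Subgroup.zpowers g) X y x := by
  rw [orbitRel_apply]
  constructor
  · rintro ⟨k, hk⟩
    rw [toPerm_zpow_apply] at hk
    exact ⟨⟨g ^ k, zpow_mem (Subgroup.mem_zpowers g) k⟩, hk⟩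
  · rintro ⟨⟨s, hs⟩, hk⟩
    obtain ⟨k, rfl⟩ := Subgroup.mem_zpowers_iff.mp hs
    exact ⟨k, by rw [toPerm_zpow_apply]; exact hk⟩

theorem minimalPeriod_toPerm_eq_card_orbit (g : G) (x : X) :
    Function.minimalPeriod (MulAction.toPerm g : Equiv.Perm X) x
      = Nat.card (orbit (Subgroup.zpowers g) x) :=
  (card_orbit_zpowers g x).symm

theorem minimalPeriod_toPerm_dvd (g : G) (x : X) {n : ℕ} (h : g ^ n • x = x) :
    Function.minimalPeriod (MulAction.toPerm g : Equiv.Perm X) x ∣ n := by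
  rw [minimalPeriod_toPerm_eq_card_orbit]
  exact card_orbit_zpowers_dvd g x h

theorem minimalPeriod_toPerm_eq_one_iff (g : G) (x : X) :
    Function.minimalPeriod (MulAction.toPerm g : Equiv.Perm X) x = 1 ↔ g • x = x := by
  rw [minimalPeriod_toPerm_eq_card_orbit, card_orbit_zpowers_eq_one_iff]

/-- if the fibres of `P` are the cycles of `toPerm g`, the image of `P` is in bijection with the
`⟨g⟩`-orbits -/
theorem card_image_eq_card_orbits {V : Type*} [Fintype X] [DecidableEq V] (g : G) (P : X → V)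
    (hP : ∀ i i', P i = P i' ↔ (MulAction.toPerm g : Equiv.Perm X).SameCycle i i') :
    (Finset.univ.image P).card = Nat.card (orbitRel.Quotient (Subgroup.zpowers g) X) := by
  classical
  have : Fintype (orbitRel.Quotient (Subgroup.zpowers g) X) := Fintype.ofFinite _
  have hwd : ∀ a b : X, orbitRel (Subgroup.zpowers g) X a b → P a = P b := fun a b hab =>
    (hP a b).mpr ((sameCycle_toPerm_iff g a b).mpr (Setoid.symm' _ hab))
  set P' : orbitRel.Quotient (Subgroup.zpowers g) X → V := Quotient.lift P hwd with hP'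
  have hinj : Function.Injective P' := by
    intro a b
    induction a using Quotient.inductionOn with | _ a => ?_
    induction b using Quotient.inductionOn with | _ b => ?_
    intro h
    apply Quotient.sound
    have h1 : P a = P b := h
    exact Setoid.symm' _ ((sameCycle_toPerm_iff g a b).mp ((hP a b).mp h1))
  have himg : Finset.univ.image P = Finset.univ.image P' := by
    ext v
    simp only [Finset.mem_image, Finset.mem_univ, true_and]
    constructor
    · rintro ⟨i, rfl⟩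
      exact ⟨Quotient.mk _ i, rfl⟩
    · rintro ⟨q, rfl⟩
      induction q using Quotient.inductionOn with | _ a => ?_
      exact ⟨a, rfl⟩
  rw [himg, Finset.card_image_of_injective _ hinj, Finset.card_univ, Nat.card_eq_fintype_card]

/-- if the fibres of `P` are the cycles of `toPerm g` and `ev (P i)` is the cycle length,
then `∑_v ev v = |X|` -/
theorem sum_image_eq_card {V : Type*} [Fintype X] [DecidableEq V] (g : G) (P : X → V)
    (hP : ∀ i i', P i = P i' ↔ (MulAction.toPerm g : Equiv.Perm X).SameCycle i i')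
    (ev : V → ℕ)
    (hev : ∀ i, ev (P i) = Function.minimalPeriod (MulAction.toPerm g : Equiv.Perm X) i) :
    ∑ v ∈ Finset.univ.image P, ev v = Fintype.card X := by
  classical
  rw [← Finset.card_univ, Finset.card_eq_sum_card_image P Finset.univ]
  refine Finset.sum_congr rfl fun v hv => ?_
  obtain ⟨i, -, rfl⟩ := Finset.mem_image.mp hv
  rw [hev, minimalPeriod_toPerm_eq_card_orbit, Nat.card_eq_fintype_card, Fintype.card_subtype]
  refine congrArg Finset.card (Finset.ext fun a => ?_)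
  simp only [Finset.mem_filter, Finset.mem_univ, true_and]
  rw [hP, sameCycle_toPerm_iff, orbitRel_apply]
  exact MulAction.mem_orbit_symm

/-- ramification sum `∑ (e_v - 1) = |X| - #orbits` -/
theorem sum_image_sub_one {V : Type*} [Fintype X] [DecidableEq V] (g : G) (P : X → V)
    (hP : ∀ i i', P i = P i' ↔ (MulAction.toPerm g : Equiv.Perm X).SameCycle i i')
    (ev : V → ℤ)
    (hev : ∀ i, ev (P i) = Function.minimalPeriod (MulAction.toPerm g : Equiv.Perm X) i) :
    ∑ v ∈ Finset.univ.image P, (ev v - 1)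
      = (Fintype.card X : ℤ) - Nat.card (orbitRel.Quotient (Subgroup.zpowers g) X) := by
  classical
  rw [Finset.sum_sub_distrib, Finset.sum_const, ← card_image_eq_card_orbits g P hP]
  have h := sum_image_eq_card g P hP (fun v => (ev v).toNat) (fun i => by rw [hev]; simp)
  have h2 : ∑ v ∈ Finset.univ.image P, ev v = ∑ v ∈ Finset.univ.image P, ((ev v).toNat : ℤ) := by
    refine Finset.sum_congr rfl fun v hv => ?_
    obtain ⟨i, -, rfl⟩ := Finset.mem_image.mp hv
    rw [hev]
    simp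
  rw [h2, ← Nat.cast_sum, h]
  simp

/-- pole sum `∑ (e_v + 1) = |X| + #orbits` -/
theorem sum_image_add_one {V : Type*} [Fintype X] [DecidableEq V] (g : G) (P : X → V)
    (hP : ∀ i i', P i = P i' ↔ (MulAction.toPerm g : Equiv.Perm X).SameCycle i i')
    (ev : V → ℤ)
    (hev : ∀ i, ev (P i) = Function.minimalPeriod (MulAction.toPerm g : Equiv.Perm X) i) :
    ∑ v ∈ Finset.univ.image P, (ev v + 1)
      = (Fintype.card X : ℤ) + Nat.card (orbitRel.Quotient (Subgroup.zpowers g) X) := by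
  have h := sum_image_sub_one g P hP ev hev
  have h2 : ∑ v ∈ Finset.univ.image P, (ev v + 1)
      = ∑ v ∈ Finset.univ.image P, (ev v - 1) + 2 * (Finset.univ.image P).card := by
    rw [Finset.sum_add_distrib, Finset.sum_sub_distrib, Finset.sum_const, nsmul_eq_mul, mul_one]
    ring
  rw [h2, h, card_image_eq_card_orbits g P hP]
  ring

end General

section Gamma0

open ModularGroup CongruenceSubgroup Matrix Fermat.Agent.S20
open scoped MatrixGroups

variable (N : ℕ)

/-- `-1` acts trivially on `SL(2, ℤ) ⧸ Γ₀(N)` -/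
theorem neg_one_smul (w : SL(2, ℤ) ⧸ Gamma0 N) : (-1 : SL(2, ℤ)) • w = w := by
  obtain ⟨g, rfl⟩ := QuotientGroup.mk_surjective w
  rw [MulAction.Quotient.smul_mk, smul_eq_mul, Cosets.coset_eq_iff]
  simp only [neg_mul, one_mul, Matrix.SpecialLinearGroup.coe_neg, Matrix.neg_apply]
  exact ⟨0, by ring⟩

theorem S_sq_eq : (S : SL(2, ℤ)) ^ 2 = -1 := by
  apply Subtype.ext
  rw [pow_two, Matrix.SpecialLinearGroup.coe_mul, S_mul_S_eq]
  rfl

theorem ST_cube_eq : ((S : SL(2, ℤ)) * T) ^ 3 = -1 := by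
  apply Subtype.ext
  simp only [Matrix.SpecialLinearGroup.coe_pow, Matrix.SpecialLinearGroup.coe_mul, coe_S, coe_T,
    Matrix.SpecialLinearGroup.coe_neg, Matrix.SpecialLinearGroup.coe_one]
  ext i j
  fin_cases i <;> fin_cases j <;> simp [pow_succ, Matrix.mul_apply, Fin.sum_univ_two]

theorem S_sq_smul (w : SL(2, ℤ) ⧸ Gamma0 N) : (S : SL(2, ℤ)) ^ 2 • w = w := by
  rw [S_sq_eq, neg_one_smul]

theorem ST_cube_smul (w : SL(2, ℤ) ⧸ Gamma0 N) : ((S : SL(2, ℤ)) * T) ^ 3 • w = w := by
  rw [ST_cube_eq, neg_one_smul]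

theorem T_npow_smul (w : SL(2, ℤ) ⧸ Gamma0 N) : (T : SL(2, ℤ)) ^ N • w = w := by
  have h := Cosets.T_pow_smul N w
  rwa [zpow_natCast] at h

/-- number of `S`-orbits on the cosets: `2 · #orbits = ψ(N) + ν₂(N)` -/
theorem two_mul_card_orbits_S [NeZero N] :
    2 * Nat.card (orbitRel.Quotient (Subgroup.zpowers (S : SL(2, ℤ))) (SL(2, ℤ) ⧸ Gamma0 N))
      = ModularCurve.dedekindPsi N + ModularCurve.nuTwo N := by
  have h := prime_mul_card_orbits (X := SL(2, ℤ) ⧸ Gamma0 N) (S : SL(2, ℤ)) Nat.prime_two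
    (S_sq_smul N)
  rw [Cosets.card_fixed_S, Cosets.card_quotient_eq] at h
  exact h.trans (by norm_num)

/-- number of `ST`-orbits on the cosets: `3 · #orbits = ψ(N) + 2 ν₃(N)` -/
theorem three_mul_card_orbits_ST [NeZero N] :
    3 * Nat.card (orbitRel.Quotient (Subgroup.zpowers ((S : SL(2, ℤ)) * T)) (SL(2, ℤ) ⧸ Gamma0 N))
      = ModularCurve.dedekindPsi N + 2 * ModularCurve.nuThree N := by
  have h := prime_mul_card_orbits (X := SL(2, ℤ) ⧸ Gamma0 N) ((S : SL(2, ℤ)) * T) Nat.prime_three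
    (ST_cube_smul N)
  rw [Cosets.card_fixed_ST, Cosets.card_quotient_eq] at h
  exact h

/-- number of `T`-orbits on the cosets -/
theorem card_orbits_T [NeZero N] :
    Nat.card (orbitRel.Quotient (Subgroup.zpowers (T : SL(2, ℤ))) (SL(2, ℤ) ⧸ Gamma0 N))
      = ModularCurve.cuspCount N :=
  Cosets.card_orbits_T N

theorem card_orbit_S (w : SL(2, ℤ) ⧸ Gamma0 N) [Decidable ((S : SL(2, ℤ)) • w = w)] :
    Nat.card (orbit (Subgroup.zpowers (S : SL(2, ℤ))) w) = if (S : SL(2, ℤ)) • w = w then 1 else 2 :=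
  card_orbit_zpowers_prime _ w Nat.prime_two (S_sq_smul N w)

theorem card_orbit_ST (w : SL(2, ℤ) ⧸ Gamma0 N) [Decidable (((S : SL(2, ℤ)) * T) • w = w)] :
    Nat.card (orbit (Subgroup.zpowers ((S : SL(2, ℤ)) * T)) w)
      = if ((S : SL(2, ℤ)) * T) • w = w then 1 else 3 :=
  card_orbit_zpowers_prime _ w Nat.prime_three (ST_cube_smul N w)

theorem card_orbit_T_dvd (w : SL(2, ℤ) ⧸ Gamma0 N) :
    Nat.card (orbit (Subgroup.zpowers (T : SL(2, ℤ))) w) ∣ N :=
  card_orbit_zpowers_dvd _ w (T_npow_smul N w)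

/-- class equation on the cosets, for any subgroup `H ≤ SL(2, ℤ)` -/
theorem sum_card_orbit [NeZero N] (H : Subgroup SL(2, ℤ))
    [hQ : Fintype (orbitRel.Quotient H (SL(2, ℤ) ⧸ Gamma0 N))] :
    ∑ q : orbitRel.Quotient H (SL(2, ℤ) ⧸ Gamma0 N), Nat.card (orbit H (Quotient.out q))
      = ModularCurve.dedekindPsi N := by
  classical
  have hX : Fintype (SL(2, ℤ) ⧸ Gamma0 N) := Fintype.ofFinite _
  have h := @card_eq_sum_card_orbit SL(2, ℤ) (SL(2, ℤ) ⧸ Gamma0 N) _ _ H hX hQ
  rw [← Nat.card_eq_fintype_card, Cosets.card_quotient_eq] at h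
  exact h.symm

/-! ### `Equiv.Perm` shape on the cosets (what `exists_places` consumes) -/

theorem minimalPeriod_S_dvd (w : SL(2, ℤ) ⧸ Gamma0 N) :
    Function.minimalPeriod
      (MulAction.toPerm (S : SL(2, ℤ)) : Equiv.Perm (SL(2, ℤ) ⧸ Gamma0 N)) w ∣ 2 :=
  minimalPeriod_toPerm_dvd _ w (S_sq_smul N w)

theorem minimalPeriod_ST_dvd (w : SL(2, ℤ) ⧸ Gamma0 N) :
    Function.minimalPeriod
      (MulAction.toPerm ((S : SL(2, ℤ)) * T) : Equiv.Perm (SL(2, ℤ) ⧸ Gamma0 N)) w ∣ 3 :=
  minimalPeriod_toPerm_dvd _ w (ST_cube_smul N w)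

theorem minimalPeriod_T_dvd (w : SL(2, ℤ) ⧸ Gamma0 N) :
    Function.minimalPeriod
      (MulAction.toPerm (T : SL(2, ℤ)) : Equiv.Perm (SL(2, ℤ) ⧸ Gamma0 N)) w ∣ N :=
  minimalPeriod_toPerm_dvd _ w (T_npow_smul N w)

section Sums

variable [NeZero N] [Fintype (SL(2, ℤ) ⧸ Gamma0 N)] {V : Type*} [DecidableEq V]

omit [NeZero N] in
/-- at a generic point (`s = 1`): no ramification -/
theorem sum_sub_one_one (P : SL(2, ℤ) ⧸ Gamma0 N → V) (ev : V → ℤ)
    (hev : ∀ i, ev (P i) = Function.minimalPeriod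
      (MulAction.toPerm (1 : SL(2, ℤ)) : Equiv.Perm (SL(2, ℤ) ⧸ Gamma0 N)) i) :
    ∑ v ∈ Finset.univ.image P, (ev v - 1) = 0 := by
  refine Finset.sum_eq_zero fun v hv => ?_
  obtain ⟨i, -, rfl⟩ := Finset.mem_image.mp hv
  rw [hev, (minimalPeriod_toPerm_eq_one_iff (1 : SL(2, ℤ)) i).mpr (one_smul _ i)]
  simp

/-- ramification over `j = 1728`: `2 · ∑ (e_v - 1) = ψ - ν₂` -/
theorem two_mul_sum_sub_one_S (P : SL(2, ℤ) ⧸ Gamma0 N → V)
    (hP : ∀ i i', P i = P i' ↔
      (MulAction.toPerm (S : SL(2, ℤ)) : Equiv.Perm (SL(2, ℤ) ⧸ Gamma0 N)).SameCycle i i')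
    (ev : V → ℤ)
    (hev : ∀ i, ev (P i) = Function.minimalPeriod
      (MulAction.toPerm (S : SL(2, ℤ)) : Equiv.Perm (SL(2, ℤ) ⧸ Gamma0 N)) i) :
    2 * ∑ v ∈ Finset.univ.image P, (ev v - 1)
      = (ModularCurve.dedekindPsi N : ℤ) - ModularCurve.nuTwo N := by
  have key := sum_image_sub_one (S : SL(2, ℤ)) P hP ev hev
  have h := prime_mul_card_orbits (X := SL(2, ℤ) ⧸ Gamma0 N) (S : SL(2, ℤ)) Nat.prime_two
    (S_sq_smul N)
  rw [Cosets.card_fixed_S, Cosets.card_quotient_eq] at h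
  rw [← Nat.card_eq_fintype_card, Cosets.card_quotient_eq] at key
  rw [key]
  omega

/-- ramification over `j = 0`: `3 · ∑ (e_v - 1) = 2 (ψ - ν₃)` -/
theorem three_mul_sum_sub_one_ST (P : SL(2, ℤ) ⧸ Gamma0 N → V)
    (hP : ∀ i i', P i = P i' ↔
      (MulAction.toPerm ((S : SL(2, ℤ)) * T) : Equiv.Perm (SL(2, ℤ) ⧸ Gamma0 N)).SameCycle i i')
    (ev : V → ℤ)
    (hev : ∀ i, ev (P i) = Function.minimalPeriod
      (MulAction.toPerm ((S : SL(2, ℤ)) * T) : Equiv.Perm (SL(2, ℤ) ⧸ Gamma0 N)) i) :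
    3 * ∑ v ∈ Finset.univ.image P, (ev v - 1)
      = 2 * ((ModularCurve.dedekindPsi N : ℤ) - ModularCurve.nuThree N) := by
  have key := sum_image_sub_one ((S : SL(2, ℤ)) * T) P hP ev hev
  have h := prime_mul_card_orbits (X := SL(2, ℤ) ⧸ Gamma0 N) ((S : SL(2, ℤ)) * T) Nat.prime_three
    (ST_cube_smul N)
  rw [Cosets.card_fixed_ST, Cosets.card_quotient_eq] at h
  rw [← Nat.card_eq_fintype_card, Cosets.card_quotient_eq] at key
  rw [key]
  omega

/-- poles (cusps): `∑ (e_v + 1) = ψ + c` -/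
theorem sum_add_one_T (P : SL(2, ℤ) ⧸ Gamma0 N → V)
    (hP : ∀ i i', P i = P i' ↔
      (MulAction.toPerm (T : SL(2, ℤ)) : Equiv.Perm (SL(2, ℤ) ⧸ Gamma0 N)).SameCycle i i')
    (ev : V → ℤ)
    (hev : ∀ i, ev (P i) = Function.minimalPeriod
      (MulAction.toPerm (T : SL(2, ℤ)) : Equiv.Perm (SL(2, ℤ) ⧸ Gamma0 N)) i) :
    ∑ v ∈ Finset.univ.image P, (ev v + 1)
      = (ModularCurve.dedekindPsi N : ℤ) + ModularCurve.cuspCount N := by
  have key := sum_image_add_one (T : SL(2, ℤ)) P hP ev hev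
  rw [← Nat.card_eq_fintype_card, Cosets.card_quotient_eq] at key
  have h : (Nat.card (orbitRel.Quotient (Subgroup.zpowers (T : SL(2, ℤ)))
      (SL(2, ℤ) ⧸ Gamma0 N)) : ℤ) = ModularCurve.cuspCount N := by
    exact_mod_cast Cosets.card_orbits_T N
  exact key.trans (congrArg (fun t : ℤ => (ModularCurve.dedekindPsi N : ℤ) + t) h)

end Sums

end Gamma0

end Fermat.Agent.S24.Orbits
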