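import Mathlib
import Fermat.Prelude.Def_AlgebraicCurve_DivisorClassGroup

set_option autoImplicit false
set_option linter.style.haveILetI false
set_option linter.unusedSectionVars false

/-!
# S24, abstract layer: places over a point from a family of valuations with the norm property

`Fermat.Agent.S24.exists_places` (Theorem A): a family of `ℤᵐ⁰`-valued valuations `w i` on a
function field `F` over an algebraically closed field `K`, indexed by a finite set of the same
size as the degree `[F : K(x)]`, all positive on `x` and satisfying the norm formula, accounts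
for ALL places of `F` over `x = 0`; a permutation `s` of the index set leaving the valuations
invariant and with the right divisibility property has the places as its orbits, with
ramification index the orbit size.
-/

namespace Fermat.Agent.S24

open AlgebraicCurve WithZero

namespace PlacesAbsAux

variable {K F : Type*} [Field K] [Field F] [Algebra K F]

/-- additive form of a `ℤᵐ⁰`-valued valuation -/
noncomputable def vord (w : Valuation F ℤᵐ⁰) (f : F) : ℤ := -(log (w f))

theorem val_eq_exp (w : Valuation F ℤᵐ⁰) {f : F} (hf : f ≠ 0) : w f = exp (-(vord w f)) := by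
  have h : w f ≠ 0 := (Valuation.ne_zero_iff w).mpr hf
  rw [vord, neg_neg, exp_log h]

theorem vord_eq_of_val (w : Valuation F ℤᵐ⁰) {f : F} {n : ℤ} (h : w f = exp (-n)) :
    vord w f = n := by
  rw [vord, h, log_exp, neg_neg]

theorem vord_mul (w : Valuation F ℤᵐ⁰) {f g : F} (hf : f ≠ 0) (hg : g ≠ 0) :
    vord w (f * g) = vord w f + vord w g := by
  have h1 : w f ≠ 0 := (Valuation.ne_zero_iff w).mpr hf
  have h2 : w g ≠ 0 := (Valuation.ne_zero_iff w).mpr hg
  rw [vord, vord, vord, map_mul, log_mul h1 h2]
  ring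

theorem vord_zpow (w : Valuation F ℤᵐ⁰) (f : F) (n : ℤ) : vord w (f ^ n) = n * vord w f := by
  rw [vord, vord, map_zpow₀, log_zpow, smul_eq_mul]
  ring

theorem vord_nonneg_iff (w : Valuation F ℤᵐ⁰) {f : F} (hf : f ≠ 0) :
    0 ≤ vord w f ↔ w f ≤ 1 := by
  have h : w f ≠ 0 := (Valuation.ne_zero_iff w).mpr hf
  rw [vord, neg_nonneg, ← log_one (M := ℤ), log_le_log h one_ne_zero]

theorem vord_pos_iff (w : Valuation F ℤᵐ⁰) {f : F} (hf : f ≠ 0) :
    0 < vord w f ↔ w f < 1 := by
  have h : w f ≠ 0 := (Valuation.ne_zero_iff w).mpr hf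
  rw [vord, neg_pos, ← log_one (M := ℤ), log_lt_log h one_ne_zero]

theorem min_le_vord_add (w : Valuation F ℤᵐ⁰) {f g : F} (hf : f ≠ 0) (hg : g ≠ 0)
    (hfg : f + g ≠ 0) : min (vord w f) (vord w g) ≤ vord w (f + g) := by
  have h1 : w f ≠ 0 := (Valuation.ne_zero_iff w).mpr hf
  have h2 : w g ≠ 0 := (Valuation.ne_zero_iff w).mpr hg
  have h3 : w (f + g) ≠ 0 := (Valuation.ne_zero_iff w).mpr hfg
  have h := Valuation.map_add w f g
  rcases le_max_iff.mp h with h | h
  · have := (log_le_log h3 h1).mpr h
    exact (min_le_left _ _).trans (by rw [vord, vord]; omega)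
  · have := (log_le_log h3 h2).mpr h
    exact (min_le_right _ _).trans (by rw [vord, vord]; omega)

/-- the frozen `ord` is the additive form of the frozen adic valuation -/
theorem ord_eq_vord (v : Place K F) (f : F) : v.ord f = vord v.adicValuation f := rfl

theorem adicValuation_le_one_iff (v : Place K F) (f : F) :
    v.adicValuation f ≤ 1 ↔ f ∈ v.toValuationSubring := by
  constructor
  · intro h
    by_contra hf
    have hf0 : f ≠ 0 := fun h0 => hf (h0 ▸ zero_mem _)
    have hinv : f⁻¹ ∈ v.toValuationSubring :=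
      (v.toValuationSubring.mem_or_inv_mem f).resolve_left hf
    have hnu : ¬ IsUnit (⟨f⁻¹, hinv⟩ : v.toValuationSubring) := by
      intro hu
      obtain ⟨b, hb⟩ := isUnit_iff_exists_inv.mp hu
      apply hf
      have h2 : f⁻¹ * (b : F) = 1 := congrArg Subtype.val hb
      have h3 : (b : F) = f := by
        field_simp at h2
        exact h2
      rw [← h3]
      exact b.2
    have h1 : v.adicValuation f⁻¹ ≠ 1 := fun h1 =>
      hnu ((v.adicValuation_coe_eq_one_iff ⟨f⁻¹, hinv⟩).mp h1)
    have h2 : v.adicValuation f⁻¹ ≤ 1 := by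
      have := v.adicValuation_coe ⟨f⁻¹, hinv⟩
      rw [show ((⟨f⁻¹, hinv⟩ : v.toValuationSubring) : F) = f⁻¹ from rfl] at this
      rw [this]
      exact IsDedekindDomain.HeightOneSpectrum.intValuation_le_one _ _
    have h3 : v.adicValuation f⁻¹ < 1 := lt_of_le_of_ne h2 h1
    rw [map_inv₀] at h3
    have h4 : v.adicValuation f ≠ 0 := (Valuation.ne_zero_iff _).mpr hf0
    have h5 : 1 < v.adicValuation f := by
      by_contra h6
      have h7 : v.adicValuation f ≤ 1 := not_lt.mp h6
      have : (1 : ℤᵐ⁰) ≤ (v.adicValuation f)⁻¹ := (one_le_inv₀ (zero_lt_iff.mpr h4)).mpr h7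
      exact absurd h3 (not_lt.mpr this)
    exact absurd h (not_le.mpr h5)
  · intro h
    have := v.adicValuation_coe ⟨f, h⟩
    rw [show ((⟨f, h⟩ : v.toValuationSubring) : F) = f from rfl] at this
    rw [this]
    exact IsDedekindDomain.HeightOneSpectrum.intValuation_le_one _ _

theorem valuationSubring_adicValuation (v : Place K F) :
    v.adicValuation.valuationSubring = v.toValuationSubring := by
  ext f
  rw [Valuation.mem_valuationSubring_iff]
  exact adicValuation_le_one_iff v f

/-- The valuation ring of a `ℤᵐ⁰`-valued valuation is a principal ideal ring. -/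
theorem isPrincipalIdealRing_valuationSubring (w : Valuation F ℤᵐ⁰) :
    IsPrincipalIdealRing w.valuationSubring := by
  refine ⟨fun J => ?_⟩
  by_cases hJ : J = ⊥
  · subst hJ
    exact bot_isPrincipal
  obtain ⟨a0, ha0, ha0'⟩ := Submodule.exists_mem_ne_zero_of_ne_bot hJ
  have key : ∀ a : w.valuationSubring, a ≠ 0 → 0 ≤ vord w (a : F) := by
    intro a ha
    have ha' : (a : F) ≠ 0 := fun h => ha (Subtype.ext h)
    rw [vord_nonneg_iff w ha']
    exact (Valuation.mem_valuationSubring_iff w _).mp a.2
  classical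
  let S : Set ℕ := {n | ∃ a ∈ J, a ≠ 0 ∧ vord w (a : F) = n}
  have hS : S.Nonempty := ⟨(vord w (a0 : F)).toNat, a0, ha0, ha0', (Int.toNat_of_nonneg (key a0 ha0')).symm⟩
  obtain ⟨a, haJ, ha0, han⟩ := Nat.find_spec hS
  have hmin : ∀ b ∈ J, b ≠ 0 → vord w (a : F) ≤ vord w (b : F) := by
    intro b hb hb0
    rw [han]
    have h1 : (vord w (b : F)).toNat ∈ S := ⟨b, hb, hb0, (Int.toNat_of_nonneg (key b hb0)).symm⟩
    have h2 := Nat.find_min' hS h1
    have h3 := Int.toNat_of_nonneg (key b hb0)
    omega
  refine ⟨⟨a, ?_⟩⟩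
  apply le_antisymm
  · intro b hb
    by_cases hb0 : b = 0
    · rw [hb0]; exact Submodule.zero_mem _
    have ha' : (a : F) ≠ 0 := fun h => ha0 (Subtype.ext h)
    have hb' : (b : F) ≠ 0 := fun h => hb0 (Subtype.ext h)
    have hq : (b : F) / (a : F) ∈ w.valuationSubring := by
      rw [Valuation.mem_valuationSubring_iff, map_div₀]
      have h1 : w (a : F) ≠ 0 := (Valuation.ne_zero_iff w).mpr ha'
      rw [div_le_one₀ (zero_lt_iff.mpr h1)]
      have h2 := hmin b hb hb0
      rw [val_eq_exp w ha', val_eq_exp w hb', exp_le_exp]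
      omega
    rw [Submodule.mem_span_singleton]
    refine ⟨⟨_, hq⟩, Subtype.ext ?_⟩
    show (b : F) / (a : F) * (a : F) = (b : F)
    field_simp
  · rw [Submodule.span_singleton_le_iff_mem]
    exact haJ

/-- The place defined by a nontrivial `ℤᵐ⁰`-valued valuation which is trivial on `K`. -/
noncomputable def placeOf (w : Valuation F ℤᵐ⁰)
    (hK : ∀ c : K, c ≠ 0 → w (algebraMap K F c) = 1) (hnt : ∃ f : F, f ≠ 0 ∧ w f < 1) :
    Place K F where
  toValuationSubring := w.valuationSubring
  algebraMap_mem' := fun c => by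
    rw [Valuation.mem_valuationSubring_iff]
    by_cases hc : c = 0
    · rw [hc, map_zero, map_zero]; exact zero_le_one
    · exact (hK c hc).le
  ne_top' := by
    obtain ⟨f, hf0, hf⟩ := hnt
    intro htop
    have h1 : f⁻¹ ∈ w.valuationSubring := htop ▸ ValuationSubring.mem_top _
    rw [Valuation.mem_valuationSubring_iff, map_inv₀] at h1
    have h2 : w f ≠ 0 := (Valuation.ne_zero_iff w).mpr hf0
    have h3 : (1 : ℤᵐ⁰) < (w f)⁻¹ := (one_lt_inv₀ (zero_lt_iff.mpr h2)).mpr hf
    exact absurd h1 (not_le.mpr h3)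
  isPrincipalIdealRing' := isPrincipalIdealRing_valuationSubring w

theorem placeOf_toValuationSubring (w : Valuation F ℤᵐ⁰)
    (hK : ∀ c : K, c ≠ 0 → w (algebraMap K F c) = 1) (hnt : ∃ f : F, f ≠ 0 ∧ w f < 1) :
    (placeOf w hK hnt).toValuationSubring = w.valuationSubring := rfl

/-- A valuation is a positive multiple of the order function of its place. -/
theorem exists_vord_eq_mul_ord (w : Valuation F ℤᵐ⁰)
    (hK : ∀ c : K, c ≠ 0 → w (algebraMap K F c) = 1) (hnt : ∃ f : F, f ≠ 0 ∧ w f < 1) :
    ∃ o : ℕ, 0 < o ∧ (∃ π : F, π ≠ 0 ∧ (placeOf w hK hnt).ord π = 1 ∧ vord w π = o) ∧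
      ∀ f : F, f ≠ 0 → vord w f = o * (placeOf w hK hnt).ord f := by
  set v := placeOf w hK hnt with hv
  obtain ⟨π, hπ⟩ := IsDiscreteValuationRing.exists_irreducible v.toValuationSubring
  have hπ0 : (π : F) ≠ 0 := by
    intro h
    exact hπ.ne_zero (Subtype.ext h)
  have hunit : ∀ u : v.toValuationSubringˣ, vord w ((u : v.toValuationSubring) : F) = 0 := by
    intro u
    have h1 : w ((u : v.toValuationSubring) : F) ≤ 1 :=
      (Valuation.mem_valuationSubring_iff w _).mp (u : v.toValuationSubring).2
    have h2 : w (((u⁻¹ : v.toValuationSubringˣ) : v.toValuationSubring) : F) ≤ 1 :=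
      (Valuation.mem_valuationSubring_iff w _).mp ((u⁻¹ : v.toValuationSubringˣ) : v.toValuationSubring).2
    have h3 : ((u : v.toValuationSubring) : F) *
        (((u⁻¹ : v.toValuationSubringˣ) : v.toValuationSubring) : F) = 1 :=
      congrArg Subtype.val u.mul_inv
    have h4 := congrArg w h3
    rw [map_mul, map_one] at h4
    have h5 : w ((u : v.toValuationSubring) : F) = 1 := by
      by_contra hne
      have hlt : w ((u : v.toValuationSubring) : F) < 1 := lt_of_le_of_ne h1 hne
      have : w ((u : v.toValuationSubring) : F) *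
          w (((u⁻¹ : v.toValuationSubringˣ) : v.toValuationSubring) : F) < 1 := by
        calc _ ≤ w ((u : v.toValuationSubring) : F) * 1 := by
              gcongr
          _ < 1 := by rw [mul_one]; exact hlt
      exact absurd h4 this.ne
    rw [vord, h5, log_one, neg_zero]
  have hπpos : 0 < vord w (π : F) := by
    have h1 : w (π : F) ≤ 1 := (Valuation.mem_valuationSubring_iff w _).mp π.2
    have h2 : w (π : F) ≠ 1 := by
      intro h
      -- then π⁻¹ ∈ valuation ring, so π is a unit
      apply hπ.not_isUnit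
      have h3 : (π : F)⁻¹ ∈ w.valuationSubring := by
        rw [Valuation.mem_valuationSubring_iff, map_inv₀, h, inv_one]
      refine isUnit_iff_exists_inv.mpr ⟨⟨_, h3⟩, Subtype.ext ?_⟩
      show (π : F) * (π : F)⁻¹ = 1
      exact mul_inv_cancel₀ hπ0
    have h3 : w (π : F) < 1 := lt_of_le_of_ne h1 h2
    have h4 : w (π : F) ≠ 0 := (Valuation.ne_zero_iff w).mpr hπ0
    rw [vord, neg_pos, ← log_one (M := ℤ), log_lt_log h4 one_ne_zero]
    exact h3
  refine ⟨(vord w (π : F)).toNat, by omega, ⟨(π : F), hπ0, v.ord_coe_irreducible hπ,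
    (Int.toNat_of_nonneg hπpos.le).symm⟩, fun f hf => ?_⟩
  obtain ⟨u, hu⟩ := v.exists_unit_mul_zpow hf hπ
  have h1 : vord w f = vord w ((u : v.toValuationSubring) : F) + vord w ((π : F) ^ v.ord f) := by
    conv_lhs => rw [hu]
    have hu0 : ((u : v.toValuationSubring) : F) ≠ 0 := by
      intro h
      exact (u.ne_zero) (Subtype.ext h)
    have h1 : w ((u : v.toValuationSubring) : F) ≠ 0 := (Valuation.ne_zero_iff w).mpr hu0
    have h2 : w ((π : F) ^ v.ord f) ≠ 0 := (Valuation.ne_zero_iff w).mpr (zpow_ne_zero _ hπ0)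
    rw [vord, vord, vord, map_mul, log_mul h1 h2]
    ring
  rw [h1, hunit u, zero_add, vord, map_zpow₀, log_zpow, smul_eq_mul, Int.toNat_of_nonneg hπpos.le,
    vord]
  ring

open scoped IntermediateField.algebraAdjoinAdjoin

theorem isIntegrallyClosed_adjoin (x : F) (hx : Transcendental K x) :
    IsIntegrallyClosed (Algebra.adjoin K {x}) :=
  IsIntegrallyClosed.of_equiv (Polynomial.algEquivOfTranscendental K x hx).toRingEquiv

/-- The norm of an integral element lies in `K[x]`. -/
theorem norm_mem_adjoin [CharZero K] (x : F) [FiniteDimensional (IntermediateField.adjoin K {x}) F]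
    (hx : Transcendental K x) (b : F) (hb : IsIntegral (Algebra.adjoin K {x}) b) :
    ((Algebra.norm (IntermediateField.adjoin K {x}) b : IntermediateField.adjoin K {x}) : F) ∈
      Algebra.adjoin K {x} := by
  have := isIntegrallyClosed_adjoin x hx
  have h1 : IsIntegral (Algebra.adjoin K {x}) (Algebra.norm (IntermediateField.adjoin K {x}) b) :=
    Algebra.isIntegral_norm _ hb
  obtain ⟨r, hr⟩ := (IsIntegrallyClosed.isIntegral_iff (R := Algebra.adjoin K {x})
    (K := IntermediateField.adjoin K {x})).mp h1
  rw [← hr]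
  exact r.2

/-- An integral element divides its norm, with integral cofactor. -/
theorem exists_norm_eq_mul [CharZero K] (x : F) [FiniteDimensional (IntermediateField.adjoin K {x}) F]
    (b : F) (hb : IsIntegral (Algebra.adjoin K {x}) b) :
    ∃ b' : F, IsIntegral (Algebra.adjoin K {x}) b' ∧
      ((Algebra.norm (IntermediateField.adjoin K {x}) b : IntermediateField.adjoin K {x}) : F)
        = b * b' := by
  classical
  by_cases hb0 : b = 0
  · exact ⟨0, isIntegral_zero, by rw [hb0, Algebra.norm_zero]; simp⟩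
  let L := IntermediateField.adjoin K {x}
  let E := AlgebraicClosure F
  have hprod := Algebra.norm_eq_prod_embeddings L E b
  let σ0 : F →ₐ[L] E := IsScalarTower.toAlgHom L F E
  have hσ0 : σ0 b = algebraMap F E b := rfl
  rw [← Finset.mul_prod_erase Finset.univ _ (Finset.mem_univ σ0), hσ0] at hprod
  refine ⟨(Algebra.norm L b : F) / b, ?_, (mul_div_cancel₀ _ hb0).symm⟩
  have hinj : Function.Injective (algebraMap F E) := (algebraMap F E).injective
  rw [← isIntegral_algebraMap_iff hinj]
  have h1 : algebraMap F E ((Algebra.norm L b : F) / b) = ∏ σ ∈ Finset.univ.erase σ0, σ b := by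
    rw [map_div₀]
    have h2 : algebraMap F E (Algebra.norm L b : F) = algebraMap L E (Algebra.norm L b) := rfl
    rw [h2, hprod]
    have h3 : algebraMap F E b ≠ 0 := fun h => hb0 (hinj (by rw [h, map_zero]))
    rw [mul_div_cancel_left₀ _ h3]
  rw [h1]
  refine IsIntegral.prod _ fun σ _ => ?_
  exact hb.map (σ.restrictScalars (Algebra.adjoin K {x}))


/-- A valuation which is at most one on a subalgebra is at most one on its integral closure. -/
theorem val_le_one_of_isIntegral (w : Valuation F ℤᵐ⁰) (R : Subalgebra K F)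
    (hR : ∀ r ∈ R, w r ≤ 1) {b : F} (hb : IsIntegral R b) : w b ≤ 1 := by
  obtain ⟨p, hmonic, hp⟩ := hb
  by_contra hlt
  have hlt' : 1 < w b := not_le.mp hlt
  have hb0 : w b ≠ 0 := (zero_lt_one.trans hlt').ne'
  rw [Polynomial.eval₂_eq_sum_range] at hp
  have hdeg : p.natDegree ≠ 0 := by
    intro h0
    rw [h0, Finset.sum_range_one, pow_zero, mul_one] at hp
    have hc : p.coeff 0 = 1 := by
      have := hmonic.coeff_natDegree
      rwa [h0] at this
    rw [hc, map_one] at hp
    exact one_ne_zero hp
  rw [Finset.sum_range_succ, hmonic.coeff_natDegree, map_one, one_mul] at hp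
  have h1 : b ^ p.natDegree = -∑ k ∈ Finset.range p.natDegree, algebraMap R F (p.coeff k) * b ^ k :=
    eq_neg_of_add_eq_zero_right hp
  have h2 : w (b ^ p.natDegree) ≤ w b ^ (p.natDegree - 1) := by
    rw [h1, Valuation.map_neg]
    refine Valuation.map_sum_le w fun k hk => ?_
    rw [map_mul, map_pow]
    have h3 : w (algebraMap R F (p.coeff k)) ≤ 1 := hR _ (p.coeff k).2
    have h4 : w b ^ k ≤ w b ^ (p.natDegree - 1) :=
      pow_le_pow_right₀ hlt'.le (by have := Finset.mem_range.mp hk; omega)
    calc w (algebraMap R F (p.coeff k)) * w b ^ k ≤ 1 * w b ^ (p.natDegree - 1) := by gcongr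
      _ = w b ^ (p.natDegree - 1) := one_mul _
  rw [map_pow] at h2
  have h5 : w b ^ (p.natDegree - 1) < w b ^ p.natDegree :=
    pow_lt_pow_right₀ hlt' (by omega)
  exact absurd h2 (not_le.mpr h5)

/-- A valuation trivial on `K` and at most one at `x` is at most one on `K[x]`. -/
theorem val_le_one_of_mem_adjoin (w : Valuation F ℤᵐ⁰)
    (hK : ∀ c : K, c ≠ 0 → w (algebraMap K F c) = 1) (x : F) (hx : w x ≤ 1) :
    ∀ r ∈ Algebra.adjoin K {x}, w r ≤ 1 := by
  intro r hr
  rw [Algebra.adjoin_singleton_eq_range_aeval] at hr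
  obtain ⟨p, rfl⟩ := hr
  show w (Polynomial.aeval x p) ≤ 1
  rw [Polynomial.aeval_def, Polynomial.eval₂_eq_sum_range]
  refine Valuation.map_sum_le w fun k _ => ?_
  rw [map_mul, map_pow]
  have h1 : w (algebraMap K F (p.coeff k)) ≤ 1 := by
    by_cases hc : p.coeff k = 0
    · rw [hc, map_zero, map_zero]; exact zero_le_one
    · exact (hK _ hc).le
  calc w (algebraMap K F (p.coeff k)) * w x ^ k ≤ 1 * 1 := by
        gcongr
        exact pow_le_one₀ zero_le hx
    _ = 1 := one_mul _

theorem adicValuation_algebraMap (v : Place K F) (c : K) (hc : c ≠ 0) :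
    v.adicValuation (algebraMap K F c) = 1 := by
  have h1 : algebraMap K F c ∈ v.toValuationSubring := v.algebraMap_mem' c
  have h2 : algebraMap K F c⁻¹ ∈ v.toValuationSubring := v.algebraMap_mem' c⁻¹
  have h3 : IsUnit (⟨_, h1⟩ : v.toValuationSubring) := by
    refine isUnit_iff_exists_inv.mpr ⟨⟨_, h2⟩, Subtype.ext ?_⟩
    show algebraMap K F c * algebraMap K F c⁻¹ = 1
    rw [← map_mul, mul_inv_cancel₀ hc, map_one]
  exact (v.adicValuation_coe_eq_one_iff ⟨_, h1⟩).mpr h3


/-- An element on which some valuation trivial on `K` is nontrivial is transcendental. -/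
theorem transcendental_of_val [IsAlgClosed K] (w : Valuation F ℤᵐ⁰)
    (hK : ∀ c : K, c ≠ 0 → w (algebraMap K F c) = 1) (x : F) (hx : w x < 1) (hx0 : x ≠ 0) :
    Transcendental K x := by
  intro halg
  have hint : IsIntegral K x := halg.isIntegral
  have hirr : Irreducible (minpoly K x) := minpoly.irreducible hint
  have hdeg := IsAlgClosed.degree_eq_one_of_irreducible K hirr
  obtain ⟨c, hc⟩ := minpoly.mem_range_of_degree_eq_one K x hdeg
  have hc0 : c ≠ 0 := by
    rintro rfl
    exact hx0 (by rw [← hc, map_zero])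
  have h1 := hK c hc0
  have h2 : w x = 1 := by
    rw [← hc]
    exact h1
  exact absurd h2 hx.ne

theorem iterate_place_eq {I : Type*} (s : I → I) (P : I → Place K F)
    (hP : ∀ i, P (s i) = P i) (k : ℕ) (i : I) : P (s^[k] i) = P i := by
  induction k with
  | zero => rfl
  | succ n ih => rw [Function.iterate_succ_apply', hP, ih]

theorem sameCycle_place_eq {I : Type*} (s : Equiv.Perm I) (P : I → Place K F)
    (hP : ∀ i, P (s i) = P i) {i i' : I} (h : s.SameCycle i i') : P i = P i' := by
  obtain ⟨k, rfl⟩ := h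
  have h1 : ∀ (n : ℕ) (j : I), P ((s ^ n) j) = P j := by
    intro n j
    rw [← Equiv.Perm.iterate_eq_pow]
    exact iterate_place_eq s P hP n j
  obtain ⟨n, rfl | rfl⟩ := Int.eq_nat_or_neg k
  · rw [zpow_natCast, h1]
  · rw [zpow_neg, zpow_natCast]
    have := h1 n ((s ^ n)⁻¹ i)
    rw [← Equiv.Perm.mul_apply, mul_inv_cancel, Equiv.Perm.one_apply] at this
    exact this

/-- the orbit of `i` under a permutation, as a finset with `minimalPeriod` elements -/
noncomputable def orb {I : Type*} [DecidableEq I] (s : Equiv.Perm I) (i : I) : Finset I :=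
  (Finset.range (Function.minimalPeriod s i)).image (fun k => s^[k] i)

theorem card_orb {I : Type*} [DecidableEq I] (s : Equiv.Perm I) (i : I) :
    (orb s i).card = Function.minimalPeriod s i := by
  rw [orb, Finset.card_image_of_injOn, Finset.card_range]
  intro a ha b hb hab
  exact Function.iterate_injOn_Iio_minimalPeriod (by simpa using ha) (by simpa using hb) hab

theorem sameCycle_of_mem_orb {I : Type*} [DecidableEq I] (s : Equiv.Perm I) {i i' : I}
    (h : i' ∈ orb s i) : s.SameCycle i i' := by
  rw [orb, Finset.mem_image] at h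
  obtain ⟨k, -, rfl⟩ := h
  exact ⟨(k : ℤ), by rw [zpow_natCast, ← Equiv.Perm.iterate_eq_pow]⟩

/-! ### approximation by integral elements (FF2) -/

theorem isPrincipalIdealRing_adjoin (x : F) (hx : Transcendental K x) :
    IsPrincipalIdealRing (Algebra.adjoin K {x}) :=
  IsPrincipalIdealRing.of_surjective
    (Polynomial.algEquivOfTranscendental K x hx).toRingEquiv.toRingHom
    (Polynomial.algEquivOfTranscendental K x hx).surjective

theorem isDedekindDomain_integralClosure [CharZero K] (x : F)
    [FiniteDimensional (IntermediateField.adjoin K {x}) F] (hx : Transcendental K x) :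
    IsDedekindDomain (integralClosure (Algebra.adjoin K {x}) F) := by
  have := isPrincipalIdealRing_adjoin x hx
  have : CharZero F := charZero_of_injective_algebraMap (algebraMap K F).injective
  have : CharZero (IntermediateField.adjoin K {x}) :=
    charZero_of_injective_algebraMap (algebraMap K _).injective
  exact integralClosure.isDedekindDomain (Algebra.adjoin K {x}) (IntermediateField.adjoin K {x}) F

theorem isFractionRing_integralClosure [CharZero K] (x : F)
    [FiniteDimensional (IntermediateField.adjoin K {x}) F] :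
    IsFractionRing (integralClosure (Algebra.adjoin K {x}) F) F := by
  have : CharZero F := charZero_of_injective_algebraMap (algebraMap K F).injective
  have : CharZero (IntermediateField.adjoin K {x}) :=
    charZero_of_injective_algebraMap (algebraMap K _).injective
  exact IsIntegralClosure.isFractionRing_of_finite_extension (Algebra.adjoin K {x})
    (IntermediateField.adjoin K {x}) F _

/-- the ideal of a subalgebra cut out by a valuation which is `≤ 1` on it -/
def ltIdeal {R : Type*} [CommRing R] [Algebra R F] (A : Subalgebra R F) (ν : Valuation F ℤᵐ⁰)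
    (hA : ∀ a ∈ A, ν a ≤ 1) : Ideal A where
  carrier := {a | ν (a : F) < 1}
  add_mem' := fun {a b} ha hb => lt_of_le_of_lt (Valuation.map_add ν _ _) (max_lt ha hb)
  zero_mem' := by
    show ν ((0 : A) : F) < 1
    rw [ZeroMemClass.coe_zero, map_zero]
    exact zero_lt_one
  smul_mem' := fun c a ha => by
    show ν ((c * a : A) : F) < 1
    rw [MulMemClass.coe_mul, map_mul]
    calc ν (c : F) * ν (a : F) ≤ 1 * ν (a : F) := by
          gcongr
          exact hA _ c.2
      _ = ν (a : F) := one_mul _
      _ < 1 := ha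

theorem mem_ltIdeal {R : Type*} [CommRing R] [Algebra R F] (A : Subalgebra R F)
    (ν : Valuation F ℤᵐ⁰) (hA : ∀ a ∈ A, ν a ≤ 1) (a : A) :
    a ∈ ltIdeal A ν hA ↔ ν (a : F) < 1 := Iff.rfl

theorem ltIdeal_isPrime {R : Type*} [CommRing R] [Algebra R F] (A : Subalgebra R F)
    (ν : Valuation F ℤᵐ⁰) (hA : ∀ a ∈ A, ν a ≤ 1) : (ltIdeal A ν hA).IsPrime := by
  refine ⟨?_, ?_⟩
  · intro h
    have h1 : (1 : A) ∈ ltIdeal A ν hA := h ▸ Submodule.mem_top
    rw [mem_ltIdeal, OneMemClass.coe_one, map_one] at h1
    exact lt_irrefl _ h1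
  · intro a b hab
    by_contra hcon
    push Not at hcon
    obtain ⟨ha, hb⟩ := hcon
    rw [mem_ltIdeal] at ha hb hab
    have ha1 : ν (a : F) = 1 := le_antisymm (hA _ a.2) (not_lt.mp ha)
    have hb1 : ν (b : F) = 1 := le_antisymm (hA _ b.2) (not_lt.mp hb)
    rw [MulMemClass.coe_mul, map_mul, ha1, hb1, one_mul] at hab
    exact lt_irrefl _ hab

theorem valuationSubringAtPrime_le {R : Type*} [CommRing R] [Algebra R F] (A : Subalgebra R F)
    [IsDedekindDomain A] [IsFractionRing A F]
    (ν : Valuation F ℤᵐ⁰) (hA : ∀ a ∈ A, ν a ≤ 1)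
    (𝔭 : IsDedekindDomain.HeightOneSpectrum A) (h𝔭 : 𝔭.asIdeal = ltIdeal A ν hA) :
    IsDedekindDomain.HeightOneSpectrum.valuationSubringAtPrime F 𝔭 ≤ ν.valuationSubring := by
  rintro f ⟨a, s, hs, rfl⟩
  rw [Valuation.mem_valuationSubring_iff, map_mul, map_inv₀]
  have hs1 : ν (algebraMap A F s) = 1 := by
    have h1 : s ∉ 𝔭.asIdeal := hs
    rw [h𝔭, mem_ltIdeal] at h1
    exact le_antisymm (hA _ s.2) (not_lt.mp h1)
  rw [hs1, inv_one, mul_one]
  exact hA _ a.2

/-- (FF2) approximation by integral elements: an element integral over `K[x]`, vanishing at the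
place `v` over `x` and a unit at finitely many other places over `x`. -/
theorem exists_isIntegral_ord_pos [CharZero K] (x : F)
    [FiniteDimensional (IntermediateField.adjoin K {x}) F] (hx : Transcendental K x)
    (v : Place K F) (hv : 0 < v.ord x) (T : Finset (Place K F)) (hT : v ∉ T)
    (hTx : ∀ u ∈ T, 0 < u.ord x) :
    ∃ b : F, IsIntegral (Algebra.adjoin K {x}) b ∧ 0 < v.ord b ∧ ∀ u ∈ T, u.ord b = 0 := by
  classical
  have hx0 : x ≠ 0 := fun h => hx (h ▸ isAlgebraic_zero)
  have hxint : IsIntegral (Algebra.adjoin K {x}) x :=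
    (show x = algebraMap (Algebra.adjoin K {x}) F ⟨x, Algebra.self_mem_adjoin_singleton K x⟩
      from rfl) ▸ isIntegral_algebraMap
  by_cases hTne : T.Nonempty
  swap
  · rw [Finset.not_nonempty_iff_eq_empty] at hTne
    subst hTne
    exact ⟨x, hxint, hv, fun u hu => absurd hu (Finset.notMem_empty u)⟩
  obtain ⟨u0, hu0⟩ := hTne
  have := isDedekindDomain_integralClosure x hx
  have := isFractionRing_integralClosure (K := K) x
  -- every place with `ord x > 0` contains the integral closure
  have hle : ∀ u : Place K F, 0 < u.ord x →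
      ∀ a ∈ integralClosure (Algebra.adjoin K {x}) F, u.adicValuation a ≤ 1 := by
    intro u hu a ha
    have hux : u.adicValuation x < 1 := (vord_pos_iff u.adicValuation hx0).mp hu
    exact val_le_one_of_isIntegral u.adicValuation (Algebra.adjoin K {x})
      (val_le_one_of_mem_adjoin u.adicValuation (adicValuation_algebraMap u) x hux.le) ha
  let q : Place K F → Ideal (integralClosure (Algebra.adjoin K {x}) F) := fun u =>
    if hu : 0 < u.ord x then ltIdeal _ u.adicValuation (hle u hu) else ⊤
  have hq : ∀ (u : Place K F) (hu : 0 < u.ord x),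
      q u = ltIdeal _ u.adicValuation (hle u hu) := fun u hu => dif_pos hu
  have hprime : ∀ u : Place K F, 0 < u.ord x → (q u).IsPrime := fun u hu => by
    rw [hq u hu]; exact ltIdeal_isPrime _ _ _
  have hne : ∀ u : Place K F, 0 < u.ord x → q u ≠ ⊥ := by
    intro u hu h
    have h1 : (⟨x, hxint⟩ : integralClosure (Algebra.adjoin K {x}) F) ∈ q u := by
      rw [hq u hu, mem_ltIdeal]
      exact (vord_pos_iff u.adicValuation hx0).mp hu
    rw [h, Ideal.mem_bot] at h1
    exact hx0 (congrArg Subtype.val h1)
  have hinj : ∀ u u' : Place K F, 0 < u.ord x → 0 < u'.ord x → q u = q u' → u = u' := by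
    intro u u' hu hu' h
    let 𝔭 : IsDedekindDomain.HeightOneSpectrum (integralClosure (Algebra.adjoin K {x}) F) :=
      ⟨q u, hprime u hu, hne u hu⟩
    have h1 := valuationSubringAtPrime_le _ u.adicValuation (hle u hu) 𝔭 (hq u hu)
    have h2 := valuationSubringAtPrime_le _ u'.adicValuation (hle u' hu') 𝔭 (h.trans (hq u' hu'))
    rw [valuationSubring_adicValuation] at h1 h2
    have e1 := ValuationSubring.eq_of_le_of_ne_top _ h1 u.ne_top'
    have e2 := ValuationSubring.eq_of_le_of_ne_top _ h2 u'.ne_top'
    exact Place.ext (e1.symm.trans e2)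
  have hnot : ¬ (((q v : Ideal _) : Set (integralClosure (Algebra.adjoin K {x}) F)) ⊆
      ⋃ u ∈ (T : Set (Place K F)), ((q u : Ideal _) : Set _)) := by
    rw [Ideal.subset_union_prime v v (fun u hu _ _ => hprime u (hTx u hu))]
    rintro ⟨u, huT, hle'⟩
    have hmax : (q v).IsMaximal := Ideal.IsPrime.isMaximal (hprime v hv) (hne v hv)
    have heq := hmax.eq_of_le (hprime u (hTx u huT)).ne_top hle'
    exact hT (hinj v u hv (hTx u huT) heq ▸ huT)
  obtain ⟨a, hav, hau⟩ := Set.not_subset.mp hnot
  have hau' : ∀ u ∈ T, a ∉ q u := by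
    intro u hu hmem
    exact hau (Set.mem_biUnion (Finset.mem_coe.mpr hu) hmem)
  have ha0 : (a : F) ≠ 0 := by
    intro h
    apply hau' u0 hu0
    have : a = 0 := Subtype.ext h
    rw [this]
    exact Ideal.zero_mem _
  refine ⟨(a : F), a.2, ?_, ?_⟩
  · have h1 : a ∈ q v := hav
    rw [hq v hv, mem_ltIdeal] at h1
    exact (vord_pos_iff v.adicValuation ha0).mpr h1
  · intro u hu
    have h1 := hau' u hu
    rw [hq u (hTx u hu), mem_ltIdeal] at h1
    have h2 : u.adicValuation (a : F) = 1 := le_antisymm (hle u (hTx u hu) _ a.2) (not_lt.mp h1)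
    rw [ord_eq_vord, vord, h2, log_one, neg_zero]


/-! ### the dictionary between places and height-one primes of a Dedekind subalgebra -/

section Dictionary

variable {R : Type*} [CommRing R] [Algebra R F] (A : Subalgebra R F)
  [IsDedekindDomain A] [IsFractionRing A F] (hKA : ∀ c : K, algebraMap K F c ∈ A)

include hKA in
theorem valuation_algebraMap_eq_one (𝔭 : IsDedekindDomain.HeightOneSpectrum A) (c : K)
    (hc : c ≠ 0) : 𝔭.valuation F (algebraMap K F c) = 1 := by
  have h1 : 𝔭.valuation F (algebraMap K F c) ≤ 1 :=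
    𝔭.valuation_le_one (K := F) ⟨_, hKA c⟩
  have h2 : 𝔭.valuation F (algebraMap K F c⁻¹) ≤ 1 :=
    𝔭.valuation_le_one (K := F) ⟨_, hKA c⁻¹⟩
  have h3 : 𝔭.valuation F (algebraMap K F c) * 𝔭.valuation F (algebraMap K F c⁻¹) = 1 := by
    rw [← map_mul, ← map_mul, mul_inv_cancel₀ hc, map_one, map_one]
  refine le_antisymm h1 ?_
  by_contra hlt
  have hlt' := not_le.mp hlt
  have : 𝔭.valuation F (algebraMap K F c) * 𝔭.valuation F (algebraMap K F c⁻¹) < 1 := by
    calc _ ≤ 𝔭.valuation F (algebraMap K F c) * 1 := by gcongr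
      _ = 𝔭.valuation F (algebraMap K F c) := mul_one _
      _ < 1 := hlt'
  exact absurd h3 this.ne

theorem valuation_nontrivial (𝔭 : IsDedekindDomain.HeightOneSpectrum A) :
    ∃ f : F, f ≠ 0 ∧ 𝔭.valuation F f < 1 := by
  obtain ⟨π, hπ⟩ := 𝔭.valuation_exists_uniformizer F
  refine ⟨π, ?_, ?_⟩
  · intro h
    rw [h, map_zero] at hπ
    exact exp_ne_zero hπ.symm
  · rw [hπ, ← exp_zero, exp_lt_exp]
    omega

/-- (D1) the place of a height-one prime -/
noncomputable def placeOfPrime (𝔭 : IsDedekindDomain.HeightOneSpectrum A) : Place K F :=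
  placeOf (𝔭.valuation F) (valuation_algebraMap_eq_one A hKA 𝔭) (valuation_nontrivial A 𝔭)

/-- (D2) the order function of the place of a height-one prime is the `𝔭`-adic valuation -/
theorem ord_placeOfPrime (𝔭 : IsDedekindDomain.HeightOneSpectrum A) (f : F) :
    (placeOfPrime A hKA 𝔭).ord f = vord (𝔭.valuation F) f := by
  by_cases hf : f = 0
  · subst hf
    rw [ord_eq_vord, vord, vord, map_zero, map_zero]
  obtain ⟨o, ho, -, hord⟩ := exists_vord_eq_mul_ord (𝔭.valuation F)
    (valuation_algebraMap_eq_one A hKA 𝔭) (valuation_nontrivial A 𝔭)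
  obtain ⟨π, hπ⟩ := 𝔭.valuation_exists_uniformizer F
  have hπ0 : π ≠ 0 := by
    intro h
    rw [h, map_zero] at hπ
    exact exp_ne_zero hπ.symm
  have h1 := hord π hπ0
  rw [vord_eq_of_val _ (show 𝔭.valuation F π = exp (-(1 : ℤ)) from hπ)] at h1
  have ho1 : (o : ℤ) = 1 := by
    have h2 : (o : ℤ) ∣ 1 := ⟨_, h1⟩
    have h3 : (0 : ℤ) < o := by exact_mod_cast ho
    exact Int.eq_one_of_dvd_one h3.le h2
  rw [hord f hf, ho1, one_mul]
  rfl

/-- (D3) a place whose valuation ring contains `A` is the place of the prime it cuts out -/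
theorem eq_placeOfPrime (v : Place K F) (hA : ∀ a ∈ A, v.adicValuation a ≤ 1)
    (𝔭 : IsDedekindDomain.HeightOneSpectrum A)
    (h𝔭 : 𝔭.asIdeal = ltIdeal A v.adicValuation hA) : v = placeOfPrime A hKA 𝔭 := by
  have h1 := valuationSubringAtPrime_le A v.adicValuation hA 𝔭 h𝔭
  rw [valuationSubring_adicValuation] at h1
  have e1 := ValuationSubring.eq_of_le_of_ne_top _ h1 v.ne_top'
  apply Place.ext
  rw [← e1, IsDedekindDomain.HeightOneSpectrum.valuationSubringAtPrime_eq_valuationSubring]
  rfl

theorem ord_placeOfPrime_pos_iff (𝔭 : IsDedekindDomain.HeightOneSpectrum A) (a : A)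
    (ha : a ≠ 0) : 0 < (placeOfPrime A hKA 𝔭).ord (a : F) ↔ a ∈ 𝔭.asIdeal := by
  have ha' : (a : F) ≠ 0 := fun h => ha (Subtype.ext h)
  rw [ord_placeOfPrime, vord_pos_iff _ ha']
  exact 𝔭.valuation_lt_one_iff_mem (K := F) a

/-- (D4) distinct primes give distinct places -/
theorem placeOfPrime_injective : Function.Injective (placeOfPrime A hKA) := by
  intro 𝔭 𝔮 h
  apply IsDedekindDomain.HeightOneSpectrum.ext
  ext a
  by_cases ha : a = 0
  · subst ha
    simp
  rw [← ord_placeOfPrime_pos_iff A hKA 𝔭 a ha, ← ord_placeOfPrime_pos_iff A hKA 𝔮 a ha, h]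

end Dictionary

/-- The fundamental identity for places over `x = 0`, from its ideal-theoretic form (CORE). -/
theorem exists_finset_places_of_core [CharZero K] (x : F)
    [FiniteDimensional (IntermediateField.adjoin K {x}) F] (hx : Transcendental K x)
    [IsDedekindDomain (integralClosure (Algebra.adjoin K {x}) F)]
    [IsFractionRing (integralClosure (Algebra.adjoin K {x}) F) F]
    (hxint : x ∈ integralClosure (Algebra.adjoin K {x}) F)
    (hcore : ∃ Ps : Finset (IsDedekindDomain.HeightOneSpectrum
        (integralClosure (Algebra.adjoin K {x}) F)),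
      (∀ 𝔭, 𝔭 ∈ Ps ↔ (⟨x, hxint⟩ : integralClosure (Algebra.adjoin K {x}) F) ∈ 𝔭.asIdeal) ∧
      ∑ 𝔭 ∈ Ps, -(log (𝔭.valuation F x)) =
        (Module.finrank (IntermediateField.adjoin K {x}) F : ℤ)) :
    ∃ 𝒱 : Finset (Place K F), (∀ v : Place K F, v ∈ 𝒱 ↔ 0 < v.ord x) ∧
      ∑ v ∈ 𝒱, v.ord x = (Module.finrank (IntermediateField.adjoin K {x}) F : ℤ) := by
  classical
  obtain ⟨Ps, hPs, hsum⟩ := hcore
  have hx0 : x ≠ 0 := fun h => hx (h ▸ isAlgebraic_zero)
  have hxA0 : (⟨x, hxint⟩ : integralClosure (Algebra.adjoin K {x}) F) ≠ 0 :=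
    fun h => hx0 (congrArg Subtype.val h)
  have hKA : ∀ c : K, algebraMap K F c ∈ integralClosure (Algebra.adjoin K {x}) F := by
    intro c
    have : algebraMap K F c = algebraMap (Algebra.adjoin K {x}) F (algebraMap K _ c) := rfl
    rw [this]
    exact isIntegral_algebraMap
  refine ⟨Ps.image (placeOfPrime _ hKA), ?_, ?_⟩
  · intro v
    rw [Finset.mem_image]
    constructor
    · rintro ⟨𝔭, h𝔭, rfl⟩
      exact (ord_placeOfPrime_pos_iff _ hKA 𝔭 ⟨x, hxint⟩ hxA0).mpr ((hPs 𝔭).mp h𝔭)
    · intro hv
      have hvx : v.adicValuation x < 1 := (vord_pos_iff v.adicValuation hx0).mp hv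
      have hle : ∀ a ∈ integralClosure (Algebra.adjoin K {x}) F, v.adicValuation a ≤ 1 :=
        fun a ha => val_le_one_of_isIntegral v.adicValuation (Algebra.adjoin K {x})
          (val_le_one_of_mem_adjoin v.adicValuation (adicValuation_algebraMap v) x hvx.le) ha
      have hmem : (⟨x, hxint⟩ : integralClosure (Algebra.adjoin K {x}) F) ∈
          ltIdeal _ v.adicValuation hle := hvx
      let 𝔭 : IsDedekindDomain.HeightOneSpectrum (integralClosure (Algebra.adjoin K {x}) F) :=
        ⟨ltIdeal _ v.adicValuation hle, ltIdeal_isPrime _ _ _, fun h => by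
          rw [h, Ideal.mem_bot] at hmem
          exact hxA0 hmem⟩
      exact ⟨𝔭, (hPs 𝔭).mpr hmem, (eq_placeOfPrime _ hKA v hle 𝔭 rfl).symm⟩
  · rw [Finset.sum_image fun a _ b _ h => placeOfPrime_injective _ hKA h, ← hsum]
    exact Finset.sum_congr rfl fun 𝔭 _ => ord_placeOfPrime _ hKA 𝔭 x


/-! ### the fundamental identity, ideal-theoretic form (CORE) -/

/-- Over an algebraically closed field of constants the inertia degree is one. -/
theorem finrank_quotient_eq_one_of_surjective {k R B : Type*} [Field k] [IsAlgClosed k]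
    [CommRing R] [CommRing B] [Algebra R B] [Algebra.IsIntegral R B]
    (φ : k →+* R) (p : Ideal R) [p.IsMaximal]
    (hφ : Function.Surjective ((Ideal.Quotient.mk p).comp φ))
    (P : Ideal B) [P.IsPrime] [P.LiesOver p] :
    Module.finrank (R ⧸ p) (B ⧸ P) = 1 := by
  letI := Ideal.Quotient.field p
  have hint : Algebra.IsIntegral (R ⧸ p) (B ⧸ P) :=
    Ideal.Quotient.algebra_isIntegral_of_liesOver P p
  have h1 : ((algebraMap (R ⧸ p) (B ⧸ P)).comp ((Ideal.Quotient.mk p).comp φ)).IsIntegral :=
    RingHom.IsIntegral.trans _ _ (RingHom.isIntegral_of_surjective _ hφ)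
      (algebraMap_isIntegral_iff.mpr hint)
  have h2 := (IsAlgClosed.ringHom_bijective_of_isIntegral _ h1).2
  have hψ : Function.Surjective (algebraMap (R ⧸ p) (B ⧸ P)) := by
    rw [RingHom.coe_comp] at h2
    exact Function.Surjective.of_comp h2
  have h3 := Algebra.surjective_algebraMap_iff.mp hψ
  exact Subalgebra.bot_eq_top_iff_finrank_eq_one.mp h3.symm

theorem quotient_mk_comp_algebraMap_surjective (x : F) (hx : Transcendental K x) :
    Function.Surjective ((Ideal.Quotient.mk (Ideal.span
      {(⟨x, Algebra.self_mem_adjoin_singleton K x⟩ : Algebra.adjoin K {x})})).comp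
      (algebraMap K (Algebra.adjoin K {x}))) := by
  intro y
  obtain ⟨r, rfl⟩ := Ideal.Quotient.mk_surjective y
  obtain ⟨q, rfl⟩ := (Polynomial.algEquivOfTranscendental K x hx).surjective r
  refine ⟨q.coeff 0, ?_⟩
  rw [RingHom.comp_apply, Ideal.Quotient.eq, Polynomial.algEquivOfTranscendental_apply,
    Ideal.mem_span_singleton]
  have hq : Polynomial.aeval
      (⟨x, Algebra.self_mem_adjoin_singleton K x⟩ : Algebra.adjoin K {x}) q =
      Polynomial.aeval (⟨x, Algebra.self_mem_adjoin_singleton K x⟩ : Algebra.adjoin K {x})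
        q.divX * ⟨x, Algebra.self_mem_adjoin_singleton K x⟩ +
      algebraMap K (Algebra.adjoin K {x}) (q.coeff 0) := by
    conv_lhs => rw [← Polynomial.divX_mul_X_add q]
    rw [map_add, map_mul, Polynomial.aeval_X, Polynomial.aeval_C]
  rw [hq]
  exact ⟨-(Polynomial.aeval _ q.divX), by ring⟩


/-- (CORE, abstract form) the fundamental identity for the primes over a principal maximal ideal
with residue field the algebraically closed constant field. -/
theorem exists_finset_primes_of_prime {k R B L E : Type*} [Field k] [IsAlgClosed k]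
    [CommRing R] [IsDedekindDomain R] [CommRing B] [IsDedekindDomain B] [Algebra R B]
    [Field L] [Field E] [Algebra R L] [IsFractionRing R L] [Algebra B E] [IsFractionRing B E]
    [Algebra L E] [Algebra R E] [IsScalarTower R B E] [IsScalarTower R L E] [Module.Finite R B]
    [Module.IsTorsionFree R B] [FaithfulSMul R B]
    (φ : k →+* R) (t : R) (ht : Prime t)
    (hφ : Function.Surjective ((Ideal.Quotient.mk (Ideal.span {t})).comp φ)) :
    ∃ Ps : Finset (IsDedekindDomain.HeightOneSpectrum B),
      (∀ 𝔭, 𝔭 ∈ Ps ↔ algebraMap R B t ∈ 𝔭.asIdeal) ∧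
      ∑ 𝔭 ∈ Ps, -(log (𝔭.valuation E (algebraMap B E (algebraMap R B t)))) =
        (Module.finrank L E : ℤ) := by
  classical
  have ht0 : t ≠ 0 := ht.ne_zero
  have htB0 : algebraMap R B t ≠ 0 := by
    intro h
    exact ht0 ((FaithfulSMul.algebraMap_injective R B) (by rw [h, map_zero]))
  obtain ⟨p, hpdef⟩ : ∃ p : Ideal R, p = Ideal.span {t} := ⟨_, rfl⟩
  have hp0 : p ≠ ⊥ := by
    rw [hpdef, Ne, Ideal.span_singleton_eq_bot]
    exact ht0
  have hpprime : p.IsPrime := by
    rw [hpdef]
    exact (Ideal.span_singleton_prime ht0).mpr ht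
  have hpmax : p.IsMaximal := Ideal.IsPrime.isMaximal hpprime hp0
  have hsum := Ideal.sum_ramification_inertia B L E hp0
  have hmap : Ideal.map (algebraMap R B) p = Ideal.span {algebraMap R B t} := by
    rw [hpdef, Ideal.map_span, Set.image_singleton]
  have hspan0 : Ideal.span {algebraMap R B t} ≠ 0 := by
    rw [Ne, Ideal.zero_eq_bot, Ideal.span_singleton_eq_bot]
    exact htB0
  have hmap0 : Ideal.map (algebraMap R B) p ≠ ⊥ := by
    rw [hmap]
    exact hspan0
  have hmem : ∀ P : Ideal B, P ∈ IsDedekindDomain.primesOverFinset p B →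
      P.IsPrime ∧ P.LiesOver p := fun P hP =>
    (IsDedekindDomain.mem_primesOverFinset_iff hp0 _).mp hP
  have hne : ∀ P : Ideal B, P ∈ IsDedekindDomain.primesOverFinset p B → P ≠ ⊥ := fun P hP =>
    Ideal.ne_bot_of_mem_primesOver hp0 ((IsDedekindDomain.mem_primesOverFinset_iff hp0 _).mp hP)
  let g : {P // P ∈ IsDedekindDomain.primesOverFinset p B} →
      IsDedekindDomain.HeightOneSpectrum B :=
    fun P => ⟨P.1, (hmem P.1 P.2).1, hne P.1 P.2⟩
  have hg : Function.Injective g := by
    intro P Q h
    exact Subtype.ext (congrArg IsDedekindDomain.HeightOneSpectrum.asIdeal h)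
  refine ⟨(IsDedekindDomain.primesOverFinset p B).attach.image g, ?_, ?_⟩
  · intro 𝔭
    rw [Finset.mem_image]
    constructor
    · rintro ⟨P, -, rfl⟩
      haveI := (hmem P.1 P.2).2
      have h1 : t ∈ p := by
        rw [hpdef]
        exact Ideal.mem_span_singleton_self _
      exact (Ideal.mem_of_liesOver P.1 p _).mp h1
    · intro h𝔭
      have hover : 𝔭.asIdeal.LiesOver p := by
        refine ⟨?_⟩
        have hle : p ≤ Ideal.under R 𝔭.asIdeal := by
          rw [hpdef, Ideal.span_le, Set.singleton_subset_iff]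
          exact h𝔭
        have hprime : (Ideal.under R 𝔭.asIdeal).IsPrime := Ideal.comap_isPrime _ _
        exact hpmax.eq_of_le hprime.ne_top hle
      have hmem' : 𝔭.asIdeal ∈ IsDedekindDomain.primesOverFinset p B :=
        (IsDedekindDomain.mem_primesOverFinset_iff hp0 _).mpr ⟨𝔭.isPrime, hover⟩
      exact ⟨⟨𝔭.asIdeal, hmem'⟩, Finset.mem_attach _ _, rfl⟩
  · have hterm : ∀ P : {P // P ∈ IsDedekindDomain.primesOverFinset p B},
        -(log ((g P).valuation E (algebraMap B E (algebraMap R B t)))) =
          ((p.ramificationIdx' P.1 * p.inertiaDeg' P.1 : ℕ) : ℤ) := by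
      intro P
      haveI := (hmem P.1 P.2).1
      haveI := (hmem P.1 P.2).2
      have hf : p.inertiaDeg' P.1 = 1 := by
        rw [Ideal.inertiaDeg'_algebraMap]
        exact finrank_quotient_eq_one_of_surjective φ p (hpdef ▸ hφ) P.1
      have he : p.ramificationIdx' P.1 =
          (UniqueFactorizationMonoid.normalizedFactors (Ideal.map (algebraMap R B) p)).count P.1 :=
        Ideal.IsDedekindDomain.ramificationIdx'_eq_normalizedFactors_count hmap0
          (hmem P.1 P.2).1 (hne P.1 P.2)
      obtain ⟨𝔭, h𝔭⟩ : ∃ 𝔭, 𝔭 = g P := ⟨_, rfl⟩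
      have has : 𝔭.asIdeal = P.1 := by rw [h𝔭]
      rw [← h𝔭]
      have hval : 𝔭.valuation E (algebraMap B E (algebraMap R B t)) =
          𝔭.intValuation (algebraMap R B t) := 𝔭.valuation_of_algebraMap (K := E) _
      have hint2 := 𝔭.intValuation_if_neg htB0
      have hcount := Ideal.count_associates_factors_eq hspan0 𝔭.isPrime 𝔭.ne_bot
      rw [hval, hint2, log_exp, neg_neg, hcount, has, hf, mul_one, he, hmap]
    calc ∑ 𝔭 ∈ (IsDedekindDomain.primesOverFinset p B).attach.image g,
          -(log (𝔭.valuation E (algebraMap B E (algebraMap R B t))))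
        = ∑ P ∈ (IsDedekindDomain.primesOverFinset p B).attach,
          -(log ((g P).valuation E (algebraMap B E (algebraMap R B t)))) :=
          Finset.sum_image (fun a _ b _ h => hg h)
      _ = ∑ P ∈ (IsDedekindDomain.primesOverFinset p B).attach,
          ((p.ramificationIdx' P.1 * p.inertiaDeg' P.1 : ℕ) : ℤ) :=
          Finset.sum_congr rfl (fun P _ => hterm P)
      _ = ∑ P ∈ IsDedekindDomain.primesOverFinset p B,
          ((p.ramificationIdx' P * p.inertiaDeg' P : ℕ) : ℤ) :=
          Finset.sum_attach _ (fun P => ((p.ramificationIdx' P * p.inertiaDeg' P : ℕ) : ℤ))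
      _ = (Module.finrank L E : ℤ) := by
          rw [← Nat.cast_sum, hsum]


/-- (FF1) the fundamental identity in the language of places: the places over `x = 0`, counted
with their orders at `x`, add up to the degree `[F : K(x)]`. -/
theorem exists_finset_places_ord_pos_aux [IsAlgClosed K] [CharZero K] (x : F)
    [FiniteDimensional (IntermediateField.adjoin K {x}) F] (hx : Transcendental K x) :
    ∃ 𝒱 : Finset (Place K F), (∀ v : Place K F, v ∈ 𝒱 ↔ 0 < v.ord x) ∧
      ∑ v ∈ 𝒱, v.ord x = (Module.finrank (IntermediateField.adjoin K {x}) F : ℤ) := by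
  have hPID := isPrincipalIdealRing_adjoin x hx
  have hD := isDedekindDomain_integralClosure x hx
  have hFr := isFractionRing_integralClosure (K := K) x
  have : CharZero F := charZero_of_injective_algebraMap (algebraMap K F).injective
  have : CharZero (IntermediateField.adjoin K {x}) :=
    charZero_of_injective_algebraMap (algebraMap K _).injective
  have hfin : Module.Finite (Algebra.adjoin K {x}) (integralClosure (Algebra.adjoin K {x}) F) :=
    IsIntegralClosure.finite (Algebra.adjoin K {x}) (IntermediateField.adjoin K {x}) F _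
  have hxint : x ∈ integralClosure (Algebra.adjoin K {x}) F :=
    (show x = algebraMap (Algebra.adjoin K {x}) F ⟨x, Algebra.self_mem_adjoin_singleton K x⟩
      from rfl) ▸ isIntegral_algebraMap
  have hxprime : Prime (⟨x, Algebra.self_mem_adjoin_singleton K x⟩ : Algebra.adjoin K {x}) := by
    have h1 : (Polynomial.algEquivOfTranscendental K x hx) Polynomial.X =
        (⟨x, Algebra.self_mem_adjoin_singleton K x⟩ : Algebra.adjoin K {x}) := by
      rw [Polynomial.algEquivOfTranscendental_apply, Polynomial.aeval_X]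
    rw [← h1]
    exact (MulEquiv.prime_iff (Polynomial.algEquivOfTranscendental K x hx)).mpr Polynomial.prime_X
  have hcore := exists_finset_primes_of_prime (L := IntermediateField.adjoin K {x}) (E := F)
    (B := integralClosure (Algebra.adjoin K {x}) F) (algebraMap K (Algebra.adjoin K {x}))
    ⟨x, Algebra.self_mem_adjoin_singleton K x⟩ hxprime
    (quotient_mk_comp_algebraMap_surjective x hx)
  exact exists_finset_places_of_core x hx hxint hcore


end PlacesAbsAux

open PlacesAbsAux

variable {K F : Type*} [Field K] [IsAlgClosed K] [CharZero K] [Field F] [Algebra K F]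

/-- (FF1) **The fundamental identity** in the language of places: the places of `F` over `x = 0`,
counted with their orders at `x`, add up to the degree `[F : K(x)]`. -/
theorem fundamental_identity (L : IntermediateField K F) [FiniteDimensional L F]
    (x : F) (hxL : IntermediateField.adjoin K {x} = L) (hx : Transcendental K x) :
    ∃ 𝒱 : Finset (Place K F), (∀ v : Place K F, v ∈ 𝒱 ↔ 0 < v.ord x) ∧
      ∑ v ∈ 𝒱, v.ord x = (Module.finrank L F : ℤ) := by
  subst hxL
  exact exists_finset_places_ord_pos_aux x hx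

/-- (FF2) approximation by integral elements: an element integral over `K[x]`, vanishing at the
place `v` over `x = 0` and a unit at finitely many other places over `x = 0`. -/
theorem exists_isIntegral_ord_eq_zero (L : IntermediateField K F) [FiniteDimensional L F]
    (x : F) (hxL : IntermediateField.adjoin K {x} = L) (hx : Transcendental K x)
    (v : Place K F) (hv : 0 < v.ord x) (T : Finset (Place K F)) (hT : v ∉ T)
    (hTx : ∀ u ∈ T, 0 < u.ord x) :
    ∃ b : F, IsIntegral (Algebra.adjoin K {x}) b ∧ 0 < v.ord b ∧ ∀ u ∈ T, u.ord b = 0 := by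
  subst hxL
  exact exists_isIntegral_ord_pos x hx v hv T hT hTx

/-- **Theorem A.** Let `F` be a function field over the algebraically closed field `K` of
characteristic zero, finite over `K(x)`, and let `w i` be a family of `ℤᵐ⁰`-valued valuations
of `F`, trivial on `K`, indexed by a finite set of cardinality `[F : K(x)]`, all of the same
value `exp (-e0) < 1` at `x`, and satisfying the norm formula.  Let `s` be a permutation of the
index set leaving the valuations invariant, with cycle lengths dividing `e0` and such that the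
`i`-th valuation takes its values in `exp ((e0 / (cycle length of i)) ℤ)`.  Then the places of
the `w i` are exactly the places of `F` over `x = 0`, two indices give the same place iff they
are in the same cycle of `s`, and the order of `x` at such a place is the cycle length. -/
theorem exists_places
    (L : IntermediateField K F) [FiniteDimensional L F]
    (x : F) (hxL : IntermediateField.adjoin K {x} = L)
    {I : Type*} [Fintype I] (hI : Fintype.card I = Module.finrank L F)
    (w : I → Valuation F ℤᵐ⁰)
    (hwK : ∀ (i : I) (c : K), c ≠ 0 → w i (algebraMap K F c) = 1)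
    (e0 : ℕ) (he0 : 0 < e0) (hwx : ∀ i, w i x = exp (-(e0 : ℤ)))
    (hnorm : ∀ (b : F) (i0 : I), ∏ i, w i b = w i0 ((Algebra.norm L b : L) : F))
    (s : Equiv.Perm I) (hs : ∀ i, w (s i) = w i)
    (hdvd : ∀ i, Function.minimalPeriod s i ∣ e0)
    (hwdvd : ∀ (i : I) (f : F), f ≠ 0 →
      ∃ k : ℤ, w i f = exp (-(((e0 / Function.minimalPeriod s i : ℕ) : ℤ) * k))) :
    ∃ P : I → Place K F,
      (∀ i i', P i = P i' ↔ s.SameCycle i i') ∧
      (∀ v : Place K F, 0 < v.ord x → ∃ i, v = P i) ∧
      (∀ i, (P i).ord x = Function.minimalPeriod s i) ∧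
      (∀ (i : I) (f : F), f ≠ 0 →
        w i f = exp (-(((e0 / Function.minimalPeriod s i : ℕ) : ℤ) * (P i).ord f))) := by
  classical
  subst hxL
  -- basic facts
  have hcard : 0 < Fintype.card I := by rw [hI]; exact Module.finrank_pos
  obtain ⟨i0⟩ : Nonempty I := Fintype.card_pos_iff.mp hcard
  have hlt1 : ∀ i, w i x < 1 := fun i => by
    rw [hwx i, ← exp_zero, exp_lt_exp]; omega
  have hx0 : x ≠ 0 := by
    intro h
    have := hwx i0
    rw [h, map_zero] at this
    exact exp_ne_zero this.symm
  have hxtr : Transcendental K x := transcendental_of_val (w i0) (hwK i0) x (hlt1 i0) hx0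
  have hnt : ∀ i, ∃ f : F, f ≠ 0 ∧ w i f < 1 := fun i => ⟨x, hx0, hlt1 i⟩
  let P : I → Place K F := fun i => placeOf (w i) (hwK i) (hnt i)
  have hex := fun i => exists_vord_eq_mul_ord (w i) (hwK i) (hnt i)
  choose o ho hπ hord using hex
  have hordP : ∀ i (f : F), f ≠ 0 → vord (w i) f = o i * (P i).ord f := hord
  have hπP : ∀ i, ∃ π : F, π ≠ 0 ∧ (P i).ord π = 1 ∧ vord (w i) π = o i := hπ
  -- e0 = o i * ord x
  have hvx : ∀ i, vord (w i) x = e0 := fun i => vord_eq_of_val (w i) (hwx i)
  have hox : ∀ i, (e0 : ℤ) = o i * (P i).ord x := fun i => by rw [← hvx i, hordP i x hx0]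
  have hepos : ∀ i, 0 < (P i).ord x := fun i => by
    have h1 := hox i
    have h2 : (0 : ℤ) < o i := by exact_mod_cast ho i
    have h3 : (0 : ℤ) < e0 := by exact_mod_cast he0
    by_contra hneg
    have : (o i : ℤ) * (P i).ord x ≤ 0 := by nlinarith
    omega
  have hhpos : ∀ i, 0 < Function.minimalPeriod s i := fun i => by
    rcases Nat.eq_zero_or_pos (Function.minimalPeriod s i) with h | h
    · have := hdvd i
      rw [h, zero_dvd_iff] at this
      omega
    · exact h
  -- divisibility
  have hle : ∀ i, (P i).ord x ≤ (Function.minimalPeriod s i : ℤ) := by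
    intro i
    obtain ⟨π, hπ0, hπ1, hπo⟩ := hπP i
    obtain ⟨k, hk⟩ := hwdvd i π hπ0
    have h1 : vord (w i) π = ((e0 / Function.minimalPeriod s i : ℕ) : ℤ) * k :=
      vord_eq_of_val (w i) hk
    rw [hπo] at h1
    obtain ⟨m, hm⟩ := hdvd i
    have hq : e0 / Function.minimalPeriod s i = m := by
      rw [hm]; exact Nat.mul_div_cancel_left m (hhpos i)
    rw [hq] at h1
    have h2 := hox i
    rw [h1] at h2
    have hm0 : 0 < m := by
      rcases Nat.eq_zero_or_pos m with h | h
      · rw [h, mul_zero] at hm; omega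
      · exact h
    have h3 : ((Function.minimalPeriod s i : ℕ) : ℤ) = k * (P i).ord x := by
      have h4 : (e0 : ℤ) = (Function.minimalPeriod s i : ℤ) * m := by exact_mod_cast hm
      have h5 : (m : ℤ) * (Function.minimalPeriod s i : ℤ) = (m : ℤ) * (k * (P i).ord x) := by
        rw [← mul_assoc, ← h2, h4]; ring
      exact mul_left_cancel₀ (by exact_mod_cast hm0.ne') h5
    have hk1 : 1 ≤ k := by
      by_contra hk0
      have hk0' : k ≤ 0 := by omega
      have : k * (P i).ord x ≤ 0 := by nlinarith [hepos i]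
      have := hhpos i
      omega
    rw [h3]
    nlinarith [hepos i]
  have hPs : ∀ i, P (s i) = P i := fun i => Place.ext (by
    show (w (s i)).valuationSubring = (w i).valuationSubring
    rw [hs i])
  -- every place over `x = 0` is one of the `P i`
  have hA2 : ∀ v : Place K F, 0 < v.ord x → ∃ i, v = P i := by
    intro v hv
    by_contra hne
    push Not at hne
    have hvT : v ∉ Finset.univ.image P := by
      intro h
      obtain ⟨i, -, hi⟩ := Finset.mem_image.mp h
      exact hne i hi.symm
    have hTx : ∀ u ∈ Finset.univ.image P, 0 < u.ord x := by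
      intro u hu
      obtain ⟨i, -, rfl⟩ := Finset.mem_image.mp hu
      exact hepos i
    obtain ⟨b, hbint, hbv, hbT⟩ :=
      exists_isIntegral_ord_pos x hxtr v hv _ hvT hTx
    have hb0 : b ≠ 0 := by
      rintro rfl
      rw [ord_eq_vord, vord, map_zero, log_zero, neg_zero] at hbv
      exact lt_irrefl _ hbv
    have hwb : ∀ i, w i b = 1 := by
      intro i
      have h1 := hordP i b hb0
      rw [hbT (P i) (Finset.mem_image_of_mem P (Finset.mem_univ i)), mul_zero] at h1
      rw [val_eq_exp (w i) hb0, h1, neg_zero, exp_zero]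
    have hN1 : w i0 ((Algebra.norm (IntermediateField.adjoin K {x}) b :
        IntermediateField.adjoin K {x}) : F) = 1 := by
      rw [← hnorm b i0]
      exact Finset.prod_eq_one fun i _ => hwb i
    obtain ⟨b', hb'int, hNb⟩ := exists_norm_eq_mul x b hbint
    have hNmem := norm_mem_adjoin x hxtr b hbint
    generalize ((Algebra.norm (IntermediateField.adjoin K {x}) b :
        IntermediateField.adjoin K {x}) : F) = Nb at hN1 hNb hNmem
    have hNb0 : Nb ≠ 0 := by
      intro h
      rw [h, map_zero] at hN1
      exact zero_ne_one hN1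
    have hb'0 : b' ≠ 0 := by
      rintro rfl
      rw [mul_zero] at hNb
      exact hNb0 hNb
    have hvx1' : v.adicValuation x < 1 := (vord_pos_iff v.adicValuation hx0).mp hv
    have hvR := val_le_one_of_mem_adjoin v.adicValuation (adicValuation_algebraMap v) x hvx1'.le
    have hvb' : v.adicValuation b' ≤ 1 :=
      val_le_one_of_isIntegral v.adicValuation (Algebra.adjoin K {x}) hvR hb'int
    have hvb : v.adicValuation b < 1 := (vord_pos_iff v.adicValuation hb0).mp hbv
    have hvN : v.adicValuation Nb < 1 := by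
      rw [hNb, map_mul]
      calc v.adicValuation b * v.adicValuation b' ≤ v.adicValuation b * 1 := by gcongr
        _ = v.adicValuation b := mul_one _
        _ < 1 := hvb
    rw [Algebra.adjoin_singleton_eq_range_aeval] at hNmem
    obtain ⟨p, hp⟩ := hNmem
    have hp' : Polynomial.aeval x p = Nb := hp
    have hdecomp : Nb = Polynomial.aeval x p.divX * x + algebraMap K F (p.coeff 0) := by
      rw [← hp']
      conv_lhs => rw [← Polynomial.divX_mul_X_add p]
      rw [map_add, map_mul, Polynomial.aeval_X, Polynomial.aeval_C]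
    have hrmem : Polynomial.aeval x p.divX ∈ Algebra.adjoin K {x} := by
      rw [Algebra.adjoin_singleton_eq_range_aeval]
      exact ⟨p.divX, rfl⟩
    by_cases hc0 : p.coeff 0 = 0
    · rw [hc0, map_zero, add_zero] at hdecomp
      have h1 : w i0 (Polynomial.aeval x p.divX) ≤ 1 :=
        val_le_one_of_mem_adjoin (w i0) (hwK i0) x (hlt1 i0).le _ hrmem
      have h2 : w i0 Nb < 1 := by
        rw [hdecomp, map_mul]
        calc w i0 (Polynomial.aeval x p.divX) * w i0 x ≤ 1 * w i0 x := by gcongr
          _ = w i0 x := one_mul _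
          _ < 1 := hlt1 i0
      exact absurd hN1 h2.ne
    · have h1 : v.adicValuation (algebraMap K F (p.coeff 0)) = 1 :=
        adicValuation_algebraMap v _ hc0
      have h2 : algebraMap K F (p.coeff 0) = Nb - Polynomial.aeval x p.divX * x := by
        rw [hdecomp]; ring
      have h3 : v.adicValuation (Polynomial.aeval x p.divX * x) < 1 := by
        rw [map_mul]
        calc v.adicValuation (Polynomial.aeval x p.divX) * v.adicValuation x
              ≤ 1 * v.adicValuation x := by
              gcongr
              exact hvR _ hrmem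
          _ = v.adicValuation x := one_mul _
          _ < 1 := hvx1'
      have h4 : v.adicValuation (algebraMap K F (p.coeff 0)) < 1 := by
        rw [h2]
        exact lt_of_le_of_lt (Valuation.map_sub _ _ _) (max_lt hvN h3)
      exact absurd h1 h4.ne
  -- counting
  obtain ⟨𝒱, h𝒱, hsum⟩ :=
    exists_finset_places_ord_pos_aux x hxtr
  have h𝒱eq : 𝒱 = Finset.univ.image P := by
    ext v
    rw [h𝒱, Finset.mem_image]
    constructor
    · intro hv
      obtain ⟨i, hi⟩ := hA2 v hv
      exact ⟨i, Finset.mem_univ _, hi.symm⟩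
    · rintro ⟨i, -, rfl⟩
      exact hepos i
  have hfib : ∀ i, orb s i ⊆ Finset.univ.filter (fun i' => P i' = P i) := by
    intro i i' hi'
    rw [Finset.mem_filter]
    exact ⟨Finset.mem_univ _, (sameCycle_place_eq s P hPs (sameCycle_of_mem_orb s hi')).symm⟩
  have hcardle : ∀ i, Function.minimalPeriod s i ≤
      (Finset.univ.filter (fun i' => P i' = P i)).card := by
    intro i
    rw [← card_orb s i]
    exact Finset.card_le_card (hfib i)
  have hcount : (Fintype.card I : ℤ) =
      ∑ v ∈ Finset.univ.image P, ((Finset.univ.filter (fun i' => P i' = v)).card : ℤ) := by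
    rw [← Finset.card_univ, Finset.card_eq_sum_card_image P Finset.univ]
    push_cast
    rfl
  have hsum' : ∑ v ∈ Finset.univ.image P, v.ord x =
      ∑ v ∈ Finset.univ.image P, ((Finset.univ.filter (fun i' => P i' = v)).card : ℤ) := by
    rw [← hcount, hI, ← hsum, h𝒱eq]
  have hterm := (Finset.sum_eq_sum_iff_of_le (s := Finset.univ.image P)
    (f := fun v => v.ord x)
    (g := fun v => ((Finset.univ.filter (fun i' => P i' = v)).card : ℤ)) (by
      intro v hv
      obtain ⟨i, -, rfl⟩ := Finset.mem_image.mp hv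
      exact (hle i).trans (by exact_mod_cast hcardle i))).mp hsum'
  have heq1 : ∀ i, (P i).ord x = ((Finset.univ.filter (fun i' => P i' = P i)).card : ℤ) :=
    fun i => hterm (P i) (Finset.mem_image_of_mem P (Finset.mem_univ i))
  have heq2 : ∀ i, (P i).ord x = (Function.minimalPeriod s i : ℤ) := by
    intro i
    have h1 := hle i
    have h2 : (Function.minimalPeriod s i : ℤ) ≤
        ((Finset.univ.filter (fun i' => P i' = P i)).card : ℤ) := by exact_mod_cast hcardle i
    have h3 := heq1 i
    omega
  have hfibeq : ∀ i, orb s i = Finset.univ.filter (fun i' => P i' = P i) := by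
    intro i
    apply Finset.eq_of_subset_of_card_le (hfib i)
    rw [card_orb]
    have h1 := heq1 i
    have h2 := heq2 i
    have : ((Finset.univ.filter (fun i' => P i' = P i)).card : ℤ) =
        (Function.minimalPeriod s i : ℤ) := by rw [← h1, h2]
    exact_mod_cast this.le
  refine ⟨P, ?_, hA2, heq2, ?_⟩
  · intro i i'
    constructor
    · intro h
      have : i' ∈ Finset.univ.filter (fun i'' => P i'' = P i) := by
        rw [Finset.mem_filter]; exact ⟨Finset.mem_univ _, h.symm⟩
      rw [← hfibeq i] at this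
      exact sameCycle_of_mem_orb s this
    · exact sameCycle_place_eq s P hPs
  · intro i f hf
    have h1 := hordP i f hf
    have h2 := hox i
    rw [heq2 i] at h2
    have h3 : o i = e0 / Function.minimalPeriod s i := by
      have : e0 = o i * Function.minimalPeriod s i := by exact_mod_cast h2
      rw [this, Nat.mul_div_cancel _ (hhpos i)]
    rw [val_eq_exp (w i) hf, h1, h3]

end Fermat.Agent.S24
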