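import Fermat.Agent.S24.CuspExp
import Fermat.Agent.S24.CuspOrd
import Fermat.Agent.S24.NormAn
import Fermat.Agent.S24.Orbits
import Fermat.Agent.S24.PlacesAbs
import Fermat.Agent.S24.Norm
import Fermat.Agent.S24.IotaExists

/-!
# S24 (Ecusp): the places of the function field of `X₀(N)` over `j = ∞`

With `K = ℚ̄`, `F = FF N`, `j = jBar N 1`, `Ω = SL(2,ℤ) ⧸ Γ₀(N)`:

* `CuspPlaces.translM_iota_mem` : every translate `translM g (ι f)` of the analytic realisation
  lies in helper17's field `CuspExp.merInf N` of functions with a Laurent expansion in `q_N`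
  at `i∞`;
* `CuspPlaces.EmbData` : the conjugate embeddings (from `Norm.lean`) and the cusp valuations
  `w q = ordInf N ∘ emb q`, which satisfy the hypotheses of Theorem A (`exists_places`) at
  `x = j⁻¹`, `e₀ = N`, `s = T`;
* `exists_cusp_places` : the places over `j = ∞` are the `T`-orbits on `Ω`, with ramification
  index the orbit size;
* `exists_poles` : the finite set of poles of `j` and `∑ (ord_v j - 1) = -(ψ(N) + #cusps)`.
-/

open UpperHalfPlane ModularForm Filter
open scoped MatrixGroups ModularForm Manifold Topology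
open WithZero

namespace Fermat.Agent.S24.CuspPlaces

open Fermat.Agent.S20 Fermat.Agent.S24.Bridge Fermat.Agent.S24.CuspExp CongruenceSubgroup

/-- conjugates of `T ^ N` lie in `Γ₀(N)`. -/
theorem conj_T_pow_mem (N : ℕ) (g : SL(2, ℤ)) :
    g * ModularGroup.T ^ N * g⁻¹ ∈ Gamma0 N := by
  have h := Orbits.T_npow_smul N ((g⁻¹ : SL(2, ℤ)) : SL(2, ℤ) ⧸ Gamma0 N)
  rw [MulAction.Quotient.smul_mk, smul_eq_mul, QuotientGroup.eq] at h
  have h2 := (Gamma0 N).inv_mem h
  have e : ((ModularGroup.T ^ N * g⁻¹)⁻¹ * g⁻¹)⁻¹ = g * ModularGroup.T ^ N * g⁻¹ := by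
    group
  rwa [e] at h2

/-- (C1) every `SL(2,ℤ)`-translate of `z ↦ j (d z)`, `d ∣ N`, is `N`-periodic and meromorphic at
`i∞`. -/
theorem isMeroInf_transl_jScaled (N : ℕ) [NeZero N] {d : ℕ} (hd : d ∣ N) (hd0 : 0 < d)
    (g : SL(2, ℤ)) : IsMeroInf N ((transl g (jScaled d hd0) : Hol) : ℍ → ℂ) := by
  refine ⟨(transl g (jScaled d hd0)).2, fun z => ?_,
    NormAn.mem_modSub.mp (NormAn.transl_mem_modSub (NormAn.jScaled_mem_jAlg hd hd0) g)⟩
  have e1 : ((N : ℝ) +ᵥ z : ℍ) = ModularGroup.T ^ N • z := by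
    have := UpperHalfPlane.modular_T_zpow_smul z (N : ℤ)
    rw [zpow_natCast] at this
    rw [this]
    push_cast
    rfl
  have e2 : g • (ModularGroup.T ^ N • z) = (g * ModularGroup.T ^ N * g⁻¹) • (g • z) := by
    simp only [mul_smul, inv_smul_smul]
  rw [transl_apply, transl_apply, e1, e2, ← transl_apply (g * ModularGroup.T ^ N * g⁻¹),
    NormAn.transl_jScaled_of_mem hd hd0 (conj_T_pow_mem N g)]

/-- a ring hom from the frozen function field into a field `M` takes values in a subfield `S` as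
soon as the images of the constants and of the generators `j(q^d)`, `d ∣ N`, do. -/
theorem forall_mem_of_gens (N : ℕ) {M : Type*} [Field M] (S : Subfield M)
    (φ : FF N →+* M)
    (hc : ∀ c : AlgebraicClosure ℚ, φ (algebraMap (AlgebraicClosure ℚ) (FF N) c) ∈ S)
    (hj : ∀ (d : ℕ) (hd : d ∣ N) (hd0 : 0 < d), φ (jBar N d hd hd0) ∈ S) :
    ∀ f : FF N, φ f ∈ S := by
  -- inner induction: the rational function field generated by the `j(q^d)`
  have inner : ∀ (y : LaurentSeries ℚ) (hy : y ∈ ModularCurve.modularFunctionFieldFull N),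
      φ ⟨ModularCurve.coeffEmb (AlgebraicClosure ℚ) y,
        ModularCurve.coeffEmb_mem_laurentBaseChange (AlgebraicClosure ℚ) hy⟩ ∈ S := by
    intro y hy
    induction hy using IntermediateField.adjoin_induction with
    | mem y hy =>
      obtain ⟨d, hd0, hd, rfl⟩ := hy
      exact hj d hd (Nat.pos_of_ne_zero (NeZero.ne d))
    | algebraMap c =>
      have e : (⟨ModularCurve.coeffEmb (AlgebraicClosure ℚ) (algebraMap ℚ (LaurentSeries ℚ) c),
          ModularCurve.coeffEmb_mem_laurentBaseChange (AlgebraicClosure ℚ)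
            (IntermediateField.algebraMap_mem _ c)⟩ : FF N)
          = algebraMap (AlgebraicClosure ℚ) (FF N) (algebraMap ℚ (AlgebraicClosure ℚ) c) := by
        apply Subtype.ext
        show ModularCurve.coeffEmb (AlgebraicClosure ℚ) (algebraMap ℚ (LaurentSeries ℚ) c)
          = algebraMap (AlgebraicClosure ℚ) (LaurentSeries (AlgebraicClosure ℚ))
              (algebraMap ℚ (AlgebraicClosure ℚ) c)
        rw [ModularCurve.algebraMap_apply_eq_single, ModularCurve.algebraMap_laurentSeries_eq_single,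
          ModularCurve.coeffEmb, ModularCurve.coeffMap_single]
      rw [e]
      exact hc _
    | add x y hx hy ihx ihy =>
      have e : (⟨ModularCurve.coeffEmb (AlgebraicClosure ℚ) (x + y),
          ModularCurve.coeffEmb_mem_laurentBaseChange (AlgebraicClosure ℚ) (add_mem hx hy)⟩ : FF N)
          = ⟨ModularCurve.coeffEmb (AlgebraicClosure ℚ) x,
              ModularCurve.coeffEmb_mem_laurentBaseChange (AlgebraicClosure ℚ) hx⟩
            + ⟨ModularCurve.coeffEmb (AlgebraicClosure ℚ) y,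
              ModularCurve.coeffEmb_mem_laurentBaseChange (AlgebraicClosure ℚ) hy⟩ :=
        Subtype.ext (map_add _ x y)
      rw [e, map_add]
      exact S.add_mem ihx ihy
    | inv x hx ih =>
      have e : (⟨ModularCurve.coeffEmb (AlgebraicClosure ℚ) x⁻¹,
          ModularCurve.coeffEmb_mem_laurentBaseChange (AlgebraicClosure ℚ) (inv_mem hx)⟩ : FF N)
          = (⟨ModularCurve.coeffEmb (AlgebraicClosure ℚ) x,
              ModularCurve.coeffEmb_mem_laurentBaseChange (AlgebraicClosure ℚ) hx⟩ : FF N)⁻¹ :=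
        Subtype.ext (map_inv₀ _ x)
      rw [e, map_inv₀]
      exact S.inv_mem ih
    | mul x y hx hy ihx ihy =>
      have e : (⟨ModularCurve.coeffEmb (AlgebraicClosure ℚ) (x * y),
          ModularCurve.coeffEmb_mem_laurentBaseChange (AlgebraicClosure ℚ) (mul_mem hx hy)⟩ : FF N)
          = ⟨ModularCurve.coeffEmb (AlgebraicClosure ℚ) x,
              ModularCurve.coeffEmb_mem_laurentBaseChange (AlgebraicClosure ℚ) hx⟩
            * ⟨ModularCurve.coeffEmb (AlgebraicClosure ℚ) y,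
              ModularCurve.coeffEmb_mem_laurentBaseChange (AlgebraicClosure ℚ) hy⟩ :=
        Subtype.ext (map_mul _ x y)
      rw [e, map_mul]
      exact S.mul_mem ihx ihy
  rintro ⟨x, hx⟩
  induction hx using IntermediateField.adjoin_induction with
  | mem x hx =>
    obtain ⟨y, hy, rfl⟩ := hx
    exact inner y hy
  | algebraMap c => exact hc c
  | add x y hx hy ihx ihy =>
    have e : (⟨x + y, add_mem hx hy⟩ : FF N) = ⟨x, hx⟩ + ⟨y, hy⟩ := rfl
    rw [e, map_add]
    exact S.add_mem ihx ihy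
  | inv x hx ih =>
    have e : (⟨x⁻¹, inv_mem hx⟩ : FF N) = (⟨x, hx⟩ : FF N)⁻¹ := rfl
    rw [e, map_inv₀]
    exact S.inv_mem ih
  | mul x y hx hy ihx ihy =>
    have e : (⟨x * y, mul_mem hx hy⟩ : FF N) = ⟨x, hx⟩ * ⟨y, hy⟩ := rfl
    rw [e, map_mul]
    exact S.mul_mem ihx ihy


/-- (C1) every translate of the analytic realisation of the function field lies in `merInf N`. -/
theorem translM_iota_mem (N : ℕ) [NeZero N] (ι : FF N →ₐ[AlgebraicClosure ℚ] Mer)
    (hι : IsIota N ι) (g : SL(2, ℤ)) (f : FF N) : translM g (ι f) ∈ merInf N := by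
  refine forall_mem_of_gens N (merInf N) ((translM g).toRingHom.comp ι.toRingHom) ?_ ?_ f
  · intro c
    show translM g (ι (algebraMap _ _ c)) ∈ merInf N
    rw [ι.commutes, algebraMap_Qbar_Mer, (translM g).commutes,
      IsScalarTower.algebraMap_apply ℂ Hol Mer]
    exact algebraMap_mem_merInf (isMeroInf_const N (phi c))
  · intro d hd hd0
    show translM g (ι (jBar N d hd hd0)) ∈ merInf N
    rw [hι d hd hd0, translM_algebraMap]
    exact algebraMap_mem_merInf (isMeroInf_transl_jScaled N hd hd0 g)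

/-! ### the conjugate embeddings and the cusp valuations -/

/-- the data provided by `Norm.lean`: the conjugate embeddings `emb q = translM g⁻¹ ∘ ι`
(`q = g Γ₀(N)`), the degree of `F` over `ℚ̄(j)` and the norm formula. -/
structure EmbData (N : ℕ) [Fintype (SL(2, ℤ) ⧸ Gamma0 N)]
    (ι : FF N →ₐ[AlgebraicClosure ℚ] Mer) (emb : SL(2, ℤ) ⧸ Gamma0 N → FF N →+* Mer) : Prop where
  iota : IsIota N ι
  emb_mk : ∀ (g : SL(2, ℤ)) (f : FF N), emb (g : SL(2, ℤ) ⧸ Gamma0 N) f = translM g⁻¹ (ι f)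
  fd : FiniteDimensional
    (IntermediateField.adjoin (AlgebraicClosure ℚ) {jBar N 1 (one_dvd N) one_pos}) (FF N)
  finrank : Module.finrank
    (IntermediateField.adjoin (AlgebraicClosure ℚ) {jBar N 1 (one_dvd N) one_pos}) (FF N)
      = ModularCurve.dedekindPsi N
  norm : ∀ (b : FF N) (q0 : SL(2, ℤ) ⧸ Gamma0 N), ∏ q, emb q b
    = emb q0 ((Algebra.norm
        (IntermediateField.adjoin (AlgebraicClosure ℚ) {jBar N 1 (one_dvd N) one_pos}) b :
        IntermediateField.adjoin (AlgebraicClosure ℚ) {jBar N 1 (one_dvd N) one_pos}) : FF N)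

namespace EmbData

set_option linter.unusedSectionVars false

variable {N : ℕ} [NeZero N] [Fintype (SL(2, ℤ) ⧸ Gamma0 N)]
  {ι : FF N →ₐ[AlgebraicClosure ℚ] Mer} {emb : SL(2, ℤ) ⧸ Gamma0 N → FF N →+* Mer}

theorem mem (D : EmbData N ι emb) (q : SL(2, ℤ) ⧸ Gamma0 N) (f : FF N) :
    emb q f ∈ merInf N := by
  obtain ⟨g, rfl⟩ := QuotientGroup.mk_surjective q
  rw [D.emb_mk]
  exact translM_iota_mem N ι D.iota g⁻¹ f

theorem translM_emb (D : EmbData N ι emb) (g : SL(2, ℤ)) (q : SL(2, ℤ) ⧸ Gamma0 N)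
    (f : FF N) : translM g (emb q f) = emb (g⁻¹ • q) f := by
  obtain ⟨g0, rfl⟩ := QuotientGroup.mk_surjective q
  rw [MulAction.Quotient.smul_mk, smul_eq_mul, D.emb_mk, D.emb_mk, ← translM_mul, mul_inv_rev, inv_inv]

theorem emb_const (D : EmbData N ι emb) (q : SL(2, ℤ) ⧸ Gamma0 N) (c : AlgebraicClosure ℚ) :
    emb q (algebraMap (AlgebraicClosure ℚ) (FF N) c) = algebraMap ℂ Mer (phi c) := by
  obtain ⟨g, rfl⟩ := QuotientGroup.mk_surjective q
  rw [D.emb_mk, ι.commutes, algebraMap_Qbar_Mer, (translM g⁻¹).commutes]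

theorem emb_j (D : EmbData N ι emb) (q : SL(2, ℤ) ⧸ Gamma0 N) :
    emb q (jBar N 1 (one_dvd N) one_pos) = algebraMap Hol Mer jH := by
  obtain ⟨g, rfl⟩ := QuotientGroup.mk_surjective q
  rw [D.emb_mk, D.iota 1 (one_dvd N) one_pos, translM_algebraMap, ← NormAn.jH_eq_jScaled,
    NormAn.transl_jH]

/-- the conjugate embeddings, with values in `merInf N`. -/
noncomputable def embR (D : EmbData N ι emb) (q : SL(2, ℤ) ⧸ Gamma0 N) : FF N →+* merInf N :=
  (emb q).codRestrict (merInf N) (D.mem q)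

theorem embR_coe (D : EmbData N ι emb) (q : SL(2, ℤ) ⧸ Gamma0 N) (f : FF N) :
    ((D.embR q f : merInf N) : Mer) = emb q f := rfl

/-- the cusp valuations: the order at `i∞` in `q_N` of the conjugates. -/
noncomputable def w (D : EmbData N ι emb) (q : SL(2, ℤ) ⧸ Gamma0 N) :
    Valuation (FF N) ℤᵐ⁰ := (ordInf N).comap (D.embR q)

theorem w_apply (D : EmbData N ι emb) (q : SL(2, ℤ) ⧸ Gamma0 N) (f : FF N) :
    D.w q f = ordInf N (D.embR q f) := rfl

theorem w_const (D : EmbData N ι emb) (q : SL(2, ℤ) ⧸ Gamma0 N) (c : AlgebraicClosure ℚ)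
    (hc : c ≠ 0) : D.w q (algebraMap (AlgebraicClosure ℚ) (FF N) c) = 1 := by
  have hmero : IsMeroInf N ((algebraMap ℂ Hol (phi c) : Hol) : ℍ → ℂ) := isMeroInf_const N (phi c)
  have e : D.embR q (algebraMap (AlgebraicClosure ℚ) (FF N) c)
      = ⟨algebraMap Hol Mer (algebraMap ℂ Hol (phi c)), algebraMap_mem_merInf hmero⟩ := by
    apply Subtype.ext
    rw [embR_coe, D.emb_const, IsScalarTower.algebraMap_apply ℂ Hol Mer]
  rw [w_apply, e]
  show ordVal (laurentM N _) = 1
  rw [laurentM_algebraMap hmero]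
  have e2 : ((algebraMap ℂ Hol (phi c) : Hol) : ℍ → ℂ) = fun _ => phi c := rfl
  rw [e2, laurent_const]
  exact ordVal_C ((map_ne_zero phi).mpr hc)

theorem w_j (D : EmbData N ι emb) (q : SL(2, ℤ) ⧸ Gamma0 N) :
    D.w q (jBar N 1 (one_dvd N) one_pos) = exp (N : ℤ) := by
  have hmero : IsMeroInf N ((jH : Hol) : ℍ → ℂ) := CuspOrd.isMeroInf_jFun N
  have e : D.embR q (jBar N 1 (one_dvd N) one_pos)
      = ⟨algebraMap Hol Mer jH, algebraMap_mem_merInf hmero⟩ := by
    apply Subtype.ext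
    rw [embR_coe, D.emb_j]
  rw [w_apply, e]
  show ordVal (laurentM N _) = _
  rw [laurentM_algebraMap hmero]
  have e2 : ((jH : Hol) : ℍ → ℂ) = jFun := rfl
  have ho := CuspOrd.order_laurent_jFun N
  have hne : laurent N jFun ≠ 0 := by
    intro h0
    rw [h0, HahnSeries.order_zero] at ho
    have : (N : ℤ) = 0 := by omega
    exact NeZero.ne N (by exact_mod_cast this)
  rw [e2, ordVal_apply hne, ho, neg_neg]

theorem w_j_inv (D : EmbData N ι emb) (q : SL(2, ℤ) ⧸ Gamma0 N) :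
    D.w q (jBar N 1 (one_dvd N) one_pos)⁻¹ = exp (-(N : ℤ)) := by
  rw [map_inv₀, D.w_j, WithZero.exp_neg]

theorem w_norm (D : EmbData N ι emb) (b : FF N) (q0 : SL(2, ℤ) ⧸ Gamma0 N) :
    ∏ q, D.w q b = D.w q0 ((Algebra.norm
        (IntermediateField.adjoin (AlgebraicClosure ℚ) {jBar N 1 (one_dvd N) one_pos}) b :
        IntermediateField.adjoin (AlgebraicClosure ℚ) {jBar N 1 (one_dvd N) one_pos}) : FF N) := by
  simp only [w_apply]
  rw [← map_prod]
  congr 1
  apply Subtype.ext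
  rw [embR_coe, ← D.norm b q0]
  have := map_prod (merInf N).subtype (fun q => D.embR q b) Finset.univ
  exact this

theorem w_T_smul (D : EmbData N ι emb) (q : SL(2, ℤ) ⧸ Gamma0 N) :
    D.w ((ModularGroup.T : SL(2, ℤ)) • q) = D.w q := by
  apply Valuation.ext
  intro f
  rw [w_apply, w_apply]
  have e : D.embR q f = ⟨translM ModularGroup.T (D.embR (ModularGroup.T • q) f : Mer),
      translM_T_mem (D.embR (ModularGroup.T • q) f).2⟩ := by
    apply Subtype.ext
    rw [embR_coe]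
    show emb q f = translM ModularGroup.T (emb (ModularGroup.T • q) f)
    rw [D.translM_emb, inv_smul_smul]
  rw [e, ordInf_translM_T]

theorem w_dvd (D : EmbData N ι emb) (q : SL(2, ℤ) ⧸ Gamma0 N) (f : FF N) (hf : f ≠ 0) :
    ∃ k : ℤ, D.w q f = exp (-(((N / Function.minimalPeriod
      (MulAction.toPerm (ModularGroup.T : SL(2, ℤ)) : Equiv.Perm (SL(2, ℤ) ⧸ Gamma0 N)) q : ℕ) : ℤ)
        * k)) := by
  set h := Function.minimalPeriod
    (MulAction.toPerm (ModularGroup.T : SL(2, ℤ)) : Equiv.Perm (SL(2, ℤ) ⧸ Gamma0 N)) q with hh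
  have hdvd : h ∣ N := Orbits.minimalPeriod_T_dvd N q
  have hfix : (ModularGroup.T : SL(2, ℤ)) ^ h • q = q := by
    have h1 := Function.iterate_minimalPeriod
      (f := (MulAction.toPerm (ModularGroup.T : SL(2, ℤ)) : Equiv.Perm (SL(2, ℤ) ⧸ Gamma0 N)))
      (x := q)
    rw [← hh] at h1
    have h2 : ⇑(MulAction.toPerm (ModularGroup.T : SL(2, ℤ)) :
        Equiv.Perm (SL(2, ℤ) ⧸ Gamma0 N)) = fun x => (ModularGroup.T : SL(2, ℤ)) • x := rfl
    rw [h2, smul_iterate] at h1
    exact h1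
  have hm0 : D.embR q f ≠ 0 := (map_ne_zero (D.embR q)).mpr hf
  have hk : translM (ModularGroup.T ^ h) ((D.embR q f : merInf N) : Mer) = D.embR q f := by
    rw [embR_coe, D.translM_emb]
    congr 2
    rw [inv_smul_eq_iff, hfix]
  obtain ⟨k, hk'⟩ := dvd_order_of_translM_T_pow_eq h hdvd (D.embR q f) hm0 hk
  refine ⟨k, ?_⟩
  rw [w_apply, ordInf_apply hm0, hk']

end EmbData

theorem adjoin_inv_eq {K F : Type*} [Field K] [Field F] [Algebra K F] (g : F) :
    IntermediateField.adjoin K {g⁻¹} = IntermediateField.adjoin K {g} := by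
  apply le_antisymm
  · rw [IntermediateField.adjoin_simple_le_iff]
    exact inv_mem (IntermediateField.mem_adjoin_simple_self K g)
  · rw [IntermediateField.adjoin_simple_le_iff]
    have := inv_mem (IntermediateField.mem_adjoin_simple_self K g⁻¹)
    rwa [inv_inv] at this

/-- **The places over `j = ∞`** (Theorem A at the cusps): they are the `T`-orbits on
`SL(2,ℤ) ⧸ Γ₀(N)`, with ramification index the orbit size (the width of the cusp). -/
theorem exists_cusp_places_of {N : ℕ} [NeZero N] [Fintype (SL(2, ℤ) ⧸ Gamma0 N)]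
    {ι : FF N →ₐ[AlgebraicClosure ℚ] Mer} {emb : SL(2, ℤ) ⧸ Gamma0 N → FF N →+* Mer}
    (D : EmbData N ι emb) :
    ∃ P : SL(2, ℤ) ⧸ Gamma0 N → AlgebraicCurve.Place (AlgebraicClosure ℚ) (FF N),
      (∀ i i', P i = P i' ↔ (MulAction.toPerm (ModularGroup.T : SL(2, ℤ)) :
        Equiv.Perm (SL(2, ℤ) ⧸ Gamma0 N)).SameCycle i i') ∧
      (∀ v : AlgebraicCurve.Place (AlgebraicClosure ℚ) (FF N),
        0 < v.ord (jBar N 1 (one_dvd N) one_pos)⁻¹ → ∃ i, v = P i) ∧
      (∀ i, (P i).ord (jBar N 1 (one_dvd N) one_pos)⁻¹ = Function.minimalPeriod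
        (MulAction.toPerm (ModularGroup.T : SL(2, ℤ)) : Equiv.Perm (SL(2, ℤ) ⧸ Gamma0 N)) i) := by
  have := D.fd
  have hI : Fintype.card (SL(2, ℤ) ⧸ Gamma0 N) = Module.finrank
      (IntermediateField.adjoin (AlgebraicClosure ℚ) {jBar N 1 (one_dvd N) one_pos}) (FF N) := by
    rw [D.finrank, ← Nat.card_eq_fintype_card, Cosets.card_quotient_eq]
  obtain ⟨P, h1, h2, h3, -⟩ := exists_places
    (IntermediateField.adjoin (AlgebraicClosure ℚ) {jBar N 1 (one_dvd N) one_pos})
    (jBar N 1 (one_dvd N) one_pos)⁻¹ (adjoin_inv_eq _) hI D.w (fun q c hc => D.w_const q c hc)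
    N (Nat.pos_of_ne_zero (NeZero.ne N)) D.w_j_inv D.w_norm
    (MulAction.toPerm (ModularGroup.T : SL(2, ℤ))) (fun q => D.w_T_smul q)
    (Orbits.minimalPeriod_T_dvd N) D.w_dvd
  exact ⟨P, h1, h2, h3⟩

/-- **The poles of `j`**: the finite set of places over `j = ∞` and its ramification sum. -/
theorem exists_poles_of {N : ℕ} [NeZero N] [Fintype (SL(2, ℤ) ⧸ Gamma0 N)]
    {ι : FF N →ₐ[AlgebraicClosure ℚ] Mer} {emb : SL(2, ℤ) ⧸ Gamma0 N → FF N →+* Mer}
    (D : EmbData N ι emb) :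
    ∃ P : Finset (AlgebraicCurve.Place (AlgebraicClosure ℚ) (FF N)),
      (∀ v, v ∈ P ↔ v.ord (jBar N 1 (one_dvd N) one_pos) < 0) ∧
      ∑ v ∈ P, (v.ord (jBar N 1 (one_dvd N) one_pos) - 1)
        = -((ModularCurve.dedekindPsi N : ℤ) + ModularCurve.cuspCount N) := by
  classical
  obtain ⟨P, h1, h2, h3⟩ := exists_cusp_places_of D
  refine ⟨Finset.univ.image P, fun v => ?_, ?_⟩
  · rw [Finset.mem_image]
    constructor
    · rintro ⟨i, -, rfl⟩
      have h := h3 i
      rw [AlgebraicCurve.Place.ord_inv] at h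
      have hpos : 0 < Function.minimalPeriod (MulAction.toPerm (ModularGroup.T : SL(2, ℤ)) :
          Equiv.Perm (SL(2, ℤ) ⧸ Gamma0 N)) i :=
        Nat.pos_of_dvd_of_pos (Orbits.minimalPeriod_T_dvd N i) (Nat.pos_of_ne_zero (NeZero.ne N))
      omega
    · intro hv
      obtain ⟨i, rfl⟩ := h2 v (by rw [AlgebraicCurve.Place.ord_inv]; omega)
      exact ⟨i, Finset.mem_univ _, rfl⟩
  · have hs := Orbits.sum_add_one_T N P h1 (fun v => -v.ord (jBar N 1 (one_dvd N) one_pos))
      (fun i => by rw [← h3 i, AlgebraicCurve.Place.ord_inv])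
    rw [← hs, ← Finset.sum_neg_distrib]
    exact Finset.sum_congr rfl fun v _ => by ring

/-- the data of `Norm.lean` packaged as an `EmbData`. -/
theorem embData (N : ℕ) [NeZero N] [Fintype (SL(2, ℤ) ⧸ Gamma0 N)]
    {ι : FF N →ₐ[AlgebraicClosure ℚ] Mer} (hι : IsIota N ι)
    (hLD : ∀ (J : Type) (f : J → FF N), LinearIndependent (AlgebraicClosure ℚ) f →
      LinearIndependent ℂ (fun j => ι (f j))) :
    EmbData N ι (fun q => (emb N ι q : FF N →+* Mer)) where
  iota := hι
  emb_mk := fun g f => emb_mk hι g f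
  fd := finiteDimensional_Lj hι hLD
  finrank := finrank_Lj hι hLD
  norm := fun b q0 => by
    have h := prod_emb hι hLD b q0
    exact h

end Fermat.Agent.S24.CuspPlaces

namespace Fermat.Agent.S24

open CongruenceSubgroup

/-- **The places over `j = ∞`** of the function field of `X₀(N)` over `ℚ̄`: they are indexed by
the `T`-orbits on `SL(2,ℤ) ⧸ Γ₀(N)`, with ramification index the orbit size. -/
theorem exists_cusp_places (N : ℕ) [NeZero N] [Fintype (SL(2, ℤ) ⧸ Gamma0 N)] :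
    ∃ P : SL(2, ℤ) ⧸ Gamma0 N → AlgebraicCurve.Place (AlgebraicClosure ℚ) (FF N),
      (∀ i i', P i = P i' ↔ (MulAction.toPerm (ModularGroup.T : SL(2, ℤ)) :
        Equiv.Perm (SL(2, ℤ) ⧸ Gamma0 N)).SameCycle i i') ∧
      (∀ v : AlgebraicCurve.Place (AlgebraicClosure ℚ) (FF N),
        0 < v.ord (jBar N 1 (one_dvd N) one_pos)⁻¹ → ∃ i, v = P i) ∧
      (∀ i, (P i).ord (jBar N 1 (one_dvd N) one_pos)⁻¹ = Function.minimalPeriod
        (MulAction.toPerm (ModularGroup.T : SL(2, ℤ)) : Equiv.Perm (SL(2, ℤ) ⧸ Gamma0 N)) i) := by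
  obtain ⟨ι, hι, hLD, -⟩ := exists_iota N
  exact CuspPlaces.exists_cusp_places_of (CuspPlaces.embData N hι hLD)

/-- **The poles of `j`** on the function field of `X₀(N)` over `ℚ̄` and their contribution to
the Riemann–Hurwitz formula. -/
theorem exists_poles (N : ℕ) [NeZero N] :
    ∃ P : Finset (AlgebraicCurve.Place (AlgebraicClosure ℚ) (FF N)),
      (∀ v, v ∈ P ↔ v.ord (jBar N 1 (one_dvd N) one_pos) < 0) ∧
      ∑ v ∈ P, (v.ord (jBar N 1 (one_dvd N) one_pos) - 1)
        = -((ModularCurve.dedekindPsi N : ℤ) + ModularCurve.cuspCount N) := by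
  letI : Fintype (SL(2, ℤ) ⧸ Gamma0 N) := Subgroup.fintypeQuotientOfFiniteIndex
  obtain ⟨ι, hι, hLD, -⟩ := exists_iota N
  exact CuspPlaces.exists_poles_of (CuspPlaces.embData N hι hLD)

end Fermat.Agent.S24
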