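import Mathlib
import Fermat.Prelude.Def_AlgebraicCurve_DivisorClassGroup

/-!
# S24, abstract function-field layer: residue fields, degrees, principal divisors

`K` is an algebraically closed field, `F` a field finite over `L = K(x)`.

All declarations are in the namespace `Fermat.Agent.S24.FFDeg`.

* `finiteDimensional_adjoin_of_transcendental` : every `g : F` transcendental over `K` is a
  separating variable, i.e. `F` is finite over `K(g)`.
* `exists_residue`, `exists_ord_sub_pos_of_transcendental` : the residue field of every place is `K`.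
* `deg_eq_one` : every place has degree one.
* `sum_ord_eq_zero_of_FF1` : principal divisors have finite support and degree zero (from the
  fundamental identity, which is an explicit hypothesis here).
-/

set_option autoImplicit false

namespace Fermat.Agent.S24

open AlgebraicCurve WithZero IntermediateField

variable {K F : Type*} [Field K] [Field F] [Algebra K F]

namespace FFDeg

/-- (T) In a function field `F` (finite over `K(x)`), every element `g` transcendental over `K`
is a separating variable: `F` is finite over `K(g)`. -/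
theorem finiteDimensional_adjoin_of_transcendental (L : IntermediateField K F)
    [FiniteDimensional L F] (x : F) (hxL : IntermediateField.adjoin K {x} = L) (g : F)
    (hg : Transcendental K g) :
    FiniteDimensional (IntermediateField.adjoin K {g}) F := by
  subst hxL
  have hx : Transcendental K x := by
    intro hx
    have h1 : Algebra.IsAlgebraic K K⟮x⟯ :=
      IntermediateField.isAlgebraic_adjoin_simple (isAlgebraic_iff_isIntegral.mp hx)
    have h2 : Algebra.IsAlgebraic K⟮x⟯ F := Algebra.IsAlgebraic.of_finite _ _
    have h3 : Algebra.IsAlgebraic K F := Algebra.IsAlgebraic.trans K K⟮x⟯ F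
    exact hg (h3.isAlgebraic g)
  have hxalg : IsAlgebraic K⟮g⟯ x :=
    isAlgebraic_adjoin_iff.mpr (IsAlgebraic.adjoin_singleton (A := F) (B := F) hx hg
      (isAlgebraic_adjoin_iff.mp (Algebra.IsAlgebraic.isAlgebraic g)))
  let Fyx := restrictScalars K K⟮g⟯⟮x⟯
  let Fxy := restrictScalars K K⟮x⟯⟮g⟯
  let : Algebra K⟮g⟯ Fyx := K⟮g⟯⟮x⟯.algebra
  let : Module K⟮g⟯ Fyx := Algebra.toModule
  let : SMul K⟮g⟯ Fyx := Algebra.toSMul
  let : Algebra K⟮x⟯ Fxy := K⟮x⟯⟮g⟯.algebra
  let : Module K⟮x⟯ Fxy := Algebra.toModule
  let : SMul K⟮x⟯ Fxy := Algebra.toSMul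
  have : FiniteDimensional K⟮g⟯ Fyx :=
    adjoin.finiteDimensional (isAlgebraic_iff_isIntegral.mp hxalg)
  have : FiniteDimensional Fyx F := by
    unfold Fyx
    rw [adjoin_simple_comm]
    have : IsScalarTower K⟮x⟯ Fxy F := isScalarTower_mid' K⟮x⟯⟮g⟯
    exact .right K⟮x⟯ Fxy F
  have : IsScalarTower K⟮g⟯ Fyx F := isScalarTower_mid' K⟮g⟯⟮x⟯
  exact .trans K⟮g⟯ Fyx F

/-- dictionary: nonnegative order means membership in the valuation ring. -/
theorem ord_nonneg_iff (v : Place K F) {f : F} (hf : f ≠ 0) :
    0 ≤ v.ord f ↔ f ∈ v.toValuationSubring := by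
  obtain ⟨π, hπ⟩ := IsDiscreteValuationRing.exists_irreducible v.toValuationSubring
  obtain ⟨u, hu⟩ := v.exists_unit_mul_zpow hf hπ
  have hπ0 : (π : F) ≠ 0 := by
    simpa [ne_eq, ZeroMemClass.coe_eq_zero] using hπ.ne_zero
  constructor
  · intro h
    obtain ⟨n, hn⟩ := Int.eq_ofNat_of_zero_le h
    rw [hu, hn, zpow_natCast]
    exact mul_mem (u : v.toValuationSubring).2 (pow_mem π.2 n)
  · intro hmem
    by_contra hneg
    rw [not_le] at hneg
    obtain ⟨m, hm⟩ := Int.eq_ofNat_of_zero_le (neg_nonneg.mpr hneg.le)
    have hm0 : m ≠ 0 := by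
      rintro rfl
      simp at hm
      omega
    have hord : v.ord f = -(m : ℤ) := by omega
    have key : (⟨f, hmem⟩ : v.toValuationSubring) * π ^ m = u := by
      apply Subtype.ext
      push_cast
      conv_lhs => rw [hu, hord, zpow_neg, zpow_natCast]
      field_simp
    have hdvd : π ∣ (u : v.toValuationSubring) := by
      rw [← key]
      exact Dvd.dvd.mul_left (dvd_pow_self π hm0) _
    exact hπ.not_isUnit (isUnit_of_dvd_unit hdvd u.isUnit)

/-- dictionary: positive order means that the inverse is not in the valuation ring. -/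
theorem ord_pos_iff (v : Place K F) {f : F} (hf : f ≠ 0) :
    0 < v.ord f ↔ f⁻¹ ∉ v.toValuationSubring := by
  rw [← ord_nonneg_iff v (inv_ne_zero hf), v.ord_inv]
  omega

/-- constants have order zero. -/
theorem ord_algebraMap (v : Place K F) (c : K) : v.ord (algebraMap K F c) = 0 := by
  rcases eq_or_ne c 0 with rfl | hc
  · simp
  · have hu : IsUnit (algebraMap K v.toValuationSubring c) :=
      (isUnit_iff_ne_zero.mpr hc).map _
    have h0 := v.ord_coe_unit hu.unit
    rwa [IsUnit.unit_spec, v.coe_algebraMap] at h0

/-- the valuation ring of a place, as a `K`-subalgebra of `F`. -/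
def subalg (v : Place K F) : Subalgebra K F :=
  { v.toValuationSubring.toSubring with algebraMap_mem' := v.algebraMap_mem' }

theorem aeval_mem (v : Place K F) {f : F} (hf : f ∈ v.toValuationSubring) (p : Polynomial K) :
    Polynomial.aeval f p ∈ v.toValuationSubring := by
  have h1 : Algebra.adjoin K {f} ≤ subalg v := Algebra.adjoin_le (Set.singleton_subset_iff.mpr hf)
  exact h1 (Polynomial.aeval_mem_adjoin_singleton K f)

theorem inv_aeval_mem [IsAlgClosed K] (v : Place K F) {f : F}
    (h : ∀ c : K, (f - algebraMap K F c)⁻¹ ∈ v.toValuationSubring) (p : Polynomial K) :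
    (Polynomial.aeval f p)⁻¹ ∈ v.toValuationSubring := by
  obtain ⟨m, hm⟩ := Polynomial.splits_iff_exists_multiset.mp (IsAlgClosed.splits p)
  have hprod : ∀ m : Multiset K,
      (Polynomial.aeval f (m.map fun c => Polynomial.X - Polynomial.C c).prod)⁻¹
        ∈ v.toValuationSubring := by
    intro m
    induction m using Multiset.induction_on with
    | empty => simp [one_mem]
    | cons a s ih =>
      rw [Multiset.map_cons, Multiset.prod_cons, map_mul, mul_inv]
      refine mul_mem ?_ ih
      simpa using h a
  rw [hm, map_mul, mul_inv, Polynomial.aeval_C, ← map_inv₀]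
  exact mul_mem (v.algebraMap_mem' _) (hprod m)

/-- If `f` is transcendental over `K`, lies in the valuation ring of `v`, and `F` is algebraic
over `K(f)`, then `f` has a residue in `K` at `v`. -/
theorem exists_ord_sub_pos_of_isAlgebraic [IsAlgClosed K] (v : Place K F) (f : F)
    (hf : f ∈ v.toValuationSubring) (halg : Algebra.IsAlgebraic K⟮f⟯ F)
    (htr : Transcendental K f) : ∃ c : K, 0 < v.ord (f - algebraMap K F c) := by
  by_contra hcon
  simp only [not_exists, not_lt] at hcon
  have hne : ∀ c : K, f - algebraMap K F c ≠ 0 := by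
    intro c hc
    apply htr
    rw [sub_eq_zero.mp hc]
    exact isAlgebraic_algebraMap c
  have hinv : ∀ c : K, (f - algebraMap K F c)⁻¹ ∈ v.toValuationSubring := by
    intro c
    by_contra hc
    exact absurd ((ord_pos_iff v (hne c)).mpr hc) (not_lt.mpr (hcon c))
  -- the field `K(f)` is contained in the valuation ring
  have hsub : ∀ y : F, y ∈ K⟮f⟯ → y ∈ v.toValuationSubring := by
    intro y hy
    obtain ⟨r, s, rfl⟩ := IntermediateField.mem_adjoin_simple_iff K y |>.mp hy
    rw [div_eq_mul_inv]
    exact mul_mem (aeval_mem v hf r) (inv_aeval_mem v hinv s)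
  -- hence the valuation ring is everything
  apply v.ne_top'
  rw [eq_top_iff]
  intro y _
  let φ : K⟮f⟯ →+* v.toValuationSubring :=
    (algebraMap K⟮f⟯ F).codRestrict v.toValuationSubring.toSubring (fun z => hsub z.1 z.2)
  have hint : IsIntegral K⟮f⟯ y := (halg.isAlgebraic y).isIntegral
  obtain ⟨P, hP, hPy⟩ := hint
  have hint' : IsIntegral v.toValuationSubring y := by
    refine ⟨P.map φ, hP.map φ, ?_⟩
    rw [Polynomial.eval₂_map]
    exact hPy
  obtain ⟨a, rfl⟩ := IsIntegrallyClosed.isIntegral_iff.mp hint'
  exact a.2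

theorem mem_range_of_isAlgebraic [IsAlgClosed K] {f : F} (hf : IsAlgebraic K f) :
    ∃ c : K, f = algebraMap K F c := by
  have hint : IsIntegral K f := hf.isIntegral
  have hdeg := IsAlgClosed.degree_eq_one_of_irreducible K (minpoly.irreducible hint)
  obtain ⟨c, hc⟩ := minpoly.mem_range_of_degree_eq_one K f hdeg
  exact ⟨c, hc.symm⟩

theorem adjoin_inv_eq (g : F) :
    IntermediateField.adjoin K {g⁻¹} = IntermediateField.adjoin K {g} := by
  apply le_antisymm
  · rw [adjoin_simple_le_iff]
    exact inv_mem (mem_adjoin_simple_self K g)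
  · rw [adjoin_simple_le_iff]
    have := inv_mem (mem_adjoin_simple_self K g⁻¹)
    rwa [inv_inv] at this

variable [IsAlgClosed K]

/-- (FF5a) the residue field of every place is `K`. -/
theorem exists_residue (L : IntermediateField K F) [FiniteDimensional L F] (x : F)
    (hxL : IntermediateField.adjoin K {x} = L) (v : Place K F) (f : F)
    (hf : f ∈ v.toValuationSubring) :
    ∃ c : K, f = algebraMap K F c ∨ 0 < v.ord (f - algebraMap K F c) := by
  by_cases htr : Transcendental K f
  · have := finiteDimensional_adjoin_of_transcendental L x hxL f htr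
    obtain ⟨c, hc⟩ := exists_ord_sub_pos_of_isAlgebraic v f hf
      (Algebra.IsAlgebraic.of_finite _ _) htr
    exact ⟨c, Or.inr hc⟩
  · obtain ⟨c, hc⟩ := mem_range_of_isAlgebraic (not_not.mp htr)
    exact ⟨c, Or.inl hc⟩

/-- (FF5a') the residue of a transcendental element that is regular at `v`. -/
theorem exists_ord_sub_pos_of_transcendental (L : IntermediateField K F) [FiniteDimensional L F]
    (x : F) (hxL : IntermediateField.adjoin K {x} = L) (v : Place K F) (j : F)
    (hj : Transcendental K j) (hv : 0 ≤ v.ord j) :
    ∃ a : K, 0 < v.ord (j - algebraMap K F a) := by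
  have hj0 : j ≠ 0 := by
    rintro rfl
    exact hj isAlgebraic_zero
  obtain ⟨c, hc | hc⟩ := exists_residue L x hxL v j ((ord_nonneg_iff v hj0).mp hv)
  · exact absurd (hc ▸ isAlgebraic_algebraMap c) hj
  · exact ⟨c, hc⟩

/-- (FF5b) every place has degree one. -/
theorem deg_eq_one (L : IntermediateField K F) [FiniteDimensional L F] (x : F)
    (hxL : IntermediateField.adjoin K {x} = L) (v : Place K F) : v.deg = 1 := by
  have hsurj : Function.Surjective (algebraMap K v.ResidueField) := by
    intro r
    obtain ⟨a, rfl⟩ := IsLocalRing.residue_surjective r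
    obtain ⟨c, hc | hc⟩ := exists_residue L x hxL v a a.2
    · refine ⟨c, ?_⟩
      have : a = algebraMap K v.toValuationSubring c := Subtype.ext hc
      rw [this]
      rfl
    · refine ⟨c, ?_⟩
      have hmem : a - algebraMap K v.toValuationSubring c
          ∈ IsLocalRing.maximalIdeal v.toValuationSubring := by
        rw [IsLocalRing.mem_maximalIdeal, mem_nonunits_iff]
        intro hu
        have h0 := v.ord_coe_unit hu.unit
        rw [IsUnit.unit_spec] at h0
        have : ((a - algebraMap K v.toValuationSubring c : v.toValuationSubring) : F)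
            = (a : F) - algebraMap K F c := rfl
        rw [this] at h0
        omega
      have h2 := (IsLocalRing.residue_eq_zero_iff _).mpr hmem
      rw [map_sub, sub_eq_zero] at h2
      rw [h2]
      rfl
  unfold AlgebraicCurve.Place.deg
  have e : K ≃ₗ[K] v.ResidueField :=
    LinearEquiv.ofBijective (Algebra.linearMap K v.ResidueField)
      ⟨(algebraMap K v.ResidueField).injective, hsurj⟩
  rw [← e.finrank_eq, Module.finrank_self]

/-- (FF4) principal divisors have finite support and degree zero; the fundamental identity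
(FF1) for an arbitrary separating variable is an explicit hypothesis. -/
theorem sum_ord_eq_zero_of_FF1
    (hFF1 : ∀ (L : IntermediateField K F) [FiniteDimensional L F] (x : F),
      IntermediateField.adjoin K {x} = L → Transcendental K x →
      ∃ 𝒱 : Finset (Place K F), (∀ v : Place K F, v ∈ 𝒱 ↔ 0 < v.ord x) ∧
        ∑ v ∈ 𝒱, v.ord x = (Module.finrank L F : ℤ))
    (L : IntermediateField K F) [FiniteDimensional L F] (x : F)
    (hxL : IntermediateField.adjoin K {x} = L) (g : F) (hg : g ≠ 0) :
    ∃ S : Finset (Place K F), (∀ v, v ∉ S → v.ord g = 0) ∧ ∑ v ∈ S, v.ord g = 0 := by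
  classical
  by_cases htr : Transcendental K g
  · have hfin := finiteDimensional_adjoin_of_transcendental L x hxL g htr
    have htr' : Transcendental K g⁻¹ := fun h => htr (by simpa using h.inv)
    obtain ⟨Z, hZ, hZsum⟩ := hFF1 K⟮g⟯ g rfl htr
    obtain ⟨P, hP, hPsum⟩ := hFF1 K⟮g⟯ g⁻¹ (adjoin_inv_eq g) htr'
    refine ⟨Z ∪ P, ?_, ?_⟩
    · intro v hv
      rw [Finset.mem_union, hZ, hP, v.ord_inv] at hv
      omega
    · have hdisj : Disjoint Z P := by
        rw [Finset.disjoint_left]
        intro v h1 h2
        rw [hZ] at h1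
        rw [hP, v.ord_inv] at h2
        omega
      have hneg : ∑ v ∈ P, v.ord g = - ∑ v ∈ P, v.ord g⁻¹ := by
        rw [← Finset.sum_neg_distrib]
        exact Finset.sum_congr rfl (fun v _ => by rw [v.ord_inv, neg_neg])
      rw [Finset.sum_union hdisj, hZsum, hneg, hPsum]
      ring
  · obtain ⟨c, rfl⟩ := mem_range_of_isAlgebraic (not_not.mp htr)
    exact ⟨∅, fun v _ => ord_algebraMap v c, by simp⟩

end FFDeg

end Fermat.Agent.S24
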