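import Mathlib
import Fermat.Agent.S24.FFBasic
import Fermat.Agent.S24.FFDeg

/-!
# S24, abstract function-field layer: the three inputs `hdeg`, `hres`, `hprin` of the genus
bookkeeping, hypothesis-free

`K` algebraically closed of characteristic zero, `F` finite over `L = K(x)`.
All declarations are in the namespace `Fermat.Agent.S24.FFPrin`.
-/

set_option autoImplicit false

namespace Fermat.Agent.S24

namespace FFPrin

open AlgebraicCurve

variable {K F : Type*} [Field K] [Field F] [Algebra K F] [IsAlgClosed K]

/-- (hprin) principal divisors have finite support and degree zero. -/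
theorem sum_ord_eq_zero [CharZero K] (L : IntermediateField K F) [FiniteDimensional L F] (x : F)
    (hxL : IntermediateField.adjoin K {x} = L) (g : F) (hg : g ≠ 0) :
    ∃ S : Finset (Place K F), (∀ v, v ∉ S → v.ord g = 0) ∧ ∑ v ∈ S, v.ord g = 0 :=
  FFDeg.sum_ord_eq_zero_of_FF1
    (fun L _ x hxL hx => exists_finset_places_ord_pos L x hxL hx) L x hxL g hg

/-- (hprin) in the exact shape of `genus_eq_of_ramification` / `genus_eq_of_places`. -/
theorem hprin [CharZero K] (L : IntermediateField K F) [FiniteDimensional L F] (x : F)
    (hxL : IntermediateField.adjoin K {x} = L) :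
    ∀ c : F, c ≠ 0 → ∃ S : Finset (Place K F), (∀ v, v ∉ S → v.ord c = 0) ∧ ∑ v ∈ S, v.ord c = 0 :=
  fun c hc => sum_ord_eq_zero L x hxL c hc

/-- (hdeg) every place has degree one. -/
theorem hdeg (L : IntermediateField K F) [FiniteDimensional L F] (x : F)
    (hxL : IntermediateField.adjoin K {x} = L) : ∀ v : Place K F, v.deg = 1 :=
  fun v => FFDeg.deg_eq_one L x hxL v

/-- (hres) a transcendental `j` has a residue in `K` at every place where it is regular. -/
theorem hres (L : IntermediateField K F) [FiniteDimensional L F] (x : F)
    (hxL : IntermediateField.adjoin K {x} = L) (j : F) (hj : Transcendental K j) :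
    ∀ v : Place K F, 0 ≤ v.ord j → ∃ a : K, 0 < v.ord (j - algebraMap K F a) :=
  fun v hv => FFDeg.exists_ord_sub_pos_of_transcendental L x hxL v j hj hv

end FFPrin

end Fermat.Agent.S24
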