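import Mathlib
import Fermat.Prelude.Def_ModularCurve_LaurentCoeff

/-!
# S24: linear disjointness for coefficient extension of Laurent series

If a family of Laurent series over a field `K` is `K`-linearly independent, then the family
obtained by applying a ring homomorphism `sig : K →+* L` (into a field `L`) to all coefficients is
`L`-linearly independent.  Same statement for functions `X → K` and for power series.
-/

namespace Fermat.Agent.S24.LinDisj

open scoped Classical in
/-- Core statement for families of functions `X → K`. -/
theorem linearIndependent_comp_ringHom {K L : Type*} [Field K] [Field L] (sig : K →+* L)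
    {ι X : Type*} (f : ι → X → K) (hf : LinearIndependent K f) :
    LinearIndependent L (fun i => fun x => sig (f i x)) := by
  let _ : Algebra K L := sig.toAlgebra
  have halg : ∀ c : K, algebraMap K L c = sig c := fun _ => rfl
  let b := Module.Basis.ofVectorSpace K L
  rw [linearIndependent_iff'] at hf ⊢
  intro s g hg i hi
  -- coordinates of the coefficients `g i`
  have key : ∀ j, ∀ i ∈ s, b.repr (g i) j = 0 := by
    intro j
    apply hf s (fun i => b.repr (g i) j)
    funext x
    have hx : ∑ i ∈ s, g i * sig (f i x) = 0 := by
      have := congrFun hg x
      simpa [Finset.sum_apply, Pi.smul_apply, smul_eq_mul] using this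
    have h2 : ∑ i ∈ s, f i x • g i = 0 := by
      rw [← hx]
      refine Finset.sum_congr rfl fun i _ => ?_
      rw [Algebra.smul_def, halg, mul_comm]
    have h3 := congrArg (fun v => b.repr v j) h2
    simp only [map_sum, map_smul, Finsupp.coe_finsetSum, Finsupp.coe_smul, Finset.sum_apply,
      Pi.smul_apply, smul_eq_mul, map_zero, Finsupp.coe_zero, Pi.zero_apply] at h3
    simp only [Finset.sum_apply, Pi.smul_apply, smul_eq_mul, Pi.zero_apply]
    rw [← h3]
    exact Finset.sum_congr rfl fun i _ => mul_comm _ _
  have : b.repr (g i) = 0 := by
    ext j
    simpa using key j i hi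
  simpa using this

/-- Linear disjointness for Laurent series: coefficient extension along `sig : K →+* L`
preserves linear independence. -/
theorem linearIndependent_coeffMap {K L : Type*} [Field K] [Field L] (sig : K →+* L)
    {ι : Type*} (f : ι → LaurentSeries K) (hf : LinearIndependent K f) :
    LinearIndependent L (fun i => ModularCurve.coeffMap sig (f i)) := by
  -- transport to functions `ℤ → K`
  let cK : LaurentSeries K →ₗ[K] (ℤ → K) :=
    { toFun := fun x k => x.coeff k
      map_add' := fun x y => by funext k; simp
      map_smul' := fun c x => by funext k; simp }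
  let cL : LaurentSeries L →ₗ[L] (ℤ → L) :=
    { toFun := fun x k => x.coeff k
      map_add' := fun x y => by funext k; simp
      map_smul' := fun c x => by funext k; simp }
  have hcK : Function.Injective cK := fun x y h => HahnSeries.ext (funext fun k => congrFun h k)
  have h1 : LinearIndependent K (fun i => cK (f i)) :=
    hf.map' cK (LinearMap.ker_eq_bot.mpr hcK)
  have h2 := linearIndependent_comp_ringHom sig (fun i => cK (f i)) h1
  have h3 : (fun i => fun x => sig (cK (f i) x)) =
      fun i => cL (ModularCurve.coeffMap sig (f i)) := rfl
  rw [h3] at h2
  exact LinearIndependent.of_comp cL h2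

/-- Linear disjointness for power series. -/
theorem linearIndependent_powerSeries_map {K L : Type*} [Field K] [Field L] (sig : K →+* L)
    {ι : Type*} (f : ι → PowerSeries K) (hf : LinearIndependent K f) :
    LinearIndependent L (fun i => PowerSeries.map sig (f i)) := by
  let cK : PowerSeries K →ₗ[K] (ℕ → K) :=
    { toFun := fun x k => PowerSeries.coeff k x
      map_add' := fun x y => by funext k; simp
      map_smul' := fun c x => by funext k; simp }
  let cL : PowerSeries L →ₗ[L] (ℕ → L) :=
    { toFun := fun x k => PowerSeries.coeff k x
      map_add' := fun x y => by funext k; simp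
      map_smul' := fun c x => by funext k; simp }
  have hcK : Function.Injective cK := fun x y h => PowerSeries.ext fun k => congrFun h k
  have h1 : LinearIndependent K (fun i => cK (f i)) :=
    hf.map' cK (LinearMap.ker_eq_bot.mpr hcK)
  have h2 := linearIndependent_comp_ringHom sig (fun i => cK (f i)) h1
  have h3 : (fun i => fun x => sig (cK (f i) x)) =
      fun i => cL (PowerSeries.map sig (f i)) := by
    funext i x
    simp [cK, cL]
  rw [h3] at h2
  exact LinearIndependent.of_comp cL h2

/-- Dependence version: an `L`-linear relation among coefficient-extended Laurent series forces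
a nontrivial `K`-linear relation among the original ones. -/
theorem exists_relation_of_coeffMap {K L : Type*} [Field K] [Field L] (sig : K →+* L)
    {ι : Type*} (s : Finset ι) (f : ι → LaurentSeries K) (g : ι → L)
    (hg : ∑ i ∈ s, g i • ModularCurve.coeffMap sig (f i) = 0) (hne : ∃ i ∈ s, g i ≠ 0) :
    ∃ c : ι → K, ∑ i ∈ s, c i • f i = 0 ∧ ∃ i ∈ s, c i ≠ 0 := by
  by_contra hcon
  push Not at hcon
  have hli : LinearIndependent K (fun i : s => f i) := by
    rw [linearIndependent_iff']
    intro t c hc i hi
    classical
    let c' : ι → K := fun j => if h : j ∈ s then (if (⟨j, h⟩ : s) ∈ t then c ⟨j, h⟩ else 0) else 0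
    have hsum : ∑ j ∈ s, c' j • f j = 0 := by
      rw [← Finset.sum_coe_sort s]
      have : ∀ j : s, c' j • f j = if j ∈ t then c j • f j else 0 := by
        intro j
        simp only [c', j.2, dif_pos]
        split_ifs <;> simp
      simp only [this]
      rw [Finset.sum_ite_mem, Finset.univ_inter]
      exact hc
    have := hcon c' hsum i i.2
    simpa [c', i.2, hi] using this
  have hL := linearIndependent_coeffMap sig (fun i : s => f i) hli
  rw [linearIndependent_iff'] at hL
  obtain ⟨i, his, hi⟩ := hne
  have := hL Finset.univ (fun j : s => g j) (by
    rw [← hg, ← Finset.sum_coe_sort s]) ⟨i, his⟩ (Finset.mem_univ _)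
  exact hi this

end Fermat.Agent.S24.LinDisj
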