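import Fermat.Agent.S24.Defs
import Fermat.Agent.S24.LinDisj

/-!
# S24: the analytic realisation `ι : F →ₐ[ℚ̄] Mer` of the frozen function field

* `Iota.FF_eq_adjoin`, `adjoin_jBar` : the frozen field `FF N` is generated over `ℚ̄` by the
  `jBar N d`, `d ∣ N`;  `Iota.FF_induction`, `algHom_induction` : the induction principles.
* `algHom_ext_jBar`, `IsIota.unique` : an algebra homomorphism out of `FF N` is determined by its
  values on the generators; `ι` with `IsIota N ι` is unique.
* `transcendental_jBar` : `j` is transcendental over `ℚ̄`.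
* `Iota.exists_ringHom_of_laurent`, `Iota.exists_iota_of_laurent` : construction of `ι` from any
  injective "Laurent expansion" algebra homomorphism `L : A →ₐ[ℂ] LaurentSeries ℂ` on a
  subalgebra `A` of holomorphic functions containing the functions `z ↦ j (d z)` with the
  expected expansions; together with linear disjointness (`ℚ̄`-independent families stay
  `ℂ`-independent) and the compatibility of `ι` with Laurent expansions.
-/

set_option autoImplicit false

open UpperHalfPlane ModularCurve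
open scoped MatrixGroups ModularForm Manifold Topology

namespace Fermat.Agent.S24

local notation "Qbar" => AlgebraicClosure ℚ

namespace Iota

/-- the generators `j(q^d)`, `d ∣ N`, as Laurent series -/
def gens (N : ℕ) : Set (LaurentSeries Qbar) :=
  {x | ∃ (d : ℕ) (hd : d ∣ N) (hd0 : 0 < d), x = ((jBar N d hd hd0 : FF N) : LaurentSeries Qbar)}

theorem coe_jBar (N d : ℕ) (hd : d ∣ N) (hd0 : 0 < d) :
    ((jBar N d hd hd0 : FF N) : LaurentSeries Qbar) =
      coeffEmb Qbar (@qExpand ℚ _ d ⟨hd0.ne'⟩ jq) := rfl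

theorem coeffEmb_algebraMap (c : ℚ) :
    coeffEmb Qbar (algebraMap ℚ (LaurentSeries ℚ) c)
      = algebraMap Qbar (LaurentSeries Qbar) (algebraMap ℚ Qbar c) := by
  rw [algebraMap_apply_eq_single, algebraMap_laurentSeries_eq_single, coeffEmb, coeffMap_single]

/-- **Generation**: the frozen function field is generated over `ℚ̄` by the `j(q^d)`, `d ∣ N`. -/
theorem FF_eq_adjoin (N : ℕ) : FF N = IntermediateField.adjoin Qbar (gens N) := by
  apply le_antisymm
  · change IntermediateField.adjoin Qbar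
      (⇑(coeffEmb Qbar) '' (modularFunctionFieldFull N : Set (LaurentSeries ℚ))) ≤ _
    rw [IntermediateField.adjoin_le_iff]
    rintro _ ⟨z, hz, rfl⟩
    change z ∈ IntermediateField.adjoin ℚ (divisorExpansions N) at hz
    induction hz using IntermediateField.adjoin_induction with
    | mem x hx =>
      obtain ⟨d, hne, hdvd, rfl⟩ := hx
      refine IntermediateField.subset_adjoin _ _ ⟨d, hdvd, Nat.pos_of_ne_zero hne.out, ?_⟩
      rw [coe_jBar]
    | algebraMap c =>
      rw [SetLike.mem_coe, coeffEmb_algebraMap]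
      exact IntermediateField.algebraMap_mem _ _
    | add x y _ _ hx hy =>
      rw [SetLike.mem_coe, map_add]
      exact add_mem hx hy
    | inv x _ hx =>
      rw [SetLike.mem_coe, map_inv₀]
      exact inv_mem hx
    | mul x y _ _ hx hy =>
      rw [SetLike.mem_coe, map_mul]
      exact mul_mem hx hy
  · rw [IntermediateField.adjoin_le_iff]
    rintro _ ⟨d, hd, hd0, rfl⟩
    exact (jBar N d hd hd0).2

theorem image_val_gens (N : ℕ) :
    (Subtype.val '' {x : FF N | ∃ (d : ℕ) (hd : d ∣ N) (hd0 : 0 < d), x = jBar N d hd hd0})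
      = gens N := by
  ext y
  constructor
  · rintro ⟨x, ⟨d, hd, hd0, rfl⟩, rfl⟩
    exact ⟨d, hd, hd0, rfl⟩
  · rintro ⟨d, hd, hd0, rfl⟩
    exact ⟨jBar N d hd hd0, ⟨d, hd, hd0, rfl⟩, rfl⟩

end Iota

/-- the generators `jBar N d`, `d ∣ N`, generate the frozen function field. -/
theorem adjoin_jBar (N : ℕ) :
    IntermediateField.adjoin Qbar {x : FF N | ∃ (d : ℕ) (hd : d ∣ N) (hd0 : 0 < d),
      x = jBar N d hd hd0} = ⊤ := by
  apply IntermediateField.lift_injective (FF N)
  rw [IntermediateField.lift_adjoin, IntermediateField.lift_top, Iota.image_val_gens]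
  exact (Iota.FF_eq_adjoin N).symm

/-- **induction principle** for elements of the frozen function field -/
theorem Iota.FF_induction (N : ℕ) {P : FF N → Prop}
    (hgen : ∀ (d : ℕ) (hd : d ∣ N) (hd0 : 0 < d), P (jBar N d hd hd0))
    (hconst : ∀ c : Qbar, P (algebraMap Qbar (FF N) c))
    (hadd : ∀ x y, P x → P y → P (x + y))
    (hinv : ∀ x, P x → P x⁻¹)
    (hmul : ∀ x y, P x → P y → P (x * y))
    (x : FF N) : P x := by
  have hx : x ∈ IntermediateField.adjoin Qbar {x : FF N | ∃ (d : ℕ) (hd : d ∣ N) (hd0 : 0 < d),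
      x = jBar N d hd hd0} := by
    rw [adjoin_jBar]
    exact IntermediateField.mem_top
  induction hx using IntermediateField.adjoin_induction with
  | mem x hx =>
    obtain ⟨d, hd, hd0, rfl⟩ := hx
    exact hgen d hd hd0
  | algebraMap c => exact hconst c
  | add x y _ _ hx hy => exact hadd x y hx hy
  | inv x _ hx => exact hinv x hx
  | mul x y _ _ hx hy => exact hmul x y hx hy

/-- **induction along an algebra homomorphism**: a property of elements of a field `M` which is
stable under the field operations and holds for the constants and the images of the generators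
`j(q^d)` holds for all values of `σ`. -/
theorem algHom_induction {N : ℕ} {M : Type*} [Field M] [Algebra Qbar M] (σ : FF N →ₐ[Qbar] M)
    (Q : M → Prop)
    (hgen : ∀ (d : ℕ) (hd : d ∣ N) (hd0 : 0 < d), Q (σ (jBar N d hd hd0)))
    (hconst : ∀ c : Qbar, Q (algebraMap Qbar M c))
    (hadd : ∀ x y, Q x → Q y → Q (x + y))
    (hinv : ∀ x, Q x → Q x⁻¹)
    (hmul : ∀ x y, Q x → Q y → Q (x * y)) (x : FF N) : Q (σ x) := by
  refine Iota.FF_induction N (P := fun x => Q (σ x)) hgen ?_ ?_ ?_ ?_ x
  · intro c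
    rw [show σ (algebraMap Qbar (FF N) c) = algebraMap Qbar M c from σ.commutes c]
    exact hconst c
  · intro x y hx hy
    rw [show σ (x + y) = σ x + σ y from map_add σ x y]
    exact hadd _ _ hx hy
  · intro x hx
    rw [show σ x⁻¹ = (σ x)⁻¹ from map_inv₀ σ x]
    exact hinv _ hx
  · intro x y hx hy
    rw [show σ (x * y) = σ x * σ y from map_mul σ x y]
    exact hmul _ _ hx hy

/-- **Uniqueness**: two algebra homomorphisms out of the frozen function field that agree on the
generators `j(q^d)` are equal. -/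
theorem algHom_ext_jBar {N : ℕ} {M : Type*} [Semiring M] [Algebra Qbar M]
    {ι₁ ι₂ : FF N →ₐ[Qbar] M}
    (h : ∀ (d : ℕ) (hd : d ∣ N) (hd0 : 0 < d), ι₁ (jBar N d hd hd0) = ι₂ (jBar N d hd hd0)) :
    ι₁ = ι₂ := by
  refine IntermediateField.algHom_ext_of_eq_adjoin Qbar (Iota.FF_eq_adjoin N) ?_
  rintro _ ⟨d, hd, hd0, rfl⟩
  exact h d hd hd0

theorem IsIota.unique {N : ℕ} {ι₁ ι₂ : FF N →ₐ[Qbar] Mer} (h₁ : IsIota N ι₁) (h₂ : IsIota N ι₂) :
    ι₁ = ι₂ :=
  algHom_ext_jBar fun d hd hd0 => by rw [h₁ d hd hd0, h₂ d hd hd0]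

/-- `j` is not a constant: its Laurent series has a pole. -/
theorem jBar_one_ne_algebraMap (N : ℕ) (c : Qbar) :
    jBar N 1 (one_dvd N) one_pos ≠ algebraMap Qbar (FF N) c := by
  intro h
  have h1 := congrArg (fun x : FF N => (x : LaurentSeries Qbar).coeff (-1)) h
  have h2 : ((algebraMap Qbar (FF N) c : FF N) : LaurentSeries Qbar)
      = algebraMap Qbar (LaurentSeries Qbar) c := rfl
  simp only [Iota.coe_jBar, h2, algebraMap_laurentSeries_eq_single, coeffEmb_coeff] at h1
  rw [qExpand_one_apply, coeff_jq_neg_one, HahnSeries.coeff_single_of_ne (by norm_num)] at h1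
  simp at h1

/-- **`j` is transcendental over `ℚ̄`.** -/
theorem transcendental_jBar (N : ℕ) :
    Transcendental Qbar (jBar N 1 (one_dvd N) one_pos) := by
  intro halg
  have hint : IsIntegral Qbar (jBar N 1 (one_dvd N) one_pos) := halg.isIntegral
  have hdeg := IsAlgClosed.degree_eq_one_of_irreducible Qbar (minpoly.irreducible hint)
  obtain ⟨c, hc⟩ := minpoly.mem_range_of_degree_eq_one Qbar _ hdeg
  exact jBar_one_ne_algebraMap N c hc.symm

namespace Iota

theorem coeffMap_phi_coeffEmb (x : LaurentSeries ℚ) :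
    coeffMap phi (coeffEmb Qbar x) = coeffMap (algebraMap ℚ ℂ) x := by
  rw [coeffEmb, coeffMap_coeffMap]
  exact coeffMap_congr (Subsingleton.elim _ _) x

theorem coeffMap_phi_algebraMap (c : Qbar) :
    coeffMap phi (algebraMap Qbar (LaurentSeries Qbar) c)
      = algebraMap ℂ (LaurentSeries ℂ) (phi c) := by
  rw [algebraMap_laurentSeries_eq_single, algebraMap_laurentSeries_eq_single, coeffMap_single]

/-- the two scalar multiplications on Laurent series agree -/
theorem algebraMap_mul_eq_smul {K : Type*} [Field K] (c : K) (x : LaurentSeries K) :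
    algebraMap K (LaurentSeries K) c * x = c • x := by
  rw [algebraMap_laurentSeries_eq_single]
  exact HahnSeries.single_zero_mul_eq_smul

/-- linear independence in the frozen function field, in terms of Laurent series -/
theorem linearIndependent_coe {N : ℕ} {J : Type*} (f : J → FF N)
    (hf : LinearIndependent Qbar f) :
    LinearIndependent Qbar (fun i => ((f i : FF N) : LaurentSeries Qbar)) := by
  rw [linearIndependent_iff'] at hf ⊢
  intro s g hg i hi
  refine hf s g ?_ i hi
  apply Subtype.ext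
  have h1 : ((∑ i ∈ s, g i • f i : FF N) : LaurentSeries Qbar)
      = ∑ i ∈ s, g i • ((f i : FF N) : LaurentSeries Qbar) := by
    rw [AddSubmonoidClass.coe_finsetSum]
    refine Finset.sum_congr rfl fun i _ => ?_
    rw [← algebraMap_mul_eq_smul]
    rfl
  rw [h1, hg]
  rfl

/-- abstract core of the construction of `ι`, for an abstract fraction field `Fr` of `A` -/
theorem exists_ringHom_aux {N : ℕ} {A : Type*} [CommRing A] [Algebra ℂ A]
    {Fr : Type*} [Field Fr] [Algebra A Fr] [IsFractionRing A Fr]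
    {M : Type*} [Field M] [Algebra ℂ M]
    (L : A →ₐ[ℂ] LaurentSeries ℂ) (Λ : Fr →+* LaurentSeries ℂ)
    (hΛ : ∀ a : A, Λ (algebraMap A Fr a) = L a)
    (jM : A →ₐ[ℂ] M) (J : Fr →+* M) (hJ : ∀ a : A, J (algebraMap A Fr a) = jM a)
    (hj : ∀ (d : ℕ) (_ : d ∣ N) (hd0 : 0 < d), ∃ a : A,
      L a = coeffMap (algebraMap ℚ ℂ) (@qExpand ℚ _ d ⟨hd0.ne'⟩ jq)) :
    ∃ ι : FF N →+* M,
      (∀ c : Qbar, ι (algebraMap Qbar (FF N) c) = algebraMap ℂ M (phi c)) ∧
      (∀ (x : FF N) (a : A), L a = coeffMap phi (x : LaurentSeries Qbar) → ι x = jM a) ∧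
      (∀ (J' : Type) (f : J' → FF N), LinearIndependent Qbar f →
        LinearIndependent ℂ (fun i => ι (f i))) ∧
      (∀ f : FF N, ∃ a b : A, b ≠ 0 ∧ ι f * jM b = jM a ∧
        L a = coeffMap phi (f : LaurentSeries Qbar) * L b) := by
  classical
  have : Nontrivial A := (IsFractionRing.nontrivial_iff_nontrivial A Fr).mpr inferInstance
  have hΛinj : Function.Injective Λ := Λ.injective
  have hJinj : Function.Injective J := J.injective
  -- constants
  let cst : ℂ → Fr := fun z => algebraMap A Fr (algebraMap ℂ A z)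
  have hΛcst : ∀ z : ℂ, Λ (cst z) = algebraMap ℂ (LaurentSeries ℂ) z := fun z => by
    rw [hΛ, AlgHom.commutes]
  have hJcst : ∀ z : ℂ, J (cst z) = algebraMap ℂ M z := fun z => by
    rw [hJ, AlgHom.commutes]
  -- every element of `FF N` has a preimage under `Λ`
  have hC : ∀ x : FF N, ∃ m : Fr, Λ m = coeffMap phi (x : LaurentSeries Qbar) := by
    intro x
    refine FF_induction N
      (P := fun x => ∃ m : Fr, Λ m = coeffMap phi (x : LaurentSeries Qbar)) ?_ ?_ ?_ ?_ ?_ x
    · intro d hd hd0
      obtain ⟨a, ha⟩ := hj d hd hd0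
      exact ⟨algebraMap A Fr a, by rw [hΛ, ha, coe_jBar, coeffMap_phi_coeffEmb]⟩
    · intro c
      refine ⟨cst (phi c), ?_⟩
      rw [hΛcst, ← coeffMap_phi_algebraMap]
      rfl
    · rintro x y ⟨m, hm⟩ ⟨m', hm'⟩
      refine ⟨m + m', ?_⟩
      rw [map_add, hm, hm', ← map_add]
      rfl
    · rintro x ⟨m, hm⟩
      refine ⟨m⁻¹, ?_⟩
      rw [map_inv₀, hm, ← map_inv₀]
      rfl
    · rintro x y ⟨m, hm⟩ ⟨m', hm'⟩
      refine ⟨m * m', ?_⟩
      rw [map_mul, hm, hm', ← map_mul]
      rfl
  choose pre hpre using hC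
  let preHom : FF N →+* Fr :=
    { toFun := pre
      map_one' := hΛinj (by rw [hpre, map_one]; exact map_one _)
      map_mul' := fun x y => hΛinj (by rw [hpre, map_mul, hpre, hpre]; exact map_mul _ _ _)
      map_zero' := hΛinj (by rw [hpre, map_zero]; exact map_zero _)
      map_add' := fun x y => hΛinj (by rw [hpre, map_add, hpre, hpre]; exact map_add _ _ _) }
  have hpreHom : ∀ x : FF N, Λ (preHom x) = coeffMap phi (x : LaurentSeries Qbar) := hpre
  refine ⟨J.comp preHom, ?_, ?_, ?_, ?_⟩
  · intro c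
    have h1 : preHom (algebraMap Qbar (FF N) c) = cst (phi c) := by
      apply hΛinj
      rw [hpreHom, hΛcst, ← coeffMap_phi_algebraMap]
      rfl
    rw [RingHom.comp_apply, h1, hJcst]
  · intro x a ha
    have h1 : preHom x = algebraMap A Fr a := by
      apply hΛinj
      rw [hpreHom, hΛ, ha]
    rw [RingHom.comp_apply, h1, hJ]
  · -- linear disjointness
    intro J' f hf
    have hLD := LinDisj.linearIndependent_coeffMap phi _ (linearIndependent_coe f hf)
    rw [linearIndependent_iff'] at hLD ⊢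
    intro s g hg i hi
    refine hLD s g ?_ i hi
    have h1 : J (∑ i ∈ s, cst (g i) * preHom (f i)) = 0 := by
      rw [map_sum, ← hg]
      refine Finset.sum_congr rfl fun i _ => ?_
      rw [map_mul, hJcst, Algebra.smul_def]
      rfl
    have h2 : ∑ i ∈ s, cst (g i) * preHom (f i) = 0 := hJinj (by rw [h1, map_zero])
    have h3 := congrArg Λ h2
    rw [map_sum, map_zero] at h3
    rw [← h3]
    refine Finset.sum_congr rfl fun i _ => ?_
    rw [map_mul, hΛcst, hpreHom, algebraMap_mul_eq_smul]
  · -- representation as a quotient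
    intro f
    obtain ⟨a, b, hb, hab⟩ := IsFractionRing.div_surjective (A := A) (preHom f)
    have hb0 : b ≠ 0 := nonZeroDivisors.ne_zero hb
    have hb1 : algebraMap A Fr b ≠ 0 := by
      rw [Ne, IsFractionRing.to_map_eq_zero_iff (K := Fr)]
      exact hb0
    refine ⟨a, b, hb0, ?_, ?_⟩
    · rw [RingHom.comp_apply, ← hJ, ← hJ, ← map_mul, ← hab, div_mul_cancel₀ _ hb1]
    · have h1 : Λ (preHom f) * L b = L a := by
        rw [← hab, ← hΛ b, ← map_mul, div_mul_cancel₀ _ hb1, hΛ]
      rw [← h1, hpreHom]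

/-- abstract construction of `ι` from an injective Laurent-expansion homomorphism `L` on a
`ℂ`-algebra `A` that embeds into a field `M` -/
theorem exists_ringHom_of_laurent {N : ℕ} {A : Type*} [CommRing A] [Algebra ℂ A]
    {M : Type*} [Field M] [Algebra ℂ M]
    (L : A →ₐ[ℂ] LaurentSeries ℂ) (hL : Function.Injective L)
    (jM : A →ₐ[ℂ] M) (hjM : Function.Injective jM)
    (hj : ∀ (d : ℕ) (_ : d ∣ N) (hd0 : 0 < d), ∃ a : A,
      L a = coeffMap (algebraMap ℚ ℂ) (@qExpand ℚ _ d ⟨hd0.ne'⟩ jq)) :
    ∃ ι : FF N →+* M,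
      (∀ c : Qbar, ι (algebraMap Qbar (FF N) c) = algebraMap ℂ M (phi c)) ∧
      (∀ (x : FF N) (a : A), L a = coeffMap phi (x : LaurentSeries Qbar) → ι x = jM a) ∧
      (∀ (J' : Type) (f : J' → FF N), LinearIndependent Qbar f →
        LinearIndependent ℂ (fun i => ι (f i))) ∧
      (∀ f : FF N, ∃ a b : A, b ≠ 0 ∧ ι f * jM b = jM a ∧
        L a = coeffMap phi (f : LaurentSeries Qbar) * L b) := by
  have : IsDomain A := Function.Injective.isDomain L.toRingHom hL
  exact exists_ringHom_aux (Fr := FractionRing A) L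
    (IsFractionRing.lift (g := (L : A →+* LaurentSeries ℂ)) hL)
    (fun a => IsFractionRing.lift_algebraMap hL a) jM
    (IsFractionRing.lift (g := (jM : A →+* M)) hjM)
    (fun a => IsFractionRing.lift_algebraMap hjM a) hj

/-- **Construction of `ι`** from an injective Laurent-expansion homomorphism `L` on a subalgebra
`A` of holomorphic functions which contains the functions `z ↦ j (d z)`, `d ∣ N`, with the
expected expansions.  The homomorphism comes with linear disjointness and with the compatibility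
of `ι` with `L`. -/
theorem exists_iota_of_laurent {N : ℕ} (A : Subalgebra ℂ (ℍ → ℂ)) (hA : A ≤ Hol)
    (L : A →ₐ[ℂ] LaurentSeries ℂ) (hL : Function.Injective L)
    (hj : ∀ (d : ℕ) (_ : d ∣ N) (hd0 : 0 < d), ∃ a : A,
      (a : ℍ → ℂ) = (jScaled d hd0 : ℍ → ℂ) ∧
        L a = coeffMap (algebraMap ℚ ℂ) (@qExpand ℚ _ d ⟨hd0.ne'⟩ jq)) :
    ∃ ι : FF N →ₐ[Qbar] Mer, IsIota N ι ∧
      (∀ (J : Type) (f : J → FF N), LinearIndependent Qbar f →
        LinearIndependent ℂ (fun i => ι (f i))) ∧
      (∀ (x : FF N) (a : A), L a = coeffMap phi (x : LaurentSeries Qbar) →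
        ι x = algebraMap Hol Mer (Subalgebra.inclusion hA a)) ∧
      (∀ f : FF N, ∃ a b : A, b ≠ 0 ∧
        ι f * algebraMap Hol Mer (Subalgebra.inclusion hA b)
          = algebraMap Hol Mer (Subalgebra.inclusion hA a) ∧
        L a = coeffMap phi (f : LaurentSeries Qbar) * L b) := by
  let jM : A →ₐ[ℂ] Mer := (IsScalarTower.toAlgHom ℂ Hol Mer).comp (Subalgebra.inclusion hA)
  have hjM : Function.Injective jM :=
    (IsFractionRing.injective Hol Mer).comp (Subalgebra.inclusion_injective hA)
  obtain ⟨ι₀, h1, h2, h3, h4⟩ := exists_ringHom_of_laurent (N := N) L hL jM hjM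
    (fun d hd hd0 => (hj d hd hd0).imp fun a ha => ha.2)
  let ι : FF N →ₐ[Qbar] Mer :=
    { ι₀ with
      commutes' := fun c => by
        change ι₀ (algebraMap Qbar (FF N) c) = _
        rw [h1 c, algebraMap_Qbar_Mer] }
  refine ⟨ι, ?_, h3, h2, h4⟩
  intro d hd hd0
  obtain ⟨a, ha1, ha2⟩ := hj d hd hd0
  have h5 : ι (jBar N d hd hd0) = jM a := h2 _ a (by rw [ha2, coe_jBar, coeffMap_phi_coeffEmb])
  rw [h5]
  change algebraMap Hol Mer (Subalgebra.inclusion hA a) = _
  congr 1
  exact Subtype.ext ha1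

end Iota

end Fermat.Agent.S24
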