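import Mathlib

/-!
# S24 library: pointwise analytic lemmas on the upper half plane

* (L1) `analyticOrderAt_comp_smul`: the order of `z ↦ h (g • z)` at `z₀` is the order of `h` at
  `g • z₀`.
* (L2) `denom_sq_pow_eq_of_invariant`: if `h₁ / h₂` is invariant under `g ∈ SL(2,ℤ)` fixing `z₀`,
  then `ε ^ ord h₁ = ε ^ ord h₂` for `ε = (denom g z₀)²`; hence `n ∣ ord h₁ - ord h₂` when `ε` is a
  primitive `n`-th root of unity (`dvd_sub_of_invariant`), with the instances `(S, I)`, `n = 2`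
  and `(S * T, ρ)`, `n = 3`.
* (L3) `analyticOrderAt_wronskian`: `ord (f₁' f₂ - f₁ f₂') = ord f₁ + ord f₂ - 1` when the orders
  differ.
-/

open UpperHalfPlane Filter
open scoped MatrixGroups Topology Manifold

namespace Fermat.Agent.S24.Local

/-! ### Möbius transformations as functions on `ℂ` -/

/-- the Möbius transformation of `g` as a function on `ℂ` -/
noncomputable def mob (g : SL(2, ℤ)) (w : ℂ) : ℂ := ((g • ofComplex w : ℍ) : ℂ)

theorem mob_coe (g : SL(2, ℤ)) (z : ℍ) : mob g (z : ℂ) = ((g • z : ℍ) : ℂ) := by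
  simp [mob]

theorem ofComplex_mob (g : SL(2, ℤ)) (w : ℂ) : ofComplex (mob g w) = g • ofComplex w := by
  simp [mob]

theorem comp_smul_eq {α : Type*} (h : ℍ → α) (g : SL(2, ℤ)) :
    (fun z : ℍ => h (g • z)) ∘ ofComplex = (h ∘ ofComplex) ∘ mob g := by
  funext w
  simp [mob]

theorem det_eq_one (g : SL(2, ℤ)) : ((g : GL (Fin 2) ℝ) : Matrix (Fin 2) (Fin 2) ℝ).det = 1 :=
  (Matrix.SpecialLinearGroup.map (Int.castRingHom ℝ) g).det_coe

theorem det_pos (g : SL(2, ℤ)) : 0 < ((g : GL (Fin 2) ℝ) : Matrix (Fin 2) (Fin 2) ℝ).det := by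
  rw [det_eq_one]
  exact one_pos

theorem analyticAt_mob (g : SL(2, ℤ)) (z : ℍ) : AnalyticAt ℂ (mob g) (z : ℂ) :=
  UpperHalfPlane.analyticAt_smul (g := (g : GL (Fin 2) ℝ)) (det_pos g) z

theorem deriv_mob (g : SL(2, ℤ)) (z : ℍ) : deriv (mob g) (z : ℂ) = (denom g z ^ 2)⁻¹ := by
  have h := UpperHalfPlane.deriv_smul (g := (g : GL (Fin 2) ℝ)) (det_pos g) z
  have h2 : deriv (mob g) (z : ℂ) =
      (((g : GL (Fin 2) ℝ) : Matrix (Fin 2) (Fin 2) ℝ).det : ℂ) / denom g z ^ 2 := h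
  rw [h2, det_eq_one]
  simp

theorem deriv_mob_ne_zero (g : SL(2, ℤ)) (z : ℍ) : deriv (mob g) (z : ℂ) ≠ 0 := by
  rw [deriv_mob]
  exact inv_ne_zero (pow_ne_zero 2 (denom_ne_zero g z))

/-! ### (L1) translation of orders -/

/-- (L1) the order of `z ↦ h (g • z)` at `z₀` is the order of `h` at `g • z₀` -/
theorem analyticOrderAt_comp_smul (h : ℍ → ℂ) (g : SL(2, ℤ)) (z₀ : ℍ) :
    analyticOrderAt ((fun z : ℍ => h (g • z)) ∘ ofComplex) (z₀ : ℂ) =
      analyticOrderAt (h ∘ ofComplex) ((g • z₀ : ℍ) : ℂ) := by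
  rw [comp_smul_eq, analyticOrderAt_comp_of_deriv_ne_zero (analyticAt_mob g z₀)
    (deriv_mob_ne_zero g z₀), mob_coe]

/-! ### (L2) elliptic divisibility -/

/-- core of (L2), for functions on `ℂ`: `M` fixes `x` with derivative `ε`, and
`f₁ ∘ M * f₂ = f₁ * f₂ ∘ M` near `x`; then `ε ^ ord f₁ = ε ^ ord f₂`. -/
theorem pow_eq_pow_of_invariant {f1 f2 M : ℂ → ℂ} {x : ℂ} (hM : DifferentiableAt ℂ M x)
    (hMx : M x = x) (hinv : ∀ᶠ w in 𝓝 x, f1 (M w) * f2 w = f1 w * f2 (M w))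
    (h1 : AnalyticAt ℂ f1 x) (h2 : AnalyticAt ℂ f2 x) {a b : ℕ}
    (ha : analyticOrderAt f1 x = a) (hb : analyticOrderAt f2 x = b) :
    deriv M x ^ a = deriv M x ^ b := by
  obtain ⟨u1, hu1, hu1x, hf1⟩ := (h1.analyticOrderAt_eq_natCast).mp ha
  obtain ⟨u2, hu2, hu2x, hf2⟩ := (h2.analyticOrderAt_eq_natCast).mp hb
  set v : ℂ → ℂ := dslope M x with hv
  have hvx : v x = deriv M x := dslope_same M x
  have hvc : ContinuousAt v x := continuousAt_dslope_same.mpr hM
  have hMv : ∀ w, M w - x = (w - x) * v w := by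
    intro w
    have := sub_smul_dslope M x w
    rw [hMx] at this
    rw [← this, smul_eq_mul]
  have hMc : ContinuousAt M x := hM.continuousAt
  have hMt : Tendsto M (𝓝 x) (𝓝 x) := by
    have := hMc.tendsto
    rwa [hMx] at this
  have hf1M := hMt.eventually hf1
  have hf2M := hMt.eventually hf2
  -- the two continuous functions
  set L : ℂ → ℂ := fun w => v w ^ a * u1 (M w) * u2 w with hL
  set R : ℂ → ℂ := fun w => v w ^ b * u1 w * u2 (M w) with hR
  have hu1M : ContinuousAt (fun w => u1 (M w)) x := by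
    have : ContinuousAt u1 (M x) := by rw [hMx]; exact hu1.continuousAt
    exact ContinuousAt.comp (g := u1) this hMc
  have hu2M : ContinuousAt (fun w => u2 (M w)) x := by
    have : ContinuousAt u2 (M x) := by rw [hMx]; exact hu2.continuousAt
    exact ContinuousAt.comp (g := u2) this hMc
  have hLc : ContinuousAt L x := ((hvc.pow a).mul hu1M).mul hu2.continuousAt
  have hRc : ContinuousAt R x := ((hvc.pow b).mul hu1.continuousAt).mul hu2M
  have hLR : ∀ᶠ w in 𝓝[≠] x, L w = R w := by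
    have hev : ∀ᶠ w in 𝓝 x, w ≠ x → L w = R w := by
      filter_upwards [hinv, hf1, hf2, hf1M, hf2M] with w hw e1 e2 e1M e2M hne
      rw [e1M, e2M, e1, e2] at hw
      simp only [smul_eq_mul, hMv w, mul_pow] at hw
      have hwx : w - x ≠ 0 := sub_ne_zero.mpr hne
      have hp : (w - x) ^ (a + b) ≠ 0 := pow_ne_zero _ hwx
      apply mul_left_cancel₀ hp
      simp only [hL, hR]
      rw [pow_add]
      linear_combination hw
    exact eventually_nhdsWithin_iff.mpr hev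
  have hlimL : Tendsto L (𝓝[≠] x) (𝓝 (L x)) := hLc.tendsto.mono_left nhdsWithin_le_nhds
  have hlimR : Tendsto R (𝓝[≠] x) (𝓝 (R x)) := hRc.tendsto.mono_left nhdsWithin_le_nhds
  have heq : L x = R x := tendsto_nhds_unique (hlimL.congr' hLR) hlimR
  simp only [hL, hR, hMx, hvx] at heq
  have hne : u1 x * u2 x ≠ 0 := mul_ne_zero hu1x hu2x
  apply mul_right_cancel₀ hne
  linear_combination heq

/-- (L2) if `h₁ / h₂` is invariant under `g` fixing `z₀` then
`ε ^ ord h₁ = ε ^ ord h₂` with `ε = (denom g z₀)²`. -/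
theorem denom_sq_pow_eq_of_invariant {h1 h2 : ℍ → ℂ} (hh1 : MDiff h1) (hh2 : MDiff h2)
    (g : SL(2, ℤ)) {z₀ : ℍ} (hg : g • z₀ = z₀)
    (hinv : ∀ z : ℍ, h1 (g • z) * h2 z = h1 z * h2 (g • z)) {a b : ℕ}
    (ha : analyticOrderAt (h1 ∘ ofComplex) (z₀ : ℂ) = a)
    (hb : analyticOrderAt (h2 ∘ ofComplex) (z₀ : ℂ) = b) :
    (denom g z₀ ^ 2) ^ a = (denom g z₀ ^ 2) ^ b := by
  have han : ∀ {h : ℍ → ℂ}, MDiff h → AnalyticAt ℂ (h ∘ ofComplex) (z₀ : ℂ) := fun hh =>
    (UpperHalfPlane.mdifferentiable_iff.mp hh).analyticAt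
      (isOpen_upperHalfPlaneSet.mem_nhds z₀.im_pos)
  have hMx : mob g (z₀ : ℂ) = z₀ := by rw [mob_coe, hg]
  have hinv' : ∀ᶠ w in 𝓝 (z₀ : ℂ), (h1 ∘ ofComplex) (mob g w) * (h2 ∘ ofComplex) w =
      (h1 ∘ ofComplex) w * (h2 ∘ ofComplex) (mob g w) := by
    refine Filter.Eventually.of_forall fun w => ?_
    simp only [Function.comp_apply, ofComplex_mob]
    exact hinv (ofComplex w)
  have key := pow_eq_pow_of_invariant (analyticAt_mob g z₀).differentiableAt hMx hinv'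
    (han hh1) (han hh2) ha hb
  rw [deriv_mob, inv_pow, inv_pow] at key
  exact inv_injective key

/-- (L2) divisibility form -/
theorem dvd_sub_of_invariant {h1 h2 : ℍ → ℂ} (hh1 : MDiff h1) (hh2 : MDiff h2)
    (g : SL(2, ℤ)) {z₀ : ℍ} (hg : g • z₀ = z₀)
    (hinv : ∀ z : ℍ, h1 (g • z) * h2 z = h1 z * h2 (g • z)) {a b : ℕ}
    (ha : analyticOrderAt (h1 ∘ ofComplex) (z₀ : ℂ) = a)
    (hb : analyticOrderAt (h2 ∘ ofComplex) (z₀ : ℂ) = b) {n : ℕ}
    (hn : IsPrimitiveRoot (denom g z₀ ^ 2) n) : (n : ℤ) ∣ (a : ℤ) - b := by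
  have key := denom_sq_pow_eq_of_invariant hh1 hh2 g hg hinv ha hb
  have hε : denom g z₀ ^ 2 ≠ 0 := pow_ne_zero 2 (denom_ne_zero g z₀)
  rw [← hn.zpow_eq_one_iff_dvd, zpow_sub₀ hε, zpow_natCast, zpow_natCast, key,
    div_self (pow_ne_zero b hε)]

theorem isPrimitiveRoot_denom_S_I : IsPrimitiveRoot (denom ModularGroup.S I ^ 2) 2 := by
  have h : denom ModularGroup.S I ^ 2 = -1 := by
    rw [ModularGroup.denom_S, coe_I, Complex.I_sq]
  rw [h]
  exact IsPrimitiveRoot.neg_one 0 (by norm_num)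

theorem S_smul_I : ModularGroup.S • I = I :=
  ModularGroup.stabilizer_I.mpr (by simp)

theorem ST_smul_rho : (ModularGroup.S * ModularGroup.T) • ρ = ρ :=
  ModularGroup.stabilizer_ρ.mpr (by simp)

theorem denom_ST_rho (g : SL(2, ℤ)) (hg : g = ModularGroup.S * ModularGroup.T) :
    denom g ρ = (ρ : ℂ) + 1 := by
  rw [ModularGroup.denom_apply, hg]
  simp [Matrix.SpecialLinearGroup.coe_mul, ModularGroup.coe_S, ModularGroup.coe_T,
    Matrix.mul_apply, Fin.sum_univ_two]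

theorem isPrimitiveRoot_denom_ST_rho (g : SL(2, ℤ)) (hg : g = ModularGroup.S * ModularGroup.T) :
    IsPrimitiveRoot (denom g ρ ^ 2) 3 := by
  have h : denom g ρ ^ 2 = (ρ : ℂ) := by
    rw [denom_ST_rho g hg]
    linear_combination ρ_sq
  rw [h]
  have h3 : (ρ : ℂ) ^ 3 = 1 := by
    have : (ρ : ℂ) ^ 3 = ρ * ρ ^ 2 := by ring
    rw [this, ρ_sq]
    linear_combination -ρ_sq
  have hne : (ρ : ℂ) ≠ 1 := by
    intro h1
    have := congrArg Complex.im h1
    have him : ((ρ : ℍ) : ℂ).im = Real.sqrt 3 / 2 := rfl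
    rw [him] at this
    simp at this
  exact IsPrimitiveRoot.mk_of_lt _ (by norm_num) h3 (fun l hl0 hl3 => by
    interval_cases l
    · simpa using hne
    · intro h2
      apply hne
      have e : (ρ : ℂ) ^ 2 = -ρ - 1 := ρ_sq
      have h4 : (ρ : ℂ) = -2 := by linear_combination e - h2
      have := congrArg Complex.im h4
      have him : ((ρ : ℍ) : ℂ).im = Real.sqrt 3 / 2 := rfl
      rw [him] at this
      simp at this)

/-- (L2) at `I`: invariance under `S` forces even order difference -/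
theorem two_dvd_sub_of_S_invariant {h1 h2 : ℍ → ℂ} (hh1 : MDiff h1) (hh2 : MDiff h2)
    (hinv : ∀ z : ℍ, h1 (ModularGroup.S • z) * h2 z = h1 z * h2 (ModularGroup.S • z)) {a b : ℕ}
    (ha : analyticOrderAt (h1 ∘ ofComplex) (I : ℂ) = a)
    (hb : analyticOrderAt (h2 ∘ ofComplex) (I : ℂ) = b) : (2 : ℤ) ∣ (a : ℤ) - b :=
  dvd_sub_of_invariant hh1 hh2 ModularGroup.S S_smul_I hinv ha hb isPrimitiveRoot_denom_S_I

/-- (L2) at `ρ`: invariance under `S * T` forces order difference divisible by `3` -/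
theorem three_dvd_sub_of_ST_invariant {h1 h2 : ℍ → ℂ} (hh1 : MDiff h1) (hh2 : MDiff h2)
    (hinv : ∀ z : ℍ, h1 ((ModularGroup.S * ModularGroup.T) • z) * h2 z =
      h1 z * h2 ((ModularGroup.S * ModularGroup.T) • z)) {a b : ℕ}
    (ha : analyticOrderAt (h1 ∘ ofComplex) (ρ : ℂ) = a)
    (hb : analyticOrderAt (h2 ∘ ofComplex) (ρ : ℂ) = b) : (3 : ℤ) ∣ (a : ℤ) - b :=
  dvd_sub_of_invariant hh1 hh2 (ModularGroup.S * ModularGroup.T) ST_smul_rho hinv ha hb
    (isPrimitiveRoot_denom_ST_rho _ rfl)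

/-! ### (L3) the order of a Wronskian -/

theorem deriv_pow_smul {u : ℂ → ℂ} {x w : ℂ} (a : ℕ) (hu : DifferentiableAt ℂ u w) :
    deriv (fun z : ℂ => (z - x) ^ a • u z) w =
      a * (w - x) ^ (a - 1) * u w + (w - x) ^ a * deriv u w := by
  have hp : HasDerivAt (fun z : ℂ => (z - x) ^ a) (a * (w - x) ^ (a - 1) * 1) w :=
    ((hasDerivAt_id w).sub_const x).pow a
  have h := hp.mul hu.hasDerivAt
  have he : (fun z : ℂ => (z - x) ^ a • u z) = (fun z : ℂ => (z - x) ^ a) * u := by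
    funext z
    simp
  rw [he, h.deriv]
  ring

/-- (L3) for analytic functions on `ℂ`: if `f₁`, `f₂` have different finite orders `a ≠ b` at `x`,
then `f₁' f₂ - f₁ f₂'` has order `a + b - 1` at `x`. -/
theorem analyticOrderAt_wronskian {f1 f2 : ℂ → ℂ} {x : ℂ} (h1 : AnalyticAt ℂ f1 x)
    (h2 : AnalyticAt ℂ f2 x) {a b : ℕ} (ha : analyticOrderAt f1 x = a)
    (hb : analyticOrderAt f2 x = b) (hab : a ≠ b) :
    analyticOrderAt (fun w => deriv f1 w * f2 w - f1 w * deriv f2 w) x =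
      ((a + b - 1 : ℕ) : ℕ∞) := by
  obtain ⟨u1, hu1, hu1x, hf1⟩ := (h1.analyticOrderAt_eq_natCast).mp ha
  obtain ⟨u2, hu2, hu2x, hf2⟩ := (h2.analyticOrderAt_eq_natCast).mp hb
  have hW : AnalyticAt ℂ (fun w => deriv f1 w * f2 w - f1 w * deriv f2 w) x :=
    (h1.deriv.mul h2).sub (h1.mul h2.deriv)
  rw [hW.analyticOrderAt_eq_natCast]
  refine ⟨fun w => ((a : ℂ) - b) * u1 w * u2 w +
    (w - x) * (deriv u1 w * u2 w - u1 w * deriv u2 w), ?_, ?_, ?_⟩
  · exact ((analyticAt_const.mul hu1).mul hu2).add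
      ((analyticAt_id.sub analyticAt_const).mul ((hu1.deriv.mul hu2).sub (hu1.mul hu2.deriv)))
  · have hab' : (a : ℂ) - b ≠ 0 := sub_ne_zero.mpr (by exact_mod_cast hab)
    simp only [sub_self, zero_mul, add_zero]
    exact mul_ne_zero (mul_ne_zero hab' hu1x) hu2x
  · filter_upwards [hf1.eventually_nhds, hf2.eventually_nhds, hu1.eventually_analyticAt,
      hu2.eventually_analyticAt] with w e1 e2 a1 a2
    have d1 : deriv f1 w = a * (w - x) ^ (a - 1) * u1 w + (w - x) ^ a * deriv u1 w := by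
      rw [Filter.EventuallyEq.deriv_eq e1]
      exact deriv_pow_smul a a1.differentiableAt
    have d2 : deriv f2 w = b * (w - x) ^ (b - 1) * u2 w + (w - x) ^ b * deriv u2 w := by
      rw [Filter.EventuallyEq.deriv_eq e2]
      exact deriv_pow_smul b a2.differentiableAt
    rw [d1, d2, e1.self_of_nhds, e2.self_of_nhds]
    simp only [smul_eq_mul]
    rcases a with _ | a <;> rcases b with _ | b
    · exact absurd rfl hab
    · simp only [Nat.add_sub_cancel, pow_zero, Nat.cast_zero, zero_mul, zero_add,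
        Nat.cast_add, Nat.cast_one, zero_sub, one_mul, pow_succ]
      ring
    · simp only [Nat.add_zero, Nat.add_sub_cancel, pow_zero, Nat.cast_zero, zero_mul, zero_add,
        Nat.cast_add, Nat.cast_one, sub_zero, one_mul, pow_succ]
      ring
    · have e : a + 1 + (b + 1) - 1 = a + b + 1 := by omega
      simp only [e, Nat.add_sub_cancel, Nat.cast_add, Nat.cast_one, pow_succ, pow_add]
      ring

/-- (L3) on the upper half plane -/
theorem analyticOrderAt_wronskian_comp {h1 h2 : ℍ → ℂ} (hh1 : MDiff h1) (hh2 : MDiff h2)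
    (z₀ : ℍ) {a b : ℕ} (ha : analyticOrderAt (h1 ∘ ofComplex) (z₀ : ℂ) = a)
    (hb : analyticOrderAt (h2 ∘ ofComplex) (z₀ : ℂ) = b) (hab : a ≠ b) :
    analyticOrderAt ((fun z : ℍ => deriv (h1 ∘ ofComplex) z * h2 z -
      h1 z * deriv (h2 ∘ ofComplex) z) ∘ ofComplex) (z₀ : ℂ) = ((a + b - 1 : ℕ) : ℕ∞) := by
  have han : ∀ {h : ℍ → ℂ}, MDiff h → AnalyticAt ℂ (h ∘ ofComplex) (z₀ : ℂ) := fun hh =>
    (UpperHalfPlane.mdifferentiable_iff.mp hh).analyticAt
      (isOpen_upperHalfPlaneSet.mem_nhds z₀.im_pos)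
  rw [← analyticOrderAt_wronskian (han hh1) (han hh2) ha hb hab]
  apply analyticOrderAt_congr
  filter_upwards [isOpen_upperHalfPlaneSet.mem_nhds z₀.im_pos] with w hw
  simp only [Function.comp_apply, ofComplex_apply_of_im_pos hw]

end Fermat.Agent.S24.Local
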