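import Fermat.Agent.S24.Defs
import Fermat.Agent.S24.Local

/-!
# S24: the local lemmas (L1), (L2) for `Mer` / `ordAt` / `ordZ`

* `ordAt_translM` : `ordAt z₀ (translM g m) = ordAt (g • z₀) m`.
* `dvd_ordZ_of_translM_eq` : elliptic divisibility for meromorphic functions.
* `two_dvd_ordZ_I`, `three_dvd_ordZ_rho` : the two special cases.
-/

open UpperHalfPlane ModularForm
open scoped MatrixGroups ModularForm Manifold Topology
open WithZero

namespace Fermat.Agent.S24.LocalMer

open Fermat.Agent.S24 Fermat.Agent.S24.Local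

theorem cast_ordNat (z : ℍ) {h : Hol} (hh : h ≠ 0) :
    analyticOrderAt ((h : ℍ → ℂ) ∘ ofComplex) (z : ℂ) = (ordNat z h : ℕ∞) := by
  unfold ordNat
  rw [Nat.cast_analyticOrderNatAt (Hol.analyticOrderAt_ne_top hh z)]

theorem transl_ne_zero (g : SL(2, ℤ)) {h : Hol} (hh : h ≠ 0) : transl g h ≠ 0 := fun h0 =>
  hh (transl_injective g (by rw [h0, map_zero]))

theorem ordNat_transl (g : SL(2, ℤ)) (z₀ : ℍ) (h : Hol) :
    ordNat z₀ (transl g h) = ordNat (g • z₀) h := by
  unfold ordNat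
  have := analyticOrderAt_comp_smul (h : ℍ → ℂ) g z₀
  unfold analyticOrderNatAt
  exact congrArg ENat.toNat this

theorem ordH_transl (g : SL(2, ℤ)) (z₀ : ℍ) (h : Hol) :
    ordH z₀ (transl g h) = ordH (g • z₀) h := by
  by_cases hh : h = 0
  · subst hh
    rw [map_zero, map_zero, map_zero]
  · rw [ordH_apply z₀ (transl_ne_zero g hh), ordH_apply _ hh, ordNat_transl]

/-- (L1) for `Mer`: translation moves the point. -/
theorem ordAt_translM (g : SL(2, ℤ)) (z₀ : ℍ) (m : Mer) :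
    ordAt z₀ (translM g m) = ordAt (g • z₀) m := by
  induction m using Localization.induction_on with
  | _ x =>
    obtain ⟨a, b⟩ := x
    rw [Localization.mk_eq_mk', IsFractionRing.mk'_eq_div, map_div₀, translM_algebraMap,
      translM_algebraMap, map_div₀, map_div₀, ordAt_algebraMap, ordAt_algebraMap,
      ordAt_algebraMap, ordAt_algebraMap, ordH_transl, ordH_transl]

theorem ordAt_ne_zero (z : ℍ) {m : Mer} (hm : m ≠ 0) : ordAt z m ≠ 0 :=
  (Valuation.ne_zero_iff _).mpr hm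

theorem ordAt_eq_exp (z : ℍ) {m : Mer} (hm : m ≠ 0) : ordAt z m = exp (-(ordZ z m)) := by
  unfold ordZ
  rw [neg_neg, WithZero.exp_log (ordAt_ne_zero z hm)]

theorem ordZ_zero (z : ℍ) : ordZ z 0 = 0 := by
  unfold ordZ
  rw [map_zero, WithZero.log_zero, neg_zero]

theorem ordZ_one (z : ℍ) : ordZ z 1 = 0 := by
  unfold ordZ
  rw [map_one, WithZero.log_one, neg_zero]

theorem ordZ_mul (z : ℍ) {m m' : Mer} (hm : m ≠ 0) (hm' : m' ≠ 0) :
    ordZ z (m * m') = ordZ z m + ordZ z m' := by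
  unfold ordZ
  rw [map_mul, WithZero.log_mul (ordAt_ne_zero z hm) (ordAt_ne_zero z hm')]
  ring

theorem ordZ_inv (z : ℍ) (m : Mer) : ordZ z m⁻¹ = -ordZ z m := by
  unfold ordZ
  rw [map_inv₀, WithZero.log_inv]

theorem ordZ_div (z : ℍ) {m m' : Mer} (hm : m ≠ 0) (hm' : m' ≠ 0) :
    ordZ z (m / m') = ordZ z m - ordZ z m' := by
  rw [div_eq_mul_inv, ordZ_mul z hm (inv_ne_zero hm'), ordZ_inv]
  ring

theorem ordZ_translM (g : SL(2, ℤ)) (z₀ : ℍ) (m : Mer) :
    ordZ z₀ (translM g m) = ordZ (g • z₀) m := by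
  unfold ordZ
  rw [ordAt_translM]

theorem algebraMap_ne_zero {h : Hol} (hh : h ≠ 0) : algebraMap Hol Mer h ≠ 0 := fun h0 =>
  hh (IsFractionRing.injective Hol Mer (by rw [h0, map_zero]))

theorem ordZ_algebraMap_div (z : ℍ) {a b : Hol} (ha : a ≠ 0) (hb : b ≠ 0) :
    ordZ z (algebraMap Hol Mer a / algebraMap Hol Mer b) = (ordNat z a : ℤ) - ordNat z b := by
  rw [ordZ_div z (algebraMap_ne_zero ha) (algebraMap_ne_zero hb), ordZ_algebraMap z ha,
    ordZ_algebraMap z hb]

/-- every meromorphic function is a quotient of holomorphic functions with nonzero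
denominator. -/
theorem exists_eq_div (m : Mer) :
    ∃ a b : Hol, b ≠ 0 ∧ m = algebraMap Hol Mer a / algebraMap Hol Mer b := by
  obtain ⟨a, b, hb, rfl⟩ := IsFractionRing.div_surjective (A := Hol) m
  exact ⟨a, b, nonZeroDivisors.ne_zero hb, rfl⟩

/-- (L2) for `Mer`: elliptic divisibility.  If `g` fixes `z₀`, `denom g z₀ ^ 2` is a primitive
`n`-th root of unity and `m` is `g`-invariant, then `n ∣ ord_{z₀} m`. -/
theorem dvd_ordZ_of_translM_eq (g : SL(2, ℤ)) {z₀ : ℍ} (hfix : g • z₀ = z₀) {n : ℕ}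
    (hn : IsPrimitiveRoot (denom g z₀ ^ 2) n) {m : Mer} (hm : translM g m = m) :
    (n : ℤ) ∣ ordZ z₀ m := by
  obtain ⟨a, b, hb, rfl⟩ := exists_eq_div m
  by_cases ha : a = 0
  · subst ha
    rw [map_zero, zero_div, ordZ_zero]
    exact dvd_zero _
  rw [ordZ_algebraMap_div z₀ ha hb]
  have hb' := algebraMap_ne_zero hb
  have htb' := algebraMap_ne_zero (transl_ne_zero g hb)
  rw [map_div₀, translM_algebraMap, translM_algebraMap, div_eq_div_iff htb' hb', ← map_mul,
    ← map_mul] at hm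
  have hm' := IsFractionRing.injective Hol Mer hm
  have hinv : ∀ z : ℍ, (a : ℍ → ℂ) (g • z) * (b : ℍ → ℂ) z =
      (a : ℍ → ℂ) z * (b : ℍ → ℂ) (g • z) := fun z => by
    have := congrArg (fun f : Hol => (f : ℍ → ℂ) z) hm'
    simpa using this
  exact dvd_sub_of_invariant a.2 b.2 g hfix hinv (cast_ordNat z₀ ha) (cast_ordNat z₀ hb) hn

/-- an `S`-invariant meromorphic function has even order at `i`. -/
theorem two_dvd_ordZ_I {m : Mer} (hm : translM ModularGroup.S m = m) :
    (2 : ℤ) ∣ ordZ UpperHalfPlane.I m := by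
  have := dvd_ordZ_of_translM_eq ModularGroup.S S_smul_I isPrimitiveRoot_denom_S_I hm
  exact_mod_cast this

/-- an `S * T`-invariant meromorphic function has order divisible by `3` at `ρ`. -/
theorem three_dvd_ordZ_rho {m : Mer} (hm : translM (ModularGroup.S * ModularGroup.T) m = m) :
    (3 : ℤ) ∣ ordZ UpperHalfPlane.ρ m := by
  have := dvd_ordZ_of_translM_eq (ModularGroup.S * ModularGroup.T) ST_smul_rho
    (isPrimitiveRoot_denom_ST_rho _ rfl) hm
  exact_mod_cast this

end Fermat.Agent.S24.LocalMer
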