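import Fermat.Agent.S24.Norm
import Fermat.Agent.S24.IotaExists

/-!
# S24 (N): hypothesis-free forms of the degree statements   (OWNER: helper8)

`Norm.lean` proves its results for any `ι` with `IsIota N ι` plus linear disjointness; with
`exists_iota` (helper20) the statements not mentioning `ι` become unconditional.
-/

set_option autoImplicit false

open CongruenceSubgroup
open scoped MatrixGroups

namespace Fermat.Agent.S24

/-- `F / ℚ̄(j)` is finite. -/
theorem finiteDimensional_adjoin_j (N : ℕ) [NeZero N] : FiniteDimensional (Lj N) (FF N) := by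
  obtain ⟨ι, hι, hLD, -⟩ := exists_iota N
  exact finiteDimensional_Lj hι hLD

/-- `[F : ℚ̄(j)] = ψ(N)`. -/
theorem finrank_adjoin_j (N : ℕ) [NeZero N] :
    Module.finrank (Lj N) (FF N) = ModularCurve.dedekindPsi N := by
  obtain ⟨ι, hι, hLD, -⟩ := exists_iota N
  exact finrank_Lj hι hLD

/-- `#(SL(2,ℤ) ⧸ Γ₀(N)) = [F : ℚ̄(j)]` (the hypothesis `hI` of `exists_places`). -/
theorem card_quotient_eq_finrank_adjoin_j (N : ℕ) [NeZero N] [Fintype (SL(2, ℤ) ⧸ Gamma0 N)] :
    Fintype.card (SL(2, ℤ) ⧸ Gamma0 N) = Module.finrank (Lj N) (FF N) := by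
  rw [finrank_adjoin_j, ← Nat.card_eq_fintype_card, Fermat.Agent.S20.Cosets.card_quotient_eq]

end Fermat.Agent.S24
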