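import Fermat.Agent.S24.JDef
import Fermat.Agent.S20.LevelOneAPI

/-!
# S24 (Ept), function level: the two elliptic points

`E₆(i) = 0`, `E₄(ρ) = 0`, `j(i) = 1728`, `j(ρ) = 0`, and the stabilisers.
-/

open UpperHalfPlane ModularForm Filter
open scoped MatrixGroups ModularForm Manifold Topology Real

namespace Fermat.Agent.S24.PointFn

open Fermat.Agent.S20

theorem S_smul_I : ModularGroup.S • I = I :=
  ModularGroup.stabilizer_I.mpr (by simp)

theorem ST_smul_rho : (ModularGroup.S * ModularGroup.T) • ρ = ρ :=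
  ModularGroup.stabilizer_ρ.mpr (by simp)

theorem denom_S (z : ℍ) : denom ModularGroup.S z = (z : ℂ) := by
  rw [ModularGroup.denom_apply]
  simp [ModularGroup.coe_S]

theorem denom_ST (g : SL(2, ℤ)) (hg : g = ModularGroup.S * ModularGroup.T) (z : ℍ) :
    denom g z = (z : ℂ) + 1 := by
  rw [ModularGroup.denom_apply, hg]
  simp [Matrix.SpecialLinearGroup.coe_mul, ModularGroup.coe_S, ModularGroup.coe_T,
    Matrix.mul_apply, Fin.sum_univ_two]

theorem E6_I : E6 I = 0 := by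
  have h := congrFun (isMF_E6.slash_eq_of_top ModularGroup.S) I
  rw [ModularForm.SL_slash_apply, S_smul_I, denom_S] at h
  have hI : ((I : ℍ) : ℂ) = Complex.I := rfl
  rw [hI] at h
  have h6 : (Complex.I : ℂ) ^ (-(6 : ℤ)) = -1 := by
    rw [zpow_neg]
    have : (Complex.I : ℂ) ^ (6 : ℤ) = -1 := by
      have h2 : (Complex.I : ℂ) ^ (6 : ℤ) = (Complex.I ^ 2) ^ 3 := by norm_cast; ring
      rw [h2, Complex.I_sq]; norm_num
    rw [this]; norm_num
  rw [h6] at h
  linear_combination (-1 / 2 : ℂ) * h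

theorem E4_rho : E4 ρ = 0 := by
  have h := congrFun (isMF_E4.slash_eq_of_top (ModularGroup.S * ModularGroup.T)) ρ
  rw [ModularForm.SL_slash_apply, ST_smul_rho, denom_ST _ rfl] at h
  have hinv : ((ρ : ℂ) + 1)⁻¹ = -(ρ : ℂ) := by
    apply inv_eq_of_mul_eq_one_right
    linear_combination -ρ_sq
  have h4 : ((ρ : ℂ) + 1) ^ (-(4 : ℤ)) = (ρ : ℂ) := by
    rw [zpow_neg, ← inv_zpow, hinv]
    have : (-(ρ : ℂ)) ^ (4 : ℤ) = (-(ρ : ℂ)) ^ 4 := by norm_cast
    rw [this]
    have h2 : (ρ : ℂ) ^ 2 = -(ρ : ℂ) - 1 := ρ_sq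
    linear_combination ((ρ : ℂ) ^ 2 - (ρ : ℂ)) * h2
  rw [h4] at h
  have hne : (ρ : ℂ) - 1 ≠ 0 := by
    intro h0
    have h1 : (ρ : ℂ) = 1 := by linear_combination h0
    have := congrArg Complex.re h1
    have hre : ((ρ : ℍ) : ℂ).re = -1 / 2 := rfl
    rw [hre] at this
    norm_num at this
  have : E4 ρ * ((ρ : ℂ) - 1) = 0 := by linear_combination h
  exact (mul_eq_zero.mp this).resolve_right hne

theorem jFun_rho : jFun ρ = 0 := by
  rw [jFun_apply, E4_rho]; simp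

theorem jFun_I : jFun I = 1728 := by
  rw [jFun_apply, Dl_eq, E6_I]
  have h4 : E4 I ≠ 0 := LevelOne.E4_ne_zero_of_E6_eq_zero E6_I
  field_simp
  ring

end Fermat.Agent.S24.PointFn
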