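import Fermat.Agent.S24.Defs
import Fermat.Agent.S24.PointFn
import Fermat.Agent.S24.Orbits
import Fermat.Agent.S24.LocalMer
import Fermat.Agent.S24.PlacesAbs
import Fermat.Agent.S24.NormFree

/-!
# S24 (Ept): places of the function field of `X₀(N)` over a finite value of `j`

We instantiate Theorem A (`exists_places`) at a point `z₀ : ℍ` with `j(z₀) = a`:
the index set is `SL(2,ℤ) ⧸ Γ₀(N)`, the valuations are the orders at `z₀` of the translates, the
permutation is the action of an element `ε` of the stabiliser of `z₀`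
(`ε = 1` generically, `ε = S` at `i`, `ε = S * T` at `ρ`).

Final statements (namespace `Fermat.Agent.S24`): `ord_eq_one_of_generic`, `exists_places_1728`,
`exists_places_0`, `exists_zeros_1728`, `exists_zeros_0`.
-/

set_option autoImplicit false
set_option linter.style.haveILetI false

open UpperHalfPlane ModularForm CongruenceSubgroup
open scoped MatrixGroups ModularForm Manifold Topology
open WithZero AlgebraicCurve

namespace Fermat.Agent.S24.PointData

/-! ### basic facts on `ordAt` -/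

theorem ordNat_eq_zero_of_ne {z : ℍ} {h : Hol} (hz : (h : ℍ → ℂ) z ≠ 0) : ordNat z h = 0 := by
  unfold ordNat
  have h1 : analyticOrderAt ((h : ℍ → ℂ) ∘ ofComplex) (z : ℂ) = 0 := by
    rw [(Hol.analyticAt h z).analyticOrderAt_eq_zero]
    simpa using hz
  simp [analyticOrderNatAt, h1]

theorem ordAt_const (z : ℍ) {c : ℂ} (hc : c ≠ 0) : ordAt z (algebraMap ℂ Mer c) = 1 := by
  rw [IsScalarTower.algebraMap_apply ℂ Hol Mer, ordAt_algebraMap]
  have hne : algebraMap ℂ Hol c ≠ 0 := by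
    intro h
    have := congrArg (fun f : Hol => (f : ℍ → ℂ) z) h
    simp at this
    exact hc this
  rw [ordH_apply z hne, ordNat_eq_zero_of_ne (by simpa using hc)]
  simp

/-! ### the local datum at a point -/

local notation "Qb" => AlgebraicClosure ℚ

/-- the generator `j` of the function field -/
noncomputable abbrev jB (N : ℕ) : FF N := jBar N 1 (one_dvd N) one_pos

/-- local data at a point `z₀ : ℍ`: an element `ε` of the stabiliser, and the order `e0` of
`j - j(z₀)` at `z₀`. -/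
structure PtDatum (z₀ : ℍ) (ε : SL(2, ℤ)) (e0 : ℕ) : Prop where
  fix : ε • z₀ = z₀
  pos : 0 < e0
  prime : e0 = 1 ∨ e0.Prime
  pow : ε ^ e0 = 1 ∨ ε ^ e0 = -1
  ordj : ordAt z₀ (algebraMap Hol Mer (jH - algebraMap ℂ Hol (jFun z₀))) = exp (-(e0 : ℤ))
  ell : ∀ m : Mer, m ≠ 0 → translM ε m = m → ∃ k : ℤ, ordAt z₀ m = exp (-((e0 : ℤ) * k))

/-- what we need from `Norm.lean`: the `ψ(N)` embeddings of the function field into `Mer`. -/
structure NormHyp (N : ℕ) [Fintype (SL(2, ℤ) ⧸ Gamma0 N)]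
    (emb : SL(2, ℤ) ⧸ Gamma0 N → FF N →+* Mer) : Prop where
  smul : ∀ (g : SL(2, ℤ)) (q : SL(2, ℤ) ⧸ Gamma0 N) (f : FF N),
    emb (g • q) f = translM g⁻¹ (emb q f)
  map_const : ∀ (q : SL(2, ℤ) ⧸ Gamma0 N) (c : Qb),
    emb q (algebraMap Qb (FF N) c) = algebraMap ℂ Mer (phi c)
  map_j : ∀ q, emb q (jB N) = algebraMap Hol Mer jH
  fd : FiniteDimensional (IntermediateField.adjoin Qb {jB N}) (FF N)
  finrank : Module.finrank (IntermediateField.adjoin Qb {jB N}) (FF N)
    = Fintype.card (SL(2, ℤ) ⧸ Gamma0 N)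
  norm : ∀ (b : FF N) (q0 : SL(2, ℤ) ⧸ Gamma0 N),
    emb q0 ((Algebra.norm (IntermediateField.adjoin Qb {jB N}) b :
      IntermediateField.adjoin Qb {jB N}) : FF N) = ∏ q, emb q b

theorem adjoin_sub_const {N : ℕ} (a : Qb) :
    IntermediateField.adjoin Qb {jB N - algebraMap Qb (FF N) a}
      = IntermediateField.adjoin Qb {jB N} := by
  apply le_antisymm
  · rw [IntermediateField.adjoin_simple_le_iff]
    exact sub_mem (IntermediateField.mem_adjoin_simple_self Qb _) (IntermediateField.algebraMap_mem _ a)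
  · rw [IntermediateField.adjoin_simple_le_iff]
    have h : jB N = (jB N - algebraMap Qb (FF N) a) + algebraMap Qb (FF N) a := by ring
    have h2 : (jB N - algebraMap Qb (FF N) a) + algebraMap Qb (FF N) a ∈
        IntermediateField.adjoin Qb {jB N - algebraMap Qb (FF N) a} :=
      add_mem (IntermediateField.mem_adjoin_simple_self Qb _)
        (IntermediateField.algebraMap_mem _ a)
    rwa [← h] at h2

section Main

variable {N : ℕ} [Fintype (SL(2, ℤ) ⧸ Gamma0 N)]
  {emb : SL(2, ℤ) ⧸ Gamma0 N → FF N →+* Mer}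

/-- **Theorem A at a finite point.** -/
theorem exists_places_at (hN : NormHyp N emb) {z₀ : ℍ} {ε : SL(2, ℤ)} {e0 : ℕ}
    (hd : PtDatum z₀ ε e0) (a : Qb) (ha : phi a = jFun z₀) :
    ∃ P : SL(2, ℤ) ⧸ Gamma0 N → Place Qb (FF N),
      (∀ q q', P q = P q' ↔
        (MulAction.toPerm ε : Equiv.Perm (SL(2, ℤ) ⧸ Gamma0 N)).SameCycle q q') ∧
      (∀ v : Place Qb (FF N), 0 < v.ord (jB N - algebraMap Qb (FF N) a) → ∃ q, v = P q) ∧
      (∀ q, (P q).ord (jB N - algebraMap Qb (FF N) a)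
        = Function.minimalPeriod (MulAction.toPerm ε : Equiv.Perm (SL(2, ℤ) ⧸ Gamma0 N)) q) ∧
      (∀ (q : SL(2, ℤ) ⧸ Gamma0 N) (f : FF N), f ≠ 0 →
        ordAt z₀ (emb q f) = exp (-(((e0 /
          Function.minimalPeriod (MulAction.toPerm ε : Equiv.Perm (SL(2, ℤ) ⧸ Gamma0 N)) q : ℕ) : ℤ)
            * (P q).ord f))) := by
  have := hN.fd
  set s : Equiv.Perm (SL(2, ℤ) ⧸ Gamma0 N) := MulAction.toPerm ε with hs
  have hperiod : ∀ q, Function.minimalPeriod s q ∣ e0 := by
    intro q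
    apply Orbits.minimalPeriod_toPerm_dvd
    rcases hd.pow with h | h
    · rw [h, one_smul]
    · rw [h, Orbits.neg_one_smul]
  refine exists_places (IntermediateField.adjoin Qb {jB N}) (jB N - algebraMap Qb (FF N) a)
    (adjoin_sub_const a) hN.finrank.symm (fun q => (ordAt z₀).comap (emb q)) ?_ e0 hd.pos ?_ ?_
    s ?_ hperiod ?_
  · -- constants
    intro q c hc
    rw [Valuation.comap_apply, hN.map_const]
    exact ordAt_const z₀ (by simpa using hc)
  · -- the order of `j - a`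
    intro q
    rw [Valuation.comap_apply, RingHom.map_sub, hN.map_j, hN.map_const, ha,
      IsScalarTower.algebraMap_apply ℂ Hol Mer, ← RingHom.map_sub]
    exact hd.ordj
  · -- the norm formula
    intro b q0
    simp only [Valuation.comap_apply]
    rw [hN.norm b q0, map_prod]
  · -- invariance under `s`
    intro q
    ext f
    simp only [Valuation.comap_apply]
    rw [hs, MulAction.toPerm_apply, hN.smul, LocalMer.ordAt_translM]
    have : ε⁻¹ • z₀ = z₀ := by
      conv_lhs => rw [← hd.fix]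
      rw [inv_smul_smul]
    rw [this]
  · -- divisibility
    intro q f hf
    have hne : emb q f ≠ 0 := fun h =>
      hf ((emb q).injective (h.trans (RingHom.map_zero _).symm))
    have hne' : ordAt z₀ (emb q f) ≠ 0 := LocalMer.ordAt_ne_zero z₀ hne
    simp only [Valuation.comap_apply]
    have hcases : Function.minimalPeriod s q = e0 ∨ Function.minimalPeriod s q = 1 := by
      rcases hd.prime with h1 | hp
      · right
        have := hperiod q
        rw [h1] at this
        exact Nat.dvd_one.mp this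
      · rcases (Nat.dvd_prime hp).mp (hperiod q) with h | h
        · exact Or.inr h
        · exact Or.inl h
    rcases hcases with h | h
    · refine ⟨-(WithZero.log (ordAt z₀ (emb q f))), ?_⟩
      rw [h, Nat.div_self hd.pos]
      simp [WithZero.exp_log hne']
    · have hfix : ε • q = q := (Orbits.minimalPeriod_toPerm_eq_one_iff ε q).mp h
      have h1 : translM ε⁻¹ (emb q f) = emb q f := by
        rw [← hN.smul, hfix]
      have h2 : translM ε (emb q f) = emb q f := by
        conv_lhs => rw [← h1]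
        rw [← translM_mul, inv_mul_cancel, translM_one]
      obtain ⟨k, hk⟩ := hd.ell _ hne h2
      exact ⟨k, by rw [h, Nat.div_one, hk]⟩

end Main

/-! ### the three kinds of points -/

open Fermat.Agent.S20 in
theorem ordAt_jH_sub (z₀ : ℍ) :
    ordAt z₀ (algebraMap Hol Mer (jH - algebraMap ℂ Hol (jFun z₀))) =
      exp (-(((if E4 z₀ = 0 then 3 else if E6 z₀ = 0 then 2 else 1 : ℕ)) : ℤ)) := by
  have hord := order_jFun_sub z₀
  set h : Hol := jH - algebraMap ℂ Hol (jFun z₀) with hh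
  have hfun : ((h : ℍ → ℂ) ∘ ofComplex) = ((fun z => jFun z - jFun z₀) ∘ ofComplex) := rfl
  have hne : h ≠ 0 := by
    intro h0
    have htop : analyticOrderAt ((h : ℍ → ℂ) ∘ ofComplex) (z₀ : ℂ) = ⊤ := by
      rw [h0, analyticOrderAt_eq_top]
      exact Filter.Eventually.of_forall fun w => rfl
    rw [hfun, hord] at htop
    split_ifs at htop <;> simp at htop
  rw [ordAt_algebraMap, ordH_apply z₀ hne]
  have hc := LocalMer.cast_ordNat z₀ hne
  rw [hfun, hord] at hc
  have hnat : ordNat z₀ h = (if E4 z₀ = 0 then 3 else if E6 z₀ = 0 then 2 else 1 : ℕ) := by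
    split_ifs at hc ⊢ <;> exact_mod_cast hc.symm
  rw [hnat]

open Fermat.Agent.S20 in
theorem ptDatum_generic {z₀ : ℍ} (h4 : E4 z₀ ≠ 0) (h6 : E6 z₀ ≠ 0) : PtDatum z₀ 1 1 where
  fix := one_smul _ _
  pos := one_pos
  prime := Or.inl rfl
  pow := Or.inl (one_pow 1)
  ordj := by rw [ordAt_jH_sub, if_neg h4, if_neg h6]
  ell := fun m hm _ => ⟨ordZ z₀ m, by
    rw [Nat.cast_one, one_mul]; exact LocalMer.ordAt_eq_exp z₀ hm⟩

open Fermat.Agent.S20 in
theorem ptDatum_I : PtDatum I ModularGroup.S 2 where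
  fix := PointFn.S_smul_I
  pos := two_pos
  prime := Or.inr Nat.prime_two
  pow := Or.inr Orbits.S_sq_eq
  ordj := by
    rw [ordAt_jH_sub, if_neg (LevelOne.E4_ne_zero_of_E6_eq_zero PointFn.E6_I), if_pos PointFn.E6_I]
  ell := fun m hm hinv => by
    obtain ⟨k, hk⟩ := LocalMer.two_dvd_ordZ_I hinv
    exact ⟨k, by rw [LocalMer.ordAt_eq_exp I hm, hk]; norm_num⟩

open Fermat.Agent.S20 in
theorem ptDatum_rho : PtDatum ρ (ModularGroup.S * ModularGroup.T) 3 where
  fix := PointFn.ST_smul_rho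
  pos := by norm_num
  prime := Or.inr Nat.prime_three
  pow := Or.inr Orbits.ST_cube_eq
  ordj := by rw [ordAt_jH_sub, if_pos PointFn.E4_rho]
  ell := fun m hm hinv => by
    obtain ⟨k, hk⟩ := LocalMer.three_dvd_ordZ_rho hinv
    exact ⟨k, by rw [LocalMer.ordAt_eq_exp ρ hm, hk]; norm_num⟩

/-! ### exports, relative to the data of `Norm.lean` -/

section Exports

variable {N : ℕ} [NeZero N] [Fintype (SL(2, ℤ) ⧸ Gamma0 N)]
  {emb : SL(2, ℤ) ⧸ Gamma0 N → FF N →+* Mer}

omit [NeZero N] in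
open Fermat.Agent.S20 in
/-- over a generic value `a ≠ 0, 1728` of `j` there is no ramification. -/
theorem ord_eq_one_of_generic_of_normHyp (hN : NormHyp N emb) (a : Qb) (ha0 : a ≠ 0)
    (ha1 : a ≠ 1728) (v : Place Qb (FF N)) (hv : 0 < v.ord (jB N - algebraMap Qb (FF N) a)) :
    v.ord (jB N - algebraMap Qb (FF N) a) = 1 := by
  obtain ⟨z₀, hz⟩ := jFun_surjective (phi a)
  have h4 : E4 z₀ ≠ 0 := fun h => ha0 (phi_injective (by
    rw [map_zero, ← hz]; exact (jFun_eq_zero_iff z₀).mpr h))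
  have h6 : E6 z₀ ≠ 0 := fun h => ha1 (phi_injective (by
    rw [map_ofNat, ← hz]; exact (jFun_eq_iff z₀).mpr h))
  obtain ⟨P, -, hP2, hP3, -⟩ := exists_places_at hN (ptDatum_generic h4 h6) a hz.symm
  obtain ⟨q, rfl⟩ := hP2 v hv
  rw [hP3, (Orbits.minimalPeriod_toPerm_eq_one_iff (1 : SL(2, ℤ)) q).mpr (one_smul _ q)]
  simp

omit [NeZero N] in
/-- the places over `j = 1728` are the `S`-orbits on the cosets. -/
theorem exists_places_1728_of_normHyp (hN : NormHyp N emb) :
    ∃ P : SL(2, ℤ) ⧸ Gamma0 N → Place Qb (FF N),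
      (∀ q q', P q = P q' ↔ (MulAction.toPerm (ModularGroup.S : SL(2, ℤ)) :
        Equiv.Perm (SL(2, ℤ) ⧸ Gamma0 N)).SameCycle q q') ∧
      (∀ v : Place Qb (FF N), 0 < v.ord (jB N - algebraMap Qb (FF N) 1728) → ∃ q, v = P q) ∧
      (∀ q, (P q).ord (jB N - algebraMap Qb (FF N) 1728)
        = Function.minimalPeriod (MulAction.toPerm (ModularGroup.S : SL(2, ℤ)) :
          Equiv.Perm (SL(2, ℤ) ⧸ Gamma0 N)) q) := by
  obtain ⟨P, h1, h2, h3, -⟩ := exists_places_at hN ptDatum_I (1728 : Qb)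
    (by rw [map_ofNat, PointFn.jFun_I])
  exact ⟨P, h1, h2, h3⟩

omit [NeZero N] in
/-- the places over `j = 0` are the `S * T`-orbits on the cosets. -/
theorem exists_places_0_of_normHyp (hN : NormHyp N emb) :
    ∃ P : SL(2, ℤ) ⧸ Gamma0 N → Place Qb (FF N),
      (∀ q q', P q = P q' ↔ (MulAction.toPerm ((ModularGroup.S : SL(2, ℤ)) * ModularGroup.T) :
        Equiv.Perm (SL(2, ℤ) ⧸ Gamma0 N)).SameCycle q q') ∧
      (∀ v : Place Qb (FF N), 0 < v.ord (jB N - algebraMap Qb (FF N) 0) → ∃ q, v = P q) ∧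
      (∀ q, (P q).ord (jB N - algebraMap Qb (FF N) 0)
        = Function.minimalPeriod (MulAction.toPerm ((ModularGroup.S : SL(2, ℤ)) * ModularGroup.T) :
          Equiv.Perm (SL(2, ℤ) ⧸ Gamma0 N)) q) := by
  obtain ⟨P, h1, h2, h3, -⟩ := exists_places_at hN ptDatum_rho (0 : Qb)
    (by rw [map_zero, PointFn.jFun_rho])
  exact ⟨P, h1, h2, h3⟩

open Classical in
theorem exists_zeros_1728_of_normHyp (hN : NormHyp N emb) :
    ∃ Z : Finset (Place Qb (FF N)),
      (∀ v, v ∈ Z ↔ 0 < v.ord (jB N - algebraMap Qb (FF N) 1728)) ∧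
      2 * ∑ v ∈ Z, (v.ord (jB N - algebraMap Qb (FF N) 1728) - 1)
        = (ModularCurve.dedekindPsi N : ℤ) - ModularCurve.nuTwo N := by
  obtain ⟨P, h1, h2, h3⟩ := exists_places_1728_of_normHyp hN
  refine ⟨Finset.univ.image P, fun v => ?_, ?_⟩
  · constructor
    · intro hv
      obtain ⟨q, -, rfl⟩ := Finset.mem_image.mp hv
      rw [h3]
      have := Nat.pos_of_dvd_of_pos (Orbits.minimalPeriod_S_dvd N q) two_pos
      exact_mod_cast this
    · intro hv
      obtain ⟨q, rfl⟩ := h2 v hv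
      exact Finset.mem_image_of_mem _ (Finset.mem_univ _)
  · exact Orbits.two_mul_sum_sub_one_S N P h1
      (fun v => v.ord (jB N - algebraMap Qb (FF N) 1728)) h3

open Classical in
theorem exists_zeros_0_of_normHyp (hN : NormHyp N emb) :
    ∃ Z : Finset (Place Qb (FF N)),
      (∀ v, v ∈ Z ↔ 0 < v.ord (jB N - algebraMap Qb (FF N) 0)) ∧
      3 * ∑ v ∈ Z, (v.ord (jB N - algebraMap Qb (FF N) 0) - 1)
        = 2 * ((ModularCurve.dedekindPsi N : ℤ) - ModularCurve.nuThree N) := by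
  obtain ⟨P, h1, h2, h3⟩ := exists_places_0_of_normHyp hN
  refine ⟨Finset.univ.image P, fun v => ?_, ?_⟩
  · constructor
    · intro hv
      obtain ⟨q, -, rfl⟩ := Finset.mem_image.mp hv
      rw [h3]
      have := Nat.pos_of_dvd_of_pos (Orbits.minimalPeriod_ST_dvd N q) (by norm_num : 0 < 3)
      exact_mod_cast this
    · intro hv
      obtain ⟨q, rfl⟩ := h2 v hv
      exact Finset.mem_image_of_mem _ (Finset.mem_univ _)
  · exact Orbits.three_mul_sum_sub_one_ST N P h1
      (fun v => v.ord (jB N - algebraMap Qb (FF N) 0)) h3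

end Exports

/-! ### the data of `Norm.lean` satisfy `NormHyp` -/

theorem normHyp_emb {N : ℕ} [NeZero N] [Fintype (SL(2, ℤ) ⧸ Gamma0 N)]
    {ι : FF N →ₐ[Qb] Mer} (hι : IsIota N ι)
    (hLD : ∀ (J : Type) (f : J → FF N), LinearIndependent Qb f →
      LinearIndependent ℂ (fun j => ι (f j))) :
    NormHyp N (fun q => (emb N ι q : FF N →+* Mer)) where
  smul g q f := by
    have h := translM_emb hι g⁻¹ q f
    rw [inv_inv] at h
    exact h.symm
  map_const q c := by
    show emb N ι q (algebraMap Qb (FF N) c) = _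
    rw [emb_algebraMap]
    exact Norm.iota_algebraMap c
  map_j q := by
    show emb N ι q (jBar N 1 (one_dvd N) one_pos) = _
    rw [emb_jBar_one hι q, Norm.iota_jBar_one hι]
  fd := finiteDimensional_Lj hι hLD
  finrank := (finiteDimensional_Lj_and_finrank hι hLD).2
  norm b q0 := (prod_emb hι hLD b q0).symm

end Fermat.Agent.S24.PointData

/-! ### final, hypothesis-free statements -/

namespace Fermat.Agent.S24

open PointData

local notation "Qb" => AlgebraicClosure ℚ

/-- over a value `a ≠ 0, 1728` of `j`, the function field of `X₀(N)` is unramified. -/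
theorem ord_eq_one_of_generic (N : ℕ) [NeZero N] (a : Qb) (ha0 : a ≠ 0) (ha1 : a ≠ 1728)
    (v : Place Qb (FF N))
    (hv : 0 < v.ord (jBar N 1 (one_dvd N) Nat.one_pos - algebraMap Qb (FF N) a)) :
    v.ord (jBar N 1 (one_dvd N) Nat.one_pos - algebraMap Qb (FF N) a) = 1 := by
  classical
  letI : Fintype (SL(2, ℤ) ⧸ Gamma0 N) := Subgroup.fintypeQuotientOfFiniteIndex
  obtain ⟨ι, hι, hLD, -⟩ := exists_iota N
  exact ord_eq_one_of_generic_of_normHyp (normHyp_emb hι hLD) a ha0 ha1 v hv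

/-- the places over `j = 1728` are the `S`-orbits on `SL(2,ℤ) ⧸ Γ₀(N)`, with ramification index
the orbit length. -/
theorem exists_places_1728 (N : ℕ) [NeZero N] :
    ∃ P : SL(2, ℤ) ⧸ Gamma0 N → Place Qb (FF N),
      (∀ q q', P q = P q' ↔ (MulAction.toPerm (ModularGroup.S : SL(2, ℤ)) :
        Equiv.Perm (SL(2, ℤ) ⧸ Gamma0 N)).SameCycle q q') ∧
      (∀ v : Place Qb (FF N),
        0 < v.ord (jBar N 1 (one_dvd N) Nat.one_pos - algebraMap Qb (FF N) 1728) → ∃ q, v = P q) ∧
      (∀ q, (P q).ord (jBar N 1 (one_dvd N) Nat.one_pos - algebraMap Qb (FF N) 1728)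
        = Function.minimalPeriod (MulAction.toPerm (ModularGroup.S : SL(2, ℤ)) :
          Equiv.Perm (SL(2, ℤ) ⧸ Gamma0 N)) q) := by
  classical
  letI : Fintype (SL(2, ℤ) ⧸ Gamma0 N) := Subgroup.fintypeQuotientOfFiniteIndex
  obtain ⟨ι, hι, hLD, -⟩ := exists_iota N
  exact exists_places_1728_of_normHyp (normHyp_emb hι hLD)

/-- the places over `j = 0` are the `S * T`-orbits on `SL(2,ℤ) ⧸ Γ₀(N)`, with ramification index
the orbit length. -/
theorem exists_places_0 (N : ℕ) [NeZero N] :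
    ∃ P : SL(2, ℤ) ⧸ Gamma0 N → Place Qb (FF N),
      (∀ q q', P q = P q' ↔ (MulAction.toPerm ((ModularGroup.S : SL(2, ℤ)) * ModularGroup.T) :
        Equiv.Perm (SL(2, ℤ) ⧸ Gamma0 N)).SameCycle q q') ∧
      (∀ v : Place Qb (FF N),
        0 < v.ord (jBar N 1 (one_dvd N) Nat.one_pos - algebraMap Qb (FF N) 0) → ∃ q, v = P q) ∧
      (∀ q, (P q).ord (jBar N 1 (one_dvd N) Nat.one_pos - algebraMap Qb (FF N) 0)
        = Function.minimalPeriod (MulAction.toPerm ((ModularGroup.S : SL(2, ℤ)) * ModularGroup.T) :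
          Equiv.Perm (SL(2, ℤ) ⧸ Gamma0 N)) q) := by
  classical
  letI : Fintype (SL(2, ℤ) ⧸ Gamma0 N) := Subgroup.fintypeQuotientOfFiniteIndex
  obtain ⟨ι, hι, hLD, -⟩ := exists_iota N
  exact exists_places_0_of_normHyp (normHyp_emb hι hLD)

/-- the ramification over `j = 1728`: `2 · ∑ (e_v - 1) = ψ(N) - ν₂(N)`. -/
theorem exists_zeros_1728 (N : ℕ) [NeZero N] :
    ∃ Z : Finset (Place Qb (FF N)),
      (∀ v, v ∈ Z ↔
        0 < v.ord (jBar N 1 (one_dvd N) Nat.one_pos - algebraMap Qb (FF N) 1728)) ∧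
      2 * ∑ v ∈ Z, (v.ord (jBar N 1 (one_dvd N) Nat.one_pos - algebraMap Qb (FF N) 1728) - 1)
        = (ModularCurve.dedekindPsi N : ℤ) - ModularCurve.nuTwo N := by
  classical
  letI : Fintype (SL(2, ℤ) ⧸ Gamma0 N) := Subgroup.fintypeQuotientOfFiniteIndex
  obtain ⟨ι, hι, hLD, -⟩ := exists_iota N
  exact exists_zeros_1728_of_normHyp (normHyp_emb hι hLD)

/-- the ramification over `j = 0`: `3 · ∑ (e_v - 1) = 2 (ψ(N) - ν₃(N))`. -/
theorem exists_zeros_0 (N : ℕ) [NeZero N] :
    ∃ Z : Finset (Place Qb (FF N)),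
      (∀ v, v ∈ Z ↔
        0 < v.ord (jBar N 1 (one_dvd N) Nat.one_pos - algebraMap Qb (FF N) 0)) ∧
      3 * ∑ v ∈ Z, (v.ord (jBar N 1 (one_dvd N) Nat.one_pos - algebraMap Qb (FF N) 0) - 1)
        = 2 * ((ModularCurve.dedekindPsi N : ℤ) - ModularCurve.nuThree N) := by
  classical
  letI : Fintype (SL(2, ℤ) ⧸ Gamma0 N) := Subgroup.fintypeQuotientOfFiniteIndex
  obtain ⟨ι, hι, hLD, -⟩ := exists_iota N
  exact exists_zeros_0_of_normHyp (normHyp_emb hι hLD)

end Fermat.Agent.S24
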