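import Mathlib
import Fermat.Prelude.Def_AlgebraicCurve_CanonicalDivisor

/-!
# S24, module (F), algebraic half: differentials of a function field of one variable

Setting: fields `K ⊆ F`, characteristic zero, `x : F` such that `F` is algebraic over `K(x)`.

* `DiffAlg.D_mem_span` : `Ω[F⁄K]` is generated by `D x` (every `D f` is a multiple of `D x`).
* `DiffAlg.ordDifferential_D` : the order of the differential `D y` at a place `v`,
  computed through an auxiliary field `M` with a derivation `δ` and an order function `w`
  compatible with `v` (in the application: meromorphic functions with `d/dz` and the order of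
  vanishing at a point, or Laurent series in `q_N` with `q d/dq` and the `q_N`-order).
-/

open KaehlerDifferential IntermediateField

namespace Fermat.Agent.S24.DiffAlg

open AlgebraicCurve

variable {K F : Type*} [Field K] [Field F] [Algebra K F]

/-- closure step: a `K`-derivation into a module, seen through a submodule `W`, on polynomial
expressions with coefficients whose derivatives lie in `W`. -/
theorem deriv_aeval_sub_mem {N : Type*} [AddCommGroup N] [Module F N] [Module K N]
    (d : Derivation K F N) (L : IntermediateField K F) (W : Submodule F N)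
    (hL : ∀ a : L, d (a : F) ∈ W) (f : F) (P : Polynomial L) :
    d (Polynomial.aeval f P) - Polynomial.aeval f (Polynomial.derivative P) • d f ∈ W := by
  induction P using Polynomial.induction_on' with
  | add p q hp hq =>
    have : d (Polynomial.aeval f (p + q))
        - Polynomial.aeval f (Polynomial.derivative (p + q)) • d f
        = (d (Polynomial.aeval f p) - Polynomial.aeval f (Polynomial.derivative p) • d f)
          + (d (Polynomial.aeval f q) - Polynomial.aeval f (Polynomial.derivative q) • d f) := by
      simp only [map_add, add_smul]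
      abel
    rw [this]
    exact W.add_mem hp hq
  | monomial n a =>
    have h1 : Polynomial.aeval f (Polynomial.monomial n a) = (a : F) * f ^ n := by
      rw [Polynomial.aeval_monomial]
      rfl
    have h2 : Polynomial.aeval f (Polynomial.derivative (Polynomial.monomial n a))
        = (a : F) * (n : F) * f ^ (n - 1) := by
      rw [Polynomial.derivative_monomial, Polynomial.aeval_monomial, map_mul, map_natCast]
      rfl
    have h3 : d ((a : F) * f ^ n) - ((a : F) * (n : F) * f ^ (n - 1)) • d f
        = f ^ n • d (a : F) := by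
      rw [Derivation.leibniz, Derivation.leibniz_pow, ← Nat.cast_smul_eq_nsmul F, smul_smul,
        smul_smul, mul_assoc]
      abel
    rw [h1, h2, h3]
    exact W.smul_mem _ (hL a)

/-- **`Ω[F⁄K] = F · dx`**, general form: for a `K`-derivation `d` of `F` into an `F`-module,
every `d f` is a multiple of `d x`, as soon as `F` is separable algebraic over `K(x)`. -/
theorem derivation_mem_span {N : Type*} [AddCommGroup N] [Module F N] [Module K N]
    (d : Derivation K F N) (x : F) [Algebra.IsSeparable K⟮x⟯ F] (f : F) :
    d f ∈ Submodule.span F {d x} := by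
  set W : Submodule F N := Submodule.span F {d x} with hW
  have hL : ∀ a : K⟮x⟯, d (a : F) ∈ W := by
    rintro ⟨a, ha⟩
    show d a ∈ W
    induction ha using IntermediateField.adjoin_induction with
    | mem y hy =>
      rw [Set.mem_singleton_iff.mp hy]
      exact Submodule.mem_span_singleton_self _
    | algebraMap c =>
      rw [Derivation.map_algebraMap]
      exact W.zero_mem
    | add y z _ _ hy hz =>
      rw [map_add]
      exact W.add_mem hy hz
    | inv y _ hy =>
      rw [Derivation.leibniz_inv]
      exact W.smul_mem _ hy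
    | mul y z _ _ hy hz =>
      rw [Derivation.leibniz]
      exact W.add_mem (W.smul_mem _ hz) (W.smul_mem _ hy)
  have hsep : (minpoly K⟮x⟯ f).Separable := Algebra.IsSeparable.isSeparable K⟮x⟯ f
  have hne : Polynomial.aeval f (Polynomial.derivative (minpoly K⟮x⟯ f)) ≠ 0 :=
    hsep.aeval_derivative_ne_zero (minpoly.aeval _ _)
  have key := deriv_aeval_sub_mem d K⟮x⟯ W hL f (minpoly K⟮x⟯ f)
  rw [minpoly.aeval, map_zero, zero_sub, Submodule.neg_mem_iff] at key
  exact (Submodule.smul_mem_iff W hne).mp key

/-- **`Ω[F⁄K] = F · dx`**: every `D f` is a multiple of `D x`. -/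
theorem D_mem_span (x : F) [Algebra.IsSeparable K⟮x⟯ F] (f : F) :
    D K F f ∈ Submodule.span F {D K F x} :=
  derivation_mem_span (D K F) x f

/-- `Ω[F⁄K]` is spanned by `D x`. -/
theorem span_D_eq_top (x : F) [Algebra.IsSeparable K⟮x⟯ F] :
    Submodule.span F {D K F x} = ⊤ := by
  rw [eq_top_iff, ← KaehlerDifferential.span_range_derivation K F, Submodule.span_le]
  rintro _ ⟨f, rfl⟩
  exact D_mem_span x f

/-- every place comes with a uniformizer `t` (`v.ord t = 1`) such that `v.dCoord = D t`. -/
theorem exists_uniformizer (v : Place K F) :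
    ∃ t : F, v.ord t = 1 ∧ v.dCoord = D K F t := by
  have hirr := (IsDiscreteValuationRing.exists_irreducible v.toValuationSubring).choose_spec
  exact ⟨_, v.ord_coe_irreducible hirr, rfl⟩

/-- if `D t ≠ 0` for the uniformizer defining `v.dCoord`, then `v.dCoord` generates `Ω[F⁄K]`. -/
theorem dCoordGenerates_of_ne_zero (x : F) [Algebra.IsSeparable K⟮x⟯ F] (v : Place K F)
    (h : v.dCoord ≠ 0) : v.DCoordGenerates := by
  obtain ⟨t, -, ht⟩ := exists_uniformizer v
  obtain ⟨c, hc⟩ := Submodule.mem_span_singleton.mp (D_mem_span (K := K) x t)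
  have hc0 : c ≠ 0 := by
    rintro rfl
    rw [zero_smul] at hc
    exact h (ht.trans hc.symm)
  refine ⟨?_⟩
  rw [eq_top_iff, ← span_D_eq_top (K := K) x, Submodule.span_le, Set.singleton_subset_iff, ht, ← hc]
  refine Submodule.mem_span_singleton.mpr ⟨c⁻¹, ?_⟩
  rw [smul_smul, inv_mul_cancel₀ hc0, one_smul]

/-- every differential is a multiple of `D x`. -/
theorem exists_eq_smul_D (x : F) [Algebra.IsSeparable K⟮x⟯ F] (ω : Ω[F⁄K]) :
    ∃ c : F, ω = c • D K F x := by
  have h : ω ∈ Submodule.span F {D K F x} := by
    rw [span_D_eq_top (K := K) x]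
    exact Submodule.mem_top
  obtain ⟨c, hc⟩ := Submodule.mem_span_singleton.mp h
  exact ⟨c, hc.symm⟩

/-- `D x ≠ 0` as soon as `Ω[F⁄K]` is nontrivial. -/
theorem D_ne_zero (x : F) [Algebra.IsSeparable K⟮x⟯ F] [Nontrivial Ω[F⁄K]] : D K F x ≠ 0 := by
  intro h0
  obtain ⟨ω, hω⟩ := exists_ne (0 : Ω[F⁄K])
  obtain ⟨c, hc⟩ := exists_eq_smul_D (K := K) x ω
  rw [h0, smul_zero] at hc
  exact hω hc

/-- the coefficient of `D x` with respect to `v.dCoord` is nonzero. -/
theorem differentialCoeff_D_ne_zero (x : F) [Algebra.IsSeparable K⟮x⟯ F] (v : Place K F)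
    [v.DCoordGenerates] [Nontrivial Ω[F⁄K]] : v.differentialCoeff (D K F x) ≠ 0 := by
  intro h0
  have h := v.differentialCoeff_smul_dCoord (D K F x)
  rw [h0, zero_smul] at h
  exact D_ne_zero (K := K) x h.symm

/-- `ord_v (c • D x) = ord_v c + ord_v (D x)`. -/
theorem ordDifferential_smul_D (x : F) [Algebra.IsSeparable K⟮x⟯ F] (v : Place K F)
    [v.DCoordGenerates] [Nontrivial Ω[F⁄K]] {c : F} (hc : c ≠ 0) :
    v.ordDifferential (c • D K F x) = v.ord c + v.ordDifferential (D K F x) :=
  v.ordDifferential_smul hc (differentialCoeff_D_ne_zero x v)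

open WithZero in
/-- **Order of a differential at a place, via an auxiliary differential field.**

`F` is (separable) algebraic over `K(x)`, `v` a place of `F / K`. Suppose given a field `M`, a ring
homomorphism `φ : F → M`, an additive map `δ : M → M` satisfying the Leibniz rule and killing the
constants `φ K`, and a multiplicative "order function" `w` on `M` with
`w (φ f) = exp (-(m * v.ord f))` for a fixed `m ≠ 0`, such that `δ` shifts `w` by a fixed
amount `κ` on the `φ f` with `v.ord f ≠ 0`. Then `Ω[F⁄K]` is nontrivial, generated by `v.dCoord`,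
and `ord_v (D y) = ord_v y - 1` for every `y` with `ord_v y ≠ 0`. -/
theorem ordDifferential_D (x : F) [Algebra.IsSeparable K⟮x⟯ F] (v : Place K F)
    {M : Type*} [Field M] (φ : F →+* M) (δ : M → M)
    (hδadd : ∀ a b, δ (a + b) = δ a + δ b) (hδmul : ∀ a b, δ (a * b) = a * δ b + b * δ a)
    (hδK : ∀ c : K, δ (φ (algebraMap K F c)) = 0)
    (w : M → ℤᵐ⁰) (hwmul : ∀ a b, w (a * b) = w a * w b)
    (m : ℤ) (hm : m ≠ 0) (hw : ∀ f : F, f ≠ 0 → w (φ f) = exp (-(m * v.ord f)))
    (κ : ℤ) (hκ : ∀ f : F, v.ord f ≠ 0 → δ (φ f) ≠ 0 ∧ w (δ (φ f)) = w (φ f) * exp κ) :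
    Nontrivial Ω[F⁄K] ∧ v.DCoordGenerates ∧
      ∀ y : F, v.ord y ≠ 0 → v.ordDifferential (D K F y) = v.ord y - 1 := by
  let _ : Algebra F M := φ.toAlgebra
  let _ : Algebra K M := (φ.comp (algebraMap K F)).toAlgebra
  have : IsScalarTower K F M := IsScalarTower.of_algebraMap_eq fun _ => rfl
  have hsmulF : ∀ (a : F) (b : M), a • b = φ a * b := fun a b => Algebra.smul_def a b
  have hsmulK : ∀ (c : K) (b : M), c • b = φ (algebraMap K F c) * b :=
    fun c b => Algebra.smul_def c b
  let d : Derivation K F M :=
    { toFun := fun f => δ (φ f)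
      map_add' := fun a b => by simp only [map_add, hδadd]
      map_smul' := fun c f => by
        simp only [RingHom.id_apply]
        rw [Algebra.smul_def, map_mul, hδmul, hδK, mul_zero, add_zero, hsmulK]
      map_one_eq_zero' := by
        have := hδK 1
        rwa [map_one] at this
      leibniz' := fun a b => by
        show δ (φ (a * b)) = a • δ (φ b) + b • δ (φ a)
        rw [map_mul, hδmul, hsmulF, hsmulF] }
  have hd : ∀ f, d f = δ (φ f) := fun _ => rfl
  have hlift : ∀ f, d.liftKaehlerDifferential (D K F f) = δ (φ f) := fun f => by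
    rw [Derivation.liftKaehlerDifferential_comp_D, hd]
  obtain ⟨t, ht1, ht⟩ := exists_uniformizer v
  have ht0 : v.ord t ≠ 0 := by rw [ht1]; exact one_ne_zero
  have htne : t ≠ 0 := by
    rintro rfl
    exact ht0 v.ord_zero
  have hDt : v.dCoord ≠ 0 := by
    intro h0
    have := hlift t
    rw [← ht, h0, map_zero] at this
    exact (hκ t ht0).1 this.symm
  have hnt : Nontrivial Ω[F⁄K] := ⟨⟨_, _, hDt⟩⟩
  have hgen : v.DCoordGenerates := dCoordGenerates_of_ne_zero x v hDt
  refine ⟨hnt, hgen, fun y hy => ?_⟩
  have hyne : y ≠ 0 := by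
    rintro rfl
    exact hy v.ord_zero
  set a := v.differentialCoeff (D K F y) with ha
  have hay : a • v.dCoord = D K F y := v.differentialCoeff_smul_dCoord _
  have h1 : φ a * δ (φ t) = δ (φ y) := by
    have := congrArg d.liftKaehlerDifferential hay
    rwa [map_smul, ht, hlift, hlift, hsmulF] at this
  have hane : a ≠ 0 := by
    intro h0
    rw [h0, map_zero, zero_mul] at h1
    exact (hκ y hy).1 h1.symm
  have h2 := congrArg w h1
  rw [hwmul, (hκ t ht0).2, (hκ y hy).2, hw a hane, hw t htne, hw y hyne, ht1, ← exp_add, ← exp_add,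
    ← exp_add] at h2
  have h3 := exp_injective h2
  have h4 : m * (v.ord a - (v.ord y - 1)) = 0 := by linarith
  rcases mul_eq_zero.mp h4 with h | h
  · exact absurd h hm
  · show v.ord a = v.ord y - 1
    linarith

end Fermat.Agent.S24.DiffAlg
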