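import Mathlib
import Fermat.Agent.S24.DiffAlg

/-!
# S24, module (F): the derivation `d/dX` on Laurent series and orders of differentials

* `LaurentDeriv.dX` : the derivative of a Laurent series, with `dX_add`, `dX_mul` (Leibniz rule),
  `dX_C`, and the order shift `order_dX` in characteristic zero.
* `LaurentDeriv.ordDifferential_D_of_laurent` : if a place `v` of `F / K` is computed by an
  expansion `τ : F →+* LaurentSeries k` (order of `τ f` equal to `m * v.ord f`), then
  `ord_v (D y) = ord_v y - 1` whenever `ord_v y ≠ 0`.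
-/

open KaehlerDifferential IntermediateField HahnSeries

namespace Fermat.Agent.S24.LaurentDeriv

open AlgebraicCurve

variable {k : Type*} [Field k]

/-- the derivative `d/dX` of a Laurent series. -/
noncomputable def dX (f : LaurentSeries k) : LaurentSeries k := LaurentSeries.derivative k f

theorem coeff_dX (f : LaurentSeries k) (n : ℤ) :
    (dX f).coeff n = ((n + 1 : ℤ) : k) * f.coeff (n + 1) := by
  rw [dX, LaurentSeries.derivative_apply, LaurentSeries.hasseDeriv_coeff, Nat.cast_one,
    Ring.choose_one_right, zsmul_eq_mul]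

theorem dX_add (f g : LaurentSeries k) : dX (f + g) = dX f + dX g :=
  map_add (LaurentSeries.derivative k) f g

theorem dX_C (a : k) : dX (C a : LaurentSeries k) = 0 := by
  ext j
  rw [coeff_dX, coeff_zero, C_apply, coeff_single]
  by_cases h : j + 1 = 0
  · rw [h, Int.cast_zero, zero_mul]
  · rw [if_neg h, mul_zero]

theorem dX_single_mul (n : ℤ) (h : LaurentSeries k) :
    dX (single n (1 : k) * h) = C (n : k) * (single (n - 1) (1 : k) * h) + single n (1 : k) * dX h := by
  ext j
  have e1 : j - (n - 1) = j + 1 - n := by ring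
  have e2 : j - n + 1 = j + 1 - n := by ring
  rw [coeff_dX, coeff_add, coeff_single_mul, C_mul_eq_smul, coeff_smul, coeff_single_mul,
    coeff_single_mul, coeff_dX, e1, e2, smul_eq_mul]
  push_cast
  ring

theorem dX_ofPowerSeries (p : PowerSeries k) :
    dX (ofPowerSeries ℤ k p) = ofPowerSeries ℤ k (PowerSeries.derivative k p) := by
  ext j
  rw [coeff_dX]
  rcases lt_trichotomy j (-1) with hj | hj | hj
  · have h1 : ((ofPowerSeries ℤ k) p).coeff (j + 1) = 0 := by
      rw [show ((ofPowerSeries ℤ k) p) = (p : LaurentSeries k) from rfl, PowerSeries.coeff_coe,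
        if_pos (by omega)]
    have h2 : ((ofPowerSeries ℤ k) (PowerSeries.derivative k p)).coeff j = 0 := by
      rw [show ((ofPowerSeries ℤ k) (PowerSeries.derivative k p))
        = ((PowerSeries.derivative k p : PowerSeries k) : LaurentSeries k) from rfl,
        PowerSeries.coeff_coe, if_pos (by omega)]
    rw [h1, h2, mul_zero]
  · have h2 : ((ofPowerSeries ℤ k) (PowerSeries.derivative k p)).coeff j = 0 := by
      rw [show ((ofPowerSeries ℤ k) (PowerSeries.derivative k p))
        = ((PowerSeries.derivative k p : PowerSeries k) : LaurentSeries k) from rfl,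
        PowerSeries.coeff_coe, if_pos (by omega)]
    rw [h2, hj]
    simp
  · obtain ⟨i, rfl⟩ : ∃ i : ℕ, j = i := ⟨j.toNat, by omega⟩
    have h1 : ((ofPowerSeries ℤ k) p).coeff ((i : ℤ) + 1) = PowerSeries.coeff (i + 1) p := by
      have := LaurentSeries.coeff_coe_powerSeries p (i + 1)
      rw [← this]
      push_cast
      rfl
    have h2 : ((ofPowerSeries ℤ k) (PowerSeries.derivative k p)).coeff (i : ℤ)
        = PowerSeries.coeff i (PowerSeries.derivative k p) :=
      LaurentSeries.coeff_coe_powerSeries _ i
    rw [h1, h2, PowerSeries.coeff_derivative]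
    push_cast
    ring

/-- every Laurent series is a power of `X` times a power series. -/
theorem exists_single_mul (f : LaurentSeries k) :
    ∃ (a : ℤ) (p : PowerSeries k), f = single a (1 : k) * ofPowerSeries ℤ k p :=
  ⟨f.order, f.powerSeriesPart, (LaurentSeries.single_order_mul_powerSeriesPart f).symm⟩

/-- the **Leibniz rule** for `d/dX` on Laurent series. -/
theorem dX_mul (f g : LaurentSeries k) : dX (f * g) = f * dX g + g * dX f := by
  obtain ⟨a, p, rfl⟩ := exists_single_mul f
  obtain ⟨b, q, rfl⟩ := exists_single_mul g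
  have hab : single a (1 : k) * ofPowerSeries ℤ k p * (single b (1 : k) * ofPowerSeries ℤ k q)
      = single (a + b) (1 : k) * ofPowerSeries ℤ k (p * q) := by
    rw [map_mul, show single (a + b) (1 : k) = single a (1 : k) * single b (1 : k) by
      rw [single_mul_single, one_mul]]
    ring
  have hA : single a (1 : k) = single (a - 1) (1 : k) * single 1 (1 : k) := by
    rw [single_mul_single, one_mul, sub_add_cancel]
  have hB : single b (1 : k) = single (b - 1) (1 : k) * single 1 (1 : k) := by
    rw [single_mul_single, one_mul, sub_add_cancel]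
  have hAB : single (a + b) (1 : k)
      = single (a - 1) (1 : k) * single (b - 1) (1 : k) * single 1 (1 : k) * single 1 (1 : k) := by
    rw [single_mul_single, single_mul_single, single_mul_single, one_mul, one_mul, one_mul,
      show a - 1 + (b - 1) + 1 + 1 = a + b by ring]
  have hAB' : single (a + b - 1) (1 : k)
      = single (a - 1) (1 : k) * single (b - 1) (1 : k) * single 1 (1 : k) := by
    rw [single_mul_single, single_mul_single, one_mul, one_mul,
      show a - 1 + (b - 1) + 1 = a + b - 1 by ring]
  have hpq : PowerSeries.derivative k (p * q)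
      = p * PowerSeries.derivative k q + q * PowerSeries.derivative k p := by
    rw [Derivation.leibniz]
    rfl
  rw [hab, dX_single_mul, dX_single_mul, dX_single_mul, dX_ofPowerSeries, dX_ofPowerSeries,
    dX_ofPowerSeries, hpq, map_add, map_mul, map_mul, map_mul, hAB, hAB', hA, hB, Int.cast_add,
    map_add]
  ring

/-- **order shift**: in characteristic zero, `d/dX` lowers a nonzero order by exactly one. -/
theorem order_dX [CharZero k] {f : LaurentSeries k} (hf : f.order ≠ 0) :
    dX f ≠ 0 ∧ (dX f).order = f.order - 1 := by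
  have hf0 : f ≠ 0 := by
    rintro rfl
    exact hf order_zero
  have hlead : f.coeff f.order ≠ 0 := by
    rw [← leadingCoeff_eq]
    exact leadingCoeff_ne_zero.mpr hf0
  have hc : (dX f).coeff (f.order - 1) ≠ 0 := by
    rw [coeff_dX, sub_add_cancel]
    exact mul_ne_zero (Int.cast_ne_zero.mpr hf) hlead
  have hne : dX f ≠ 0 := ne_zero_of_coeff_ne_zero hc
  refine ⟨hne, le_antisymm (order_le_of_coeff_ne_zero hc) ?_⟩
  by_contra hlt
  rw [not_le] at hlt
  have h1 : (dX f).coeff (dX f).order ≠ 0 := by
    rw [← leadingCoeff_eq]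
    exact leadingCoeff_ne_zero.mpr hne
  apply h1
  rw [coeff_dX, coeff_eq_zero_of_lt_order (by omega), mul_zero]

variable {K F : Type*} [Field K] [Field F] [Algebra K F]

open WithZero in
/-- **Order of a differential at a place computed by a Laurent expansion.**
`F` is separable algebraic over `K(x)`, `v` a place of `F / K`, and `τ : F →+* k⸨X⸩` an expansion
(constants go to constants) with `order (τ f) = m * ord_v f` for a fixed `m ≠ 0`, `k` of
characteristic zero. Then `Ω[F⁄K]` is nontrivial, generated by `v.dCoord`, and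
`ord_v (D y) = ord_v y - 1` whenever `ord_v y ≠ 0`. -/
theorem ordDifferential_D_of_laurent (x : F) [Algebra.IsSeparable K⟮x⟯ F] (v : Place K F)
    [CharZero k] (τ : F →+* LaurentSeries k)
    (hτK : ∀ c : K, ∃ a : k, τ (algebraMap K F c) = C a)
    (m : ℤ) (hm : m ≠ 0) (hτ : ∀ f : F, f ≠ 0 → (τ f).order = m * v.ord f) :
    Nontrivial Ω[F⁄K] ∧ v.DCoordGenerates ∧
      ∀ y : F, v.ord y ≠ 0 → v.ordDifferential (D K F y) = v.ord y - 1 := by
  classical
  refine DiffAlg.ordDifferential_D x v τ dX dX_add dX_mul ?_
    (fun h => if h = 0 then 0 else exp (-h.order)) ?_ m hm ?_ 1 ?_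
  · intro c
    obtain ⟨a, ha⟩ := hτK c
    rw [ha, dX_C]
  · intro a b
    by_cases ha : a = 0
    · simp [ha]
    by_cases hb : b = 0
    · simp [hb]
    simp only [ha, hb, mul_ne_zero ha hb, if_false]
    rw [order_mul ha hb, neg_add, exp_add]
  · intro f hf
    have h0 : τ f ≠ 0 := (map_ne_zero τ).mpr hf
    simp only [h0, if_false]
    rw [hτ f hf]
  · intro f hf
    have hf0 : f ≠ 0 := by
      rintro rfl
      exact hf v.ord_zero
    have h0 : τ f ≠ 0 := (map_ne_zero τ).mpr hf0
    have hord : (τ f).order ≠ 0 := by
      rw [hτ f hf0]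
      exact mul_ne_zero hm hf
    obtain ⟨h1, h2⟩ := order_dX hord
    refine ⟨h1, ?_⟩
    simp only [h0, h1, if_false]
    rw [h2, ← exp_add]
    congr 1
    ring

end Fermat.Agent.S24.LaurentDeriv
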