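import Mathlib
import Fermat.Prelude.Def_AlgebraicCurve_CanonicalDivisor

/-!
# S24: abstract Riemann–Hurwitz bookkeeping

From the ramification data of a function `j : F` (as explicit hypotheses) to the frozen
`AlgebraicCurve.genus K F`.
-/

set_option autoImplicit false

open AlgebraicCurve KaehlerDifferential

namespace Fermat.Agent.S24

namespace GenusAbs

variable {K F : Type*} [Field K] [Field F] [Algebra K F]

/-- ultrametric inequality for the frozen `Place.ord`. -/
theorem min_le_ord_add (v : Place K F) {f g : F} (hf : f ≠ 0) (hg : g ≠ 0)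
    (hfg : f + g ≠ 0) : min (v.ord f) (v.ord g) ≤ v.ord (f + g) := by
  have h1 := v.adicValuation.map_add f g
  have hf' := v.adicValuation_ne_zero hf
  have hg' := v.adicValuation_ne_zero hg
  have hfg' := v.adicValuation_ne_zero hfg
  simp only [Place.ord]
  rcases le_max_iff.mp h1 with h | h
  · have := (WithZero.log_le_log hfg' hf').mpr h
    exact (min_le_left _ _).trans (by omega)
  · have := (WithZero.log_le_log hfg' hg').mpr h
    exact (min_le_right _ _).trans (by omega)

/-- constants have order zero. -/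
theorem ord_algebraMap (v : Place K F) (a : K) : v.ord (algebraMap K F a) = 0 := by
  rcases eq_or_ne a 0 with rfl | ha
  · simp
  · have hu : IsUnit (algebraMap K v.toValuationSubring a) := (Ne.isUnit ha).map _
    have := v.ord_coe_unit hu.unit
    rwa [IsUnit.unit_spec, v.coe_algebraMap] at this

theorem ord_neg (v : Place K F) (f : F) : v.ord (-f) = v.ord f := by
  simp [Place.ord]

/-- a pole of `j` is not a zero of `j - a`. -/
theorem not_pos_of_neg (v : Place K F) (j : F) (a : K) (h : v.ord j < 0) :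
    ¬ 0 < v.ord (j - algebraMap K F a) := by
  intro hpos
  have hj0 : j ≠ 0 := by rintro rfl; simp at h
  rcases eq_or_ne a 0 with rfl | ha
  · rw [map_zero, sub_zero] at hpos; omega
  · have ha' : algebraMap K F a ≠ 0 := by simpa using ha
    have hja : j - algebraMap K F a ≠ 0 := by
      intro h0; rw [h0] at hpos; simp at hpos
    have h1 := min_le_ord_add v hja ha' (by simpa using hj0)
    rw [sub_add_cancel, ord_algebraMap] at h1
    have : min (v.ord (j - algebraMap K F a)) 0 = 0 := min_eq_right hpos.le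
    omega

/-- a place cannot be a zero of `j - a` and of `j - b` for `a ≠ b`. -/
theorem not_pos_of_pos (v : Place K F) (j : F) {a b : K} (hab : a ≠ b)
    (h : 0 < v.ord (j - algebraMap K F a)) : ¬ 0 < v.ord (j - algebraMap K F b) := by
  intro hb
  have h1 : j - algebraMap K F a ≠ 0 := by
    intro h0; rw [h0] at h; simp at h
  have h2 : j - algebraMap K F b ≠ 0 := by
    intro h0; rw [h0] at hb; simp at hb
  have hsum : (j - algebraMap K F b) + -(j - algebraMap K F a) = algebraMap K F (a - b) := by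
    rw [map_sub]; ring
  have hne : algebraMap K F (a - b) ≠ 0 :=
    (map_ne_zero (algebraMap K F)).mpr (sub_ne_zero.mpr hab)
  have h3 := min_le_ord_add v h2 (neg_ne_zero.mpr h1) (by rw [hsum]; exact hne)
  rw [hsum, ord_algebraMap, ord_neg] at h3
  have := lt_min hb h
  omega

/-! ### counting places through the output of Theorem A -/


/-- the fibre of `P` over `P i` has `minimalPeriod s i` elements. -/
theorem card_filter_sameCycle {I : Type*} [Fintype I] [DecidableEq I] (s : Equiv.Perm I) (i : I)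
    [DecidablePred fun i' => s.SameCycle i i'] :
    (Finset.univ.filter fun i' => s.SameCycle i i').card = Function.minimalPeriod s i := by
  classical
  have h1 : Function.minimalPeriod s i = Function.minimalPeriod (s • ·) i := rfl
  rw [h1, MulAction.minimalPeriod_eq_card, ← Set.toFinset_card]
  congr 1
  ext i'
  simp only [Finset.mem_filter, Finset.mem_univ, true_and, Set.mem_toFinset, MulAction.mem_orbit_iff]
  constructor
  · rintro ⟨n, hn⟩
    exact ⟨⟨s ^ n, Subgroup.zpow_mem_zpowers s n⟩, hn⟩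
  · rintro ⟨⟨g, hg⟩, hgi⟩
    obtain ⟨n, rfl⟩ := Subgroup.mem_zpowers_iff.mp hg
    exact ⟨n, hgi⟩

theorem sum_image_eq_card {I α : Type*} [Fintype I] [DecidableEq α] (s : Equiv.Perm I)
    (P : I → α) (hP : ∀ i i', P i = P i' ↔ s.SameCycle i i') (f : α → ℤ)
    (hf : ∀ i, f (P i) = (Function.minimalPeriod s i : ℤ)) :
    ∑ v ∈ Finset.univ.image P, f v = Fintype.card I := by
  classical
  have h1 := Finset.card_eq_sum_card_image P (Finset.univ : Finset I)
  rw [Finset.card_univ] at h1
  rw [h1]
  push_cast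
  refine Finset.sum_congr rfl ?_
  intro v hv
  obtain ⟨i, -, rfl⟩ := Finset.mem_image.mp hv
  rw [hf i, ← card_filter_sameCycle s i]
  congr 2
  ext i'
  simp only [Finset.mem_filter, Finset.mem_univ, true_and]
  rw [← hP i i']
  exact eq_comm

theorem card_image_eq_card_orbits {G I α : Type*} [Group G] [MulAction G I] [Fintype I]
    [DecidableEq α] (g : G) (P : I → α)
    (hP : ∀ i i', P i = P i' ↔ (MulAction.toPerm g : Equiv.Perm I).SameCycle i i') :
    (Finset.univ.image P).card
      = Nat.card (MulAction.orbitRel.Quotient (Subgroup.zpowers g) I) := by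
  classical
  have key : ∀ (n : ℤ) (x : I), ((MulAction.toPerm g : Equiv.Perm I) ^ n) x = (g ^ n) • x := by
    intro n x
    have h := (MulAction.toPermHom G I).map_zpow g n
    simp only [MulAction.toPermHom_apply] at h
    rw [← h]
    rfl
  have hrel : ∀ i i' : I, (MulAction.orbitRel (Subgroup.zpowers g) I).r i i' ↔ P i = P i' := by
    intro i i'
    rw [hP, MulAction.orbitRel_apply, MulAction.mem_orbit_iff]
    constructor
    · rintro ⟨⟨h, hh⟩, hgi⟩
      obtain ⟨n, rfl⟩ := Subgroup.mem_zpowers_iff.mp hh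
      have : ((MulAction.toPerm g : Equiv.Perm I) ^ n) i' = i := by
        rw [key]
        exact hgi
      exact (Equiv.Perm.SameCycle.symm ⟨n, this⟩)
    · rintro ⟨n, hn⟩
      refine ⟨⟨g ^ (-n), Subgroup.zpow_mem_zpowers g _⟩, ?_⟩
      have h2 : (g ^ n) • i = i' := by
        rw [← key]
        exact hn
      show (g ^ (-n)) • i' = i
      rw [← h2, smul_smul, ← zpow_add]
      simp
  let P' : MulAction.orbitRel.Quotient (Subgroup.zpowers g) I → α :=
    Quotient.lift P (fun i i' h => (hrel i i').mp h)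
  have hinj : Function.Injective P' := by
    intro a b
    induction a using Quotient.inductionOn with
    | _ i =>
    induction b using Quotient.inductionOn with
    | _ i' =>
    intro h
    exact Quotient.sound ((hrel i i').mpr h)
  have hrange : Set.range P' = Set.range P := by
    ext v
    constructor
    · rintro ⟨q, rfl⟩
      induction q using Quotient.inductionOn with
      | _ i => exact ⟨i, rfl⟩
    · rintro ⟨i, rfl⟩
      exact ⟨Quotient.mk _ i, rfl⟩
  rw [Nat.card_congr (Equiv.ofInjective P' hinj), hrange, Nat.card_coe_set_eq,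
    ← Set.ncard_coe_finset]
  simp


/-- From the output of Theorem A (`exists_places`) for `x`, with the permutation given by a group
element `g` acting on the index type: the finite set of places where `x` vanishes, the sum of
the orders (`= card I`) and the number of such places (`=` number of `g`-orbits). -/
theorem exists_finset_places {G I : Type*} [Group G] [MulAction G I] [Fintype I] (g : G)
    (x : F) (P : I → Place K F)
    (h1 : ∀ i i', P i = P i' ↔ (MulAction.toPerm g : Equiv.Perm I).SameCycle i i')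
    (h2 : ∀ v : Place K F, 0 < v.ord x → ∃ i, v = P i)
    (h3 : ∀ i, (P i).ord x = Function.minimalPeriod (MulAction.toPerm g : Equiv.Perm I) i) :
    ∃ Z : Finset (Place K F), (∀ v, v ∈ Z ↔ 0 < v.ord x) ∧
      ∑ v ∈ Z, v.ord x = Fintype.card I ∧
      Z.card = Nat.card (MulAction.orbitRel.Quotient (Subgroup.zpowers g) I) := by
  classical
  refine ⟨Finset.univ.image P, ?_, ?_, ?_⟩
  · intro v
    constructor
    · intro hv
      obtain ⟨i, -, rfl⟩ := Finset.mem_image.mp hv
      rw [h3 i]
      have := Function.minimalPeriod_pos_of_mem_periodicPts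
        (Function.Injective.mem_periodicPts (MulAction.toPerm g : Equiv.Perm I).injective i)
      exact_mod_cast this
    · intro hv
      obtain ⟨i, rfl⟩ := h2 v hv
      exact Finset.mem_image_of_mem _ (Finset.mem_univ _)
  · exact sum_image_eq_card _ P h1 (fun v => v.ord x) h3
  · exact card_image_eq_card_orbits g P h1

/-- the arithmetic of the genus formula. -/
theorem hsum_arith (ψ ν2 ν3 c oS oST oT g : ℕ) (hS : 2 * oS = ψ + ν2)
    (hST : 3 * oST = ψ + 2 * ν3) (hT : oT = c)
    (hg : (g : ℚ) = 1 + (ψ : ℚ) / 12 - (ν2 : ℚ) / 4 - (ν3 : ℚ) / 3 - (c : ℚ) / 2) :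
    (ψ : ℤ) - oST - oS - oT = 2 * (g : ℤ) - 2 := by
  have h1 : (2 : ℚ) * oS = ψ + ν2 := by exact_mod_cast hS
  have h2 : (3 : ℚ) * oST = ψ + 2 * ν3 := by exact_mod_cast hST
  have h3 : (oT : ℚ) = c := by exact_mod_cast hT
  have : ((ψ : ℤ) - oST - oS - oT : ℚ) = ((2 * (g : ℤ) - 2 : ℤ) : ℚ) := by
    push_cast
    rw [hg]
    linarith
  exact_mod_cast this

end GenusAbs

variable {K F : Type*} [Field K] [Field F] [Algebra K F]

open GenusAbs in
/-- **Abstract Riemann–Hurwitz bookkeeping.**  All inputs are hypotheses: places have degree one,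
`Ω[F⁄K] = F · dj`, the local computation of `ordDifferential`, principal divisors have degree
zero, and the ramification of `j` is concentrated over `a0`, `a1` and `∞` with the given sums. -/
theorem genus_eq_of_ramification [HasCanonicalDivisor (K := K) (F := F)]
    (j : F) (a0 a1 : K) (ha : a0 ≠ a1)
    (hdeg : ∀ v : Place K F, v.deg = 1)
    (hspan : ∀ w : Ω[F⁄K], ∃ c : F, w = c • KaehlerDifferential.D K F j)
    (hj : KaehlerDifferential.D K F j ≠ 0)
    (hsmul : ∀ (v : Place K F) (c : F) (w : Ω[F⁄K]), c ≠ 0 → w ≠ 0 →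
      v.ordDifferential (c • w) = v.ord c + v.ordDifferential w)
    (hD : ∀ (v : Place K F) (y : F), v.ord y ≠ 0 →
      v.ordDifferential (KaehlerDifferential.D K F y) = v.ord y - 1)
    (hprin : ∀ c : F, c ≠ 0 → ∃ S : Finset (Place K F),
      (∀ v, v ∉ S → v.ord c = 0) ∧ ∑ v ∈ S, v.ord c = 0)
    (hres : ∀ v : Place K F, 0 ≤ v.ord j → ∃ a : K, 0 < v.ord (j - algebraMap K F a))
    (hgen : ∀ (a : K) (v : Place K F), a ≠ a0 → a ≠ a1 →
      0 < v.ord (j - algebraMap K F a) → v.ord (j - algebraMap K F a) = 1)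
    (Z0 Z1 P : Finset (Place K F))
    (hZ0 : ∀ v, v ∈ Z0 ↔ 0 < v.ord (j - algebraMap K F a0))
    (hZ1 : ∀ v, v ∈ Z1 ↔ 0 < v.ord (j - algebraMap K F a1))
    (hP : ∀ v, v ∈ P ↔ v.ord j < 0)
    (g : ℕ)
    (hsum : ∑ v ∈ Z0, (v.ord (j - algebraMap K F a0) - 1)
      + ∑ v ∈ Z1, (v.ord (j - algebraMap K F a1) - 1)
      + ∑ v ∈ P, (v.ord j - 1) = 2 * (g : ℤ) - 2) :
    genus K F = g := by
  classical
  have hex : ∃ ω : Ω[F⁄K], ω ≠ 0 := ⟨_, hj⟩
  have hgenus : genus K F
      = (Divisor.degree (canonicalDivisorOf hex.choose_spec) + 2).toNat / 2 := by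
    unfold genus
    rw [dif_pos hex]
  have hω : hex.choose ≠ 0 := hex.choose_spec
  obtain ⟨c, hc⟩ := hspan hex.choose
  have hc0 : c ≠ 0 := by
    rintro rfl
    exact hω (by rw [hc, zero_smul])
  have hDω : ∀ v : Place K F, canonicalDivisorOf hω v
      = v.ord c + v.ordDifferential (KaehlerDifferential.D K F j) := by
    intro v
    rw [canonicalDivisorOf_apply]
    conv_lhs => rw [hc]
    exact hsmul v c _ hc0 hj
  have hDsub : ∀ a : K, KaehlerDifferential.D K F (j - algebraMap K F a)
      = KaehlerDifferential.D K F j := by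
    intro a
    rw [map_sub, Derivation.map_algebraMap, sub_zero]
  have hfP : ∀ v ∈ P, v.ordDifferential (KaehlerDifferential.D K F j) = v.ord j - 1 :=
    fun v hv => hD v j (ne_of_lt ((hP v).mp hv))
  have hfZ : ∀ (a : K) (v : Place K F), 0 < v.ord (j - algebraMap K F a) →
      v.ordDifferential (KaehlerDifferential.D K F j) = v.ord (j - algebraMap K F a) - 1 := by
    intro a v hv
    rw [← hDsub a]
    exact hD v _ (ne_of_gt hv)
  have hf0 : ∀ v : Place K F, v ∉ Z0 → v ∉ Z1 → v ∉ P →
      v.ordDifferential (KaehlerDifferential.D K F j) = 0 := by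
    intro v h0 h1 hp
    have hnn : 0 ≤ v.ord j := not_lt.mp (fun h => hp ((hP v).mpr h))
    obtain ⟨a, hav⟩ := hres v hnn
    have ha0 : a ≠ a0 := by rintro rfl; exact h0 ((hZ0 v).mpr hav)
    have ha1 : a ≠ a1 := by rintro rfl; exact h1 ((hZ1 v).mpr hav)
    rw [hfZ a v hav, hgen a v ha0 ha1 hav]
    simp
  have d01 : Disjoint Z0 Z1 := by
    rw [Finset.disjoint_left]
    intro v h0 h1
    exact not_pos_of_pos v j ha ((hZ0 v).mp h0) ((hZ1 v).mp h1)
  have d0P : Disjoint Z0 P := by
    rw [Finset.disjoint_left]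
    intro v h0 hp
    exact not_pos_of_neg v j a0 ((hP v).mp hp) ((hZ0 v).mp h0)
  have d1P : Disjoint Z1 P := by
    rw [Finset.disjoint_left]
    intro v h1 hp
    exact not_pos_of_neg v j a1 ((hP v).mp hp) ((hZ1 v).mp h1)
  obtain ⟨S, hS0, hSsum⟩ := hprin c hc0
  have hdegree : Divisor.degree (canonicalDivisorOf hω)
      = ∑ v ∈ (canonicalDivisorOf hω).support, canonicalDivisorOf hω v := by
    simp only [Divisor.degree, Finsupp.liftAddHom_apply, Finsupp.sum, AddMonoidHom.coe_mulRight,
      hdeg, Nat.cast_one, mul_one]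
  set T := (canonicalDivisorOf hω).support ∪ S ∪ (Z0 ∪ Z1 ∪ P) with hT
  have h1 : ∑ v ∈ (canonicalDivisorOf hω).support, canonicalDivisorOf hω v
      = ∑ v ∈ T, canonicalDivisorOf hω v :=
    Finset.sum_subset (by intro v hv; simp [hT, hv])
      (fun v _ hv => Finsupp.notMem_support_iff.mp hv)
  have h2 : ∑ v ∈ T, canonicalDivisorOf hω v
      = ∑ v ∈ T, v.ord c + ∑ v ∈ T, v.ordDifferential (KaehlerDifferential.D K F j) := by
    rw [← Finset.sum_add_distrib]
    exact Finset.sum_congr rfl (fun v _ => hDω v)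
  have h3 : ∑ v ∈ T, v.ord c = 0 := by
    rw [← hSsum]
    symm
    exact Finset.sum_subset (by intro v hv; simp [hT, hv]) (fun v _ hv => hS0 v hv)
  have h4 : ∑ v ∈ T, v.ordDifferential (KaehlerDifferential.D K F j)
      = ∑ v ∈ Z0 ∪ Z1 ∪ P, v.ordDifferential (KaehlerDifferential.D K F j) := by
    symm
    refine Finset.sum_subset (by intro v hv; simp only [hT, Finset.mem_union] at hv ⊢; tauto) ?_
    intro v _ hv
    simp only [Finset.mem_union, not_or] at hv
    exact hf0 v hv.1.1 hv.1.2 hv.2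
  have h5 : ∑ v ∈ Z0 ∪ Z1 ∪ P, v.ordDifferential (KaehlerDifferential.D K F j)
      = ∑ v ∈ Z0, (v.ord (j - algebraMap K F a0) - 1)
        + ∑ v ∈ Z1, (v.ord (j - algebraMap K F a1) - 1) + ∑ v ∈ P, (v.ord j - 1) := by
    rw [Finset.sum_union (Finset.disjoint_union_left.mpr ⟨d0P, d1P⟩), Finset.sum_union d01]
    congr 1
    · congr 1
      · exact Finset.sum_congr rfl (fun v hv => hfZ a0 v ((hZ0 v).mp hv))
      · exact Finset.sum_congr rfl (fun v hv => hfZ a1 v ((hZ1 v).mp hv))
    · exact Finset.sum_congr rfl hfP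
  rw [hgenus, hdegree, h1, h2, h3, h4, h5, hsum]
  omega

open GenusAbs in
/-- **Riemann–Hurwitz bookkeeping, fed with three outputs of Theorem A** (at `j = a0`, at
`j = a1` and at the poles of `j`), the permutations being given by elements `g0 g1 gP` of a group
acting on the common index type `I`. -/
theorem genus_eq_of_places [HasCanonicalDivisor (K := K) (F := F)]
    (j : F) (a0 a1 : K) (ha : a0 ≠ a1)
    (hdeg : ∀ v : Place K F, v.deg = 1)
    (hspan : ∀ w : Ω[F⁄K], ∃ c : F, w = c • KaehlerDifferential.D K F j)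
    (hj : KaehlerDifferential.D K F j ≠ 0)
    (hsmul : ∀ (v : Place K F) (c : F) (w : Ω[F⁄K]), c ≠ 0 → w ≠ 0 →
      v.ordDifferential (c • w) = v.ord c + v.ordDifferential w)
    (hD : ∀ (v : Place K F) (y : F), v.ord y ≠ 0 →
      v.ordDifferential (KaehlerDifferential.D K F y) = v.ord y - 1)
    (hprin : ∀ c : F, c ≠ 0 → ∃ S : Finset (Place K F),
      (∀ v, v ∉ S → v.ord c = 0) ∧ ∑ v ∈ S, v.ord c = 0)
    (hres : ∀ v : Place K F, 0 ≤ v.ord j → ∃ a : K, 0 < v.ord (j - algebraMap K F a))
    (hgen : ∀ (a : K) (v : Place K F), a ≠ a0 → a ≠ a1 →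
      0 < v.ord (j - algebraMap K F a) → v.ord (j - algebraMap K F a) = 1)
    {G I : Type*} [Group G] [MulAction G I] [Fintype I] (g0 g1 gP : G)
    (P0 P1 PP : I → Place K F)
    (h0 : ∀ i i', P0 i = P0 i' ↔ (MulAction.toPerm g0 : Equiv.Perm I).SameCycle i i')
    (h0' : ∀ v : Place K F, 0 < v.ord (j - algebraMap K F a0) → ∃ i, v = P0 i)
    (h0'' : ∀ i, (P0 i).ord (j - algebraMap K F a0)
      = Function.minimalPeriod (MulAction.toPerm g0 : Equiv.Perm I) i)
    (h1 : ∀ i i', P1 i = P1 i' ↔ (MulAction.toPerm g1 : Equiv.Perm I).SameCycle i i')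
    (h1' : ∀ v : Place K F, 0 < v.ord (j - algebraMap K F a1) → ∃ i, v = P1 i)
    (h1'' : ∀ i, (P1 i).ord (j - algebraMap K F a1)
      = Function.minimalPeriod (MulAction.toPerm g1 : Equiv.Perm I) i)
    (hP : ∀ i i', PP i = PP i' ↔ (MulAction.toPerm gP : Equiv.Perm I).SameCycle i i')
    (hP' : ∀ v : Place K F, 0 < v.ord j⁻¹ → ∃ i, v = PP i)
    (hP'' : ∀ i, (PP i).ord j⁻¹
      = Function.minimalPeriod (MulAction.toPerm gP : Equiv.Perm I) i)
    (g : ℕ)
    (hg : (Fintype.card I : ℤ)
        - Nat.card (MulAction.orbitRel.Quotient (Subgroup.zpowers g0) I)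
        - Nat.card (MulAction.orbitRel.Quotient (Subgroup.zpowers g1) I)
        - Nat.card (MulAction.orbitRel.Quotient (Subgroup.zpowers gP) I) = 2 * (g : ℤ) - 2) :
    genus K F = g := by
  obtain ⟨Z0, hZ0, hs0, hc0⟩ := exists_finset_places g0 _ P0 h0 h0' h0''
  obtain ⟨Z1, hZ1, hs1, hc1⟩ := exists_finset_places g1 _ P1 h1 h1' h1''
  obtain ⟨ZP, hZP, hsP, hcP⟩ := exists_finset_places gP _ PP hP hP' hP''
  have hZP' : ∀ v : Place K F, v ∈ ZP ↔ v.ord j < 0 := by
    intro v
    rw [hZP v, Place.ord_inv]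
    omega
  refine genus_eq_of_ramification j a0 a1 ha hdeg hspan hj hsmul hD hprin hres hgen Z0 Z1 ZP
    hZ0 hZ1 hZP' g ?_
  have e0 : ∑ v ∈ Z0, (v.ord (j - algebraMap K F a0) - 1)
      = (Fintype.card I : ℤ) - Z0.card := by
    rw [Finset.sum_sub_distrib, hs0]
    simp
  have e1 : ∑ v ∈ Z1, (v.ord (j - algebraMap K F a1) - 1)
      = (Fintype.card I : ℤ) - Z1.card := by
    rw [Finset.sum_sub_distrib, hs1]
    simp
  have eP : ∑ v ∈ ZP, (v.ord j - 1) = -(Fintype.card I : ℤ) - ZP.card := by
    rw [Finset.sum_sub_distrib, ← hsP]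
    simp [Place.ord_inv]
  rw [e0, e1, eP, hc0, hc1, hcP]
  omega

end Fermat.Agent.S24
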