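import Mathlib
import Fermat.Prelude.Def_AlgebraicCurve_CanonicalDivisor

/-!
# S24, layer (F): the local differential lemma, purely algebraically

For a place `v` of `F/K` with residue field `K` (char 0) and `Ω[F⁄K]` of rank `≤ 1`:
`v.ordDifferential (D y) = v.ord y - 1` whenever `v.ord y ≠ 0`.

Method: Taylor expansion ring hom `O_v → K⟦X⟧` at `v`, the derivation `d⁄dX`, and the
localisation property of Kähler differentials.
-/

set_option autoImplicit false

namespace Fermat.Agent.S24

open AlgebraicCurve KaehlerDifferential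

namespace Taylor

open PowerSeries

section DVR

variable {K : Type*} [Field K] {A : Type*} [CommRing A] [IsDomain A] [IsDiscreteValuationRing A]
  [Algebra K A]

/-- `f` is a Taylor expansion of `a` in the parameter `π`. -/
def IsExp (π : A) (a : A) (f : PowerSeries K) : Prop :=
  ∀ n : ℕ, π ^ n ∣ a - Polynomial.aeval π (trunc n f)

variable {π : A}

theorem isUnit_algebraMap_of_ne_zero {c : K} (hc : c ≠ 0) : IsUnit (algebraMap K A c) :=
  (IsUnit.mk0 c hc).map (algebraMap K A)

theorem trunc_sub_eq_monomial {f g : PowerSeries K} {m : ℕ}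
    (h : ∀ i < m, coeff i f = coeff i g) :
    trunc (m + 1) f - trunc (m + 1) g = Polynomial.monomial m (coeff m f - coeff m g) := by
  ext i
  rw [Polynomial.coeff_sub, coeff_trunc, coeff_trunc, Polynomial.coeff_monomial]
  by_cases hi : i < m + 1
  · rw [if_pos hi, if_pos hi]
    rcases Nat.lt_succ_iff_lt_or_eq.mp hi with h1 | h1
    · rw [h i h1, sub_self, if_neg (by omega)]
    · subst h1; simp
  · rw [if_neg hi, if_neg hi, sub_zero, if_neg (by omega)]

theorem IsExp.unique (hπ : Irreducible π) {a : A} {f g : PowerSeries K}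
    (hf : IsExp π a f) (hg : IsExp π a g) : f = g := by
  by_contra hne
  have hex : ∃ m, coeff m f ≠ coeff m g := by
    by_contra h
    push_neg at h
    exact hne (PowerSeries.ext h)
  classical
  let m := Nat.find hex
  have hm : coeff m f ≠ coeff m g := Nat.find_spec hex
  have hlt : ∀ i < m, coeff i f = coeff i g := fun i hi => by
    have := Nat.find_min hex hi
    push_neg at this
    exact this
  have h1 := hf (m + 1)
  have h2 := hg (m + 1)
  have h3 : π ^ (m + 1) ∣ Polynomial.aeval π (trunc (m + 1) f - trunc (m + 1) g) := by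
    have := dvd_sub h2 h1
    rw [map_sub]
    convert this using 1
    ring
  rw [trunc_sub_eq_monomial hlt, Polynomial.aeval_monomial, pow_succ'] at h3
  have hπ0 : π ^ m ≠ 0 := pow_ne_zero _ hπ.ne_zero
  have h4 : π ∣ algebraMap K A (coeff m f - coeff m g) :=
    (mul_dvd_mul_iff_right hπ0).mp h3
  exact hπ.not_isUnit (isUnit_of_dvd_unit h4 (isUnit_algebraMap_of_ne_zero (sub_ne_zero.mpr hm)))

theorem IsExp.add {a b : A} {f g : PowerSeries K} (hf : IsExp π a f) (hg : IsExp π b g) :
    IsExp π (a + b) (f + g) := by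
  intro n
  have := dvd_add (hf n) (hg n)
  rw [map_add, map_add]
  convert this using 1
  ring

theorem IsExp.zero : IsExp π (0 : A) (0 : PowerSeries K) := by
  intro n
  simp

theorem IsExp.algebraMap (c : K) : IsExp π (algebraMap K A c) (C c : PowerSeries K) := by
  intro n
  rcases n with _ | n
  · simp
  · rw [trunc_C, Polynomial.aeval_C, sub_self]
    exact dvd_zero _

theorem IsExp.one : IsExp π (1 : A) (1 : PowerSeries K) := by
  have := IsExp.algebraMap (π := π) (1 : K)
  rwa [map_one, map_one] at this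

theorem IsExp.X : IsExp π π (PowerSeries.X : PowerSeries K) := by
  intro n
  rcases n with _ | _ | n
  · simp
  · have : trunc 1 (PowerSeries.X : PowerSeries K) = 0 := by
      ext i
      rw [coeff_trunc]
      by_cases hi : i < 1
      · rw [if_pos hi]
        have : i = 0 := by omega
        subst this
        simp
      · rw [if_neg hi]; simp
    rw [this, map_zero, sub_zero, pow_one]
  · rw [trunc_X, Polynomial.aeval_X, sub_self]
    exact dvd_zero _

theorem X_pow_dvd_trunc_mul_sub (n : ℕ) (f g : PowerSeries K) :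
    (Polynomial.X : Polynomial K) ^ n ∣ trunc n f * trunc n g - trunc n (f * g) := by
  rw [Polynomial.X_pow_dvd_iff]
  intro d hd
  rw [Polynomial.coeff_sub, sub_eq_zero, ← trunc_trunc_mul_trunc, coeff_trunc, if_pos hd,
    ← Polynomial.coe_mul, Polynomial.coeff_coe]

theorem IsExp.mul {a b : A} {f g : PowerSeries K} (hf : IsExp π a f) (hg : IsExp π b g) :
    IsExp π (a * b) (f * g) := by
  intro n
  obtain ⟨q, hq⟩ := X_pow_dvd_trunc_mul_sub n f g
  have h3 : π ^ n ∣ Polynomial.aeval π (trunc n f) * Polynomial.aeval π (trunc n g)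
      - Polynomial.aeval π (trunc n (f * g)) := by
    rw [← map_mul, ← map_sub, hq, map_mul, map_pow, Polynomial.aeval_X]
    exact dvd_mul_right _ _
  have h4 := dvd_add (dvd_add ((hf n).mul_right b)
    ((hg n).mul_left (Polynomial.aeval π (trunc n f)))) h3
  convert h4 using 1
  ring

variable (hres : Function.Surjective (algebraMap K (IsLocalRing.ResidueField A)))

include hres in
theorem exists_step (hπ : Irreducible π) (a : A) :
    ∃ c : K, ∃ b : A, a - algebraMap K A c = π * b := by
  obtain ⟨c, hc⟩ := hres (IsLocalRing.residue A a)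
  refine ⟨c, ?_⟩
  have h1 : IsLocalRing.residue A (a - algebraMap K A c) = 0 := by
    rw [map_sub, ← hc, IsScalarTower.algebraMap_apply K A (IsLocalRing.ResidueField A),
      IsLocalRing.ResidueField.algebraMap_eq, sub_self]
  rw [IsLocalRing.residue_eq_zero_iff, hπ.maximalIdeal_eq, Ideal.mem_span_singleton] at h1
  exact h1

include hres in
theorem exists_isExp (hπ : Irreducible π) (a : A) : ∃ f : PowerSeries K, IsExp π a f := by
  classical
  choose cf nx hstep using exists_step hres hπ
  let r : ℕ → A := fun n => nx^[n] a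
  let f : PowerSeries K := PowerSeries.mk fun n => cf (r n)
  refine ⟨f, ?_⟩
  have key : ∀ n, a - Polynomial.aeval π (trunc n f) = π ^ n * r n := by
    intro n
    induction n with
    | zero => simp [r]
    | succ n ih =>
      rw [trunc_succ, map_add, Polynomial.aeval_monomial, ← sub_sub, ih]
      have h1 : coeff n f = cf (r n) := by simp [f]
      have h2 : r (n + 1) = nx (r n) := by
        simp only [r]
        rw [Function.iterate_succ_apply']
      rw [h1, h2, pow_succ, mul_assoc, ← hstep (r n)]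
      ring
  intro n
  rw [key n]
  exact dvd_mul_right _ _

/-- The Taylor expansion at a discrete valuation ring with coefficient field `K`. -/
noncomputable def taylor (hπ : Irreducible π) : A →ₐ[K] PowerSeries K where
  toFun a := (exists_isExp hres hπ a).choose
  map_one' := IsExp.unique hπ (exists_isExp hres hπ 1).choose_spec IsExp.one
  map_mul' a b := IsExp.unique hπ (exists_isExp hres hπ (a * b)).choose_spec
    (IsExp.mul (exists_isExp hres hπ a).choose_spec (exists_isExp hres hπ b).choose_spec)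
  map_zero' := IsExp.unique hπ (exists_isExp hres hπ 0).choose_spec IsExp.zero
  map_add' a b := IsExp.unique hπ (exists_isExp hres hπ (a + b)).choose_spec
    (IsExp.add (exists_isExp hres hπ a).choose_spec (exists_isExp hres hπ b).choose_spec)
  commutes' c := IsExp.unique hπ (exists_isExp hres hπ _).choose_spec (IsExp.algebraMap c)

theorem taylor_isExp (hπ : Irreducible π) (a : A) : IsExp π a (taylor hres hπ a) :=
  (exists_isExp hres hπ a).choose_spec

theorem taylor_pi (hπ : Irreducible π) : taylor hres hπ π = PowerSeries.X :=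
  IsExp.unique hπ (taylor_isExp hres hπ π) IsExp.X

theorem eq_zero_of_forall_pow_dvd (hπ : Irreducible π) {a : A} (h : ∀ n : ℕ, π ^ n ∣ a) :
    a = 0 := by
  by_contra ha
  obtain ⟨n, u, rfl⟩ := IsDiscreteValuationRing.eq_unit_mul_pow_irreducible ha hπ
  have h1 := h (n + 1)
  rw [pow_succ, mul_comm (u : A)] at h1
  have h2 : π ∣ (u : A) := (mul_dvd_mul_iff_left (pow_ne_zero n hπ.ne_zero)).mp h1
  exact hπ.not_isUnit (isUnit_of_dvd_unit h2 u.isUnit)

theorem taylor_injective (hπ : Irreducible π) : Function.Injective (taylor hres hπ) := by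
  rw [injective_iff_map_eq_zero]
  intro a ha
  have h := taylor_isExp hres hπ a
  rw [ha] at h
  refine eq_zero_of_forall_pow_dvd hπ fun n => ?_
  have := h n
  simpa using this

theorem trunc_one_eq (f : PowerSeries K) : trunc 1 f = Polynomial.C (constantCoeff f) := by
  ext i
  rw [coeff_trunc, Polynomial.coeff_C]
  by_cases hi : i = 0
  · subst hi; simp
  · rw [if_neg (by omega), if_neg hi]

theorem constantCoeff_taylor_ne_zero (hπ : Irreducible π) {u : A} (hu : IsUnit u) :
    constantCoeff (taylor hres hπ u) ≠ 0 := by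
  intro h0
  have h := taylor_isExp hres hπ u 1
  rw [trunc_one_eq, h0, map_zero, map_zero, sub_zero, pow_one] at h
  exact hπ.not_isUnit (isUnit_of_dvd_unit h hu)

theorem isUnit_taylor (hπ : Irreducible π) {u : A} (hu : IsUnit u) :
    IsUnit (taylor hres hπ u) := hu.map _

theorem isUnit_of_isUnit_taylor (hπ : Irreducible π) {d : A} (hd : IsUnit (taylor hres hπ d)) :
    IsUnit d := by
  by_contra hnu
  have h1 : d ∈ IsLocalRing.maximalIdeal A := (IsLocalRing.mem_maximalIdeal d).mpr hnu
  rw [hπ.maximalIdeal_eq, Ideal.mem_span_singleton] at h1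
  obtain ⟨e, rfl⟩ := h1
  rw [map_mul, taylor_pi] at hd
  have h2 : IsUnit (PowerSeries.X : PowerSeries K) := isUnit_of_mul_isUnit_left hd
  rw [PowerSeries.isUnit_iff_constantCoeff] at h2
  simp at h2

end DVR

section Diff

variable {K : Type*} [Field K] {A : Type*} [CommRing A] [IsDomain A]
  [IsDiscreteValuationRing A] [Algebra K A]
variable (hres : Function.Surjective (algebraMap K (IsLocalRing.ResidueField A)))
variable {π : A}

/-- The `K`-linear map `Ω[A⁄K] → K⟦X⟧` induced by the derivation `d⁄dX ∘ taylor`. -/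
noncomputable def psi (hπ : Irreducible π) : Ω[A⁄K] →ₗ[K] PowerSeries K :=
  letI : Algebra A (PowerSeries K) := (taylor hres hπ).toRingHom.toAlgebra
  haveI : IsScalarTower K A (PowerSeries K) :=
    IsScalarTower.of_algebraMap_eq (fun c => ((taylor hres hπ).commutes c).symm)
  (((PowerSeries.derivative K).compAlgebraMap A).liftKaehlerDifferential).restrictScalars K

theorem psi_smul (hπ : Irreducible π) (a : A) (ω : Ω[A⁄K]) :
    psi hres hπ (a • ω) = taylor hres hπ a * psi hres hπ ω := by
  letI : Algebra A (PowerSeries K) := (taylor hres hπ).toRingHom.toAlgebra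
  haveI : IsScalarTower K A (PowerSeries K) :=
    IsScalarTower.of_algebraMap_eq (fun c => ((taylor hres hπ).commutes c).symm)
  show (((PowerSeries.derivative K).compAlgebraMap A).liftKaehlerDifferential) (a • ω) = _
  rw [LinearMap.map_smul, Algebra.smul_def]
  rfl

theorem psi_D (hπ : Irreducible π) (a : A) :
    psi hres hπ (KaehlerDifferential.D K A a) = PowerSeries.derivative K (taylor hres hπ a) := by
  letI : Algebra A (PowerSeries K) := (taylor hres hπ).toRingHom.toAlgebra
  haveI : IsScalarTower K A (PowerSeries K) :=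
    IsScalarTower.of_algebraMap_eq (fun c => ((taylor hres hπ).commutes c).symm)
  show (((PowerSeries.derivative K).compAlgebraMap A).liftKaehlerDifferential)
    (KaehlerDifferential.D K A a) = _
  rw [Derivation.liftKaehlerDifferential_comp_D]
  rfl

variable {F : Type*} [Field F] [Algebra K F] [Algebra A F] [IsScalarTower K A F]
  [IsFractionRing A F]

theorem psi_eq_zero_of_map_eq_zero (hπ : Irreducible π) (ω : Ω[A⁄K])
    (hω : KaehlerDifferential.map K K A F ω = 0) : psi hres hπ ω = 0 := by
  haveI := KaehlerDifferential.isLocalizedModule_map K A F (nonZeroDivisors A)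
  obtain ⟨s, hs⟩ := (IsLocalizedModule.eq_zero_iff (nonZeroDivisors A)
    (KaehlerDifferential.map K K A F)).mp hω
  have h1 : psi hres hπ ((s : A) • ω) = 0 := by
    have : (s : A) • ω = s • ω := rfl
    rw [this, hs, map_zero]
  rw [psi_smul] at h1
  rcases mul_eq_zero.mp h1 with h2 | h2
  · exfalso
    have h3 : (s : A) = 0 := taylor_injective hres hπ (by rw [h2, map_zero])
    exact nonZeroDivisors.coe_ne_zero s h3
  · exact h2

include hres in
theorem D_pi_ne_zero (hπ : Irreducible π) :
    KaehlerDifferential.D K F (algebraMap A F π) ≠ 0 := by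
  intro h0
  have h1 : KaehlerDifferential.map K K A F (KaehlerDifferential.D K A π) = 0 := by
    rw [KaehlerDifferential.map_D]; exact h0
  have h2 := psi_eq_zero_of_map_eq_zero hres hπ _ h1
  rw [psi_D, taylor_pi, PowerSeries.derivative_X] at h2
  exact one_ne_zero h2

theorem exists_coeff (hπ : Irreducible π) (a : A) (c : F)
    (h : KaehlerDifferential.D K F (algebraMap A F a) =
      c • KaehlerDifferential.D K F (algebraMap A F π)) :
    ∃ c' : A, algebraMap A F c' = c ∧
      taylor hres hπ c' = PowerSeries.derivative K (taylor hres hπ a) := by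
  obtain ⟨a₁, s₁, hs₁, rfl⟩ := IsFractionRing.div_surjective A c
  have hs₁0 : s₁ ≠ 0 := nonZeroDivisors.ne_zero hs₁
  have hs₁F : algebraMap A F s₁ ≠ 0 := by
    rwa [Ne, map_eq_zero_iff _ (IsFractionRing.injective A F)]
  -- the relation in `Ω[A⁄K]`
  have h1 : KaehlerDifferential.map K K A F
      (s₁ • KaehlerDifferential.D K A a - a₁ • KaehlerDifferential.D K A π) = 0 := by
    have e1 : ∀ (r : A) (m : Ω[F⁄K]), r • m = algebraMap A F r • m :=
      fun r m => (algebraMap_smul F r m).symm
    rw [map_sub, LinearMap.map_smul, LinearMap.map_smul, KaehlerDifferential.map_D,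
      KaehlerDifferential.map_D, h, e1, e1, smul_smul, ← sub_smul]
    have : algebraMap A F s₁ * (algebraMap A F a₁ / algebraMap A F s₁) - algebraMap A F a₁ = 0 := by
      field_simp
      ring
    rw [this, zero_smul]
  have h2 := psi_eq_zero_of_map_eq_zero hres hπ _ h1
  rw [map_sub, psi_smul, psi_smul, psi_D, psi_D, taylor_pi, PowerSeries.derivative_X, mul_one,
    sub_eq_zero] at h2
  -- `s₁ ∣ a₁`
  have hdvd : s₁ ∣ a₁ := by
    rcases ValuationRing.dvd_total s₁ a₁ with h3 | ⟨d, hd⟩
    · exact h3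
    · have ha₁ : a₁ ≠ 0 := by
        rintro rfl
        rw [zero_mul] at hd
        exact hs₁0 hd
      have h4 : taylor hres hπ a₁ * 1 = taylor hres hπ a₁ *
          (taylor hres hπ d * PowerSeries.derivative K (taylor hres hπ a)) := by
        rw [mul_one, ← mul_assoc, ← map_mul, ← hd, h2]
      have h5 : taylor hres hπ a₁ ≠ 0 := by
        intro h0
        exact ha₁ (taylor_injective hres hπ (by rw [h0, map_zero]))
      have h6 := mul_left_cancel₀ h5 h4
      have h7 : IsUnit (taylor hres hπ d) := IsUnit.of_mul_eq_one _ h6.symm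
      have h8 : IsUnit d := isUnit_of_isUnit_taylor hres hπ h7
      obtain ⟨u, rfl⟩ := h8
      exact ⟨(↑u⁻¹ : A), by rw [hd, mul_assoc, Units.mul_inv, mul_one]⟩
  obtain ⟨c', rfl⟩ := hdvd
  refine ⟨c', ?_, ?_⟩
  · rw [map_mul, mul_div_cancel_left₀ _ hs₁F]
  · have h5 : taylor hres hπ s₁ ≠ 0 := by
      intro h0
      exact hs₁0 (taylor_injective hres hπ (by rw [h0, map_zero]))
    rw [map_mul] at h2
    exact (mul_left_cancel₀ h5 h2).symm

end Diff

section Order

variable {K : Type*} [Field K] [CharZero K] {A : Type*} [CommRing A] [IsDomain A]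
  [IsDiscreteValuationRing A] [Algebra K A]
variable (hres : Function.Surjective (algebraMap K (IsLocalRing.ResidueField A)))
variable {π : A}

omit [CharZero K] in
theorem order_taylor_unit_mul_pow (hπ : Irreducible π) (u : Aˣ) (m : ℕ) :
    (taylor hres hπ ((u : A) * π ^ m)).order = m := by
  rw [map_mul, map_pow, taylor_pi, order_mul, order_X_pow,
    order_zero_of_unit (isUnit_taylor hres hπ u.isUnit), zero_add]

theorem exists_unit_of_deriv (hπ : Irreducible π) (u : Aˣ) {n : ℕ} (hn : 1 ≤ n) (c' : A)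
    (hc : taylor hres hπ c' = PowerSeries.derivative K (taylor hres hπ ((u : A) * π ^ n))) :
    ∃ u' : Aˣ, c' = (u' : A) * π ^ (n - 1) := by
  have hU0 : constantCoeff (taylor hres hπ (u : A)) ≠ 0 :=
    constantCoeff_taylor_ne_zero hres hπ u.isUnit
  have h1 : taylor hres hπ c' = PowerSeries.X ^ (n - 1) *
      ((n : PowerSeries K) * taylor hres hπ (u : A) +
        PowerSeries.X * PowerSeries.derivative K (taylor hres hπ (u : A))) := by
    rw [hc, map_mul, map_pow, taylor_pi, Derivation.leibniz, Derivation.leibniz_pow, derivative_X]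
    obtain ⟨k, rfl⟩ : ∃ k, n = k + 1 := ⟨n - 1, by omega⟩
    simp only [Nat.add_sub_cancel, smul_eq_mul, nsmul_eq_mul, mul_one]
    ring
  have hW : IsUnit ((n : PowerSeries K) * taylor hres hπ (u : A) +
        PowerSeries.X * PowerSeries.derivative K (taylor hres hπ (u : A))) := by
    rw [isUnit_iff_constantCoeff, map_add, map_mul, map_mul, constantCoeff_X, zero_mul, add_zero,
      map_natCast]
    exact (mul_ne_zero (Nat.cast_ne_zero.mpr (by omega)) hU0).isUnit
  have hord : (taylor hres hπ c').order = (n - 1 : ℕ) := by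
    rw [h1, order_mul, order_X_pow, order_zero_of_unit hW, add_zero]
  have hc0 : c' ≠ 0 := by
    rintro rfl
    rw [map_zero, order_zero] at hord
    exact ENat.top_ne_coe _ hord
  obtain ⟨m, u', rfl⟩ := IsDiscreteValuationRing.eq_unit_mul_pow_irreducible hc0 hπ
  rw [order_taylor_unit_mul_pow] at hord
  have : m = n - 1 := by exact_mod_cast hord
  exact ⟨u', by rw [this]⟩

end Order

section PlaceLemmas

variable {K F : Type*} [Field K] [Field F] [Algebra K F]

theorem residue_surjective (v : Place K F) (hdeg : v.deg = 1) :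
    Function.Surjective (algebraMap K (IsLocalRing.ResidueField v.toValuationSubring)) := by
  intro r
  obtain ⟨c, hc⟩ := (finrank_eq_one_iff_of_nonzero' (1 : v.ResidueField) one_ne_zero).mp hdeg r
  exact ⟨c, by rw [Algebra.algebraMap_eq_smul_one, hc]⟩

theorem ord_neg (v : Place K F) (x : F) : v.ord (-x) = v.ord x := by
  simp [Place.ord]

theorem ord_ne_zero_imp (v : Place K F) {y : F} (hy : v.ord y ≠ 0) : y ≠ 0 := by
  rintro rfl
  exact hy v.ord_zero

variable [CharZero K]

/-- The core statement: positive order. -/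
theorem exists_coeff_of_pos (v : Place K F) (hdeg : v.deg = 1) {π : v.toValuationSubring}
    (hπ : Irreducible π)
    (hsp : ∀ w : Ω[F⁄K], ∃ c : F, w = c • KaehlerDifferential.D K F (π : F))
    (y : F) (hy : 0 < v.ord y) :
    ∃ c : F, c ≠ 0 ∧ KaehlerDifferential.D K F y = c • KaehlerDifferential.D K F (π : F) ∧
      v.ord c = v.ord y - 1 := by
  have hres := residue_surjective v hdeg
  have hy0 : y ≠ 0 := ord_ne_zero_imp v hy.ne'
  obtain ⟨u, hu⟩ := v.exists_unit_mul_zpow hy0 hπ
  obtain ⟨n, hn⟩ : ∃ n : ℕ, (n : ℤ) = v.ord y := ⟨(v.ord y).toNat, Int.toNat_of_nonneg hy.le⟩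
  have hn1 : 1 ≤ n := by omega
  have hya : y = algebraMap v.toValuationSubring F ((u : v.toValuationSubring) * π ^ n) := by
    rw [hu, ← hn, zpow_natCast]
    rfl
  obtain ⟨c, hc⟩ := hsp (KaehlerDifferential.D K F y)
  have hc' : KaehlerDifferential.D K F
      (algebraMap v.toValuationSubring F ((u : v.toValuationSubring) * π ^ n)) =
      c • KaehlerDifferential.D K F (algebraMap v.toValuationSubring F π) := by
    rw [← hya]; exact hc
  obtain ⟨c', hc'1, hc'2⟩ := exists_coeff hres hπ _ c hc'
  obtain ⟨u', hu'⟩ := exists_unit_of_deriv hres hπ u hn1 c' hc'2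
  have hcF : c = ((u' : v.toValuationSubring) : F) * ((π : F) ^ (((n - 1 : ℕ) : ℤ))) := by
    rw [← hc'1, hu', zpow_natCast]
    rfl
  refine ⟨c, ?_, hc, ?_⟩
  · rw [hcF]
    refine mul_ne_zero ?_ (zpow_ne_zero _ ?_)
    · simp
    · simpa using hπ.ne_zero
  · rw [hcF, v.ord_unit_smul_zpow u' hπ, ← hn]
    omega

/-- The core statement: nonzero order. -/
theorem exists_coeff_of_ne (v : Place K F) (hdeg : v.deg = 1) {π : v.toValuationSubring}
    (hπ : Irreducible π)
    (hsp : ∀ w : Ω[F⁄K], ∃ c : F, w = c • KaehlerDifferential.D K F (π : F))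
    (y : F) (hy : v.ord y ≠ 0) :
    ∃ c : F, c ≠ 0 ∧ KaehlerDifferential.D K F y = c • KaehlerDifferential.D K F (π : F) ∧
      v.ord c = v.ord y - 1 := by
  rcases lt_or_gt_of_ne hy with hneg | hpos
  · have hy0 : y ≠ 0 := ord_ne_zero_imp v hy
    have hz : 0 < v.ord y⁻¹ := by rw [v.ord_inv]; omega
    obtain ⟨c, hc0, hc, hcord⟩ := exists_coeff_of_pos v hdeg hπ hsp y⁻¹ hz
    refine ⟨-(y ^ 2 * c), neg_ne_zero.mpr (mul_ne_zero (pow_ne_zero 2 hy0) hc0), ?_, ?_⟩
    · have h1 := Derivation.leibniz_inv (KaehlerDifferential.D K F) y⁻¹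
      rw [inv_inv, hc, smul_smul] at h1
      rw [h1]
      congr 1
      ring
    · rw [ord_neg, v.ord_mul (pow_ne_zero 2 hy0) hc0, pow_two, v.ord_mul hy0 hy0, hcord,
        v.ord_inv]
      ring
  · exact exists_coeff_of_pos v hdeg hπ hsp y hpos

/-- Packaged consequences of the rank-one hypothesis at a place with residue field `K`. -/
theorem main (v : Place K F) (hdeg : v.deg = 1)
    (hspan : ∃ w0 : Ω[F⁄K], ∀ w : Ω[F⁄K], ∃ c : F, w = c • w0) :
    v.DCoordGenerates ∧ Nontrivial Ω[F⁄K] ∧
      ∀ y : F, v.ord y ≠ 0 → ∃ c : F, c ≠ 0 ∧ KaehlerDifferential.D K F y = c • v.dCoord ∧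
        v.ord c = v.ord y - 1 := by
  have hres := residue_surjective v hdeg
  obtain ⟨π, hπ, hdc⟩ : ∃ π : v.toValuationSubring, Irreducible π ∧
      v.dCoord = KaehlerDifferential.D K F (π : F) :=
    ⟨(IsDiscreteValuationRing.exists_irreducible v.toValuationSubring).choose,
     (IsDiscreteValuationRing.exists_irreducible v.toValuationSubring).choose_spec, rfl⟩
  have hD : KaehlerDifferential.D K F (π : F) ≠ 0 :=
    D_pi_ne_zero (F := F) hres hπ
  obtain ⟨w0, hw0⟩ := hspan
  obtain ⟨c₀, hc₀⟩ := hw0 (KaehlerDifferential.D K F (π : F))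
  have hc₀0 : c₀ ≠ 0 := by
    rintro rfl
    rw [zero_smul] at hc₀
    exact hD hc₀
  have hsp : ∀ w : Ω[F⁄K], ∃ c : F, w = c • KaehlerDifferential.D K F (π : F) := by
    intro w
    obtain ⟨c, hc⟩ := hw0 w
    refine ⟨c * c₀⁻¹, ?_⟩
    rw [hc₀, smul_smul, mul_assoc, inv_mul_cancel₀ hc₀0, mul_one, hc]
  refine ⟨⟨?_⟩, ⟨⟨KaehlerDifferential.D K F (π : F), 0, hD⟩⟩, ?_⟩
  · rw [hdc, Submodule.eq_top_iff']
    intro w
    obtain ⟨c, hc⟩ := hsp w
    exact Submodule.mem_span_singleton.mpr ⟨c, hc.symm⟩
  · intro y hy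
    rw [hdc]
    exact exists_coeff_of_ne v hdeg hπ hsp y hy

end PlaceLemmas

end Taylor

section Main

variable {K F : Type*} [Field K] [Field F] [Algebra K F] [CharZero K]

/-- `d(uniformizer)` generates `Ω[F⁄K]`. -/
theorem dCoordGenerates (v : Place K F) (hdeg : v.deg = 1)
    (hspan : ∃ w0 : Ω[F⁄K], ∀ w : Ω[F⁄K], ∃ c : F, w = c • w0) : v.DCoordGenerates :=
  (Taylor.main v hdeg hspan).1

theorem nontrivial_kaehler (v : Place K F) (hdeg : v.deg = 1)
    (hspan : ∃ w0 : Ω[F⁄K], ∀ w : Ω[F⁄K], ∃ c : F, w = c • w0) : Nontrivial Ω[F⁄K] :=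
  (Taylor.main v hdeg hspan).2.1

/-- **Local differential lemma.** `ord_v (dy) = ord_v y - 1` when `ord_v y ≠ 0`. -/
theorem ordDifferential_D_eq (v : Place K F) (hdeg : v.deg = 1)
    (hspan : ∃ w0 : Ω[F⁄K], ∀ w : Ω[F⁄K], ∃ c : F, w = c • w0) (y : F) (hy : v.ord y ≠ 0) :
    v.ordDifferential (KaehlerDifferential.D K F y) = v.ord y - 1 := by
  obtain ⟨hgen, hnt, h⟩ := Taylor.main v hdeg hspan
  obtain ⟨c, -, hc, hord⟩ := h y hy
  rw [Place.ordDifferential, v.differentialCoeff_unique hc, hord]

theorem D_ne_zero_of_ord_ne_zero (v : Place K F) (hdeg : v.deg = 1)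
    (hspan : ∃ w0 : Ω[F⁄K], ∀ w : Ω[F⁄K], ∃ c : F, w = c • w0) (y : F) (hy : v.ord y ≠ 0) :
    KaehlerDifferential.D K F y ≠ 0 := by
  obtain ⟨hgen, hnt, h⟩ := Taylor.main v hdeg hspan
  obtain ⟨c, hc0, hc, -⟩ := h y hy
  rw [hc]
  exact smul_ne_zero hc0 v.dCoord_ne_zero

theorem ordDifferential_smul_eq (v : Place K F) (hdeg : v.deg = 1)
    (hspan : ∃ w0 : Ω[F⁄K], ∀ w : Ω[F⁄K], ∃ c : F, w = c • w0) {c : F} (hc : c ≠ 0)
    {w : Ω[F⁄K]} (hw : w ≠ 0) :
    v.ordDifferential (c • w) = v.ord c + v.ordDifferential w := by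
  obtain ⟨hgen, hnt, -⟩ := Taylor.main v hdeg hspan
  refine v.ordDifferential_smul hc ?_
  intro h0
  apply hw
  rw [← v.differentialCoeff_smul_dCoord w, h0, zero_smul]

/-- An integral non-constant element has a residue `a ∈ K` with `ord_v (x - a) > 0`. -/
theorem exists_ord_sub_pos (v : Place K F) (hdeg : v.deg = 1) (x : F)
    (hx : x ∈ v.toValuationSubring) (hxK : ∀ a : K, x ≠ algebraMap K F a) :
    ∃ a : K, 0 < v.ord (x - algebraMap K F a) := by
  have hres := Taylor.residue_surjective v hdeg
  obtain ⟨π, hπ⟩ := IsDiscreteValuationRing.exists_irreducible v.toValuationSubring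
  obtain ⟨a, b, hab⟩ := Taylor.exists_step hres hπ (⟨x, hx⟩ : v.toValuationSubring)
  refine ⟨a, ?_⟩
  have hF : x - algebraMap K F a = (π : F) * (b : F) := by
    have := congrArg (fun t : v.toValuationSubring => (t : F)) hab
    simpa using this
  have hb : b ≠ 0 := by
    rintro rfl
    apply hxK a
    rw [ZeroMemClass.coe_zero, mul_zero, sub_eq_zero] at hF
    exact hF
  obtain ⟨m, u, rfl⟩ := IsDiscreteValuationRing.eq_unit_mul_pow_irreducible hb hπ
  have h2 : x - algebraMap K F a =
      ((u : v.toValuationSubring) : F) * (π : F) ^ (((m + 1 : ℕ) : ℤ)) := by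
    rw [hF, zpow_natCast]
    push_cast
    ring
  rw [h2, v.ord_unit_smul_zpow u hπ]
  omega

/-- At a place where `x` is integral (and non-constant): `ord_v (dx) = e - 1`,
`e = ord_v (x - a) > 0`. -/
theorem ordDifferential_D_of_mem (v : Place K F) (hdeg : v.deg = 1)
    (hspan : ∃ w0 : Ω[F⁄K], ∀ w : Ω[F⁄K], ∃ c : F, w = c • w0) (x : F)
    (hx : x ∈ v.toValuationSubring) (hxK : ∀ a : K, x ≠ algebraMap K F a) :
    ∃ a : K, 0 < v.ord (x - algebraMap K F a) ∧
      v.ordDifferential (KaehlerDifferential.D K F x) = v.ord (x - algebraMap K F a) - 1 := by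
  obtain ⟨a, ha⟩ := exists_ord_sub_pos v hdeg x hx hxK
  refine ⟨a, ha, ?_⟩
  have h := ordDifferential_D_eq v hdeg hspan (x - algebraMap K F a) ha.ne'
  rwa [map_sub, Derivation.map_algebraMap, sub_zero] at h

/-- If `0 < ord_v (x - a)` then `ord_v (dx) = ord_v (x - a) - 1`. -/
theorem ordDifferential_D_of_sub (v : Place K F) (hdeg : v.deg = 1)
    (hspan : ∃ w0 : Ω[F⁄K], ∀ w : Ω[F⁄K], ∃ c : F, w = c • w0) (x : F) (a : K)
    (ha : v.ord (x - algebraMap K F a) ≠ 0) :
    v.ordDifferential (KaehlerDifferential.D K F x) = v.ord (x - algebraMap K F a) - 1 := by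
  have h := ordDifferential_D_eq v hdeg hspan (x - algebraMap K F a) ha
  rwa [map_sub, Derivation.map_algebraMap, sub_zero] at h

end Main

end Fermat.Agent.S24
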