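import Fermat.Agent.S24.Defs
import Fermat.Agent.S24.GenusAbs
import Fermat.Agent.S24.DiffAlg
import Fermat.Agent.S24.Taylor
import Fermat.Agent.S24.FFBasic
import Fermat.Agent.S24.FFDeg
import Fermat.Agent.S20

/-!
# S24: final assembly (Riemann–Hurwitz for `j` on `X₀(N)`)

`genus_eq_genusFormula_of` turns the ramification data of `j : X₀(N) → ℙ¹`
(places over `0`, `1728`, `∞`; unramifiedness elsewhere) into the frozen genus statement.
-/

open AlgebraicCurve ModularCurve KaehlerDifferential IntermediateField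

namespace Fermat.Agent.S24

/-- the generator `j = j(q)` of the function field of `X₀(N)`. -/
noncomputable abbrev jOne (N : ℕ) : FF N := jBar N 1 (one_dvd N) Nat.one_pos

/-- numerics of the Riemann–Hurwitz count. -/
theorem hurwitz_numerics (N : ℕ) [NeZero N] (s0 s1 sP : ℤ)
    (h1 : 2 * s1 = (dedekindPsi N : ℤ) - nuTwo N)
    (h0 : 3 * s0 = 2 * ((dedekindPsi N : ℤ) - nuThree N))
    (hP : sP = -((dedekindPsi N : ℤ) + cuspCount N)) :
    s0 + s1 + sP
      = 2 * ((Module.finrank ℂ (CuspForm (CongruenceSubgroup.Gamma0 N) 2) : ℕ) : ℤ) - 2 := by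
  have hg := Fermat.Agent.S20.result N
  rw [genusFormula] at hg
  set g := Module.finrank ℂ (CuspForm (CongruenceSubgroup.Gamma0 N) 2) with hgdef
  have h12 : (12 : ℚ) * g = 12 + dedekindPsi N - 3 * nuTwo N - 4 * nuThree N - 6 * cuspCount N := by
    rw [hg]; ring
  have h12' : (12 : ℤ) * g = 12 + dedekindPsi N - 3 * nuTwo N - 4 * nuThree N - 6 * cuspCount N := by
    exact_mod_cast h12
  linarith

theorem dedekindPsi_pos (N : ℕ) [NeZero N] : 0 < dedekindPsi N := by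
  rw [dedekindPsi]
  apply Finset.sum_pos' (fun _ _ => Nat.zero_le _)
  exact ⟨1, by simp [NeZero.ne N], by simp [Nat.pos_of_ne_zero (NeZero.ne N)]⟩

variable (N : ℕ) [NeZero N]

/-- **Genus of `X₀(N)` from the ramification of `j`** (all geometric inputs as hypotheses). -/
theorem genus_eq_genusFormula_of
    [AlgebraicCurve.HasCanonicalDivisor (K := AlgebraicClosure ℚ) (F := FF N)]
    (hsep : Algebra.IsSeparable (AlgebraicClosure ℚ)⟮jOne N⟯ (FF N))
    (hdeg : ∀ v : Place (AlgebraicClosure ℚ) (FF N), v.deg = 1)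
    (hprin : ∀ c : FF N, c ≠ 0 → ∃ S : Finset (Place (AlgebraicClosure ℚ) (FF N)),
      (∀ v, v ∉ S → v.ord c = 0) ∧ ∑ v ∈ S, v.ord c = 0)
    (htr : Transcendental (AlgebraicClosure ℚ) (jOne N))
    (hgen : ∀ (a : AlgebraicClosure ℚ), a ≠ 0 → a ≠ 1728 →
      ∀ v : Place (AlgebraicClosure ℚ) (FF N),
        0 < v.ord (jOne N - algebraMap (AlgebraicClosure ℚ) (FF N) a) →
        v.ord (jOne N - algebraMap (AlgebraicClosure ℚ) (FF N) a) = 1)
    (h1728 : ∃ Z : Finset (Place (AlgebraicClosure ℚ) (FF N)),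
      (∀ v, v ∈ Z ↔ 0 < v.ord (jOne N - algebraMap (AlgebraicClosure ℚ) (FF N) 1728)) ∧
      2 * ∑ v ∈ Z, (v.ord (jOne N - algebraMap (AlgebraicClosure ℚ) (FF N) 1728) - 1)
        = (dedekindPsi N : ℤ) - nuTwo N)
    (h0 : ∃ Z : Finset (Place (AlgebraicClosure ℚ) (FF N)),
      (∀ v, v ∈ Z ↔ 0 < v.ord (jOne N - algebraMap (AlgebraicClosure ℚ) (FF N) 0)) ∧
      3 * ∑ v ∈ Z, (v.ord (jOne N - algebraMap (AlgebraicClosure ℚ) (FF N) 0) - 1)
        = 2 * ((dedekindPsi N : ℤ) - nuThree N))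
    (hpole : ∃ P : Finset (Place (AlgebraicClosure ℚ) (FF N)),
      (∀ v, v ∈ P ↔ v.ord (jOne N) < 0) ∧
      ∑ v ∈ P, (v.ord (jOne N) - 1) = -((dedekindPsi N : ℤ) + cuspCount N)) :
    (AlgebraicCurve.genus (AlgebraicClosure ℚ) (FF N) : ℚ) = ModularCurve.genusFormula N := by
  obtain ⟨Z1, hZ1, hs1⟩ := h1728
  obtain ⟨Z0, hZ0, hs0⟩ := h0
  obtain ⟨P, hP, hsP⟩ := hpole
  have hspan : ∀ w : Ω[FF N⁄AlgebraicClosure ℚ], ∃ c : FF N,
      w = c • KaehlerDifferential.D (AlgebraicClosure ℚ) (FF N) (jOne N) :=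
    fun w => DiffAlg.exists_eq_smul_D (K := AlgebraicClosure ℚ) (jOne N) w
  have hspan' : ∃ w0 : Ω[FF N⁄AlgebraicClosure ℚ], ∀ w : Ω[FF N⁄AlgebraicClosure ℚ],
      ∃ c : FF N, w = c • w0 := ⟨_, hspan⟩
  -- a pole of `j` exists
  have hPne : P.Nonempty := by
    rw [Finset.nonempty_iff_ne_empty]
    rintro rfl
    rw [Finset.sum_empty] at hsP
    have h1 : (0 : ℤ) < dedekindPsi N := by exact_mod_cast dedekindPsi_pos N
    have h2 : (0 : ℤ) ≤ cuspCount N := by positivity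
    linarith
  obtain ⟨v0, hv0⟩ := hPne
  have hj : KaehlerDifferential.D (AlgebraicClosure ℚ) (FF N) (jOne N) ≠ 0 :=
    D_ne_zero_of_ord_ne_zero v0 (hdeg v0) hspan' (jOne N) ((hP v0).mp hv0).ne
  have hjK : ∀ a : AlgebraicClosure ℚ, jOne N ≠ algebraMap (AlgebraicClosure ℚ) (FF N) a := by
    intro a h
    exact htr (h ▸ isAlgebraic_algebraMap a)
  have hj0 : jOne N ≠ 0 := fun h => hjK 0 (by rw [h, map_zero])
  have hres : ∀ v : Place (AlgebraicClosure ℚ) (FF N), 0 ≤ v.ord (jOne N) →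
      ∃ a : AlgebraicClosure ℚ, 0 < v.ord (jOne N - algebraMap (AlgebraicClosure ℚ) (FF N) a) :=
    fun v hv => exists_ord_sub_pos v (hdeg v) (jOne N)
      ((Place.ord_nonneg_iff_mem v hj0).mp hv) hjK
  have key := genus_eq_of_ramification (K := AlgebraicClosure ℚ) (F := FF N) (jOne N) 0 1728
    (by norm_num) hdeg hspan hj
    (fun v c w hc hw => ordDifferential_smul_eq v (hdeg v) hspan' hc hw)
    (fun v y hy => ordDifferential_D_eq v (hdeg v) hspan' y hy)
    hprin hres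
    (fun a v ha0 ha1 hv => hgen a ha0 ha1 v hv)
    Z0 Z1 P hZ0 hZ1 hP
    (Module.finrank ℂ (CuspForm (CongruenceSubgroup.Gamma0 N) 2))
    (hurwitz_numerics N _ _ _ hs1 hs0 hsP)
  rw [key]
  exact Fermat.Agent.S20.result N

/-- the same with the function-field inputs (`deg = 1`, principal divisors, separability)
derived from finiteness of `F` over `ℚ̄(j)` and the fundamental identity (FF1). -/
theorem genus_eq_genusFormula_of'
    [AlgebraicCurve.HasCanonicalDivisor (K := AlgebraicClosure ℚ) (F := FF N)]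
    (hFF1 : ∀ (L : IntermediateField (AlgebraicClosure ℚ) (FF N)) [FiniteDimensional L (FF N)]
      (x : FF N), IntermediateField.adjoin (AlgebraicClosure ℚ) {x} = L →
      Transcendental (AlgebraicClosure ℚ) x →
      ∃ 𝒱 : Finset (Place (AlgebraicClosure ℚ) (FF N)),
        (∀ v : Place (AlgebraicClosure ℚ) (FF N), v ∈ 𝒱 ↔ 0 < v.ord x) ∧
        ∑ v ∈ 𝒱, v.ord x = (Module.finrank L (FF N) : ℤ))
    (hfd : FiniteDimensional (AlgebraicClosure ℚ)⟮jOne N⟯ (FF N))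
    (htr : Transcendental (AlgebraicClosure ℚ) (jOne N))
    (hgen : ∀ (a : AlgebraicClosure ℚ), a ≠ 0 → a ≠ 1728 →
      ∀ v : Place (AlgebraicClosure ℚ) (FF N),
        0 < v.ord (jOne N - algebraMap (AlgebraicClosure ℚ) (FF N) a) →
        v.ord (jOne N - algebraMap (AlgebraicClosure ℚ) (FF N) a) = 1)
    (h1728 : ∃ Z : Finset (Place (AlgebraicClosure ℚ) (FF N)),
      (∀ v, v ∈ Z ↔ 0 < v.ord (jOne N - algebraMap (AlgebraicClosure ℚ) (FF N) 1728)) ∧
      2 * ∑ v ∈ Z, (v.ord (jOne N - algebraMap (AlgebraicClosure ℚ) (FF N) 1728) - 1)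
        = (dedekindPsi N : ℤ) - nuTwo N)
    (h0 : ∃ Z : Finset (Place (AlgebraicClosure ℚ) (FF N)),
      (∀ v, v ∈ Z ↔ 0 < v.ord (jOne N - algebraMap (AlgebraicClosure ℚ) (FF N) 0)) ∧
      3 * ∑ v ∈ Z, (v.ord (jOne N - algebraMap (AlgebraicClosure ℚ) (FF N) 0) - 1)
        = 2 * ((dedekindPsi N : ℤ) - nuThree N))
    (hpole : ∃ P : Finset (Place (AlgebraicClosure ℚ) (FF N)),
      (∀ v, v ∈ P ↔ v.ord (jOne N) < 0) ∧
      ∑ v ∈ P, (v.ord (jOne N) - 1) = -((dedekindPsi N : ℤ) + cuspCount N)) :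
    (AlgebraicCurve.genus (AlgebraicClosure ℚ) (FF N) : ℚ) = ModularCurve.genusFormula N := by
  have hsep : Algebra.IsSeparable (AlgebraicClosure ℚ)⟮jOne N⟯ (FF N) := inferInstance
  exact genus_eq_genusFormula_of N hsep
    (fun v => FFDeg.deg_eq_one (AlgebraicClosure ℚ)⟮jOne N⟯ (jOne N) rfl v)
    (fun c hc => FFDeg.sum_ord_eq_zero_of_FF1 hFF1 (AlgebraicClosure ℚ)⟮jOne N⟯ (jOne N) rfl c hc)
    htr hgen h1728 h0 hpole

end Fermat.Agent.S24
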