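import Fermat.Agent.S24.JDef
import Fermat.Agent.S24.JFun
import Fermat.Agent.S20.LevelOneAPI
import Fermat.Agent.S20.FrameAux
import Fermat.Agent.S22.QExpAffine
import Fermat.Prelude.Def_ModularCurve_ArithmeticGalois
import Fermat.Prelude.Def_AlgebraicCurve_CanonicalDivisor

/-!
# S24: shared definitions

* `phi : ℚ̄ →+* ℂ` : a fixed embedding.
* `Hol` : the `ℂ`-algebra of holomorphic functions on `ℍ` (a domain); `Mer := FractionRing Hol`.
* `transl g`, `translM g` : translation `f ↦ f ∘ (g • ·)` by `g : SL(2,ℤ)` on `Hol`, `Mer`.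
* `ordH z`, `ordAt z` : the valuation "order of vanishing at `z`" on `Hol`, `Mer`
  (values `exp (-order)` in `ℤᵐ⁰`).
* `jH`, `jScaled d` : the functions `j` and `z ↦ j (d z)` as elements of `Hol`.
* `jBar N d` : the generator `j(q^d)` of the frozen field `modularFunctionFieldBar N`.
-/

open UpperHalfPlane ModularForm
open scoped MatrixGroups ModularForm Manifold Topology
open WithZero

namespace Fermat.Agent.S24

/-- a fixed embedding of `ℚ̄` into `ℂ`. -/
noncomputable def phi : AlgebraicClosure ℚ →+* ℂ :=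
  haveI : Algebra.IsAlgebraic ℚ (AlgebraicClosure ℚ) := AlgebraicClosure.isAlgebraic ℚ
  (IsAlgClosed.lift : AlgebraicClosure ℚ →ₐ[ℚ] ℂ).toRingHom

theorem phi_injective : Function.Injective phi := phi.injective

/-- The `ℂ`-algebra of holomorphic functions on the upper half plane. -/
def Hol : Subalgebra ℂ (ℍ → ℂ) where
  carrier := {f | MDiff f}
  mul_mem' := fun hf hg => MDifferentiable.mul hf hg
  add_mem' := fun hf hg => MDifferentiable.add hf hg
  algebraMap_mem' := fun _ => mdifferentiable_const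

theorem mem_Hol {f : ℍ → ℂ} : f ∈ Hol ↔ MDiff f := Iff.rfl

theorem Hol.mdiff (h : Hol) : MDiff (h : ℍ → ℂ) := h.2

theorem Hol.ext {h₁ h₂ : Hol} (h : ∀ z, (h₁ : ℍ → ℂ) z = (h₂ : ℍ → ℂ) z) : h₁ = h₂ :=
  Subtype.ext (funext h)

@[simp] theorem Hol.coe_mul (a b : Hol) (z : ℍ) :
    ((a * b : Hol) : ℍ → ℂ) z = (a : ℍ → ℂ) z * (b : ℍ → ℂ) z := rfl

@[simp] theorem Hol.coe_add (a b : Hol) (z : ℍ) :
    ((a + b : Hol) : ℍ → ℂ) z = (a : ℍ → ℂ) z + (b : ℍ → ℂ) z := rfl

@[simp] theorem Hol.coe_sub (a b : Hol) (z : ℍ) :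
    ((a - b : Hol) : ℍ → ℂ) z = (a : ℍ → ℂ) z - (b : ℍ → ℂ) z := rfl

@[simp] theorem Hol.coe_one (z : ℍ) : ((1 : Hol) : ℍ → ℂ) z = 1 := rfl

@[simp] theorem Hol.coe_zero (z : ℍ) : ((0 : Hol) : ℍ → ℂ) z = 0 := rfl

@[simp] theorem Hol.coe_algebraMap (c : ℂ) (z : ℍ) :
    ((algebraMap ℂ Hol c : Hol) : ℍ → ℂ) z = c := rfl

instance : IsDomain Hol := by
  haveI : Nontrivial Hol := ⟨⟨0, 1, fun h => by
    have := congrArg (fun f : Hol => (f : ℍ → ℂ) UpperHalfPlane.I) h
    simp at this⟩⟩
  haveI : NoZeroDivisors Hol := ⟨fun {a b} hab => by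
    by_contra hcon
    rw [not_or] at hcon
    have ha : (a : ℍ → ℂ) ≠ 0 := fun h => hcon.1 (Subtype.ext h)
    have hb : (b : ℍ → ℂ) ≠ 0 := fun h => hcon.2 (Subtype.ext h)
    exact Fermat.Agent.S20.FrameAux.mul_ne_zero_of_mdiff a.2 b.2 ha hb
      (congrArg Subtype.val hab)⟩
  exact NoZeroDivisors.to_isDomain _

/-- The field of meromorphic functions on the upper half plane (fractions of holomorphic
functions). -/
abbrev Mer : Type := FractionRing Hol

/-- `ℚ̄`-algebra structure on `Mer` through `phi`. -/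
noncomputable instance instAlgebraQbarMer : Algebra (AlgebraicClosure ℚ) Mer :=
  ((algebraMap ℂ Mer).comp phi).toAlgebra

theorem algebraMap_Qbar_Mer (c : AlgebraicClosure ℚ) :
    algebraMap (AlgebraicClosure ℚ) Mer c = algebraMap ℂ Mer (phi c) := rfl

theorem mdiff_smul (g : SL(2, ℤ)) : MDiff (fun z : ℍ => g • z) := by
  have hg : 0 < ((g : GL (Fin 2) ℝ)).det.val := by simp
  exact mdifferentiable_smul hg

/-- translation by `g : SL(2,ℤ)`: `(transl g f) z = f (g • z)`. -/
noncomputable def transl (g : SL(2, ℤ)) : Hol →ₐ[ℂ] Hol where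
  toFun f := ⟨fun z => (f : ℍ → ℂ) (g • z), f.2.comp (mdiff_smul g)⟩
  map_one' := rfl
  map_mul' _ _ := rfl
  map_zero' := rfl
  map_add' _ _ := rfl
  commutes' _ := rfl

@[simp] theorem transl_apply (g : SL(2, ℤ)) (f : Hol) (z : ℍ) :
    ((transl g f : Hol) : ℍ → ℂ) z = (f : ℍ → ℂ) (g • z) := rfl

theorem transl_one (f : Hol) : transl 1 f = f := Hol.ext fun z => by simp

theorem transl_mul (g g' : SL(2, ℤ)) (f : Hol) : transl (g * g') f = transl g' (transl g f) :=
  Hol.ext fun z => by simp [mul_smul]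

theorem transl_injective (g : SL(2, ℤ)) : Function.Injective (transl g) := by
  intro a b h
  have h1 : transl g⁻¹ (transl g a) = transl g⁻¹ (transl g b) := by rw [h]
  rwa [← transl_mul, ← transl_mul, mul_inv_cancel, transl_one, transl_one] at h1

/-- translation by `g : SL(2,ℤ)` on meromorphic functions. -/
noncomputable def translM (g : SL(2, ℤ)) : Mer →ₐ[ℂ] Mer :=
  IsFractionRing.liftAlgHom (K := Mer)
    (g := (IsScalarTower.toAlgHom ℂ Hol Mer).comp (transl g))
    ((IsFractionRing.injective Hol Mer).comp (transl_injective g))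

@[simp] theorem translM_algebraMap (g : SL(2, ℤ)) (f : Hol) :
    translM g (algebraMap Hol Mer f) = algebraMap Hol Mer (transl g f) := by
  simp [translM]

theorem translM_one (m : Mer) : translM 1 m = m := by
  induction m using Localization.induction_on with
  | _ x =>
    obtain ⟨a, b⟩ := x
    rw [Localization.mk_eq_mk', IsFractionRing.mk'_eq_div, map_div₀, translM_algebraMap,
      translM_algebraMap, transl_one, transl_one]

theorem translM_mul (g g' : SL(2, ℤ)) (m : Mer) :
    translM (g * g') m = translM g' (translM g m) := by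
  induction m using Localization.induction_on with
  | _ x =>
    obtain ⟨a, b⟩ := x
    rw [Localization.mk_eq_mk', IsFractionRing.mk'_eq_div, map_div₀, map_div₀, map_div₀,
      translM_algebraMap, translM_algebraMap, translM_algebraMap, translM_algebraMap,
      translM_algebraMap, translM_algebraMap, transl_mul, transl_mul]

/-! ### order of vanishing -/

theorem Hol.analyticAt (h : Hol) (z : ℍ) : AnalyticAt ℂ ((h : ℍ → ℂ) ∘ ofComplex) (z : ℂ) := by
  have hD : DifferentiableOn ℂ ((h : ℍ → ℂ) ∘ ofComplex) upperHalfPlaneSet :=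
    mdifferentiable_iff.mp h.2
  exact (hD.analyticOnNhd isOpen_upperHalfPlaneSet) z z.im_pos

theorem Hol.analyticOrderAt_ne_top {h : Hol} (hh : h ≠ 0) (z : ℍ) :
    analyticOrderAt ((h : ℍ → ℂ) ∘ ofComplex) (z : ℂ) ≠ ⊤ := by
  intro htop
  rw [analyticOrderAt_eq_top] at htop
  apply hh
  apply Subtype.ext
  refine Fermat.Agent.S20.FrameAux.eq_zero_of_eventually_eq_zero h.2 z ?_
  have hcont : ContinuousAt (fun τ : ℍ => (τ : ℂ)) z := UpperHalfPlane.continuous_coe.continuousAt
  have := hcont.eventually htop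
  filter_upwards [this] with τ hτ
  simpa using hτ

/-- the order of vanishing of `h : Hol` at `z` (junk value `0` for `h = 0`). -/
noncomputable def ordNat (z : ℍ) (h : Hol) : ℕ :=
  analyticOrderNatAt ((h : ℍ → ℂ) ∘ ofComplex) (z : ℂ)

theorem ordNat_mul (z : ℍ) {a b : Hol} (ha : a ≠ 0) (hb : b ≠ 0) :
    ordNat z (a * b) = ordNat z a + ordNat z b := by
  have h1 := analyticOrderAt_mul (Hol.analyticAt a z) (Hol.analyticAt b z)
  have ha' := Hol.analyticOrderAt_ne_top ha z
  have hb' := Hol.analyticOrderAt_ne_top hb z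
  have hab' := Hol.analyticOrderAt_ne_top (mul_ne_zero ha hb) z
  have e : (((a * b : Hol) : ℍ → ℂ) ∘ ofComplex) =
      ((a : ℍ → ℂ) ∘ ofComplex) * ((b : ℍ → ℂ) ∘ ofComplex) := rfl
  unfold ordNat
  rw [← Nat.cast_inj (R := ℕ∞), Nat.cast_add, Nat.cast_analyticOrderNatAt hab',
    Nat.cast_analyticOrderNatAt ha', Nat.cast_analyticOrderNatAt hb', e, h1]

theorem ordNat_one (z : ℍ) : ordNat z 1 = 0 := by
  have h := ordNat_mul z (one_ne_zero (α := Hol)) one_ne_zero
  rw [mul_one] at h
  omega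

theorem min_ordNat_le_add (z : ℍ) {a b : Hol} (ha : a ≠ 0) (hb : b ≠ 0) (hab : a + b ≠ 0) :
    min (ordNat z a) (ordNat z b) ≤ ordNat z (a + b) := by
  have h1 := le_analyticOrderAt_add (f := (a : ℍ → ℂ) ∘ ofComplex)
    (g := (b : ℍ → ℂ) ∘ ofComplex) (z₀ := (z : ℂ))
  have ha' := Hol.analyticOrderAt_ne_top ha z
  have hb' := Hol.analyticOrderAt_ne_top hb z
  have hab' := Hol.analyticOrderAt_ne_top hab z
  have e : (((a + b : Hol) : ℍ → ℂ) ∘ ofComplex) =
      ((a : ℍ → ℂ) ∘ ofComplex) + ((b : ℍ → ℂ) ∘ ofComplex) := rfl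
  rw [← e] at h1
  unfold ordNat
  rw [← Nat.cast_analyticOrderNatAt hab', ← Nat.cast_analyticOrderNatAt ha',
    ← Nat.cast_analyticOrderNatAt hb'] at h1
  rcases min_le_iff.mp h1 with h | h
  · exact min_le_iff.mpr (Or.inl (by exact_mod_cast h))
  · exact min_le_iff.mpr (Or.inr (by exact_mod_cast h))

open Classical in
/-- the valuation `exp (- order of vanishing at z)` on holomorphic functions. -/
noncomputable def ordH (z : ℍ) : Valuation Hol ℤᵐ⁰ where
  toFun h := if h = 0 then 0 else WithZero.exp (-(ordNat z h : ℤ))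
  map_zero' := by simp
  map_one' := by simp [ordNat_one]
  map_mul' a b := by
    by_cases ha : a = 0
    · simp [ha]
    by_cases hb : b = 0
    · simp [hb]
    simp only [ha, hb, mul_ne_zero ha hb, if_false, ordNat_mul z ha hb, ← WithZero.exp_add]
    congr 1
    push_cast
    ring
  map_add_le_max' a b := by
    by_cases ha : a = 0
    · simp [ha]
    by_cases hb : b = 0
    · simp [hb]
    by_cases hab : a + b = 0
    · simp [hab]
    simp only [ha, hb, hab, if_false, le_max_iff, WithZero.exp_le_exp, neg_le_neg_iff,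
      Nat.cast_le]
    have := min_ordNat_le_add z ha hb hab
    rcases min_le_iff.mp this with h | h
    · exact Or.inl h
    · exact Or.inr h

open Classical in
theorem ordH_apply (z : ℍ) {h : Hol} (hh : h ≠ 0) :
    ordH z h = WithZero.exp (-(ordNat z h : ℤ)) := by
  show (if h = 0 then 0 else WithZero.exp (-(ordNat z h : ℤ))) = _
  rw [if_neg hh]

theorem ordH_eq_zero_iff (z : ℍ) (h : Hol) : ordH z h = 0 ↔ h = 0 := by
  constructor
  · intro h0
    by_contra hh
    rw [ordH_apply z hh] at h0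
    exact WithZero.exp_ne_zero h0
  · rintro rfl
    exact map_zero _

theorem nonZeroDivisors_le_supp (z : ℍ) :
    nonZeroDivisors Hol ≤ (ordH z).supp.primeCompl := by
  intro h hh
  show h ∉ (ordH z).supp
  rw [Valuation.mem_supp_iff, ordH_eq_zero_iff]
  exact nonZeroDivisors.ne_zero hh

/-- the valuation `exp (- order at z)` on meromorphic functions. -/
noncomputable def ordAt (z : ℍ) : Valuation Mer ℤᵐ⁰ :=
  (ordH z).extendToLocalization (nonZeroDivisors_le_supp z) Mer

@[simp] theorem ordAt_algebraMap (z : ℍ) (h : Hol) : ordAt z (algebraMap Hol Mer h) = ordH z h :=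
  Valuation.extendToLocalization_apply_map_apply _ _ _ _

/-- the integer order at `z` of a meromorphic function (junk value `0` at `0`). -/
noncomputable def ordZ (z : ℍ) (m : Mer) : ℤ := -(WithZero.log (ordAt z m))

theorem ordZ_algebraMap (z : ℍ) {h : Hol} (hh : h ≠ 0) :
    ordZ z (algebraMap Hol Mer h) = ordNat z h := by
  rw [ordZ, ordAt_algebraMap, ordH_apply z hh, WithZero.log_exp, neg_neg]

/-! ### the `j`-function and the generators of the frozen function field -/

/-- `j` as a holomorphic function. -/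
noncomputable def jH : Hol := ⟨jFun, mdiff_jFun⟩

@[simp] theorem jH_apply (z : ℍ) : (jH : ℍ → ℂ) z = jFun z := rfl

open Fermat.Agent.S22.QExpAffine in
/-- `z ↦ j ((a z + b) / d)` as a holomorphic function (`0 < a`, `0 < d`). -/
noncomputable def jAff (a d : ℕ) (ha : 0 < a) (hd : 0 < d) (b : ℤ) : Hol :=
  ⟨aff jFun a d b, aff_mdiff jFun mdiff_jFun a d ha hd b⟩

theorem jAff_apply (a d : ℕ) (ha : 0 < a) (hd : 0 < d) (b : ℤ) (z : ℍ) :
    (jAff a d ha hd b : ℍ → ℂ) z = jFun (ofComplex ((a * (z : ℂ) + b) / d)) := rfl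

/-- `z ↦ j (d z)` as a holomorphic function. -/
noncomputable def jScaled (d : ℕ) (hd : 0 < d) : Hol := jAff d 1 hd one_pos 0

theorem jScaled_apply (d : ℕ) (hd : 0 < d) (z : ℍ) :
    (jScaled d hd : ℍ → ℂ) z = jFun (ofComplex (d * (z : ℂ))) := by
  rw [jScaled, jAff_apply]
  simp

/-- the frozen function field `ℚ̄(j(q^d) : d ∣ N)` of `X₀(N)`. -/
noncomputable abbrev FF (N : ℕ) : IntermediateField (AlgebraicClosure ℚ) (LaurentSeries (AlgebraicClosure ℚ)) :=
  ModularCurve.modularFunctionFieldBar N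

/-- the generator `j(q^d)` (`d ∣ N`) of the frozen function field. -/
noncomputable def jBar (N d : ℕ) (hd : d ∣ N) (hd0 : 0 < d) : FF N :=
  haveI : NeZero d := ⟨hd0.ne'⟩
  ⟨ModularCurve.coeffEmb (AlgebraicClosure ℚ) (ModularCurve.qExpand ℚ d ModularCurve.jq),
    ModularCurve.coeffEmb_mem_laurentBaseChange (AlgebraicClosure ℚ)
      (ModularCurve.jqd_mem_full N hd)⟩

/-- `ι : F →ₐ[ℚ̄] Mer` is "the" analytic realisation of the frozen function field:
it sends the formal `j(q^d)` to the function `z ↦ j (d z)`. -/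
def IsIota (N : ℕ) (ι : FF N →ₐ[AlgebraicClosure ℚ] Mer) : Prop :=
  ∀ (d : ℕ) (hd : d ∣ N) (hd0 : 0 < d), ι (jBar N d hd hd0) = algebraMap Hol Mer (jScaled d hd0)

end Fermat.Agent.S24
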