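import Mathlib
import Fermat.Prelude.Def_ModularCurve_X0
import Fermat.Prelude.Def_ModularCurve_LaurentCoeff
import Fermat.Agent.S20.LevelOneDefs
import Fermat.Agent.S24.JFun

/-!
# S24: the frozen formal `q`-series versus the analytic `q`-expansions

* `qExpansion_E4`: `qExpansion 1 E4 = eisenstein4` (formal, mapped to `ℂ`);
* `qExpansion_etaProd`: the `q`-expansion of `∏ (1 - qⁿ)` is the frozen formal product `etaProd`;
* `qExpansion_Dl`: `qExpansion 1 Δ = X * dedekindEtaUnit`;
* `ofPowerSeries_qExpansion_jFun_mul_Dl`: the formal `jq` times the expansion of `Δ` is the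
  expansion of `j Δ = E₄³`.
-/

set_option autoImplicit false

open UpperHalfPlane ModularForm Filter EisensteinSeries
open scoped MatrixGroups ModularForm Manifold Topology Real

namespace Fermat.Agent.S24.FormalQ

open Fermat.Agent.S20

/-- the coefficient ring hom `ℤ → ℂ` -/
noncomputable abbrev ZC : ℤ →+* ℂ := Int.castRingHom ℂ

theorem qExpansion_E4 : qExpansion 1 E4 = ModularCurve.eisenstein4.map ZC := by
  ext m
  show (qExpansion 1 (⇑E₄)).coeff m = _
  rw [E_qExpansion_coeff _ ⟨2, rfl⟩, PowerSeries.coeff_map]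
  simp only [ModularCurve.eisenstein4, PowerSeries.coeff_mk]
  have hb : bernoulli 4 = -1 / 30 := by decide +kernel
  split_ifs with hm
  · simp
  · rw [hb, ArithmeticFunction.sigma_apply]
    simp only [eq_intCast]
    push_cast
    ring

/-! ### Taylor series at `0` of functions `ℂ → ℂ` -/

/-- the Taylor series at `0`, as a formal power series -/
noncomputable def taylor (F : ℂ → ℂ) : PowerSeries ℂ :=
  .mk fun m => ((m.factorial : ℂ))⁻¹ * iteratedDeriv m F 0

theorem coeff_taylor (F : ℂ → ℂ) (m : ℕ) :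
    (taylor F).coeff m = ((m.factorial : ℂ))⁻¹ * iteratedDeriv m F 0 := by
  simp [taylor]

theorem qExpansion_eq_taylor (f : ℍ → ℂ) : qExpansion 1 f = taylor (cuspFunction 1 f) := rfl

theorem taylor_congr {F G : ℂ → ℂ} (h : F =ᶠ[𝓝 0] G) : taylor F = taylor G := by
  ext m
  rw [coeff_taylor, coeff_taylor, h.iteratedDeriv_eq]

theorem taylor_mul {F G : ℂ → ℂ} (hF : AnalyticAt ℂ F 0) (hG : AnalyticAt ℂ G 0) :
    taylor (F * G) = taylor F * taylor G := by
  ext m
  simp only [coeff_taylor, iteratedDeriv_mul hF.contDiffAt hG.contDiffAt, Finset.mul_sum,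
    PowerSeries.coeff_mul, Finset.Nat.sum_antidiagonal_eq_sum_range_succ_mk, Nat.succ_eq_add_one]
  refine Finset.sum_congr rfl fun i hi ↦ ?_
  rw [Nat.cast_choose _ (by grind)]
  field_simp [Nat.factorial_ne_zero]

theorem taylor_one : taylor (1 : ℂ → ℂ) = 1 := by
  ext m
  have h2 : iteratedDeriv m (1 : ℂ → ℂ) 0 = if m = 0 then 1 else 0 := by
    simpa [ite_apply] using! iteratedDeriv_const
  rw [coeff_taylor, h2, PowerSeries.coeff_one]
  split_ifs with h
  · simp [h]
  · simp

theorem taylor_pow {F : ℂ → ℂ} (hF : AnalyticAt ℂ F 0) (n : ℕ) :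
    taylor (F ^ n) = taylor F ^ n := by
  induction n with
  | zero => simp [taylor_one]
  | succ n ih => rw [pow_succ, pow_succ, taylor_mul (hF.pow n) hF, ih]

theorem iteratedDeriv_polynomial (p : Polynomial ℂ) (k : ℕ) :
    iteratedDeriv k (fun x => p.eval x) = fun x => (Polynomial.derivative^[k] p).eval x := by
  induction k with
  | zero => simp
  | succ k ih =>
    rw [iteratedDeriv_succ, ih]
    funext x
    rw [Polynomial.deriv, Function.iterate_succ_apply']

theorem taylor_polynomial (p : Polynomial ℂ) :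
    taylor (fun x => p.eval x) = (p : PowerSeries ℂ) := by
  ext m
  rw [coeff_taylor, iteratedDeriv_polynomial]
  beta_reduce
  rw [← Polynomial.coeff_zero_eq_eval_zero,
    Polynomial.coeff_iterate_derivative, Polynomial.coeff_coe, zero_add,
    Nat.descFactorial_self, nsmul_eq_mul]
  field_simp [Nat.factorial_ne_zero]

theorem tendsto_iteratedDeriv {ι : Type*} {φ : Filter ι} {F : ι → ℂ → ℂ} {f : ℂ → ℂ}
    {U : Set ℂ} (hU : IsOpen U) (hf : TendstoLocallyUniformlyOn F f φ U)
    (hF : ∀ᶠ n in φ, DifferentiableOn ℂ (F n) U) (k : ℕ) :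
    TendstoLocallyUniformlyOn (fun n => iteratedDeriv k (F n)) (iteratedDeriv k f) φ U ∧
      ∀ᶠ n in φ, DifferentiableOn ℂ (iteratedDeriv k (F n)) U := by
  induction k with
  | zero => simpa [iteratedDeriv_zero] using And.intro hf hF
  | succ k ih =>
    obtain ⟨h1, h2⟩ := ih
    have e1 : ∀ G : ℂ → ℂ, iteratedDeriv (k + 1) G = deriv (iteratedDeriv k G) := fun G =>
      iteratedDeriv_succ
    refine ⟨?_, ?_⟩
    · have := h1.deriv h2 hU
      simpa only [e1, Function.comp_def] using this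
    · filter_upwards [h2] with n hn
      rw [e1]
      exact hn.deriv hU

/-- Taylor coefficients are continuous for locally uniform convergence of holomorphic functions -/
theorem tendsto_coeff_taylor {ι : Type*} {φ : Filter ι} {F : ι → ℂ → ℂ} {f : ℂ → ℂ}
    {U : Set ℂ} (hU : IsOpen U) (h0 : (0 : ℂ) ∈ U) (hf : TendstoLocallyUniformlyOn F f φ U)
    (hF : ∀ᶠ n in φ, DifferentiableOn ℂ (F n) U) (k : ℕ) :
    Tendsto (fun n => (taylor (F n)).coeff k) φ (𝓝 ((taylor f).coeff k)) := by
  have h1 := ((tendsto_iteratedDeriv hU hf hF k).1).tendsto_at h0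
  simp only [coeff_taylor]
  exact h1.const_mul _

/-! ### the eta product -/

open scoped PowerSeries.WithPiTopology in
/-- The Taylor series of the analytic product `∏ (1 - qⁿ⁺¹)` is the frozen formal product. -/
theorem taylor_tprod :
    taylor (fun q : ℂ => ∏' n, (1 - q ^ (n + 1))) = ModularCurve.etaProd.map ZC := by
  ext k
  have hlu : TendstoLocallyUniformlyOn
      (fun (s : Finset ℕ) (q : ℂ) => ∏ n ∈ s, (1 - q ^ (n + 1)))
      (fun q => ∏' n, (1 - q ^ (n + 1))) atTop (Metric.ball 0 1) :=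
    multipliableLocallyUniformlyOn_one_sub_pow.hasProdLocallyUniformlyOn
  have hdiff : ∀ᶠ s : Finset ℕ in atTop,
      DifferentiableOn ℂ (fun q : ℂ => ∏ n ∈ s, (1 - q ^ (n + 1))) (Metric.ball 0 1) :=
    .of_forall fun s => by fun_prop
  have h1 := tendsto_coeff_taylor Metric.isOpen_ball (Metric.mem_ball_self one_pos) hlu hdiff k
  have hpoly : ∀ s : Finset ℕ, taylor (fun q : ℂ => ∏ n ∈ s, (1 - q ^ (n + 1)))
      = ((∏ n ∈ s, (1 - PowerSeries.X ^ (n + 1)) : PowerSeries ℤ)).map ZC := by
    intro s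
    have e1 : (fun q : ℂ => ∏ n ∈ s, (1 - q ^ (n + 1)))
        = fun q => (∏ n ∈ s, (1 - Polynomial.X ^ (n + 1)) : Polynomial ℂ).eval q := by
      funext q
      simp [Polynomial.eval_prod]
    rw [e1, taylor_polynomial]
    have e2 : ((∏ n ∈ s, (1 - Polynomial.X ^ (n + 1)) : Polynomial ℂ) : PowerSeries ℂ)
        = ∏ n ∈ s, (1 - PowerSeries.X ^ (n + 1)) := by
      rw [← Polynomial.coeToPowerSeries.ringHom_apply, map_prod]
      refine Finset.prod_congr rfl fun n _ => ?_
      simp
    rw [e2, map_prod]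
    refine Finset.prod_congr rfl fun n _ => ?_
    simp
  have h2 : Tendsto (fun s : Finset ℕ =>
      ((PowerSeries.coeff k (∏ n ∈ s, (1 - PowerSeries.X ^ (n + 1)) : PowerSeries ℤ) : ℤ) : ℂ))
      atTop (𝓝 ((PowerSeries.coeff k ModularCurve.etaProd : ℤ) : ℂ)) := by
    have hp : HasProd (fun n : ℕ => (1 : PowerSeries ℤ) - PowerSeries.X ^ (n + 1))
        ModularCurve.etaProd :=
      (PowerSeries.WithPiTopology.multipliable_one_sub_X_pow ℤ).hasProd
    have hc := ((PowerSeries.WithPiTopology.continuous_coeff ℤ k).tendsto _).comp hp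
    have hcast : Continuous (fun n : ℤ => (n : ℂ)) := continuous_of_discreteTopology
    exact (hcast.tendsto _).comp hc
  have hpoly' : ∀ s : Finset ℕ, (taylor (fun q : ℂ => ∏ n ∈ s, (1 - q ^ (n + 1)))).coeff k
      = ((PowerSeries.coeff k (∏ n ∈ s, (1 - PowerSeries.X ^ (n + 1)) : PowerSeries ℤ) : ℤ) : ℂ) := by
    intro s
    rw [hpoly, PowerSeries.coeff_map]
    rfl
  simp only [hpoly'] at h1
  rw [PowerSeries.coeff_map]
  exact tendsto_nhds_unique h1 h2

theorem taylor_id : taylor (fun q : ℂ => q) = PowerSeries.X := by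
  have h := taylor_polynomial (Polynomial.X : Polynomial ℂ)
  simpa using h

theorem analyticAt_tprod :
    AnalyticAt ℂ (fun q : ℂ => ∏' n, (1 - q ^ (n + 1))) 0 :=
  differentiableOn_tprod_one_sub_pow.analyticAt (Metric.ball_mem_nhds 0 one_pos)

/-- `qExpansion 1 Δ = X * (etaProd ^ 24)` (frozen formal series, mapped to `ℂ`). -/
theorem qExpansion_Dl :
    qExpansion 1 Dl = PowerSeries.X * ModularCurve.dedekindEtaUnit.map ZC := by
  have h1 : cuspFunction 1 Dl =ᶠ[𝓝 0]
      ((fun q : ℂ => q) * (fun q : ℂ => ∏' n, (1 - q ^ (n + 1))) ^ 24) := by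
    refine Set.EqOn.eventuallyEq_of_mem (s := Metric.ball 0 1) ?_ (Metric.ball_mem_nhds 0 one_pos)
    intro q hq
    have h2 := discriminant_cuspFunction_eqOn hq
    have hq' : ‖q‖ < 1 := by simpa using hq
    have h3 := (multipliable_one_sub_pow hq').tprod_pow 24
    show cuspFunction 1 ModularForm.discriminant q = _
    rw [h2]
    simp only [Pi.mul_apply, Pi.pow_apply]
    rw [h3]
  have hid : AnalyticAt ℂ (fun q : ℂ => q) 0 := analyticAt_id
  rw [qExpansion_eq_taylor, taylor_congr h1, taylor_mul hid (analyticAt_tprod.pow 24),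
    taylor_pow analyticAt_tprod, taylor_id, taylor_tprod, ModularCurve.dedekindEtaUnit, map_pow]

theorem qExpansion_Dl_ne_zero : qExpansion 1 Dl ≠ 0 := by
  intro h
  have h1 := congrArg (PowerSeries.coeff 1) h
  rw [qExpansion_Dl, PowerSeries.coeff_succ_X_mul, PowerSeries.coeff_map,
    PowerSeries.coeff_zero_eq_constantCoeff, ModularCurve.constantCoeff_dedekindEtaUnit] at h1
  simp at h1

/-! ### the formal `j` -/

theorem coeffMap_ofPowerSeries {R S : Type*} [CommRing R] [CommRing S] (f : R →+* S)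
    (P : PowerSeries R) :
    ModularCurve.coeffMap f (HahnSeries.ofPowerSeries ℤ R P)
      = HahnSeries.ofPowerSeries ℤ S (P.map f) := by
  ext k
  rw [ModularCurve.coeffMap_coeff]
  rcases lt_or_ge k 0 with hk | hk
  · rw [ModularCurve.ofPowerSeries_coeff_of_neg _ hk, ModularCurve.ofPowerSeries_coeff_of_neg _ hk,
      map_zero]
  · obtain ⟨n, rfl⟩ := Int.eq_ofNat_of_zero_le hk
    rw [HahnSeries.ofPowerSeries_apply_coeff, HahnSeries.ofPowerSeries_apply_coeff,
      PowerSeries.coeff_map]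

theorem coeffMap_qExpand {R S : Type*} [CommRing R] [CommRing S] (f : R →+* S) (d : ℕ)
    [NeZero d] (x : LaurentSeries R) :
    ModularCurve.coeffMap f (ModularCurve.qExpand R d x)
      = ModularCurve.qExpand S d (ModularCurve.coeffMap f x) := by
  ext k
  rw [ModularCurve.coeffMap_coeff]
  by_cases hk : (d : ℤ) ∣ k
  · obtain ⟨m, rfl⟩ := hk
    rw [ModularCurve.qExpand_coeff_mul, ModularCurve.qExpand_coeff_mul,
      ModularCurve.coeffMap_coeff]
  · rw [ModularCurve.qExpand_coeff_of_not_dvd d _ hk, ModularCurve.qExpand_coeff_of_not_dvd d _ hk,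
      map_zero]

/-- the frozen formal `jq`, with complex coefficients, times the formal `Δ` is the formal `E₄³`. -/
theorem coeffMap_jq_mul :
    ModularCurve.coeffMap (algebraMap ℚ ℂ) ModularCurve.jq
        * HahnSeries.ofPowerSeries ℤ ℂ (PowerSeries.X * ModularCurve.dedekindEtaUnit.map ZC)
      = HahnSeries.ofPowerSeries ℤ ℂ ((ModularCurve.eisenstein4.map ZC) ^ 3) := by
  have hcomp : (algebraMap ℚ ℂ).comp (Int.castRingHom ℚ) = ZC := Subsingleton.elim _ _
  have h1 : ModularCurve.coeffMap (algebraMap ℚ ℂ) ModularCurve.jq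
      = HahnSeries.single (-1 : ℤ) (1 : ℂ)
        * HahnSeries.ofPowerSeries ℤ ℂ (ModularCurve.jNum.map ZC) := by
    rw [ModularCurve.jq, map_mul, ModularCurve.coeffMap_single, map_one, coeffMap_ofPowerSeries,
      ModularCurve.jNumQ, ← hcomp]
    congr 2
  have h2 : HahnSeries.ofPowerSeries ℤ ℂ (PowerSeries.X * ModularCurve.dedekindEtaUnit.map ZC)
      = HahnSeries.single (1 : ℤ) (1 : ℂ)
        * HahnSeries.ofPowerSeries ℤ ℂ (ModularCurve.dedekindEtaUnit.map ZC) := by
    rw [map_mul, HahnSeries.ofPowerSeries_X]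
  have h3 : ModularCurve.jNum.map ZC * ModularCurve.dedekindEtaUnit.map ZC
      = (ModularCurve.eisenstein4.map ZC) ^ 3 := by
    rw [← map_mul, ModularCurve.jNum, mul_assoc, mul_comm ModularCurve.dedekindEtaUnitInv,
      ModularCurve.dedekindEtaUnit_mul_inv, mul_one, map_pow]
  have h4 : HahnSeries.single (-1 : ℤ) (1 : ℂ) * HahnSeries.single (1 : ℤ) (1 : ℂ) = 1 := by
    rw [HahnSeries.single_mul_single]
    simp
  calc ModularCurve.coeffMap (algebraMap ℚ ℂ) ModularCurve.jq
        * HahnSeries.ofPowerSeries ℤ ℂ (PowerSeries.X * ModularCurve.dedekindEtaUnit.map ZC)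
      = (HahnSeries.single (-1 : ℤ) (1 : ℂ) * HahnSeries.single (1 : ℤ) (1 : ℂ))
        * (HahnSeries.ofPowerSeries ℤ ℂ (ModularCurve.jNum.map ZC)
          * HahnSeries.ofPowerSeries ℤ ℂ (ModularCurve.dedekindEtaUnit.map ZC)) := by
        rw [h1, h2]; ring
    _ = HahnSeries.ofPowerSeries ℤ ℂ ((ModularCurve.eisenstein4.map ZC) ^ 3) := by
        rw [h4, one_mul, ← map_mul, h3]

theorem analyticAt_cuspFunction_E4 : AnalyticAt ℂ (cuspFunction 1 E4) 0 :=
  ModularFormClass.analyticAt_cuspFunction_zero E₄ one_pos one_mem_strictPeriods_SL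

theorem qExpansion_E4_cube : qExpansion 1 (E4 ^ 3) = (ModularCurve.eisenstein4.map ZC) ^ 3 := by
  have hA := analyticAt_cuspFunction_E4
  have h2 : cuspFunction 1 (E4 * E4) = cuspFunction 1 E4 * cuspFunction 1 E4 :=
    cuspFunction_mul hA.continuousAt hA.continuousAt
  have hA2 : AnalyticAt ℂ (cuspFunction 1 (E4 * E4)) 0 := by
    rw [h2]
    exact hA.mul hA
  have e : E4 ^ 3 = E4 * E4 * E4 := by ring
  rw [e, qExpansion_mul hA2 hA, qExpansion_mul hA hA, qExpansion_E4]
  ring

/-- `jq` (complex coefficients) times the expansion of `Δ` is the expansion of `j Δ`. -/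
theorem ofPowerSeries_qExpansion_jFun_mul_Dl :
    HahnSeries.ofPowerSeries ℤ ℂ (qExpansion 1 (fun z => jFun z * Dl z))
      = ModularCurve.coeffMap (algebraMap ℚ ℂ) ModularCurve.jq
        * HahnSeries.ofPowerSeries ℤ ℂ (qExpansion 1 Dl) := by
  have e : (fun z => jFun z * Dl z) = E4 ^ 3 := by
    funext z
    rw [jFun_mul_Dl]
    rfl
  rw [e, qExpansion_E4_cube, qExpansion_Dl, coeffMap_jq_mul]

/-- characterisation used with the Laurent calculus: anything that multiplies the expansion of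
`Δ` into the expansion of `j Δ` is the frozen `jq`. -/
theorem eq_coeffMap_jq_of_mul_eq (L : LaurentSeries ℂ)
    (h : L * HahnSeries.ofPowerSeries ℤ ℂ (qExpansion 1 Dl)
      = HahnSeries.ofPowerSeries ℤ ℂ (qExpansion 1 (fun z => jFun z * Dl z))) :
    L = ModularCurve.coeffMap (algebraMap ℚ ℂ) ModularCurve.jq := by
  rw [ofPowerSeries_qExpansion_jFun_mul_Dl] at h
  have hne : HahnSeries.ofPowerSeries ℤ ℂ (qExpansion 1 Dl) ≠ 0 := by
    intro h0
    apply qExpansion_Dl_ne_zero
    have := HahnSeries.ofPowerSeries_injective (Γ := ℤ) (R := ℂ)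
    exact this (by rw [h0, map_zero])
  exact mul_right_cancel₀ hne h

/-- the same, in the literal shape produced by a Laurent calculus with exponent `n = 1`. -/
theorem eq_coeffMap_jq_of_mul_pow_eq (L : LaurentSeries ℂ)
    (h : L * HahnSeries.ofPowerSeries ℤ ℂ (qExpansion 1 Dl) ^ 1
      = HahnSeries.ofPowerSeries ℤ ℂ (qExpansion 1 (fun z => jFun z * Dl z ^ 1))) :
    L = ModularCurve.coeffMap (algebraMap ℚ ℂ) ModularCurve.jq := by
  simp only [pow_one] at h
  exact eq_coeffMap_jq_of_mul_eq L h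

/-- the order of the formal `Δ`: the coefficient of `q` is `1` and the constant term vanishes. -/
theorem coeff_qExpansion_Dl_zero : (qExpansion 1 Dl).coeff 0 = 0 := by
  rw [qExpansion_Dl, PowerSeries.coeff_zero_X_mul]

theorem coeff_qExpansion_Dl_one : (qExpansion 1 Dl).coeff 1 = 1 := by
  rw [qExpansion_Dl, PowerSeries.coeff_succ_X_mul, PowerSeries.coeff_map,
    PowerSeries.coeff_zero_eq_constantCoeff, ModularCurve.constantCoeff_dedekindEtaUnit]
  simp

end Fermat.Agent.S24.FormalQ
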