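import Mathlib
import Fermat.Prelude.Def_AlgebraicCurve_CanonicalDivisor
import Fermat.Agent.S24.FFBasic

/-!
# S24: abstract Riemann–Hurwitz computation of the genus

For a function field `F / K` and `x : F` such that `Ω[F/K] = F · dx`, all places have degree one,
principal divisors have degree zero, and `ord_v (dy) = ord_v y - 1` whenever `ord_v y ≠ 0`, the
degree of the divisor of any nonzero differential is
`∑_{a ∈ A} ∑_{v | x = a} (e_v - 1) + ∑_{v | x = ∞} (-e_v - 1)`, where `A` is a finite set of
branch values.  The frozen `AlgebraicCurve.genus` is then computed from this number.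
-/

set_option autoImplicit false

open AlgebraicCurve KaehlerDifferential

namespace Fermat.Agent.S24

variable {K F : Type*} [Field K] [Field F] [Algebra K F]

namespace RHAbs

theorem ord_neg (v : Place K F) (f : F) : v.ord (-f) = v.ord f := by
  simp [Place.ord]

/-- the degree of a divisor supported in a finite set of places of degree one -/
theorem degree_eq_sum (hdeg : ∀ v : Place K F, v.deg = 1) (D : Divisor K F)
    (T : Finset (Place K F)) (hT : ∀ v, v ∉ T → D v = 0) :
    Divisor.degree D = ∑ v ∈ T, D v := by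
  have h1 : Divisor.degree D = D.sum fun v n => n * (v.deg : ℤ) := by
    simp [Divisor.degree, Finsupp.liftAddHom_apply]
  rw [h1, Finsupp.sum]
  have h2 : D.support ⊆ T := by
    intro v hv
    by_contra hvT
    exact (Finsupp.mem_support_iff.mp hv) (hT v hvT)
  rw [Finset.sum_subset h2 (fun v _ hv => by
    rw [Finsupp.notMem_support_iff.mp hv, zero_mul])]
  exact Finset.sum_congr rfl fun v _ => by rw [hdeg v]; simp

/-- a place lies over at most one value of `x` -/
theorem center_unique (v : Place K F) (x : F) {a a' : K}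
    (ha : 0 < v.ord (x - algebraMap K F a)) (ha' : 0 < v.ord (x - algebraMap K F a')) :
    a = a' := by
  by_contra hne
  have h1 : x - algebraMap K F a ≠ 0 := fun h => by rw [h, v.ord_zero] at ha; exact lt_irrefl _ ha
  have h2 : x - algebraMap K F a' ≠ 0 := fun h => by
    rw [h, v.ord_zero] at ha'; exact lt_irrefl _ ha'
  have h3 : (x - algebraMap K F a) + -(x - algebraMap K F a') = algebraMap K F (a' - a) := by
    rw [map_sub]; ring
  have h4 : algebraMap K F (a' - a) ≠ 0 := by
    rw [Ne, map_eq_zero, sub_eq_zero]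
    exact fun h => hne h.symm
  have h5 := Place.min_le_ord_add v h1 (neg_ne_zero.mpr h2) (by rw [h3]; exact h4)
  rw [h3, Place.ord_algebraMap, ord_neg] at h5
  have := lt_min ha ha'
  omega

/-- a place over a finite value of `x` is not a pole of `x` -/
theorem ord_nonneg_of_center (v : Place K F) (x : F) {a : K}
    (ha : 0 < v.ord (x - algebraMap K F a)) : 0 ≤ v.ord x := by
  rcases eq_or_ne x 0 with rfl | hx
  · simp
  rcases eq_or_ne a 0 with rfl | ha0
  · rw [map_zero, sub_zero] at ha
    exact ha.le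
  have h1 : x - algebraMap K F a ≠ 0 := fun h => by rw [h, v.ord_zero] at ha; exact lt_irrefl _ ha
  have h2 : algebraMap K F a ≠ 0 := by simpa using ha0
  have h3 : (x - algebraMap K F a) + algebraMap K F a = x := by ring
  have h5 := Place.min_le_ord_add v h1 h2 (by rw [h3]; exact hx)
  rw [h3, Place.ord_algebraMap] at h5
  have : min (v.ord (x - algebraMap K F a)) 0 = 0 := min_eq_right ha.le
  omega

end RHAbs

open RHAbs in
/-- **Abstract Riemann–Hurwitz.**  The degree of the divisor of a nonzero differential in terms of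
the ramification of `x`. -/
theorem RHAbs.degree_eq_of_ramification (x : F)
    (hdeg : ∀ v : Place K F, v.deg = 1)
    (hprin : ∀ f : F, f ≠ 0 → ∃ D : Divisor K F, (∀ v, D v = v.ord f) ∧ Divisor.degree D = 0)
    (hspan : ∀ ω : Ω[F⁄K], ∃ c : F, ω = c • KaehlerDifferential.D K F x)
    (hordD : ∀ (v : Place K F) (y : F), v.ord y ≠ 0 →
      v.ordDifferential (KaehlerDifferential.D K F y) = v.ord y - 1)
    (hsmul : ∀ (v : Place K F) (c : F) (ω : Ω[F⁄K]), c ≠ 0 → ω ≠ 0 →
      v.ordDifferential (c • ω) = v.ord c + v.ordDifferential ω)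
    (hres : ∀ v : Place K F, 0 ≤ v.ord x → ∃ a : K, 0 < v.ord (x - algebraMap K F a))
    (A : Finset K) (S : K → Finset (Place K F))
    (hS : ∀ a ∈ A, ∀ v, v ∈ S a ↔ 0 < v.ord (x - algebraMap K F a))
    (hunr : ∀ a : K, a ∉ A → ∀ v : Place K F, 0 < v.ord (x - algebraMap K F a) →
      v.ord (x - algebraMap K F a) = 1)
    (Sinf : Finset (Place K F)) (hSinf : ∀ v, v ∈ Sinf ↔ v.ord x < 0)
    {ω : Ω[F⁄K]} (hω : ω ≠ 0) (D : Divisor K F) (hD : ∀ v, D v = v.ordDifferential ω) :
    Divisor.degree D = ∑ a ∈ A, ∑ v ∈ S a, (v.ord (x - algebraMap K F a) - 1)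
      + ∑ v ∈ Sinf, (v.ord x - 1) := by
  classical
  obtain ⟨c, hc⟩ := hspan ω
  have hc0 : c ≠ 0 := by
    rintro rfl
    rw [zero_smul] at hc
    exact hω hc
  have hdx : KaehlerDifferential.D K F x ≠ 0 := by
    intro h
    rw [h, smul_zero] at hc
    exact hω hc
  obtain ⟨Dc, hDc, hDc0⟩ := hprin c hc0
  have hDsub : ∀ a : K, KaehlerDifferential.D K F (x - algebraMap K F a)
      = KaehlerDifferential.D K F x := by
    intro a
    rw [map_sub, Derivation.map_algebraMap, sub_zero]
  -- the divisor of `dx`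
  have hE : ∀ v, (D - Dc) v = v.ordDifferential (KaehlerDifferential.D K F x) := by
    intro v
    rw [Finsupp.sub_apply, hD v, hDc v, hc, hsmul v c _ hc0 hdx]
    ring
  have hdegE : Divisor.degree (D - Dc) = Divisor.degree D := by
    rw [map_sub, hDc0, sub_zero]
  rw [← hdegE]
  -- values of the divisor of `dx`
  have hEa : ∀ (a : K) (v : Place K F), 0 < v.ord (x - algebraMap K F a) →
      (D - Dc) v = v.ord (x - algebraMap K F a) - 1 := by
    intro a v hv
    rw [hE v, ← hDsub a]
    exact hordD v _ (ne_of_gt hv)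
  have hEinf : ∀ v : Place K F, v.ord x < 0 → (D - Dc) v = v.ord x - 1 := by
    intro v hv
    rw [hE v]
    exact hordD v _ (ne_of_lt hv)
  -- support
  have hsupp : ∀ v, v ∉ Sinf ∪ A.biUnion S → (D - Dc) v = 0 := by
    intro v hv
    rw [Finset.mem_union, not_or, Finset.mem_biUnion] at hv
    have h1 : 0 ≤ v.ord x := not_lt.mp fun h => hv.1 ((hSinf v).mpr h)
    obtain ⟨a, ha⟩ := hres v h1
    have haA : a ∉ A := fun haA => hv.2 ⟨a, haA, (hS a haA v).mpr ha⟩
    rw [hEa a v ha, hunr a haA v ha, sub_self]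
  rw [degree_eq_sum hdeg _ _ hsupp]
  have hdisj : Disjoint Sinf (A.biUnion S) := by
    rw [Finset.disjoint_left]
    intro v hv hv'
    rw [Finset.mem_biUnion] at hv'
    obtain ⟨a, haA, hva⟩ := hv'
    have h1 := ord_nonneg_of_center v x ((hS a haA v).mp hva)
    have h2 := (hSinf v).mp hv
    omega
  rw [Finset.sum_union hdisj, add_comm]
  congr 1
  · rw [Finset.sum_biUnion]
    · refine Finset.sum_congr rfl fun a haA => Finset.sum_congr rfl fun v hv => ?_
      exact hEa a v ((hS a haA v).mp hv)
    · intro a haA a' haA' hne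
      change Disjoint (S a) (S a')
      rw [Finset.disjoint_left]
      intro v hv hv'
      exact hne (center_unique v x ((hS a haA v).mp hv) ((hS a' haA' v).mp hv'))
  · exact Finset.sum_congr rfl fun v hv => hEinf v ((hSinf v).mp hv)

/-- **The genus from the ramification data.** -/
theorem RHAbs.genus_eq_of_ramification [HasCanonicalDivisor (K := K) (F := F)] (x : F)
    (hdeg : ∀ v : Place K F, v.deg = 1)
    (hprin : ∀ f : F, f ≠ 0 → ∃ D : Divisor K F, (∀ v, D v = v.ord f) ∧ Divisor.degree D = 0)
    (hspan : ∀ ω : Ω[F⁄K], ∃ c : F, ω = c • KaehlerDifferential.D K F x)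
    (hordD : ∀ (v : Place K F) (y : F), v.ord y ≠ 0 →
      v.ordDifferential (KaehlerDifferential.D K F y) = v.ord y - 1)
    (hsmul : ∀ (v : Place K F) (c : F) (ω : Ω[F⁄K]), c ≠ 0 → ω ≠ 0 →
      v.ordDifferential (c • ω) = v.ord c + v.ordDifferential ω)
    (hres : ∀ v : Place K F, 0 ≤ v.ord x → ∃ a : K, 0 < v.ord (x - algebraMap K F a))
    (A : Finset K) (S : K → Finset (Place K F))
    (hS : ∀ a ∈ A, ∀ v, v ∈ S a ↔ 0 < v.ord (x - algebraMap K F a))
    (hunr : ∀ a : K, a ∉ A → ∀ v : Place K F, 0 < v.ord (x - algebraMap K F a) →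
      v.ord (x - algebraMap K F a) = 1)
    (Sinf : Finset (Place K F)) (hSinf : ∀ v, v ∈ Sinf ↔ v.ord x < 0)
    (hdx : KaehlerDifferential.D K F x ≠ 0) (g : ℕ)
    (hsum : ∑ a ∈ A, ∑ v ∈ S a, (v.ord (x - algebraMap K F a) - 1)
      + ∑ v ∈ Sinf, (v.ord x - 1) = 2 * (g : ℤ) - 2) :
    AlgebraicCurve.genus K F = g := by
  have h : ∃ ω : Ω[F⁄K], ω ≠ 0 := ⟨_, hdx⟩
  have key := RHAbs.degree_eq_of_ramification x hdeg hprin hspan hordD hsmul hres A S hS hunr Sinf hSinf
    h.choose_spec (canonicalDivisorOf h.choose_spec) (fun v => canonicalDivisorOf_apply _ v)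
  rw [hsum] at key
  unfold AlgebraicCurve.genus
  rw [dif_pos h, key]
  omega

/-! ### From cycles of a permutation to ramification sums -/

namespace RHAbs

theorem minimalPeriod_pos {I : Type*} [Finite I] (s : Equiv.Perm I) (i : I) :
    0 < Function.minimalPeriod s i := by
  have h1 : 0 < orderOf s := orderOf_pos s
  refine Function.IsPeriodicPt.minimalPeriod_pos h1 ?_
  rw [Function.IsPeriodicPt, Function.IsFixedPt, Equiv.Perm.iterate_eq_pow, pow_orderOf_eq_one]
  rfl

/-- the `SameCycle` class of `i` has `minimalPeriod s i` elements -/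
theorem card_sameCycle {I : Type*} [Fintype I] [DecidableEq I] (s : Equiv.Perm I) (i : I)
    [DecidablePred fun i' => s.SameCycle i' i] :
    (Finset.univ.filter fun i' => s.SameCycle i' i).card = Function.minimalPeriod s i := by
  classical
  have h1 := MulAction.minimalPeriod_eq_card (a := s) (b := i)
  have h2 : (fun x : I => s • x) = s := rfl
  rw [h2] at h1
  rw [h1, ← Set.toFinset_card]
  congr 1
  ext i'
  simp only [Finset.mem_filter, Finset.mem_univ, true_and, Set.mem_toFinset]
  rw [MulAction.mem_orbit_iff]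
  constructor
  · intro h
    obtain ⟨k, hk⟩ := h.symm
    exact ⟨⟨s ^ k, k, rfl⟩, hk⟩
  · rintro ⟨⟨g, k, rfl⟩, hk⟩
    exact Equiv.Perm.SameCycle.symm ⟨k, hk⟩

end RHAbs

open RHAbs in
/-- From the output of the abstract places theorem (places indexed by `I`, fibres = cycles of `s`,
ramification index = cycle length) to the set of places over `x = 0` and its ramification sums. -/
theorem RHAbs.exists_finset_of_cycles {I : Type*} [Fintype I] (s : Equiv.Perm I) (x : F)
    (P : I → Place K F) (hP : ∀ i i', P i = P i' ↔ s.SameCycle i i')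
    (hall : ∀ v : Place K F, 0 < v.ord x → ∃ i, v = P i)
    (hord : ∀ i, (P i).ord x = Function.minimalPeriod s i) :
    ∃ S : Finset (Place K F), (∀ v, v ∈ S ↔ 0 < v.ord x) ∧
      ∑ v ∈ S, v.ord x = Fintype.card I ∧
      S.card = Nat.card (Quotient (Equiv.Perm.SameCycle.setoid s)) := by
  classical
  refine ⟨Finset.univ.image P, fun v => ?_, ?_, ?_⟩
  · rw [Finset.mem_image]
    constructor
    · rintro ⟨i, -, rfl⟩
      rw [hord i]
      exact_mod_cast minimalPeriod_pos s i
    · intro hv
      obtain ⟨i, rfl⟩ := hall v hv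
      exact ⟨i, Finset.mem_univ _, rfl⟩
  · have h1 := Finset.card_eq_sum_card_image P (Finset.univ : Finset I)
    rw [Finset.card_univ] at h1
    rw [h1]
    push_cast
    refine Finset.sum_congr rfl fun v hv => ?_
    rw [Finset.mem_image] at hv
    obtain ⟨i, -, rfl⟩ := hv
    rw [hord i, ← card_sameCycle s i]
    congr 2
    ext i'
    simp only [Finset.mem_filter, Finset.mem_univ, true_and]
    exact (hP i' i).symm
  · let _ : Fintype (Quotient (Equiv.Perm.SameCycle.setoid s)) := Fintype.ofFinite _
    have hwd : ∀ a b : I, (Equiv.Perm.SameCycle.setoid s).r a b → P a = P b :=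
      fun a b h => (hP a b).mpr h
    have himg : Finset.univ.image P
        = (Finset.univ : Finset (Quotient (Equiv.Perm.SameCycle.setoid s))).image
          (Quotient.lift P hwd) := by
      ext v
      simp only [Finset.mem_image, Finset.mem_univ, true_and]
      constructor
      · rintro ⟨i, rfl⟩
        exact ⟨Quotient.mk _ i, rfl⟩
      · rintro ⟨q, rfl⟩
        induction q using Quotient.inductionOn with
        | _ i => exact ⟨i, rfl⟩
    rw [himg, Finset.card_image_of_injective, Finset.card_univ, Nat.card_eq_fintype_card]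
    intro q q' h
    induction q using Quotient.inductionOn with
    | _ i =>
      induction q' using Quotient.inductionOn with
      | _ i' => exact Quotient.sound ((hP i i').mp h)

/-- the ramification sum `∑ (e_v - 1)` over the places above `x = 0` -/
theorem RHAbs.exists_finset_sum_sub_one {I : Type*} [Fintype I] (s : Equiv.Perm I) (x : F)
    (P : I → Place K F) (hP : ∀ i i', P i = P i' ↔ s.SameCycle i i')
    (hall : ∀ v : Place K F, 0 < v.ord x → ∃ i, v = P i)
    (hord : ∀ i, (P i).ord x = Function.minimalPeriod s i) :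
    ∃ S : Finset (Place K F), (∀ v, v ∈ S ↔ 0 < v.ord x) ∧
      ∑ v ∈ S, (v.ord x - 1) = (Fintype.card I : ℤ)
        - Nat.card (Quotient (Equiv.Perm.SameCycle.setoid s)) := by
  obtain ⟨S, h1, h2, h3⟩ := RHAbs.exists_finset_of_cycles s x P hP hall hord
  refine ⟨S, h1, ?_⟩
  rw [Finset.sum_sub_distrib, h2, ← h3]
  simp

theorem RHAbs.toPerm_zpow_apply {G I : Type*} [Group G] [MulAction G I] (g : G) (k : ℤ) (b : I) :
    ((MulAction.toPerm g : Equiv.Perm I) ^ k) b = g ^ k • b := by
  have h : (MulAction.toPerm g : Equiv.Perm I) ^ k = MulAction.toPerm (g ^ k) :=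
    (map_zpow (MulAction.toPermHom G I) g k).symm
  rw [h]
  rfl

open RHAbs in
/-- cycles of the permutation induced by a group element are the orbits of its powers -/
theorem RHAbs.card_cycles_toPerm {G I : Type*} [Group G] [MulAction G I] (g : G) :
    Nat.card (Quotient (Equiv.Perm.SameCycle.setoid (MulAction.toPerm g : Equiv.Perm I)))
      = Nat.card (MulAction.orbitRel.Quotient (Subgroup.zpowers g) I) := by
  refine Nat.card_congr (Quotient.congr (Equiv.refl I) fun a b => ?_)
  change Equiv.Perm.SameCycle (MulAction.toPerm g) a b ↔ MulAction.orbitRel (Subgroup.zpowers g) I a b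
  rw [MulAction.orbitRel_apply, MulAction.mem_orbit_iff]
  constructor
  · intro h
    obtain ⟨k, hk⟩ := h.symm
    refine ⟨⟨g ^ k, k, rfl⟩, ?_⟩
    rw [← hk]
    exact (toPerm_zpow_apply g k b).symm
  · rintro ⟨⟨h, k, rfl⟩, hk⟩
    refine Equiv.Perm.SameCycle.symm ⟨k, ?_⟩
    rw [← hk]
    exact toPerm_zpow_apply g k b

end Fermat.Agent.S24
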