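import Fermat.Agent.S20
import Fermat.Agent.S24.RHAbs

/-!
# S24: the numerics of the Riemann–Hurwitz count for `X₀(N)`

With `ψ = dedekindPsi N` places-with-multiplicity over every point of the `j`-line, and
`oS`, `oST`, `cuspCount N` the numbers of places over `j = 1728`, `j = 0`, `j = ∞`, the
Riemann–Hurwitz sum equals `2 g - 2` where `g` is a natural number with `g = genusFormula N`
(integrality comes from the dimension formula `S20`).
-/

set_option autoImplicit false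

open ModularCurve

namespace Fermat.Agent.S24

/-- the Riemann–Hurwitz sum for `X₀(N) → X(1)` is `2 g - 2` with `g = genusFormula N` -/
theorem RHAbs.exists_genus_nat (N : ℕ) [NeZero N] (oS oST : ℤ)
    (h2 : 2 * oS = (dedekindPsi N : ℤ) + nuTwo N)
    (h3 : 3 * oST = (dedekindPsi N : ℤ) + 2 * nuThree N) :
    ∃ g : ℕ, (g : ℚ) = genusFormula N ∧
      ((dedekindPsi N : ℤ) - oS) + ((dedekindPsi N : ℤ) - oST)
        - ((dedekindPsi N : ℤ) + cuspCount N) = 2 * (g : ℤ) - 2 := by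
  refine ⟨Module.finrank ℂ (CuspForm (CongruenceSubgroup.Gamma0 N) 2), S20.result N, ?_⟩
  have h := S20.result N
  unfold genusFormula at h
  have h' : (12 : ℤ) * (Module.finrank ℂ (CuspForm (CongruenceSubgroup.Gamma0 N) 2) : ℤ)
      = 12 + (dedekindPsi N : ℤ) - 3 * nuTwo N - 4 * nuThree N - 6 * cuspCount N := by
    have : (12 : ℚ) * (Module.finrank ℂ (CuspForm (CongruenceSubgroup.Gamma0 N) 2) : ℚ)
        = 12 + (dedekindPsi N : ℚ) - 3 * nuTwo N - 4 * nuThree N - 6 * cuspCount N := by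
      rw [h]; ring
    exact_mod_cast this
  omega

/-- **Genus of the function field from the ramification over `j = 1728, 0, ∞`.**  Abstract form:
`x` plays the role of `j`, `a₁ ≠ a₀` the two branch values (`1728` and `0`). -/
theorem RHAbs.genus_cast_eq_genusFormula (N : ℕ) [NeZero N] {K F : Type*} [Field K] [Field F]
    [Algebra K F] [AlgebraicCurve.HasCanonicalDivisor (K := K) (F := F)] (x : F)
    (hdeg : ∀ v : AlgebraicCurve.Place K F, v.deg = 1)
    (hprin : ∀ f : F, f ≠ 0 → ∃ D : AlgebraicCurve.Divisor K F, (∀ v, D v = v.ord f) ∧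
      AlgebraicCurve.Divisor.degree D = 0)
    (hspan : ∀ ω : Ω[F⁄K], ∃ c : F, ω = c • KaehlerDifferential.D K F x)
    (hordD : ∀ (v : AlgebraicCurve.Place K F) (y : F), v.ord y ≠ 0 →
      v.ordDifferential (KaehlerDifferential.D K F y) = v.ord y - 1)
    (hsmul : ∀ (v : AlgebraicCurve.Place K F) (c : F) (ω : Ω[F⁄K]), c ≠ 0 → ω ≠ 0 →
      v.ordDifferential (c • ω) = v.ord c + v.ordDifferential ω)
    (hres : ∀ v : AlgebraicCurve.Place K F, 0 ≤ v.ord x →
      ∃ a : K, 0 < v.ord (x - algebraMap K F a))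
    (hdx : KaehlerDifferential.D K F x ≠ 0)
    (a₁ a₀ : K) (ha : a₁ ≠ a₀)
    (hunr : ∀ a : K, a ≠ a₁ → a ≠ a₀ → ∀ v : AlgebraicCurve.Place K F,
      0 < v.ord (x - algebraMap K F a) → v.ord (x - algebraMap K F a) = 1)
    (S₁ S₀ Sinf : Finset (AlgebraicCurve.Place K F))
    (hS₁ : ∀ v, v ∈ S₁ ↔ 0 < v.ord (x - algebraMap K F a₁))
    (hS₀ : ∀ v, v ∈ S₀ ↔ 0 < v.ord (x - algebraMap K F a₀))
    (hSinf : ∀ v, v ∈ Sinf ↔ v.ord x < 0)
    (oS oST : ℤ)
    (h2 : 2 * oS = (dedekindPsi N : ℤ) + nuTwo N)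
    (h3 : 3 * oST = (dedekindPsi N : ℤ) + 2 * nuThree N)
    (hsum₁ : ∑ v ∈ S₁, (v.ord (x - algebraMap K F a₁) - 1) = (dedekindPsi N : ℤ) - oS)
    (hsum₀ : ∑ v ∈ S₀, (v.ord (x - algebraMap K F a₀) - 1) = (dedekindPsi N : ℤ) - oST)
    (hsuminf : ∑ v ∈ Sinf, (v.ord x - 1) = -((dedekindPsi N : ℤ) + cuspCount N)) :
    (AlgebraicCurve.genus K F : ℚ) = genusFormula N := by
  classical
  obtain ⟨g, hg, hsum⟩ := RHAbs.exists_genus_nat N oS oST h2 h3
  rw [← hg]
  congr 1
  refine RHAbs.genus_eq_of_ramification x hdeg hprin hspan hordD hsmul hres {a₁, a₀}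
    (fun a => if a = a₁ then S₁ else S₀) ?_ ?_ Sinf hSinf hdx g ?_
  · intro a haA v
    rw [Finset.mem_insert, Finset.mem_singleton] at haA
    rcases haA with rfl | rfl
    · rw [if_pos rfl]; exact hS₁ v
    · rw [if_neg (Ne.symm ha)]; exact hS₀ v
  · intro a haA v hv
    rw [Finset.mem_insert, Finset.mem_singleton, not_or] at haA
    exact hunr a haA.1 haA.2 v hv
  · rw [Finset.sum_pair ha, if_pos rfl, if_neg (Ne.symm ha), hsum₁, hsum₀, hsuminf]
    linarith

end Fermat.Agent.S24
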