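import Mathlib

/-!
# S24: `q`-expansion of `z ↦ F (d z)`

For a holomorphic, `1`-periodic function `F` on the upper half plane which is bounded at `i∞`,
the `q`-expansion of `z ↦ F (d z)` is obtained from that of `F` by the substitution `q ↦ q ^ d`.
-/

open UpperHalfPlane Function Filter Topology
open scoped Manifold MatrixGroups

namespace Fermat.Agent.S24.Scale

/-- `1`-periodicity on `ℍ` gives periodicity of `F ∘ ofComplex`. -/
theorem periodic_comp_ofComplex {F : ℍ → ℂ} (hper : ∀ z : ℍ, F ((1 : ℝ) +ᵥ z) = F z) :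
    Periodic (F ∘ ofComplex) (1 : ℝ) := by
  intro w
  by_cases hw : 0 < w.im
  · have hw' : 0 < (w + (1 : ℝ)).im := by simpa using hw
    simp only [comp_apply, ofComplex_apply_of_im_pos hw', ofComplex_apply_of_im_pos hw]
    rw [← hper ⟨w, hw⟩]
    congr 1
    ext
    simp [add_comm]
  · have hw0 : w.im ≤ 0 := not_lt.mp hw
    have hw' : (w + ((1 : ℝ) : ℂ)).im ≤ 0 := by simpa using hw0
    simp only [comp_apply]
    rw [ofComplex_apply_of_im_nonpos hw', ofComplex_apply_of_im_nonpos hw0]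

theorem qParam_scale (d : ℕ) (s : ℍ → ℍ) (hs : ∀ z, (s z : ℂ) = d * z) (z : ℍ) :
    Periodic.qParam 1 (s z) = Periodic.qParam 1 z ^ d := by
  simp only [Periodic.qParam, hs z]
  rw [← Complex.exp_nat_mul]
  congr 1
  push_cast
  ring

theorem mdiff_comp_scale {F : ℍ → ℂ} (hF : MDiff F) (d : ℕ) (s : ℍ → ℍ)
    (hs : ∀ z, (s z : ℂ) = d * z) : MDiff (F ∘ s) := by
  intro z
  rw [UpperHalfPlane.mdifferentiableAt_iff]
  have h1 : DifferentiableAt ℂ (F ∘ ofComplex) ((d : ℂ) * (z : ℂ)) := by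
    have := UpperHalfPlane.mdifferentiableAt_iff.mp (hF (s z))
    rwa [hs z] at this
  have h2 : DifferentiableAt ℂ (fun w : ℂ => (d : ℂ) * w) (z : ℂ) :=
    (differentiableAt_id).const_mul _
  have h3 : DifferentiableAt ℂ ((F ∘ ofComplex) ∘ fun w : ℂ => (d : ℂ) * w) (z : ℂ) :=
    DifferentiableAt.comp (z : ℂ) h1 h2
  refine h3.congr_of_eventuallyEq ?_
  have hopen : IsOpen {w : ℂ | 0 < w.im} := isOpen_lt continuous_const Complex.continuous_im
  filter_upwards [hopen.mem_nhds z.im_pos] with w hw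
  simp only [comp_apply]
  rw [ofComplex_apply_of_im_pos hw]
  congr 1
  apply UpperHalfPlane.ext
  rw [hs]
  have : 0 < ((d : ℂ) * w).im := by
    have := (s ⟨w, hw⟩).im_pos
    rw [← UpperHalfPlane.coe_im, hs] at this
    exact this
  rw [ofComplex_apply_of_im_pos this]

theorem im_scale (d : ℕ) (s : ℍ → ℍ) (hs : ∀ z, (s z : ℂ) = d * z) (z : ℍ) :
    (s z).im = d * z.im := by
  have := congrArg Complex.im (hs z)
  simpa using this

theorem tendsto_scale_atImInfty (d : ℕ) (hd : d ≠ 0) (s : ℍ → ℍ)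
    (hs : ∀ z, (s z : ℂ) = d * z) : Tendsto s atImInfty atImInfty := by
  rw [atImInfty, tendsto_comap_iff]
  have : (UpperHalfPlane.im ∘ s) = fun z => (d : ℝ) * z.im := funext fun z => im_scale d s hs z
  rw [this]
  have hd' : (0 : ℝ) < d := by exact_mod_cast Nat.pos_of_ne_zero hd
  exact (tendsto_id.const_mul_atTop hd').comp tendsto_comap

theorem isBoundedAtImInfty_comp_scale {F : ℍ → ℂ} (hbd : IsBoundedAtImInfty F) (d : ℕ)
    (hd : d ≠ 0) (s : ℍ → ℍ) (hs : ∀ z, (s z : ℂ) = d * z) : IsBoundedAtImInfty (F ∘ s) :=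
  hbd.comp_tendsto (tendsto_scale_atImInfty d hd s hs)

theorem periodic_comp_scale {F : ℍ → ℂ} (hper : ∀ z : ℍ, F ((1 : ℝ) +ᵥ z) = F z) (d : ℕ)
    (s : ℍ → ℍ) (hs : ∀ z, (s z : ℂ) = d * z) (z : ℍ) :
    (F ∘ s) ((1 : ℝ) +ᵥ z) = (F ∘ s) z := by
  have key : ∀ (k : ℕ) (w : ℍ), F ((k : ℝ) +ᵥ w) = F w := by
    intro k
    induction k with
    | zero => intro w; simp
    | succ k ih =>
      intro w
      have : (((k + 1 : ℕ) : ℝ) +ᵥ w) = (1 : ℝ) +ᵥ ((k : ℝ) +ᵥ w) := by
        ext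
        simp
        ring
      rw [this, hper, ih]
  simp only [comp_apply]
  have : s ((1 : ℝ) +ᵥ z) = (d : ℝ) +ᵥ s z := by
    ext
    simp [hs]
    ring
  rw [this, key]

/-- **Scaling lemma**: the `q`-expansion of `z ↦ F (d z)`. -/
theorem qExpansion_comp_scale_coeff {F : ℍ → ℂ} (hF : MDiff F)
    (hper : ∀ z : ℍ, F ((1 : ℝ) +ᵥ z) = F z) (hbd : IsBoundedAtImInfty F) (d : ℕ) (hd : d ≠ 0)
    (s : ℍ → ℍ) (hs : ∀ z, (s z : ℂ) = d * z) (n : ℕ) :
    (qExpansion 1 (F ∘ s)).coeff n = if d ∣ n then (qExpansion 1 F).coeff (n / d) else 0 := by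
  have hG : MDiff (F ∘ s) := mdiff_comp_scale hF d s hs
  have hGper := periodic_comp_ofComplex (periodic_comp_scale hper d s hs)
  have hGbd := isBoundedAtImInfty_comp_scale hbd d hd s hs
  have hGan : AnalyticAt ℂ (cuspFunction 1 (F ∘ s)) 0 :=
    analyticAt_cuspFunction_zero one_pos hGper hG hGbd
  have hinj : Function.Injective (fun k : ℕ => d * k) := fun a b h =>
    Nat.eq_of_mul_eq_mul_left (Nat.pos_of_ne_zero hd) h
  have hsum : ∀ τ : ℍ, HasSum (fun m : ℕ =>
      (if d ∣ m then (qExpansion 1 F).coeff (m / d) else 0) • Periodic.qParam 1 τ ^ m)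
      ((F ∘ s) τ) := by
    intro τ
    have h1 := hasSum_qExpansion one_pos (periodic_comp_ofComplex hper) hF hbd (s τ)
    rw [qParam_scale d s hs τ] at h1
    have hzero : ∀ m ∉ Set.range (fun k : ℕ => d * k),
        (if d ∣ m then (qExpansion 1 F).coeff (m / d) else 0) • Periodic.qParam 1 τ ^ m = 0 := by
      intro m hm
      have : ¬ d ∣ m := fun ⟨k, hk⟩ => hm ⟨k, hk.symm⟩
      simp [this]
    rw [← Function.Injective.hasSum_iff hinj hzero]
    have hfun : ((fun m : ℕ =>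
        (if d ∣ m then (qExpansion 1 F).coeff (m / d) else 0) • Periodic.qParam 1 τ ^ m) ∘
        fun k : ℕ => d * k) = fun k : ℕ =>
        (qExpansion 1 F).coeff k • (Periodic.qParam 1 τ ^ d) ^ k := by
      funext k
      simp only [comp_apply, dvd_mul_right, if_true,
        Nat.mul_div_cancel_left _ (Nat.pos_of_ne_zero hd), pow_mul]
    rw [hfun]
    exact h1
  have key := qExpansion_coeff_unique
    (c := fun m : ℕ => if d ∣ m then (qExpansion 1 F).coeff (m / d) else 0)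
    (ContinuousMap.mk (F ∘ s) hG.continuous) (h := 1) one_pos hGan hsum n
  exact key.symm

/-- Power series form of the scaling lemma. -/
theorem qExpansion_comp_scale {F : ℍ → ℂ} (hF : MDiff F)
    (hper : ∀ z : ℍ, F ((1 : ℝ) +ᵥ z) = F z) (hbd : IsBoundedAtImInfty F) (d : ℕ) (hd : d ≠ 0)
    (s : ℍ → ℍ) (hs : ∀ z, (s z : ℂ) = d * z) :
    qExpansion 1 (F ∘ s) =
      PowerSeries.mk fun n => if d ∣ n then (qExpansion 1 F).coeff (n / d) else 0 := by
  ext n
  rw [qExpansion_comp_scale_coeff hF hper hbd d hd s hs, PowerSeries.coeff_mk]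

end Fermat.Agent.S24.Scale
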